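/-
S28 stream [G], package (A) SCHEME GLUE (helper24).

`isIntegral_pullback_of_charts`: the base change of the Igusa scheme along `ℤ_(ℓ) → K` is an
integral scheme as soon as the two chart algebras stay domains after `⊗ K` and the overlap chart
algebra stays nonzero.
-/
import Mathlib
import Fermat.Prelude.Def_ModularCurve_IgusaScheme

set_option autoImplicit false

open AlgebraicGeometry CategoryTheory CategoryTheory.Limits ModularCurve ModularCurve.IgusaScheme
open scoped TensorProduct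

noncomputable section

namespace Fermat.Agent.S28

/-- A space covered by two irreducible open subsets with non-empty intersection is irreducible. -/
theorem irreducibleSpace_of_two_open {X : Type*} [TopologicalSpace X] {U V : Set X}
    (hU : IsOpen U) (hV : IsOpen V) (hUi : IsIrreducible U) (hVi : IsIrreducible V)
    (hUV : (U ∩ V).Nonempty) (hcov : U ∪ V = Set.univ) : IrreducibleSpace X := by
  have hW : IsIrreducible (U ∩ V) :=
    ⟨hUV, hUi.isPreirreducible.open_subset (hU.inter hV) Set.inter_subset_left⟩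
  have hcl : closure (U ∩ V) = Set.univ := by
    rw [Set.eq_univ_iff_forall]
    intro x
    rw [mem_closure_iff]
    intro o ho hxo
    have hx : x ∈ U ∪ V := by rw [hcov]; trivial
    rcases hx with hx | hx
    · obtain ⟨y, hyU, hyV, hyo⟩ := hUi.isPreirreducible V o hV ho
        (by obtain ⟨z, hz⟩ := hUV; exact ⟨z, hz.1, hz.2⟩) ⟨x, hx, hxo⟩
      exact ⟨y, hyo, hyU, hyV⟩
    · obtain ⟨y, hyV, hyU, hyo⟩ := hVi.isPreirreducible U o hU ho
        (by obtain ⟨z, hz⟩ := hUV; exact ⟨z, hz.2, hz.1⟩) ⟨x, hx, hxo⟩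
      exact ⟨y, hyo, hyU, hyV⟩
  have huniv : IsIrreducible (Set.univ : Set X) := hcl ▸ hW.closure
  have : Nonempty X := ⟨hUV.some⟩
  exact { toPreirreducibleSpace := ⟨huniv.isPreirreducible⟩, toNonempty := this }

section Glue

variable (N : ℕ) [NeZero N] (ℓ : ℕ) [Fact ℓ.Prime]
variable (K : Type) [Field K] [Algebra ↥(GaloisRep.ratLocalizedAt ℓ) K]

/-- The structure map `Spec K ⟶ Spec ℤ_(ℓ)`. -/
abbrev baseMap : Spec (CommRingCat.of K) ⟶ Spec (CommRingCat.of ↥(GaloisRep.ratLocalizedAt ℓ)) :=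
  Spec.map (CommRingCat.ofHom (algebraMap ↥(GaloisRep.ratLocalizedAt ℓ) K))

/-- The two charts of the Igusa scheme, as a family indexed by `Bool`. -/
def chartObj : Bool → Scheme.{0}
  | true => XFin N ℓ
  | false => XInf N ℓ

/-- The two chart inclusions. -/
def chartMap : (b : Bool) → chartObj N ℓ b ⟶ ModularCurve.IgusaScheme N ℓ
  | true => ιFin N ℓ
  | false => ιInf N ℓ

instance chartMap_isOpenImmersion : ∀ b : Bool, IsOpenImmersion (chartMap N ℓ b)
  | true => isOpenImmersion_ιFin N ℓ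
  | false => isOpenImmersion_ιInf N ℓ

/-- The two-chart open cover of the Igusa scheme. -/
def chartCover : (ModularCurve.IgusaScheme N ℓ).OpenCover :=
  Scheme.Cover.mkOfCovers Bool (chartObj N ℓ) (chartMap N ℓ) (fun x => by
    rcases mem_range_ιFin_or_mem_range_ιInf N ℓ x with ⟨y, hy⟩ | ⟨y, hy⟩
    · exact ⟨true, y, hy⟩
    · exact ⟨false, y, hy⟩) (chartMap_isOpenImmersion N ℓ)

/-- The induced open cover of the base change. -/
def pullbackCover : (pullback (igusaTo N ℓ) (baseMap ℓ K)).OpenCover :=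
  Scheme.Pullback.openCoverOfLeft (chartCover N ℓ) (igusaTo N ℓ) (baseMap ℓ K)

/-- The `Fin`-piece of the base change. -/
abbrev PFin : Scheme.{0} := pullback (ιFin N ℓ ≫ igusaTo N ℓ) (baseMap ℓ K)

/-- The `Inf`-piece of the base change. -/
abbrev PInf : Scheme.{0} := pullback (ιInf N ℓ ≫ igusaTo N ℓ) (baseMap ℓ K)

/-- The open immersion of the `Fin`-piece. -/
def jFin : PFin N ℓ K ⟶ pullback (igusaTo N ℓ) (baseMap ℓ K) :=
  pullback.map _ _ _ _ (ιFin N ℓ) (𝟙 _) (𝟙 _) (by simp) (by simp)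

/-- The open immersion of the `Inf`-piece. -/
def jInf : PInf N ℓ K ⟶ pullback (igusaTo N ℓ) (baseMap ℓ K) :=
  pullback.map _ _ _ _ (ιInf N ℓ) (𝟙 _) (𝟙 _) (by simp) (by simp)

instance : IsOpenImmersion (jFin N ℓ K) := by unfold jFin; infer_instance

instance : IsOpenImmersion (jInf N ℓ K) := by unfold jInf; infer_instance

theorem exists_jFin_or_jInf (x : ↑(pullback (igusaTo N ℓ) (baseMap ℓ K))) :
    (∃ y, jFin N ℓ K y = x) ∨ (∃ y, jInf N ℓ K y = x) := by
  obtain ⟨b, y, hy⟩ := (pullbackCover N ℓ K).exists_eq x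
  match b, y, hy with
  | true, y, hy => exact Or.inl ⟨y, hy⟩
  | false, y, hy => exact Or.inr ⟨y, hy⟩

theorem jFin_fst : jFin N ℓ K ≫ pullback.fst _ _ = pullback.fst _ _ ≫ ιFin N ℓ :=
  pullback.lift_fst _ _ _

theorem jFin_snd : jFin N ℓ K ≫ pullback.snd _ _ = pullback.snd _ _ :=
  (pullback.lift_snd _ _ _).trans (Category.comp_id _)

theorem jInf_fst : jInf N ℓ K ≫ pullback.fst _ _ = pullback.fst _ _ ≫ ιInf N ℓ :=
  pullback.lift_fst _ _ _

theorem jInf_snd : jInf N ℓ K ≫ pullback.snd _ _ = pullback.snd _ _ :=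
  (pullback.lift_snd _ _ _).trans (Category.comp_id _)

/-- The `Fin`-piece of the base change is `Spec (chartAlgFin ⊗ K)`. -/
def pieceIsoFin : PFin N ℓ K ≅
    Spec (.of (chartAlgFin N ℓ ⊗[↥(GaloisRep.ratLocalizedAt ℓ)] K)) :=
  pullback.congrHom (ιFin_igusaTo N ℓ) rfl ≪≫
    pullbackSpecIso ↥(GaloisRep.ratLocalizedAt ℓ) (chartAlgFin N ℓ) K

/-- The `Inf`-piece of the base change is `Spec (chartAlgInf ⊗ K)`. -/
def pieceIsoInf : PInf N ℓ K ≅
    Spec (.of (chartAlgInf N ℓ ⊗[↥(GaloisRep.ratLocalizedAt ℓ)] K)) :=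
  pullback.congrHom (ιInf_igusaTo N ℓ) rfl ≪≫
    pullbackSpecIso ↥(GaloisRep.ratLocalizedAt ℓ) (chartAlgInf N ℓ) K

/-- `Spec (chartAlgFin ⊗ K) ⟶ X_K`. -/
def tFin : Spec (.of (chartAlgFin N ℓ ⊗[↥(GaloisRep.ratLocalizedAt ℓ)] K)) ⟶
    pullback (igusaTo N ℓ) (baseMap ℓ K) :=
  (pieceIsoFin N ℓ K).inv ≫ jFin N ℓ K

/-- `Spec (chartAlgInf ⊗ K) ⟶ X_K`. -/
def tInf : Spec (.of (chartAlgInf N ℓ ⊗[↥(GaloisRep.ratLocalizedAt ℓ)] K)) ⟶
    pullback (igusaTo N ℓ) (baseMap ℓ K) :=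
  (pieceIsoInf N ℓ K).inv ≫ jInf N ℓ K

theorem tFin_fst : tFin N ℓ K ≫ pullback.fst _ _ =
    Spec.map (CommRingCat.ofHom (Algebra.TensorProduct.includeLeftRingHom)) ≫ ιFin N ℓ := by
  rw [tFin, Category.assoc, jFin_fst, pieceIsoFin, Iso.trans_inv, Category.assoc,
    pullback.congrHom_inv]
  rw [pullback.lift_fst_assoc, Category.comp_id, pullbackSpecIso_inv_fst_assoc]

theorem tFin_snd : tFin N ℓ K ≫ pullback.snd _ _ =
    Spec.map (CommRingCat.ofHom (R := K)
      (S := chartAlgFin N ℓ ⊗[↥(GaloisRep.ratLocalizedAt ℓ)] K)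
      (RingHomClass.toRingHom Algebra.TensorProduct.includeRight)) := by
  rw [tFin, Category.assoc, jFin_snd, pieceIsoFin, Iso.trans_inv, Category.assoc,
    pullback.congrHom_inv]
  rw [pullback.lift_snd, Category.comp_id, pullbackSpecIso_inv_snd]

theorem tInf_fst : tInf N ℓ K ≫ pullback.fst _ _ =
    Spec.map (CommRingCat.ofHom (Algebra.TensorProduct.includeLeftRingHom)) ≫ ιInf N ℓ := by
  rw [tInf, Category.assoc, jInf_fst, pieceIsoInf, Iso.trans_inv, Category.assoc,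
    pullback.congrHom_inv]
  rw [pullback.lift_fst_assoc, Category.comp_id, pullbackSpecIso_inv_fst_assoc]

theorem tInf_snd : tInf N ℓ K ≫ pullback.snd _ _ =
    Spec.map (CommRingCat.ofHom (R := K)
      (S := chartAlgInf N ℓ ⊗[↥(GaloisRep.ratLocalizedAt ℓ)] K)
      (RingHomClass.toRingHom Algebra.TensorProduct.includeRight)) := by
  rw [tInf, Category.assoc, jInf_snd, pieceIsoInf, Iso.trans_inv, Category.assoc,
    pullback.congrHom_inv]
  rw [pullback.lift_snd, Category.comp_id, pullbackSpecIso_inv_snd]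

/-- `Spec (chartAlgMid ⊗ K) ⟶ Spec (chartAlgFin ⊗ K)`. -/
def μFin : Spec (.of (chartAlgMid N ℓ ⊗[↥(GaloisRep.ratLocalizedAt ℓ)] K)) ⟶
    Spec (.of (chartAlgFin N ℓ ⊗[↥(GaloisRep.ratLocalizedAt ℓ)] K)) :=
  Spec.map (CommRingCat.ofHom
    (Algebra.TensorProduct.map (inclFin N ℓ) (AlgHom.id ↥(GaloisRep.ratLocalizedAt ℓ) K)).toRingHom)

/-- `Spec (chartAlgMid ⊗ K) ⟶ Spec (chartAlgInf ⊗ K)`. -/
def μInf : Spec (.of (chartAlgMid N ℓ ⊗[↥(GaloisRep.ratLocalizedAt ℓ)] K)) ⟶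
    Spec (.of (chartAlgInf N ℓ ⊗[↥(GaloisRep.ratLocalizedAt ℓ)] K)) :=
  Spec.map (CommRingCat.ofHom
    (Algebra.TensorProduct.map (inclInf N ℓ) (AlgHom.id ↥(GaloisRep.ratLocalizedAt ℓ) K)).toRingHom)

theorem μFin_includeLeft : μFin N ℓ K ≫
    Spec.map (CommRingCat.ofHom (Algebra.TensorProduct.includeLeftRingHom)) =
    Spec.map (CommRingCat.ofHom (Algebra.TensorProduct.includeLeftRingHom)) ≫ fFin N ℓ := by
  rw [μFin, ← Spec.map_comp, ← Spec.map_comp, ← CommRingCat.ofHom_comp, ← CommRingCat.ofHom_comp]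
  congr 2

theorem μFin_includeRight : μFin N ℓ K ≫
    Spec.map (CommRingCat.ofHom (R := K)
      (S := chartAlgFin N ℓ ⊗[↥(GaloisRep.ratLocalizedAt ℓ)] K)
      (RingHomClass.toRingHom Algebra.TensorProduct.includeRight)) =
    Spec.map (CommRingCat.ofHom (R := K)
      (S := chartAlgMid N ℓ ⊗[↥(GaloisRep.ratLocalizedAt ℓ)] K)
      (RingHomClass.toRingHom Algebra.TensorProduct.includeRight)) := by
  rw [μFin, ← Spec.map_comp, ← CommRingCat.ofHom_comp]
  congr 2

theorem μInf_includeLeft : μInf N ℓ K ≫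
    Spec.map (CommRingCat.ofHom (Algebra.TensorProduct.includeLeftRingHom)) =
    Spec.map (CommRingCat.ofHom (Algebra.TensorProduct.includeLeftRingHom)) ≫ fInf N ℓ := by
  rw [μInf, ← Spec.map_comp, ← Spec.map_comp, ← CommRingCat.ofHom_comp, ← CommRingCat.ofHom_comp]
  congr 2

theorem μInf_includeRight : μInf N ℓ K ≫
    Spec.map (CommRingCat.ofHom (R := K)
      (S := chartAlgInf N ℓ ⊗[↥(GaloisRep.ratLocalizedAt ℓ)] K)
      (RingHomClass.toRingHom Algebra.TensorProduct.includeRight)) =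
    Spec.map (CommRingCat.ofHom (R := K)
      (S := chartAlgMid N ℓ ⊗[↥(GaloisRep.ratLocalizedAt ℓ)] K)
      (RingHomClass.toRingHom Algebra.TensorProduct.includeRight)) := by
  rw [μInf, ← Spec.map_comp, ← CommRingCat.ofHom_comp]
  congr 2

/-- The two ways of mapping the overlap chart into the base change agree. -/
theorem μFin_tFin_eq_μInf_tInf : μFin N ℓ K ≫ tFin N ℓ K = μInf N ℓ K ≫ tInf N ℓ K := by
  apply pullback.hom_ext
  · rw [Category.assoc, Category.assoc, tFin_fst, tInf_fst, ← Category.assoc, ← Category.assoc,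
      μFin_includeLeft, μInf_includeLeft, Category.assoc, Category.assoc]
    congr 1
    exact glue_condition N ℓ
  · rw [Category.assoc, Category.assoc, tFin_snd, tInf_snd, μFin_includeRight, μInf_includeRight]

theorem range_tFin : Set.range (tFin N ℓ K) = Set.range (jFin N ℓ K) := by
  have hs : Function.Surjective ((pieceIsoFin N ℓ K).inv) :=
    (Scheme.homeoOfIso (pieceIsoFin N ℓ K).symm).surjective
  ext x
  constructor
  · rintro ⟨y, rfl⟩
    exact ⟨(pieceIsoFin N ℓ K).inv y, rfl⟩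
  · rintro ⟨y, rfl⟩
    obtain ⟨z, rfl⟩ := hs y
    exact ⟨z, rfl⟩

theorem range_tInf : Set.range (tInf N ℓ K) = Set.range (jInf N ℓ K) := by
  have hs : Function.Surjective ((pieceIsoInf N ℓ K).inv) :=
    (Scheme.homeoOfIso (pieceIsoInf N ℓ K).symm).surjective
  ext x
  constructor
  · rintro ⟨y, rfl⟩
    exact ⟨(pieceIsoInf N ℓ K).inv y, rfl⟩
  · rintro ⟨y, rfl⟩
    obtain ⟨z, rfl⟩ := hs y
    exact ⟨z, rfl⟩

theorem isReduced_pullback
    (hFin : IsDomain (chartAlgFin N ℓ ⊗[↥(GaloisRep.ratLocalizedAt ℓ)] K))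
    (hInf : IsDomain (chartAlgInf N ℓ ⊗[↥(GaloisRep.ratLocalizedAt ℓ)] K)) :
    IsReduced (pullback (igusaTo N ℓ) (baseMap ℓ K)) := by
  have hredFin : IsReduced (PFin N ℓ K) :=
    isReduced_of_isOpenImmersion (pieceIsoFin N ℓ K).hom
  have hredInf : IsReduced (PInf N ℓ K) :=
    isReduced_of_isOpenImmersion (pieceIsoInf N ℓ K).hom
  have : ∀ i, IsReduced ((pullbackCover N ℓ K).X i) := fun i =>
    match i with
    | true => hredFin
    | false => hredInf
  exact IsReduced.of_openCover _ (pullbackCover N ℓ K)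

theorem isIrreducible_range_tFin
    (hFin : IsDomain (chartAlgFin N ℓ ⊗[↥(GaloisRep.ratLocalizedAt ℓ)] K)) :
    IsIrreducible (Set.range (tFin N ℓ K)) := by
  rw [← Set.image_univ]
  exact (IrreducibleSpace.isIrreducible_univ _).image _ (tFin N ℓ K).continuous.continuousOn

theorem isIrreducible_range_tInf
    (hInf : IsDomain (chartAlgInf N ℓ ⊗[↥(GaloisRep.ratLocalizedAt ℓ)] K)) :
    IsIrreducible (Set.range (tInf N ℓ K)) := by
  rw [← Set.image_univ]
  exact (IrreducibleSpace.isIrreducible_univ _).image _ (tInf N ℓ K).continuous.continuousOn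

theorem isOpen_range_tFin : IsOpen (Set.range (tFin N ℓ K)) := by
  rw [range_tFin]; exact (jFin N ℓ K).isOpenEmbedding.isOpen_range

theorem isOpen_range_tInf : IsOpen (Set.range (tInf N ℓ K)) := by
  rw [range_tInf]; exact (jInf N ℓ K).isOpenEmbedding.isOpen_range

theorem range_tFin_inter_range_tInf_nonempty
    (hMid : Nontrivial (chartAlgMid N ℓ ⊗[↥(GaloisRep.ratLocalizedAt ℓ)] K)) :
    (Set.range (tFin N ℓ K) ∩ Set.range (tInf N ℓ K)).Nonempty := by
  obtain ⟨z⟩ : Nonempty (PrimeSpectrum (chartAlgMid N ℓ ⊗[↥(GaloisRep.ratLocalizedAt ℓ)] K)) :=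
    inferInstance
  let z' : ↑(Spec (.of (chartAlgMid N ℓ ⊗[↥(GaloisRep.ratLocalizedAt ℓ)] K))) := z
  refine ⟨(μFin N ℓ K ≫ tFin N ℓ K) z', ⟨μFin N ℓ K z', ?_⟩, ?_⟩
  · rw [Scheme.Hom.comp_apply]
  · rw [μFin_tFin_eq_μInf_tInf, Scheme.Hom.comp_apply]
    exact ⟨μInf N ℓ K z', rfl⟩

theorem range_tFin_union_range_tInf :
    Set.range (tFin N ℓ K) ∪ Set.range (tInf N ℓ K) = Set.univ := by
  rw [range_tFin, range_tInf, Set.eq_univ_iff_forall]
  intro x
  rcases exists_jFin_or_jInf N ℓ K x with h | h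
  · exact Or.inl h
  · exact Or.inr h

/-- **Scheme glue for S28.** The base change of the Igusa scheme to `K` is integral as soon as the
two chart algebras stay domains after `⊗ K` and the overlap chart algebra stays nonzero. -/
theorem isIntegral_pullback_of_charts
    (hFin : IsDomain (chartAlgFin N ℓ ⊗[↥(GaloisRep.ratLocalizedAt ℓ)] K))
    (hInf : IsDomain (chartAlgInf N ℓ ⊗[↥(GaloisRep.ratLocalizedAt ℓ)] K))
    (hMid : Nontrivial (chartAlgMid N ℓ ⊗[↥(GaloisRep.ratLocalizedAt ℓ)] K)) :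
    IsIntegral (pullback (igusaTo N ℓ)
      (Spec.map (CommRingCat.ofHom (algebraMap ↥(GaloisRep.ratLocalizedAt ℓ) K)))) := by
  have hred : IsReduced (pullback (igusaTo N ℓ) (baseMap ℓ K)) :=
    isReduced_pullback N ℓ K hFin hInf
  have hirr : IrreducibleSpace ↑(pullback (igusaTo N ℓ) (baseMap ℓ K)) :=
    irreducibleSpace_of_two_open (isOpen_range_tFin N ℓ K) (isOpen_range_tInf N ℓ K)
      (isIrreducible_range_tFin N ℓ K hFin) (isIrreducible_range_tInf N ℓ K hInf)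
      (range_tFin_inter_range_tInf_nonempty N ℓ K hMid) (range_tFin_union_range_tInf N ℓ K)
  exact isIntegral_of_irreducibleSpace_of_isReduced _

/-- The overlap chart algebra stays nonzero after `⊗ K` as soon as `j ⊗ 1 ≠ 0` in the domain
`chartAlgFin ⊗ K` (it is the localisation away from `j ⊗ 1`). -/
theorem nontrivial_mid_of_j_ne_zero
    (hFin : IsDomain (chartAlgFin N ℓ ⊗[↥(GaloisRep.ratLocalizedAt ℓ)] K))
    (hj : (jChartFin N ℓ ⊗ₜ[↥(GaloisRep.ratLocalizedAt ℓ)] (1 : K)) ≠ 0) :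
    Nontrivial (chartAlgMid N ℓ ⊗[↥(GaloisRep.ratLocalizedAt ℓ)] K) := by
  let A := chartAlgFin N ℓ ⊗[↥(GaloisRep.ratLocalizedAt ℓ)] K
  let L := FractionRing A
  let _ := (inclFin N ℓ).toRingHom.toAlgebra
  have := isLocalization_away_inclFin N ℓ
  let g : chartAlgFin N ℓ →+* L :=
    (algebraMap A L).comp (Algebra.TensorProduct.includeLeftRingHom)
  have hg : IsUnit (g (jChartFin N ℓ)) :=
    IsLocalization.map_units L
      (⟨jChartFin N ℓ ⊗ₜ 1, mem_nonZeroDivisors_of_ne_zero hj⟩ : nonZeroDivisors A)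
  let φ : chartAlgMid N ℓ →+* L := IsLocalization.Away.lift (jChartFin N ℓ) hg
  have hφ : ∀ x : chartAlgFin N ℓ, φ (inclFin N ℓ x) = g x := fun x =>
    IsLocalization.Away.lift_eq (jChartFin N ℓ) hg x
  let φ' : chartAlgMid N ℓ →ₐ[↥(GaloisRep.ratLocalizedAt ℓ)] L :=
    { φ with
      commutes' := fun r => by
        show φ (algebraMap _ (chartAlgMid N ℓ) r) = _
        rw [← (inclFin N ℓ).commutes r, hφ]
        show algebraMap A L ((algebraMap _ (chartAlgFin N ℓ) r) ⊗ₜ 1) = _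
        rw [IsScalarTower.algebraMap_apply ↥(GaloisRep.ratLocalizedAt ℓ) A L]
        rfl }
  let ψ : K →ₐ[↥(GaloisRep.ratLocalizedAt ℓ)] L :=
    (IsScalarTower.toAlgHom ↥(GaloisRep.ratLocalizedAt ℓ) A L).comp
      Algebra.TensorProduct.includeRight
  exact (Algebra.TensorProduct.productMap φ' ψ).toRingHom.domain_nontrivial


/-- Variant of `isIntegral_pullback_of_charts` with the overlap hypothesis replaced by
`j ⊗ 1 ≠ 0`. -/
theorem isIntegral_pullback_of_charts'
    (hFin : IsDomain (chartAlgFin N ℓ ⊗[↥(GaloisRep.ratLocalizedAt ℓ)] K))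
    (hInf : IsDomain (chartAlgInf N ℓ ⊗[↥(GaloisRep.ratLocalizedAt ℓ)] K))
    (hj : (jChartFin N ℓ ⊗ₜ[↥(GaloisRep.ratLocalizedAt ℓ)] (1 : K)) ≠ 0) :
    IsIntegral (pullback (igusaTo N ℓ)
      (Spec.map (CommRingCat.ofHom (algebraMap ↥(GaloisRep.ratLocalizedAt ℓ) K)))) :=
  isIntegral_pullback_of_charts N ℓ K hFin hInf (nontrivial_mid_of_j_ne_zero N ℓ K hFin hj)

end Glue

end Fermat.Agent.S28
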