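import Mathlib
import Fermat.Prelude.Def_GaloisRep_Flat

set_option autoImplicit false

/-!
# S28 package G9: `A ⊗[ℤ_(l)] K` is a domain when `A / l` embeds in `F_l((t))`

`R := GaloisRep.ratLocalizedAt l = ℤ_(l)`.  For an `R`-algebra `A`, a ring hom
`ρ : A →+* LaurentSeries (ZMod l)` with `RingHom.ker ρ = Ideal.span {(l : A)}` and a field `K` of
characteristic `l` with `[Algebra R K]`:

* `tensorToLaurent l ρ K : A ⊗[R] K →+* LaurentSeries K`, `a ⊗ c ↦ ρ(a) · c`
  (`tensorToLaurent_tmul`), injective (`tensorToLaurent_injective`);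
* `isDomain_tensorProduct_of_laurent : IsDomain (A ⊗[R] K)`;
* `tmul_one_ne_zero : ρ a ≠ 0 → a ⊗ₜ 1 ≠ 0`.

No compatibility between `ρ` and the `R`-algebra structures is assumed: ring homs out of `ℤ_(l)`
are unique (`ratLocalizedAt_ringHom_ext`).
-/

namespace Fermat.Agent.S28

open scoped TensorProduct

section HahnMap

variable {R S : Type*} [Semiring R] [Semiring S]

/-- The coefficientwise ring homomorphism `R((t)) →+* S((t))` induced by `f : R →+* S`. -/
noncomputable def laurentMapRingHom (f : R →+* S) : LaurentSeries R →+* LaurentSeries S where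
  toFun x := x.map f
  map_one' := HahnSeries.map_one f.toMonoidWithZeroHom
  map_mul' _ _ := HahnSeries.map_mul f.toNonUnitalRingHom
  map_zero' := HahnSeries.map_zero (f : ZeroHom R S)
  map_add' _ _ := HahnSeries.map_add (f : R →+ S)

lemma laurentMapRingHom_coeff (f : R →+* S) (x : LaurentSeries R) (n : ℤ) :
    (laurentMapRingHom f x).coeff n = f (x.coeff n) := rfl

lemma laurentMapRingHom_injective (f : R →+* S) (hf : Function.Injective f) :
    Function.Injective (laurentMapRingHom f) := by
  intro x y h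
  ext n
  apply hf
  rw [← laurentMapRingHom_coeff, ← laurentMapRingHom_coeff, h]

end HahnMap

section RatLoc

variable (l : ℕ)

/-- A natural number prime to `l` is a unit of `ℤ_(l)`. -/
lemma exists_mul_eq_one_ratLocalizedAt (d : ℕ) (hd0 : d ≠ 0) (hd : d.Coprime l) :
    ∃ y : GaloisRep.ratLocalizedAt l, ((d : ℕ) : GaloisRep.ratLocalizedAt l) * y = 1 := by
  refine ⟨⟨(d : ℚ)⁻¹, ?_⟩, ?_⟩
  · show ((d : ℚ)⁻¹).den.Coprime l
    rw [Rat.inv_natCast_den_of_pos (Nat.pos_of_ne_zero hd0)]
    exact hd
  · apply Subtype.ext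
    show ((d : ℕ) : GaloisRep.ratLocalizedAt l).1 * (d : ℚ)⁻¹ = 1
    have : (((d : ℕ) : GaloisRep.ratLocalizedAt l) : ℚ) = (d : ℚ) := by
      simp
    rw [this]
    exact mul_inv_cancel₀ (Nat.cast_ne_zero.mpr hd0)

/-- Ring homomorphisms out of `ℤ_(l)` into a commutative ring are unique. -/
theorem ratLocalizedAt_ringHom_ext {T : Type*} [CommRing T]
    (f g : GaloisRep.ratLocalizedAt l →+* T) : f = g := by
  ext x
  have hx : x.1.den.Coprime l := x.2
  obtain ⟨y, hy⟩ := exists_mul_eq_one_ratLocalizedAt l x.1.den x.1.den_ne_zero hx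
  have hxd : x * ((x.1.den : ℕ) : GaloisRep.ratLocalizedAt l) =
      ((x.1.num : ℤ) : GaloisRep.ratLocalizedAt l) := by
    apply Subtype.ext
    have h1 : (((x.1.den : ℕ) : GaloisRep.ratLocalizedAt l) : ℚ) = (x.1.den : ℚ) := by simp
    have h2 : (((x.1.num : ℤ) : GaloisRep.ratLocalizedAt l) : ℚ) = (x.1.num : ℚ) := by simp
    show x.1 * (((x.1.den : ℕ) : GaloisRep.ratLocalizedAt l) : ℚ) = _
    rw [h1, h2]
    exact Rat.mul_den_eq_num x.1
  have hfy : f y = g y := by
    have h1 : f ((x.1.den : ℕ) : GaloisRep.ratLocalizedAt l) * f y = 1 := by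
      rw [← map_mul, hy, map_one]
    have h2 : g ((x.1.den : ℕ) : GaloisRep.ratLocalizedAt l) * g y = 1 := by
      rw [← map_mul, hy, map_one]
    rw [map_natCast] at h1 h2
    calc f y = f y * ((x.1.den : T) * g y) := by rw [h2, mul_one]
      _ = ((x.1.den : T) * f y) * g y := by ring
      _ = g y := by rw [h1, one_mul]
  have hx' : x = ((x.1.num : ℤ) : GaloisRep.ratLocalizedAt l) * y := by
    rw [← hxd, mul_assoc, hy, mul_one]
  rw [hx', map_mul, map_mul, map_intCast, map_intCast, hfy]

end RatLoc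

section Main

variable (l : ℕ) [Fact l.Prime] {A : Type*} [CommRing A] [Algebra (GaloisRep.ratLocalizedAt l) A]
  (ρ : A →+* LaurentSeries (ZMod l))
  (K : Type*) [Field K] [CharP K l] [Algebra (GaloisRep.ratLocalizedAt l) K]

/-- A private copy of `K((t))`, carrying the `ℤ_(l)`-algebra structure through the constants
(avoids instance diamonds on `LaurentSeries K`). -/
def LaurentCopy (K : Type*) [Field K] : Type _ := LaurentSeries K

noncomputable instance : CommRing (LaurentCopy K) := inferInstanceAs (CommRing (LaurentSeries K))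

/-- identity `K((t)) →+* LaurentCopy K`. -/
noncomputable def toLaurentCopy : LaurentSeries K →+* LaurentCopy K := RingHom.id _

/-- identity `LaurentCopy K →+* K((t))`. -/
noncomputable def ofLaurentCopy : LaurentCopy K →+* LaurentSeries K := RingHom.id _

noncomputable instance : Algebra (GaloisRep.ratLocalizedAt l) (LaurentCopy K) :=
  ((toLaurentCopy K).comp ((HahnSeries.C : K →+* LaurentSeries K).comp
    (algebraMap (GaloisRep.ratLocalizedAt l) K))).toAlgebra

/-- `A → F_l((t)) → K((t))`, as an algebra hom over `ℤ_(l)`. -/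
noncomputable def tensorLeftHom : A →ₐ[GaloisRep.ratLocalizedAt l] LaurentCopy K where
  toRingHom := (toLaurentCopy K).comp
    ((laurentMapRingHom (ZMod.castHom (dvd_refl l) K)).comp ρ)
  commutes' r := by
    have := ratLocalizedAt_ringHom_ext l
      (((toLaurentCopy K).comp ((laurentMapRingHom (ZMod.castHom (dvd_refl l) K)).comp ρ)).comp
        (algebraMap (GaloisRep.ratLocalizedAt l) A))
      (algebraMap (GaloisRep.ratLocalizedAt l) (LaurentCopy K))
    exact congrArg (fun h => h r) this

/-- `K → K((t))`, constants, as an algebra hom over `ℤ_(l)`. -/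
noncomputable def tensorRightHom : K →ₐ[GaloisRep.ratLocalizedAt l] LaurentCopy K where
  toRingHom := (toLaurentCopy K).comp (HahnSeries.C : K →+* LaurentSeries K)
  commutes' _ := rfl

/-- The comparison map `A ⊗ K → K((t))`, `a ⊗ c ↦ ρ(a) · c`. -/
noncomputable def tensorToLaurent :
    A ⊗[GaloisRep.ratLocalizedAt l] K →+* LaurentSeries K :=
  (ofLaurentCopy K).comp
    (Algebra.TensorProduct.lift (tensorLeftHom l ρ K) (tensorRightHom l K)
      (fun _ _ => Commute.all _ _)).toRingHom

lemma tensorToLaurent_tmul (a : A) (c : K) :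
    tensorToLaurent l ρ K (a ⊗ₜ c) =
      laurentMapRingHom (ZMod.castHom (dvd_refl l) K) (ρ a) * HahnSeries.C c := by
  unfold tensorToLaurent
  have h := Algebra.TensorProduct.lift_tmul (tensorLeftHom l ρ K) (tensorRightHom l K)
    (fun _ _ => Commute.all _ _) a c
  rw [RingHom.comp_apply]
  erw [h]
  rfl


variable {ρ} (hρ : RingHom.ker ρ = Ideal.span {(l : A)})

include hρ in
/-- Elements of `ker ρ = (l)` die in `A ⊗ K` (as `l = 0` in `K`). -/
lemma tmul_eq_zero_of_map_eq_zero (a : A) (ha : ρ a = 0) (c : K) :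
    a ⊗ₜ[GaloisRep.ratLocalizedAt l] c = 0 := by
  have hmem : a ∈ Ideal.span {(l : A)} := by
    rw [← hρ]; exact RingHom.mem_ker.mpr ha
  obtain ⟨a', rfl⟩ := Ideal.mem_span_singleton'.1 hmem
  have h1 : a' * (l : A) = ((l : ℕ) : GaloisRep.ratLocalizedAt l) • a' := by
    rw [Algebra.smul_def, map_natCast, mul_comm]
  rw [h1, TensorProduct.smul_tmul, Algebra.smul_def, map_natCast, CharP.cast_eq_zero K l,
    zero_mul, TensorProduct.tmul_zero]

omit [Fact l.Prime] [CharP K l] in
lemma tmul_nsmul_eq (a : A) (n : ℕ) (c : K) :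
    a ⊗ₜ[GaloisRep.ratLocalizedAt l] (n • c) = (n • a) ⊗ₜ[GaloisRep.ratLocalizedAt l] c := by
  have h1 := map_nsmul (TensorProduct.mk (GaloisRep.ratLocalizedAt l) A K a) n c
  have h2 := map_nsmul ((TensorProduct.mk (GaloisRep.ratLocalizedAt l) A K).flip c) n a
  simp only [TensorProduct.mk_apply, LinearMap.flip_apply] at h1 h2
  rw [h1, h2]

section Basis

variable {ι : Type*} [Algebra (ZMod l) K] (b : Module.Basis ι (ZMod l) K)

/-- `f ↦ ∑ᵢ f i ⊗ bᵢ`. -/
noncomputable def tensorOfFinsupp (f : ι →₀ A) : A ⊗[GaloisRep.ratLocalizedAt l] K :=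
  f.sum (fun i a => a ⊗ₜ[GaloisRep.ratLocalizedAt l] b i)

omit [CharP K l] in
/-- Every element of `A ⊗ K` is of the form `∑ᵢ aᵢ ⊗ bᵢ` for a basis `b` of `K` over `F_l`. -/
lemma exists_tensorOfFinsupp_eq (x : A ⊗[GaloisRep.ratLocalizedAt l] K) :
    ∃ f : ι →₀ A, tensorOfFinsupp l K b f = x := by
  induction x using TensorProduct.induction_on with
  | zero => exact ⟨0, by simp [tensorOfFinsupp]⟩
  | tmul a c =>
    refine ⟨(b.repr c).mapRange (fun x => x.val • a) (by simp), ?_⟩
    unfold tensorOfFinsupp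
    rw [Finsupp.sum_mapRange_index (by intro i; exact TensorProduct.zero_tmul _ _)]
    conv_rhs => rw [← b.linearCombination_repr c, Finsupp.linearCombination_apply]
    rw [Finsupp.sum, Finsupp.sum, TensorProduct.tmul_sum]
    refine Finset.sum_congr rfl (fun i _ => ?_)
    rw [← tmul_nsmul_eq, ← Nat.cast_smul_eq_nsmul (ZMod l), ZMod.natCast_zmod_val]
  | add x y hx hy =>
    obtain ⟨f, rfl⟩ := hx
    obtain ⟨g, rfl⟩ := hy
    refine ⟨f + g, ?_⟩
    unfold tensorOfFinsupp
    rw [Finsupp.sum_add_index' (by intro i; exact TensorProduct.zero_tmul _ _)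
      (by intro i a a'; exact TensorProduct.add_tmul _ _ _)]

end Basis


section Injective

include hρ in
/-- The comparison map `A ⊗ K → K((t))` is injective. -/
theorem tensorToLaurent_injective : Function.Injective (tensorToLaurent l ρ K) := by
  let _ : Algebra (ZMod l) K := ZMod.algebra K l
  have halg : ∀ x : ZMod l, algebraMap (ZMod l) K x = ZMod.castHom (dvd_refl l) K x :=
    fun x => rfl
  let b := Module.Basis.ofVectorSpace (ZMod l) K
  rw [injective_iff_map_eq_zero]
  intro x hx
  obtain ⟨f, rfl⟩ := exists_tensorOfFinsupp_eq l K b x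
  unfold tensorOfFinsupp at hx ⊢
  rw [map_finsuppSum] at hx
  -- every `ρ (f i)` vanishes
  have hzero : ∀ i, ρ (f i) = 0 := by
    intro i
    ext n
    have hn := congrArg (fun y : LaurentSeries K => y.coeff n) hx
    simp only [Finsupp.sum, HahnSeries.coeff_zero] at hn
    rw [HahnSeries.coeff_sum] at hn
    have hn' : Finsupp.linearCombination (ZMod l) b
        (f.mapRange (fun a => (ρ a).coeff n) (by simp)) = 0 := by
      rw [Finsupp.linearCombination_apply, Finsupp.sum_mapRange_index (by intro j; simp)]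
      rw [Finsupp.sum]
      rw [← hn]
      refine Finset.sum_congr rfl (fun j _ => ?_)
      rw [tensorToLaurent_tmul, mul_comm, HahnSeries.C_mul_eq_smul, HahnSeries.coeff_smul,
        laurentMapRingHom_coeff, Algebra.smul_def, halg, smul_eq_mul, mul_comm]
    have := congrArg (fun v => b.repr v i) hn'
    simp only [Module.Basis.repr_linearCombination, map_zero, Finsupp.coe_zero, Pi.zero_apply,
      Finsupp.mapRange_apply] at this
    simpa using this
  rw [Finsupp.sum]
  exact Finset.sum_eq_zero (fun i _ => tmul_eq_zero_of_map_eq_zero l K hρ (f i) (hzero i) (b i))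

include hρ in
/-- **G9.** `A ⊗[ℤ_(l)] K` is a domain when `A/l` embeds into `F_l((t))`. -/
theorem isDomain_tensorProduct_of_laurent : IsDomain (A ⊗[GaloisRep.ratLocalizedAt l] K) :=
  Function.Injective.isDomain (tensorToLaurent l ρ K) (tensorToLaurent_injective l K hρ)

/-- `a ⊗ 1 ≠ 0` as soon as `ρ a ≠ 0`. -/
theorem tmul_one_ne_zero (a : A) (ha : ρ a ≠ 0) :
    a ⊗ₜ[GaloisRep.ratLocalizedAt l] (1 : K) ≠ 0 := by
  intro h
  have h2 := congrArg (tensorToLaurent l ρ K) h
  rw [tensorToLaurent_tmul, map_one, mul_one, map_zero] at h2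
  exact ha (laurentMapRingHom_injective _ (RingHom.injective _)
    (by rw [h2, map_zero]))

end Injective

end Main

end Fermat.Agent.S28
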