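/-
S28 package (D1): the degree bound over `ℚ`:  `[F_N : ℚ(j)] ≤ ψ(N)` for
`F_N = modularFunctionFieldFull N ⊆ ℚ((q))`, obtained from the general-`L` bound
`Fermat.Agent.S24.finrank_le_dedekindPsi` at `L = ℚ`.
-/
import Fermat.Agent.S24.Real.Degree
import Fermat.Prelude.Def_ModularCurve_IgusaScheme

set_option autoImplicit false

namespace Fermat.Agent.S28

open ModularCurve IntermediateField

/-- `coeffEmb ℚ` is the identity. -/
theorem coeffEmb_rat (x : LaurentSeries ℚ) : coeffEmb ℚ x = x := by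
  ext k
  simp

/-- base change to `ℚ` does nothing. -/
theorem laurentBaseChange_rat (F₀ : IntermediateField ℚ (LaurentSeries ℚ)) :
    laurentBaseChange ℚ F₀ = F₀ := by
  have himg : (⇑(coeffEmb ℚ) '' (F₀ : Set (LaurentSeries ℚ))) = (F₀ : Set (LaurentSeries ℚ)) := by
    ext x
    constructor
    · rintro ⟨y, hy, rfl⟩
      rwa [coeffEmb_rat]
    · intro hx
      exact ⟨x, hx, coeffEmb_rat x⟩
  rw [laurentBaseChange, himg]
  exact IntermediateField.adjoin_self ℚ F₀

section Congr

variable {K M : Type*} [Field K] [Field M] [Algebra K M]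

theorem finrank_adjoin_simple_congr {E₁ E₂ : IntermediateField K M} (h : E₁ = E₂)
    (x₁ : E₁) (x₂ : E₂) (hx : (x₁ : M) = x₂) :
    Module.finrank K⟮x₁⟯ E₁ = Module.finrank K⟮x₂⟯ E₂ := by
  subst h
  obtain rfl : x₁ = x₂ := Subtype.ext hx
  rfl

theorem finiteDimensional_adjoin_simple_congr {E₁ E₂ : IntermediateField K M} (h : E₁ = E₂)
    (x₁ : E₁) (x₂ : E₂) (hx : (x₁ : M) = x₂) (hfd : FiniteDimensional K⟮x₁⟯ E₁) :
    FiniteDimensional K⟮x₂⟯ E₂ := by
  subst h
  obtain rfl : x₁ = x₂ := Subtype.ext hx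
  exact hfd

/-- the degree over a simple extension of `ℚ` does not depend on the `ℚ`-algebra instance. -/
theorem finrank_adjoin_simple_inst {E : Type*} [Field E] (i₁ i₂ : Algebra ℚ E) (x : E) :
    (letI := i₁; Module.finrank ℚ⟮x⟯ E) = (letI := i₂; Module.finrank ℚ⟮x⟯ E) := by
  obtain rfl : i₁ = i₂ := Subsingleton.elim _ _
  rfl

theorem finiteDimensional_adjoin_simple_inst {E : Type*} [Field E] (i₁ i₂ : Algebra ℚ E) (x : E)
    (h : letI := i₁; FiniteDimensional ℚ⟮x⟯ E) : (letI := i₂; FiniteDimensional ℚ⟮x⟯ E) := by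
  obtain rfl : i₁ = i₂ := Subsingleton.elim _ _
  exact h

end Congr

variable (N : ℕ) [NeZero N]

theorem coe_xGen_rat :
    ((Fermat.Agent.S24.xGen ℚ N : laurentBaseChange ℚ (modularFunctionFieldFull N)) :
      LaurentSeries ℚ) = jq := by
  change Fermat.Agent.S24.jqBar ℚ 1 = jq
  rw [Fermat.Agent.S24.jqBar_one_eq, coeffEmb_rat]

/-- `F_N` is finite over `ℚ(j)`. -/
theorem finiteDimensional_full_over_jFull :
    FiniteDimensional ℚ⟮IgusaScheme.jFull N⟯ (modularFunctionFieldFull N) :=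
  finiteDimensional_adjoin_simple_inst _ _ _
    (finiteDimensional_adjoin_simple_congr (laurentBaseChange_rat (modularFunctionFieldFull N))
      (Fermat.Agent.S24.xGen ℚ N) (IgusaScheme.jFull N) (coe_xGen_rat N)
      (Fermat.Agent.S24.finiteDimensional_over_xGen ℚ N (algebraMap ℚ ℂ)))

/-- **(D1)** `[F_N : ℚ(j)] ≤ ψ(N)`. -/
theorem finrank_full_over_jFull_le :
    Module.finrank ℚ⟮IgusaScheme.jFull N⟯ (modularFunctionFieldFull N) ≤
      ModularCurve.dedekindPsi N := by
  have h1 := Fermat.Agent.S24.finrank_le_dedekindPsi ℚ N (algebraMap ℚ ℂ)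
  rw [finrank_adjoin_simple_congr (laurentBaseChange_rat (modularFunctionFieldFull N))
    (Fermat.Agent.S24.xGen ℚ N) (IgusaScheme.jFull N) (coe_xGen_rat N)] at h1
  exact (finrank_adjoin_simple_inst _ _ _).trans_le h1

/-- `j(q)` is transcendental over `ℚ`. -/
theorem jq_transcendental : Transcendental ℚ jq := by
  have h2 := Fermat.Agent.S24.jqBar_one_transcendental ℚ
  rwa [Fermat.Agent.S24.jqBar_one_eq, coeffEmb_rat] at h2

/-- `j` is transcendental over `ℚ` (as an element of `F_N`). -/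
theorem jFull_transcendental : Transcendental ℚ (IgusaScheme.jFull N) := by
  intro h
  apply jq_transcendental
  obtain ⟨p, hp0, hp⟩ := h
  refine ⟨p, hp0, ?_⟩
  have h1 := congrArg (fun z : modularFunctionFieldFull N => (z : LaurentSeries ℚ)) hp
  simp only [ZeroMemClass.coe_zero] at h1
  rw [← h1, Polynomial.aeval_def, Polynomial.aeval_def, Polynomial.eval₂_eq_sum_range,
    Polynomial.eval₂_eq_sum_range]
  simp

/-- `F_N` is algebraic over `ℚ(j)`. -/
theorem isAlgebraic_full_over_jFull :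
    Algebra.IsAlgebraic ℚ⟮IgusaScheme.jFull N⟯ (modularFunctionFieldFull N) :=
  haveI := finiteDimensional_full_over_jFull N
  Algebra.IsAlgebraic.of_finite _ _

end Fermat.Agent.S28
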