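/-
S28 package [V0]: the "mirrored" (cusp `0` / Fricke) embedding of the full modular function field
`F_N = ℚ(j(q^d) : d ∣ N) ⊆ ℚ((q))` into `ℚ((q))`:

  `cuspZeroEmb N : ↥(modularFunctionFieldFull N) →+* LaurentSeries ℚ`,
  `cuspZeroEmb N ⟨j(q^d), _⟩ = j(q^(N/d))`  for every `d ∣ N`.

Route: the Fricke involution `W τ = -1/(Nτ)` of `ℍ` satisfies `J_d (W τ) = J_{N/d} τ`
(`J_d τ = j(dτ)`), so by the `q`-dictionary of S24 the polynomial relations over `ℚ` among the
formal `j(q^d)` are the same as those among the `j(q^(N/d))`.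
-/
import Fermat.Agent.S24.Real.EmbFinite
import Fermat.Agent.S28.DegreeQ

set_option autoImplicit false

namespace Fermat.Agent.S28

open UpperHalfPlane ModularCurve Fermat.Agent.S24
open scoped MatrixGroups

noncomputable section

/-! ### the Fricke involution on `ℍ` -/

/-- the Fricke involution `τ ↦ -1/(Nτ)` of the upper half plane. -/
def fricke (N : ℕ) (τ : ℍ) : ℍ := ModularGroup.S • (scaleMat N • τ)

theorem coe_fricke (N : ℕ) (hN : 0 < N) (τ : ℍ) :
    ((fricke N τ : ℍ) : ℂ) = (-((N : ℂ) * τ))⁻¹ := by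
  rw [fricke, UpperHalfPlane.modular_S_smul]
  show (-((scaleMat N • τ : ℍ) : ℂ))⁻¹ = _
  rw [coe_scaleMat_smul N hN]

/-- `J_d (W τ) = J_e τ` whenever `d * e = N`. -/
theorem Jd_fricke {N d e : ℕ} (hN : 0 < N) (hde : d * e = N) (τ : ℍ) :
    Jd d (fricke N τ) = Jd e τ := by
  have hd : 0 < d := Nat.pos_of_ne_zero (by rintro rfl; simp at hde; omega)
  have he : 0 < e := Nat.pos_of_ne_zero (by rintro rfl; simp at hde; omega)
  have key : scaleMat d • fricke N τ = ModularGroup.S • (scaleMat e • τ) := by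
    apply UpperHalfPlane.ext
    rw [coe_scaleMat_smul d hd, coe_fricke N hN, UpperHalfPlane.modular_S_smul]
    show _ = (-((scaleMat e • τ : ℍ) : ℂ))⁻¹
    rw [coe_scaleMat_smul e he]
    have hτ : (τ : ℂ) ≠ 0 := UpperHalfPlane.ne_zero τ
    have hd' : (d : ℂ) ≠ 0 := by exact_mod_cast hd.ne'
    have he' : (e : ℂ) ≠ 0 := by exact_mod_cast he.ne'
    have hNde : (N : ℂ) = (d : ℂ) * e := by rw [← hde]; push_cast; rfl
    rw [hNde]
    field_simp
  rw [Jd_apply, key, jFun_smul, ← Jd_apply]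


/-! ### the swap `d ↦ N / d` on the index set of generators -/

variable (N : ℕ) [NeZero N]

/-- the involution `d ↦ N / d` of the divisors of `N`. -/
def genSwap (d : Gen N) : Gen N :=
  ⟨N / d.1, Nat.mem_divisors.mpr
    ⟨Nat.div_dvd_of_dvd (Nat.dvd_of_mem_divisors d.2), NeZero.ne N⟩⟩

theorem coe_genSwap (d : Gen N) : (genSwap N d).1 = N / d.1 := rfl

theorem mul_genSwap (d : Gen N) : d.1 * (genSwap N d).1 = N :=
  Nat.mul_div_cancel' (Nat.dvd_of_mem_divisors d.2)

theorem genSwap_mul (d : Gen N) : (genSwap N d).1 * d.1 = N := by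
  rw [mul_comm, mul_genSwap]

/-- the polynomial relations over `ℚ` among the `j(q^(N/d))` are those among the `j(q^d)`. -/
theorem aeval_swap_eq_zero_iff (P : MvPolynomial (Gen N) ℚ) :
    MvPolynomial.aeval (fun d : Gen N => jqBar ℚ (N / d.1)) P = 0 ↔
      MvPolynomial.aeval (fun d : Gen N => jqBar ℚ d.1) P = 0 := by
  have hN : 0 < N := Nat.pos_of_ne_zero (NeZero.ne N)
  have h1 : MvPolynomial.aeval (fun d : Gen N => jqBar ℚ (N / d.1)) P =
      MvPolynomial.aeval (fun d : Gen N => jqBar ℚ d.1) (MvPolynomial.rename (genSwap N) P) := by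
    rw [MvPolynomial.aeval_rename]
    rfl
  rw [h1, qDictionary ℚ (algebraMap ℚ ℂ) N, qDictionary ℚ (algebraMap ℚ ℂ) N]
  simp only [MvPolynomial.eval₂_rename]
  constructor
  · intro h σ
    have h2 := h (fricke N σ)
    have h3 : ((fun d : Gen N => Jd d.1 (fricke N σ)) ∘ genSwap N) =
        fun d : Gen N => Jd d.1 σ := by
      funext d
      exact Jd_fricke hN (genSwap_mul N d) σ
    rwa [h3] at h2
  · intro h τ
    have h2 := h (fricke N τ)
    have h3 : ((fun d : Gen N => Jd d.1 τ) ∘ genSwap N) =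
        fun d : Gen N => Jd d.1 (fricke N τ) := by
      funext d
      exact (Jd_fricke hN (mul_genSwap N d) τ).symm
    rwa [h3]

/-! ### the embedding -/

theorem full_eq_adjoin_jqBar :
    modularFunctionFieldFull N =
      IntermediateField.adjoin ℚ (Set.range fun d : Gen N => jqBar ℚ d.1) := by
  rw [← laurentBaseChange_eq_adjoin ℚ N, laurentBaseChange_rat]

theorem exists_cuspZeroEmb :
    ∃ φ : ↥(modularFunctionFieldFull N) →+* LaurentSeries ℚ,
      ∀ (P : MvPolynomial (Gen N) ℚ)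
        (h : MvPolynomial.aeval (fun d : Gen N => jqBar ℚ d.1) P ∈ modularFunctionFieldFull N),
        φ ⟨MvPolynomial.aeval (fun d : Gen N => jqBar ℚ d.1) P, h⟩ =
          MvPolynomial.aeval (fun d : Gen N => jqBar ℚ (N / d.1)) P := by
  obtain ⟨φ, hφ⟩ := exists_ringHom_of_ker (K := ℚ) (E := LaurentSeries ℚ)
    (fun d : Gen N => jqBar ℚ d.1)
    (MvPolynomial.aeval (fun d : Gen N => jqBar ℚ (N / d.1)) :
      MvPolynomial (Gen N) ℚ →ₐ[ℚ] LaurentSeries ℚ).toRingHom
    (fun P => aeval_swap_eq_zero_iff N P)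
  have hle : modularFunctionFieldFull N ≤
      IntermediateField.adjoin ℚ (Set.range fun d : Gen N => jqBar ℚ d.1) :=
    (full_eq_adjoin_jqBar N).le
  let inc : ↥(modularFunctionFieldFull N) →+*
      ↥(IntermediateField.adjoin ℚ (Set.range fun d : Gen N => jqBar ℚ d.1)) :=
    { toFun := fun x => ⟨x.1, hle x.2⟩
      map_one' := rfl
      map_mul' := fun _ _ => rfl
      map_zero' := rfl
      map_add' := fun _ _ => rfl }
  refine ⟨φ.comp inc, fun P h => ?_⟩
  exact hφ P (hle h)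

/-- **the cusp-`0` (Fricke, "mirrored") embedding** `F_N → ℚ((q))`, `j(q^d) ↦ j(q^(N/d))`. -/
def cuspZeroEmb : ↥(modularFunctionFieldFull N) →+* LaurentSeries ℚ :=
  Classical.choose (exists_cuspZeroEmb N)

theorem cuspZeroEmb_aeval (P : MvPolynomial (Gen N) ℚ)
    (h : MvPolynomial.aeval (fun d : Gen N => jqBar ℚ d.1) P ∈ modularFunctionFieldFull N) :
    cuspZeroEmb N ⟨MvPolynomial.aeval (fun d : Gen N => jqBar ℚ d.1) P, h⟩ =
      MvPolynomial.aeval (fun d : Gen N => jqBar ℚ (N / d.1)) P :=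
  Classical.choose_spec (exists_cuspZeroEmb N) P h

theorem jqBar_rat (d : ℕ) [NeZero d] : jqBar ℚ d = qExpand ℚ d jq := by
  rw [jqBar_of_ne_zero, coeffEmb_rat]

/-- **value on the generators**: `j(q^d) ↦ j(q^e)` whenever `d * e = N`. -/
theorem cuspZeroEmb_gen (d e : ℕ) [NeZero d] [NeZero e] (hde : d * e = N)
    (h : qExpand ℚ d jq ∈ modularFunctionFieldFull N) :
    cuspZeroEmb N ⟨qExpand ℚ d jq, h⟩ = qExpand ℚ e jq := by
  have hd : d ∈ N.divisors := Nat.mem_divisors.mpr ⟨⟨e, hde.symm⟩, NeZero.ne N⟩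
  have he : N / d = e := by
    rw [← hde]
    exact Nat.mul_div_cancel_left e (Nat.pos_of_ne_zero (NeZero.ne d))
  have h1 : MvPolynomial.aeval (fun d : Gen N => jqBar ℚ d.1)
      (MvPolynomial.X (⟨d, hd⟩ : Gen N) : MvPolynomial (Gen N) ℚ) = qExpand ℚ d jq := by
    rw [MvPolynomial.aeval_X]
    exact jqBar_rat d
  have h2 : (⟨qExpand ℚ d jq, h⟩ : ↥(modularFunctionFieldFull N)) =
      ⟨MvPolynomial.aeval (fun d : Gen N => jqBar ℚ d.1)
        (MvPolynomial.X (⟨d, hd⟩ : Gen N) : MvPolynomial (Gen N) ℚ), by rw [h1]; exact h⟩ :=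
    Subtype.ext h1.symm
  rw [h2, cuspZeroEmb_aeval, MvPolynomial.aeval_X]
  show jqBar ℚ (N / d) = _
  rw [he]
  exact jqBar_rat e

/-- the same with the canonical membership proof. -/
theorem cuspZeroEmb_gen' (d e : ℕ) [NeZero d] [NeZero e] (hde : d * e = N) :
    cuspZeroEmb N ⟨qExpand ℚ d jq, jqd_mem_full N ⟨e, hde.symm⟩⟩ = qExpand ℚ e jq :=
  cuspZeroEmb_gen N d e hde _

/-- `j ↦ j(q^N)`. -/
theorem cuspZeroEmb_jFull : cuspZeroEmb N (IgusaScheme.jFull N) = qExpand ℚ N jq := by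
  have h1 : qExpand ℚ 1 jq ∈ modularFunctionFieldFull N := jqd_mem_full N (one_dvd N)
  have h2 : IgusaScheme.jFull N = ⟨qExpand ℚ 1 jq, h1⟩ :=
    Subtype.ext (qExpand_one_apply jq).symm
  rw [h2]
  exact cuspZeroEmb_gen N 1 N (one_mul N) h1

theorem cuspZeroEmb_algebraMap (c : ℚ) :
    cuspZeroEmb N (algebraMap ℚ ↥(modularFunctionFieldFull N) c) =
      algebraMap ℚ (LaurentSeries ℚ) c :=
  RingHom.map_rat_algebraMap (cuspZeroEmb N) c

theorem cuspZeroEmb_injective : Function.Injective (cuspZeroEmb N) :=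
  (cuspZeroEmb N).injective

/-- the cusp-`0` embedding as a `ℚ`-algebra hom. -/
def cuspZeroEmbₐ : ↥(modularFunctionFieldFull N) →ₐ[ℚ] LaurentSeries ℚ :=
  (cuspZeroEmb N).toRatAlgHom

@[simp] theorem cuspZeroEmbₐ_apply (x : ↥(modularFunctionFieldFull N)) :
    cuspZeroEmbₐ N x = cuspZeroEmb N x := rfl

end

end Fermat.Agent.S28
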