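/-
S28 (Igusa) shared vocabulary and contracts (owner: helper2).

* `rotR ζ`      : the substitution `t ↦ ζ t` on `LaurentSeries R` for ANY commutative ring `R`
                  and a unit `ζ` (S24's `rot` needs a field);
* `thetaL`      : the derivation `t d/dt` (coefficientwise `a_n ↦ n a_n`);
* `deltaModC R` : the discriminant `Δ = t ∏ (1 - t^n)^24` over `R`, and its inverse;
* the contract statements (as `Prop`-valued definitions) that the S28 packages prove / consume.

Mathlib + prelude only.
-/
import Mathlib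
import Fermat.Prelude.Def_ModularCurve_X0
import Fermat.Prelude.Def_ModularCurve_JqCoeff
import Fermat.Prelude.Def_ModularCurve_LaurentCoeff

set_option autoImplicit false

noncomputable section

namespace Fermat.Agent.S28

open HahnSeries ModularCurve Polynomial

/-- the ring of all algebraic integers, the coefficient ring of the characteristic zero inputs -/
abbrev R0 : Type := ↥(integralClosure ℤ ℂ)

section Rot

variable {R : Type*} [CommRing R]

/-- coefficientwise rotation `u(t) ↦ u(ζ t)` as a plain function -/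
def rotRFun (ζ : Rˣ) (u : LaurentSeries R) : LaurentSeries R where
  coeff m := ((ζ ^ m : Rˣ) : R) * u.coeff m
  isPWO_support' := u.isPWO_support.mono (by
    intro m hm
    simp only [Function.mem_support, ne_eq] at hm ⊢
    exact fun h => hm (by rw [h, mul_zero]))

@[simp] theorem rotRFun_coeff (ζ : Rˣ) (u : LaurentSeries R) (m : ℤ) :
    (rotRFun ζ u).coeff m = ((ζ ^ m : Rˣ) : R) * u.coeff m := rfl

theorem rotRFun_support (ζ : Rˣ) (u : LaurentSeries R) :
    (rotRFun ζ u).support = u.support := by
  ext m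
  simp only [HahnSeries.mem_support, rotRFun_coeff, ne_eq]
  rw [Units.mul_right_eq_zero]

theorem rotRFun_mul (ζ : Rˣ) (u v : LaurentSeries R) :
    rotRFun ζ (u * v) = rotRFun ζ u * rotRFun ζ v := by
  ext a
  rw [rotRFun_coeff, HahnSeries.coeff_mul, HahnSeries.coeff_mul, Finset.mul_sum]
  have hsupp : Finset.antidiagonal (rotRFun ζ u).isPWO_support (rotRFun ζ v).isPWO_support a
      = Finset.antidiagonal u.isPWO_support v.isPWO_support a := by
    ext ⟨i, j⟩
    simp only [Finset.mem_antidiagonal, rotRFun_support]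
  rw [hsupp]
  refine Finset.sum_congr rfl ?_
  rintro ⟨i, j⟩ hij
  have hij' : i + j = a := (Finset.mem_antidiagonal.mp hij).2.2
  simp only [rotRFun_coeff]
  rw [← hij', zpow_add, Units.val_mul]
  ring

/-- the substitution `u(t) ↦ u(ζ t)` as a ring endomorphism of `R((t))`, any commutative ring -/
def rotR (ζ : Rˣ) : LaurentSeries R →+* LaurentSeries R where
  toFun := rotRFun ζ
  map_one' := by
    ext m
    rw [rotRFun_coeff, HahnSeries.coeff_one]
    split_ifs with h
    · subst h; simp
    · simp
  map_mul' := rotRFun_mul ζ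
  map_zero' := by ext m; simp
  map_add' u v := by ext m; simp [mul_add]

@[simp] theorem rotR_coeff (ζ : Rˣ) (u : LaurentSeries R) (m : ℤ) :
    (rotR ζ u).coeff m = ((ζ ^ m : Rˣ) : R) * u.coeff m := rfl

theorem rotR_one_apply (u : LaurentSeries R) : rotR (1 : Rˣ) u = u := by
  ext m; simp

theorem rotR_mul_apply (ζ ξ : Rˣ) (u : LaurentSeries R) :
    rotR (ζ * ξ) u = rotR ζ (rotR ξ u) := by
  ext m
  simp only [rotR_coeff, mul_zpow, Units.val_mul]
  ring

theorem rotR_single (ζ : Rˣ) (m : ℤ) (c : R) :
    rotR ζ (HahnSeries.single m c) = HahnSeries.single m (((ζ ^ m : Rˣ) : R) * c) := by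
  ext k
  rw [rotR_coeff, HahnSeries.coeff_single, HahnSeries.coeff_single]
  split_ifs with h
  · subst h; rfl
  · simp

theorem rotR_C (ζ : Rˣ) (c : R) : rotR ζ (HahnSeries.C c) = HahnSeries.C c := by
  rw [HahnSeries.C_apply, rotR_single]; simp

/-- rotation commutes with change of coefficients -/
theorem coeffMap_rotR {S : Type*} [CommRing S] (f : R →+* S) (ζ : Rˣ) (u : LaurentSeries R) :
    coeffMap f (rotR ζ u) = rotR (Units.map (f : R →* S) ζ) (coeffMap f u) := by
  ext m
  simp only [coeffMap_coeff, rotR_coeff, map_mul]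
  congr 1
  rw [← map_zpow]
  rfl

/-- `rotR ζ ∘ V_d = V_d ∘ rotR (ζ^d)` -/
theorem rotR_qExpand (ζ : Rˣ) (d : ℕ) [NeZero d] (u : LaurentSeries R) :
    rotR ζ (qExpand R d u) = qExpand R d (rotR (ζ ^ d) u) := by
  ext m
  by_cases hm : (d : ℤ) ∣ m
  · obtain ⟨k, rfl⟩ := hm
    rw [rotR_coeff, qExpand_coeff_mul, qExpand_coeff_mul, rotR_coeff, zpow_mul, zpow_natCast]
  · rw [rotR_coeff, qExpand_coeff_of_not_dvd d _ hm, qExpand_coeff_of_not_dvd d _ hm, mul_zero]

/-- a rotation by a `d`-th root of unity fixes the range of `V_d` -/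
theorem rotR_qExpand_of_pow_eq_one {ζ : Rˣ} {d : ℕ} [NeZero d] (hζ : ζ ^ d = 1)
    (u : LaurentSeries R) : rotR ζ (qExpand R d u) = qExpand R d u := by
  rw [rotR_qExpand, hζ, rotR_one_apply]

end Rot

section Theta

variable {R : Type*} [CommRing R]

/-- the derivation `θ = t d/dt`, coefficientwise `a_n ↦ n a_n` -/
def thetaL : LaurentSeries R →+ LaurentSeries R where
  toFun u :=
    { coeff := fun m => (m : R) * u.coeff m
      isPWO_support' := u.isPWO_support.mono (by
        intro m hm
        simp only [Function.mem_support, ne_eq] at hm ⊢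
        exact fun h => hm (by rw [h, mul_zero])) }
  map_zero' := by ext m; simp
  map_add' u v := by ext m; simp [mul_add]

@[simp] theorem thetaL_coeff (u : LaurentSeries R) (m : ℤ) :
    (thetaL u).coeff m = (m : R) * u.coeff m := rfl

theorem thetaL_support_subset (u : LaurentSeries R) : (thetaL u).support ⊆ u.support := by
  intro m hm
  simp only [HahnSeries.mem_support, thetaL_coeff, ne_eq] at hm ⊢
  exact fun h => hm (by rw [h, mul_zero])

/-- `θ` commutes with change of coefficients -/
theorem coeffMap_thetaL {S : Type*} [CommRing S] (f : R →+* S) (u : LaurentSeries R) :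
    coeffMap f (thetaL u) = thetaL (coeffMap f u) := by
  ext m
  simp only [coeffMap_coeff, thetaL_coeff, map_mul, map_intCast]

/-- Leibniz rule -/
theorem thetaL_mul (u v : LaurentSeries R) :
    thetaL (u * v) = thetaL u * v + u * thetaL v := by
  ext a
  rw [thetaL_coeff, HahnSeries.coeff_add,
    HahnSeries.coeff_mul_left' (x := thetaL u) (y := v) u.isPWO_support
      (thetaL_support_subset u),
    HahnSeries.coeff_mul_right' (x := u) (y := thetaL v) v.isPWO_support
      (thetaL_support_subset v),
    HahnSeries.coeff_mul, Finset.mul_sum, ← Finset.sum_add_distrib]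
  refine Finset.sum_congr rfl ?_
  rintro ⟨i, j⟩ hij
  have hij' : i + j = a := (Finset.mem_antidiagonal.mp hij).2.2
  simp only [thetaL_coeff]
  rw [← hij']
  push_cast
  ring

theorem thetaL_single (m : ℤ) (c : R) :
    thetaL (HahnSeries.single m c) = HahnSeries.single m ((m : R) * c) := by
  ext k
  rw [thetaL_coeff, HahnSeries.coeff_single, HahnSeries.coeff_single]
  split_ifs with h
  · subst h; rfl
  · simp

theorem thetaL_C (c : R) : thetaL (HahnSeries.C c) = 0 := by
  rw [HahnSeries.C_apply, thetaL_single]; simp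

theorem thetaL_one : thetaL (1 : LaurentSeries R) = 0 := by
  have := thetaL_C (1 : R)
  rwa [map_one] at this

theorem thetaL_pow (u : LaurentSeries R) (n : ℕ) :
    thetaL (u ^ (n + 1)) = ((n + 1 : ℕ) : LaurentSeries R) * u ^ n * thetaL u := by
  induction n with
  | zero => simp
  | succ n ih =>
    rw [pow_succ, thetaL_mul, ih]
    push_cast
    ring

/-- chain rule for `V_d` : `θ (u(t^d)) = d (θ u)(t^d)` -/
theorem thetaL_qExpand (d : ℕ) [NeZero d] (u : LaurentSeries R) :
    thetaL (qExpand R d u) = (d : LaurentSeries R) * qExpand R d (thetaL u) := by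
  have hd : (d : LaurentSeries R) = HahnSeries.C (d : R) := by simp
  ext m
  rw [hd, HahnSeries.C_apply, HahnSeries.coeff_single_zero_mul]
  by_cases hm : (d : ℤ) ∣ m
  · obtain ⟨k, rfl⟩ := hm
    rw [thetaL_coeff, qExpand_coeff_mul, qExpand_coeff_mul, thetaL_coeff]
    push_cast
    ring
  · rw [thetaL_coeff, qExpand_coeff_of_not_dvd d _ hm, qExpand_coeff_of_not_dvd d _ hm]
    simp

/-- `θ` commutes with rotations -/
theorem thetaL_rotR (ζ : Rˣ) (u : LaurentSeries R) : thetaL (rotR ζ u) = rotR ζ (thetaL u) := by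
  ext m
  simp only [thetaL_coeff, rotR_coeff]
  ring

end Theta

section Delta

variable (R : Type*) [CommRing R]

/-- `Δ = t ∏ (1 - t^n)^24` with coefficients in `R` -/
def deltaModC : LaurentSeries R :=
  HahnSeries.single (1 : ℤ) 1 *
    HahnSeries.ofPowerSeries ℤ R (dedekindEtaUnit.map (Int.castRingHom R))

/-- `Δ⁻¹` with coefficients in `R` -/
def deltaInvModC : LaurentSeries R :=
  HahnSeries.single (-1 : ℤ) 1 *
    HahnSeries.ofPowerSeries ℤ R (dedekindEtaUnitInv.map (Int.castRingHom R))

theorem deltaModC_mul_inv : deltaModC R * deltaInvModC R = 1 := by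
  have h : dedekindEtaUnit.map (Int.castRingHom R) * dedekindEtaUnitInv.map (Int.castRingHom R)
      = 1 := by
    rw [← map_mul, dedekindEtaUnit_mul_inv, map_one]
  have h1 : HahnSeries.single (1 : ℤ) (1 : R) * HahnSeries.single (-1 : ℤ) (1 : R) = 1 := by
    rw [HahnSeries.single_mul_single]; simp
  calc deltaModC R * deltaInvModC R
      = (HahnSeries.single (1 : ℤ) (1 : R) * HahnSeries.single (-1 : ℤ) (1 : R)) *
        HahnSeries.ofPowerSeries ℤ R
          (dedekindEtaUnit.map (Int.castRingHom R) * dedekindEtaUnitInv.map (Int.castRingHom R)) := by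
        rw [map_mul, deltaModC, deltaInvModC]; ring
    _ = 1 := by rw [h, h1, map_one, one_mul]

theorem deltaInvModC_mul : deltaInvModC R * deltaModC R = 1 := by
  rw [mul_comm, deltaModC_mul_inv]

variable {R}

theorem coeffMap_ofPowerSeries {S : Type*} [CommRing S] (f : R →+* S) (u : PowerSeries R) :
    coeffMap f (HahnSeries.ofPowerSeries ℤ R u) = HahnSeries.ofPowerSeries ℤ S (u.map f) := by
  ext k
  rw [coeffMap_coeff]
  rcases le_or_gt 0 k with hk | hk
  · lift k to ℕ using hk
    rw [HahnSeries.ofPowerSeries_apply_coeff, HahnSeries.ofPowerSeries_apply_coeff,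
      PowerSeries.coeff_map]
  · rw [ofPowerSeries_coeff_of_neg _ hk, ofPowerSeries_coeff_of_neg _ hk, map_zero]

theorem map_map_intCast {S : Type*} [CommRing S] (f : R →+* S) (u : PowerSeries ℤ) :
    (u.map (Int.castRingHom R)).map f = u.map (Int.castRingHom S) := by
  ext n
  simp

theorem coeffMap_deltaModC {S : Type*} [CommRing S] (f : R →+* S) :
    coeffMap f (deltaModC R) = deltaModC S := by
  rw [deltaModC, deltaModC, map_mul, coeffMap_single, map_one, coeffMap_ofPowerSeries,
    map_map_intCast]

theorem coeffMap_deltaInvModC {S : Type*} [CommRing S] (f : R →+* S) :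
    coeffMap f (deltaInvModC R) = deltaInvModC S := by
  rw [deltaInvModC, deltaInvModC, map_mul, coeffMap_single, map_one, coeffMap_ofPowerSeries,
    map_map_intCast]

theorem coeffMap_jqModC' {S : Type*} [CommRing S] (f : R →+* S) :
    coeffMap f (jqModC R) = jqModC S :=
  map_jqModC f

/-- `V_d` commutes with change of coefficients -/
theorem coeffMap_qExpand {S : Type*} [CommRing S] (f : R →+* S) (d : ℕ) [NeZero d]
    (u : LaurentSeries R) : coeffMap f (qExpand R d u) = qExpand S d (coeffMap f u) := by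
  ext m
  by_cases hm : (d : ℤ) ∣ m
  · obtain ⟨k, rfl⟩ := hm
    rw [coeffMap_coeff, qExpand_coeff_mul, qExpand_coeff_mul, coeffMap_coeff]
  · rw [coeffMap_coeff, qExpand_coeff_of_not_dvd d _ hm, qExpand_coeff_of_not_dvd d _ hm,
      map_zero]

end Delta

/-! ### Contracts -/

section Contracts

/-- (I1) the modular equation of level `r` over the ring `R`, with respect to the unit `ζ`
(a primitive `r`-th root of unity in the applications): a monic `Φ ∈ R[X][Y]` with
`Φ(j(t^r), Y) = (Y - j(t^(r^2))) ∏_{b<r} (Y - j(ζ^b t))` in `R((t))[Y]`. -/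
def ModEqOver (R : Type*) [CommRing R] (r : ℕ) [NeZero r] (ζ : Rˣ) : Prop :=
  ∃ Φ : Polynomial (Polynomial R), Φ.Monic ∧
    Φ.map ((Polynomial.aeval (qExpand R r (jqModC R))).toRingHom) =
      (X - Polynomial.C (qExpand R (r ^ 2) (jqModC R))) *
        ∏ b ∈ Finset.range r, (X - Polynomial.C (rotR (ζ ^ b) (jqModC R)))

/-- (I1) provider contract: the modular equation holds over the algebraic integers -/
def ModEqContract (r : ℕ) [NeZero r] : Prop :=
  ∀ ζ : R0ˣ, IsPrimitiveRoot ζ r → ModEqOver R0 r ζ

/-- (I2) integrality of the unit `Δ(t^r)/Δ(t)` : monic polynomials over `R[j]` killing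
`Δ(t) / Δ(t^r)` and `r^12 Δ(t^r) / Δ(t)`. -/
def UnitIntegralOver (R : Type*) [CommRing R] (r : ℕ) [NeZero r] : Prop :=
  ∃ Ψ₁ Ψ₂ : Polynomial (Polynomial R), Ψ₁.Monic ∧ Ψ₂.Monic ∧
    Ψ₁.eval₂ ((Polynomial.aeval (jqModC R)).toRingHom)
      (deltaModC R * qExpand R r (deltaInvModC R)) = 0 ∧
    Ψ₂.eval₂ ((Polynomial.aeval (jqModC R)).toRingHom)
      ((r : LaurentSeries R) ^ 12 * (qExpand R r (deltaModC R) * deltaInvModC R)) = 0

/-- (I2) provider contract -/
def UnitIntegralContract (r : ℕ) [NeZero r] : Prop := UnitIntegralOver R0 r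

/-- (I3) the formal identity `(θ j)^6 = Δ j^4 (j - 1728)^3` over `ℤ` -/
def ThetaIdentityContract : Prop :=
  (thetaL (jqModC ℤ)) ^ 6 = deltaModC ℤ * (jqModC ℤ) ^ 4 * (jqModC ℤ - 1728) ^ 3

/-- (P) `j(t^r) ∉ k(j(t))` -/
def PrimeStepP (k : Type*) [Field k] (r : ℕ) [NeZero r] : Prop :=
  qExpand k r (jqModC k) ∉ IntermediateField.adjoin k {jqModC k}

/-- (P') over `E = k(j(t^r))` the series `j(t)` and `j(t^(r^2))` are algebraic with the same
minimal polynomial (of degree `r + 1`) -/
def PrimeStepP' (k : Type*) [Field k] (r : ℕ) [NeZero r] : Prop :=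
  IsIntegral (IntermediateField.adjoin k {qExpand k r (jqModC k)}) (jqModC k) ∧
  IsIntegral (IntermediateField.adjoin k {qExpand k r (jqModC k)}) (qExpand k (r ^ 2) (jqModC k)) ∧
  minpoly (IntermediateField.adjoin k {qExpand k r (jqModC k)}) (qExpand k (r ^ 2) (jqModC k)) =
    minpoly (IntermediateField.adjoin k {qExpand k r (jqModC k)}) (jqModC k) ∧
  (minpoly (IntermediateField.adjoin k {qExpand k r (jqModC k)}) (jqModC k)).natDegree = r + 1

/-- the generators `j(t^d)`, `d ∣ N`, over a commutative ring `R` -/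
def divisorExpansionsC (R : Type*) [CommRing R] (N : ℕ) : Set (LaurentSeries R) :=
  {x | ∃ (d : ℕ) (_ : NeZero d), d ∣ N ∧ x = qExpand R d (jqModC R)}

/-- (G) output of the tower package = degree input of the valuation package: `ψ(N)` elements of
the `F_l`-algebra generated by the `j(t^d)`, `d ∣ N`, linearly independent over `F_l(j(t^N))`.
(Under the cusp-`0` embedding `j(q^d) ↦ j(t^(N/d))` the base `j(q)` goes to `j(t^N)`.) -/
def TowerContract (l N : ℕ) [Fact l.Prime] [NeZero N] : Prop :=
  ∃ s : Fin (dedekindPsi N) → LaurentSeries (ZMod l),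
    (∀ i, s i ∈ Algebra.adjoin (ZMod l) (divisorExpansionsC (ZMod l) N)) ∧
    LinearIndependent
      (IntermediateField.adjoin (ZMod l) {qExpand (ZMod l) N (jqModC (ZMod l))}) s

end Contracts

/-! ### Transport of the contracts along ring homomorphisms -/

section Transport

variable {R S : Type*} [CommRing R] [CommRing S]

theorem algebraMap_eq_single (c : R) :
    algebraMap R (LaurentSeries R) c = HahnSeries.single 0 c := by
  have h1 : algebraMap R (PowerSeries R) c = PowerSeries.C c := by simp
  rw [HahnSeries.algebraMap_apply', h1, HahnSeries.ofPowerSeries_C]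
  rfl

theorem coeffMap_comp_aeval (f : R →+* S) (x : LaurentSeries R) :
    (coeffMap f).comp ((Polynomial.aeval x).toRingHom) =
      ((Polynomial.aeval (coeffMap f x)).toRingHom).comp (Polynomial.mapRingHom f) := by
  refine Polynomial.ringHom_ext ?_ ?_
  · intro a
    simp only [RingHom.comp_apply, AlgHom.toRingHom_eq_coe, RingHom.coe_coe, aeval_C,
      coe_mapRingHom, Polynomial.map_C]
    rw [algebraMap_eq_single, algebraMap_eq_single, coeffMap_single]
  · simp

theorem ModEqOver.map {r : ℕ} [NeZero r] {ζ : Rˣ} (h : ModEqOver R r ζ) (f : R →+* S) :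
    ModEqOver S r (Units.map (f : R →* S) ζ) := by
  obtain ⟨Φ, hmon, hΦ⟩ := h
  refine ⟨Φ.map (Polynomial.mapRingHom f), hmon.map _, ?_⟩
  have h1 := congrArg (Polynomial.map (coeffMap f)) hΦ
  rw [Polynomial.map_map, coeffMap_comp_aeval, ← Polynomial.map_map] at h1
  rw [coeffMap_qExpand, coeffMap_jqModC'] at h1
  rw [h1, Polynomial.map_mul, Polynomial.map_sub, Polynomial.map_X, Polynomial.map_C,
    Polynomial.map_prod, coeffMap_qExpand, coeffMap_jqModC']
  congr 1
  refine Finset.prod_congr rfl fun b _ => ?_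
  rw [Polynomial.map_sub, Polynomial.map_X, Polynomial.map_C, coeffMap_rotR, coeffMap_jqModC',
    map_pow]

theorem UnitIntegralOver.map {r : ℕ} [NeZero r] (h : UnitIntegralOver R r) (f : R →+* S) :
    UnitIntegralOver S r := by
  obtain ⟨Ψ₁, Ψ₂, h1, h2, e1, e2⟩ := h
  refine ⟨Ψ₁.map (Polynomial.mapRingHom f), Ψ₂.map (Polynomial.mapRingHom f), h1.map _, h2.map _,
    ?_, ?_⟩
  · have := congrArg (coeffMap f) e1
    rw [map_zero, Polynomial.hom_eval₂, coeffMap_comp_aeval, coeffMap_jqModC', map_mul,
      coeffMap_deltaModC, coeffMap_qExpand, coeffMap_deltaInvModC] at this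
    rw [Polynomial.eval₂_map]
    exact this
  · have := congrArg (coeffMap f) e2
    rw [map_zero, Polynomial.hom_eval₂, coeffMap_comp_aeval, coeffMap_jqModC', map_mul, map_pow,
      map_natCast, map_mul, coeffMap_deltaInvModC, coeffMap_qExpand, coeffMap_deltaModC] at this
    rw [Polynomial.eval₂_map]
    exact this

/-- the theta identity over any commutative ring follows from the one over `ℤ` -/
theorem thetaIdentity_of_contract (h : ThetaIdentityContract) (R : Type*) [CommRing R] :
    (thetaL (jqModC R)) ^ 6 = deltaModC R * (jqModC R) ^ 4 * (jqModC R - 1728) ^ 3 := by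
  have := congrArg (coeffMap (Int.castRingHom R)) h
  rw [map_pow, coeffMap_thetaL, coeffMap_jqModC', map_mul, map_mul, coeffMap_deltaModC, map_pow,
    coeffMap_jqModC', map_pow, map_sub, coeffMap_jqModC'] at this
  rw [this]
  congr 3
  exact map_ofNat (coeffMap (Int.castRingHom R)) 1728

end Transport

end Fermat.Agent.S28
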