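/-
S28 stream [G], package G0 (owner helper10): Laurent series API over a commutative ring / field:
the derivation `θ = t d/dt`, the substitutions `V a : t ↦ t^a` (= prelude `qExpand`) and
`rot c : t ↦ c t` (S24/Rot), their commutation rules, the fixed ring of a rotation, orders.
-/
import Mathlib
import Fermat.Prelude.Def_ModularCurve_JqCoeff
import Fermat.Prelude.Def_ModularCurve_LaurentCoeff
import Fermat.Prelude.Thm_ModularCurve_coeffMap_qExpand
import Fermat.Prelude.Thm_ModularCurve_coeff_jqModC_neg_one
import Fermat.Prelude.Thm_ModularCurve_coeff_jqModC_pow_of_lt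
import Fermat.Prelude.Thm_ModularCurve_coeff_jqModC_pow_self
import Fermat.Agent.S24.Rot

set_option autoImplicit false

noncomputable section

namespace Fermat.Agent.S28

open HahnSeries ModularCurve Fermat.Agent.S24

/-! ### The derivation `θ = t d/dt` -/

section Theta

variable {R : Type*} [CommRing R]

/-- `θ f = t f'`, coefficientwise `aₙ ↦ n aₙ`. -/
def thetaFun (f : LaurentSeries R) : LaurentSeries R where
  coeff n := (n : R) * f.coeff n
  isPWO_support' := f.isPWO_support.mono (by
    intro n hn
    simp only [Function.mem_support, ne_eq] at hn ⊢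
    exact fun h => hn (by rw [h, mul_zero]))

@[simp] theorem thetaFun_coeff (f : LaurentSeries R) (n : ℤ) :
    (thetaFun f).coeff n = (n : R) * f.coeff n := rfl

theorem thetaFun_support_subset (f : LaurentSeries R) : (thetaFun f).support ⊆ f.support := by
  intro n hn
  simp only [HahnSeries.mem_support, thetaFun_coeff, ne_eq] at hn ⊢
  exact fun h => hn (by rw [h, mul_zero])

theorem thetaFun_add (f g : LaurentSeries R) : thetaFun (f + g) = thetaFun f + thetaFun g := by
  ext n; simp [mul_add]

theorem thetaFun_mul (f g : LaurentSeries R) :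
    thetaFun (f * g) = f * thetaFun g + g * thetaFun f := by
  ext n
  rw [thetaFun_coeff, HahnSeries.coeff_add, HahnSeries.coeff_mul,
    HahnSeries.coeff_mul_right' g.isPWO_support (thetaFun_support_subset g) (x := f),
    mul_comm g (thetaFun f),
    HahnSeries.coeff_mul_left' f.isPWO_support (thetaFun_support_subset f) (y := g),
    Finset.mul_sum, ← Finset.sum_add_distrib]
  refine Finset.sum_congr rfl ?_
  rintro ⟨i, j⟩ hij
  have hij' : i + j = n := (Finset.mem_antidiagonal.mp hij).2.2
  simp only [thetaFun_coeff]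
  rw [← hij']
  push_cast
  ring

theorem algebraMap_eq_C (c : R) : algebraMap R (LaurentSeries R) c = HahnSeries.C c := by
  have h1 : algebraMap R (PowerSeries R) c = PowerSeries.C c := by simp
  rw [HahnSeries.algebraMap_apply', h1, HahnSeries.ofPowerSeries_C]

/-- `θ = t d/dt` as an `R`-derivation of `R((t))`. -/
def theta : Derivation R (LaurentSeries R) (LaurentSeries R) where
  toFun := thetaFun
  map_add' := thetaFun_add
  map_smul' c f := by
    ext n
    rw [Algebra.smul_def, algebraMap_eq_C, HahnSeries.C_mul_eq_smul]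
    simp only [RingHom.id_apply, thetaFun_coeff, HahnSeries.coeff_smul, smul_eq_mul]
    ring
  map_one_eq_zero' := by
    ext n
    show (thetaFun (1 : LaurentSeries R)).coeff n = 0
    rw [thetaFun_coeff, HahnSeries.coeff_one]
    split_ifs with h
    · subst h; simp
    · simp
  leibniz' f g := by
    show thetaFun (f * g) = f • thetaFun g + g • thetaFun f
    rw [thetaFun_mul]; rfl

@[simp] theorem theta_coeff (f : LaurentSeries R) (n : ℤ) :
    (theta f).coeff n = (n : R) * f.coeff n := rfl

theorem theta_mul (f g : LaurentSeries R) : theta (f * g) = f * theta g + g * theta f :=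
  thetaFun_mul f g

theorem theta_support_subset (f : LaurentSeries R) : (theta f).support ⊆ f.support :=
  thetaFun_support_subset f

theorem theta_single (n : ℤ) (a : R) :
    theta (HahnSeries.single n a) = HahnSeries.single n ((n : R) * a) := by
  ext m
  rw [theta_coeff, HahnSeries.coeff_single, HahnSeries.coeff_single]
  split_ifs with h
  · subst h; rfl
  · simp

/-- `θ` commutes with coefficient maps. -/
theorem theta_coeffMap {S : Type*} [CommRing S] (φ : R →+* S) (f : LaurentSeries R) :
    theta (coeffMap φ f) = coeffMap φ (theta f) := by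
  ext n
  simp

/-- chain rule for polynomials: `θ (P(x)) = P'(x) θ x`. -/
theorem theta_aeval (P : Polynomial R) (x : LaurentSeries R) :
    theta (Polynomial.aeval x P) = Polynomial.aeval x (Polynomial.derivative P) * theta x := by
  rw [Derivation.map_aeval]; rfl

/-- chain rule for `t ↦ t^a`. -/
theorem theta_qExpand (a : ℕ) [NeZero a] (f : LaurentSeries R) :
    theta (qExpand R a f) = (a : LaurentSeries R) * qExpand R a (theta f) := by
  ext n
  have hC : ((a : LaurentSeries R)) = HahnSeries.C (a : R) := by simp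
  rw [hC, HahnSeries.C_mul_eq_smul, HahnSeries.coeff_smul, smul_eq_mul]
  by_cases hn : (a : ℤ) ∣ n
  · obtain ⟨m, rfl⟩ := hn
    rw [theta_coeff, qExpand_coeff_mul, qExpand_coeff_mul, theta_coeff]
    push_cast
    ring
  · rw [theta_coeff, qExpand_coeff_of_not_dvd a f hn, qExpand_coeff_of_not_dvd a _ hn]
    simp

end Theta

/-! ### Orders and supports -/

section Order

variable {R : Type*} [CommRing R]

theorem order_eq_of_coeff {f : LaurentSeries R} {n : ℤ} (h1 : f.coeff n ≠ 0)
    (h2 : ∀ m < n, f.coeff m = 0) : f.order = n := by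
  have hf : f ≠ 0 := fun h => h1 (by rw [h, HahnSeries.coeff_zero])
  refine le_antisymm (HahnSeries.order_le_of_coeff_ne_zero h1) ?_
  by_contra hlt
  exact hf (HahnSeries.coeff_order_eq_zero.mp (h2 _ (not_le.mp hlt)))

theorem qExpand_ne_zero (a : ℕ) [NeZero a] {f : LaurentSeries R} (hf : f ≠ 0) :
    qExpand R a f ≠ 0 := fun h => hf (qExpand_injective a (by rw [h, map_zero]))

theorem order_qExpand (a : ℕ) [NeZero a] (f : LaurentSeries R) :
    (qExpand R a f).order = (a : ℤ) * f.order := by
  by_cases hf : f = 0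
  · subst hf; simp
  · refine order_eq_of_coeff ?_ ?_
    · rw [qExpand_coeff_mul]; exact fun h => hf (HahnSeries.coeff_order_eq_zero.mp h)
    · intro m hm
      by_cases hd : (a : ℤ) ∣ m
      · obtain ⟨m', rfl⟩ := hd
        rw [qExpand_coeff_mul]
        refine HahnSeries.coeff_eq_zero_of_lt_order ?_
        have ha : (0 : ℤ) < a := by exact_mod_cast Nat.pos_of_ne_zero (NeZero.ne a)
        exact lt_of_mul_lt_mul_left hm ha.le
      · exact qExpand_coeff_of_not_dvd a f hd

/-- contraction `t^(r m) ↦ t^m` (left inverse of `qExpand r`). -/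
def qContract (r : ℕ) [NeZero r] (f : LaurentSeries R) : LaurentSeries R :=
  HahnSeries.ofSuppBddBelow (fun m : ℤ => f.coeff ((r : ℤ) * m))
    ⟨min f.order 0, by
      intro m hm
      by_contra hlt
      rw [not_le] at hlt
      refine hm (HahnSeries.coeff_eq_zero_of_lt_order ?_)
      have hr : (1 : ℤ) ≤ r := by exact_mod_cast Nat.one_le_iff_ne_zero.mpr (NeZero.ne r)
      have h0 : m < 0 := lt_of_lt_of_le hlt (min_le_right _ _)
      have h1 : m < f.order := lt_of_lt_of_le hlt (min_le_left _ _)
      nlinarith⟩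

@[simp] theorem qContract_coeff (r : ℕ) [NeZero r] (f : LaurentSeries R) (m : ℤ) :
    (qContract r f).coeff m = f.coeff ((r : ℤ) * m) := rfl

theorem qContract_qExpand (r : ℕ) [NeZero r] (f : LaurentSeries R) :
    qContract r (qExpand R r f) = f := by
  ext m; simp

theorem qExpand_qContract (r : ℕ) [NeZero r] {f : LaurentSeries R}
    (hf : ∀ n, f.coeff n ≠ 0 → (r : ℤ) ∣ n) : qExpand R r (qContract r f) = f := by
  ext n
  by_cases hd : (r : ℤ) ∣ n
  · obtain ⟨m, rfl⟩ := hd
    rw [qExpand_coeff_mul, qContract_coeff]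
  · rw [qExpand_coeff_of_not_dvd r _ hd]
    by_contra h
    exact hd (hf n (Ne.symm h))

theorem mem_range_qExpand_iff (r : ℕ) [NeZero r] (f : LaurentSeries R) :
    f ∈ Set.range (qExpand R r) ↔ ∀ n, f.coeff n ≠ 0 → (r : ℤ) ∣ n := by
  constructor
  · rintro ⟨g, rfl⟩ n hn
    by_contra hd
    exact hn (qExpand_coeff_of_not_dvd r g hd)
  · intro hf
    exact ⟨qContract r f, qExpand_qContract r hf⟩

theorem coeffMap_jqModC {S : Type*} [CommRing S] (φ : R →+* S) :
    coeffMap φ (jqModC R) = jqModC S := map_jqModC φ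

end Order

/-! ### Rotations and substitutions over a field -/

section Rot

variable {k : Type*} [Field k]

theorem rot_qExpand (c : kˣ) (a : ℕ) [NeZero a] (f : LaurentSeries k) :
    rot c (qExpand k a f) = qExpand k a (rot (c ^ a) f) := by
  ext n
  by_cases hd : (a : ℤ) ∣ n
  · obtain ⟨m, rfl⟩ := hd
    rw [rot_coeff, qExpand_coeff_mul, qExpand_coeff_mul, rot_coeff, zpow_mul, zpow_natCast]
  · rw [rot_coeff, qExpand_coeff_of_not_dvd a f hd, qExpand_coeff_of_not_dvd a _ hd, mul_zero]

theorem rot_eq_self_iff {ζ : kˣ} {r : ℕ} (hζ : IsPrimitiveRoot ζ r) (f : LaurentSeries k) :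
    rot ζ f = f ↔ ∀ n, f.coeff n ≠ 0 → (r : ℤ) ∣ n := by
  constructor
  · intro h n hn
    exact dvd_of_rot_eq_self hζ h hn
  · intro h
    ext n
    rw [rot_coeff]
    by_cases hn : f.coeff n = 0
    · rw [hn, mul_zero]
    · have h1 : ζ ^ n = 1 := (hζ.zpow_eq_one_iff_dvd n).mpr (h n hn)
      rw [h1, Units.val_one, one_mul]

/-- the range of `t ↦ t^r` is the fixed ring of the rotation by a primitive `r`-th root of unity. -/
theorem mem_range_qExpand_iff_rot {ζ : kˣ} {r : ℕ} [NeZero r] (hζ : IsPrimitiveRoot ζ r)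
    (f : LaurentSeries k) : f ∈ Set.range (qExpand k r) ↔ rot ζ f = f := by
  rw [mem_range_qExpand_iff, rot_eq_self_iff hζ]

theorem rot_qExpand_of_pow_eq_one {ζ : kˣ} {r : ℕ} [NeZero r] (hζ : ζ ^ r = 1)
    (f : LaurentSeries k) : rot ζ (qExpand k r f) = qExpand k r f := by
  rw [rot_qExpand, hζ, rot_one_apply]

theorem theta_rot (c : kˣ) (f : LaurentSeries k) : theta (rot c f) = rot c (theta f) := by
  ext n
  simp only [theta_coeff, rot_coeff]
  ring

theorem rot_coeffMap {k' : Type*} [Field k'] (φ : k →+* k') (c : kˣ) (f : LaurentSeries k) :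
    rot (Units.map (φ : k →* k') c) (coeffMap φ f) = coeffMap φ (rot c f) := by
  ext n
  simp only [rot_coeff, coeffMap_coeff, map_mul]
  congr 1
  rw [← map_zpow]
  rfl

end Rot

end Fermat.Agent.S28
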