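/-
S28 package [B2] (owner: helper2): the prime step.

For a field `k`, a prime `r` invertible in `k`, given the unit integrality (I2) and the theta
identity (I3) over `k`:  (P)  `j(t^r) ∉ k(j(t))`.
Given moreover the modular equation (I1) over `k` for a primitive `r`-th root of unity:
(P')  over `E = k(j(t^r))` the series `j(t)` and `j(t^(r^2))` have the same minimal polynomial,
of degree `r + 1`.
-/
import Mathlib
import Fermat.Agent.S28.Defs
import Fermat.Agent.S28.LaurentAPI

set_option autoImplicit false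

noncomputable section

namespace Fermat.Agent.S28

open HahnSeries ModularCurve Polynomial IntermediateField

/-! ### Generalities on `k[x] ⊆ k(x)` for a transcendental `x` -/

section Transc

variable {k L : Type*} [Field k] [Field L] [Algebra k L]

open algebraAdjoinAdjoin in
/-- `k[x]` is integrally closed in `k(x)` -/
theorem mem_algebra_adjoin_of_isIntegral {x : L} (hx : Transcendental k x) {y : L}
    (hy : y ∈ k⟮x⟯) (hint : IsIntegral (Algebra.adjoin k {x}) y) :
    y ∈ Algebra.adjoin k {x} := by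
  have : IsIntegrallyClosed (Algebra.adjoin k {x}) :=
    IsIntegrallyClosed.of_equiv (Polynomial.algEquivOfTranscendental k x hx).toRingEquiv
  have hint' : IsIntegral (Algebra.adjoin k {x}) (⟨y, hy⟩ : k⟮x⟯) := by
    refine (isIntegral_algHom_iff (IsScalarTower.toAlgHom (Algebra.adjoin k {x}) k⟮x⟯ L)
      Subtype.val_injective).mp ?_
    exact hint
  obtain ⟨z, hz⟩ := (IsIntegrallyClosed.isIntegral_iff (K := k⟮x⟯)).mp hint'
  have : (z : L) = y := congrArg Subtype.val hz
  exact this ▸ z.2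

/-- the units of `k[x]` are the nonzero constants -/
theorem exists_const_of_mul_eq_one {x : L} (hx : Transcendental k x) {u v : L}
    (hu : u ∈ Algebra.adjoin k {x}) (hv : v ∈ Algebra.adjoin k {x}) (huv : u * v = 1) :
    ∃ c : k, u = algebraMap k L c := by
  rw [Algebra.adjoin_singleton_eq_range_aeval] at hu hv
  obtain ⟨P, rfl⟩ := hu
  obtain ⟨Q, rfl⟩ := hv
  have hinj := transcendental_iff_injective.mp hx
  have hPQ : P * Q = 1 := by
    apply hinj
    rw [map_mul, map_one]
    exact huv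
  obtain ⟨c, -, hc⟩ := Polynomial.isUnit_iff.mp (IsUnit.of_mul_eq_one _ hPQ)
  exact ⟨c, by rw [← hc]; simp⟩

end Transc

/-! ### Orders of `Δ`, `Δ⁻¹` -/

section DeltaOrder

variable (k : Type*) [Field k]

theorem coeff_deltaModC (m : ℤ) :
    (deltaModC k).coeff m =
      (HahnSeries.ofPowerSeries ℤ k (dedekindEtaUnit.map (Int.castRingHom k))).coeff (m - 1) := by
  rw [deltaModC, HahnSeries.coeff_single_mul, one_mul]

theorem coeff_deltaInvModC (m : ℤ) :
    (deltaInvModC k).coeff m =
      (HahnSeries.ofPowerSeries ℤ k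
        (dedekindEtaUnitInv.map (Int.castRingHom k))).coeff (m + 1) := by
  rw [deltaInvModC, HahnSeries.coeff_single_mul, one_mul, sub_neg_eq_add]

theorem order_deltaModC : (deltaModC k).order = 1 := by
  refine order_eq_of_coeff ?_ ?_
  · rw [coeff_deltaModC, sub_self, show (0 : ℤ) = ((0 : ℕ) : ℤ) from rfl,
      HahnSeries.ofPowerSeries_apply_coeff, PowerSeries.coeff_map,
      PowerSeries.coeff_zero_eq_constantCoeff, constantCoeff_dedekindEtaUnit]
    simp
  · intro m hm
    rw [coeff_deltaModC]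
    exact ofPowerSeries_coeff_of_neg _ (by omega)

theorem order_deltaInvModC : (deltaInvModC k).order = -1 := by
  refine order_eq_of_coeff ?_ ?_
  · rw [coeff_deltaInvModC, neg_add_cancel, show (0 : ℤ) = ((0 : ℕ) : ℤ) from rfl,
      HahnSeries.ofPowerSeries_apply_coeff, PowerSeries.coeff_map,
      PowerSeries.coeff_zero_eq_constantCoeff, constantCoeff_dedekindEtaUnitInv]
    simp
  · intro m hm
    rw [coeff_deltaInvModC]
    exact ofPowerSeries_coeff_of_neg _ (by omega)

theorem deltaModC_ne_zero : deltaModC k ≠ 0 := by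
  intro h
  have := order_deltaModC k
  rw [h, HahnSeries.order_zero] at this
  exact zero_ne_one this

theorem deltaInvModC_ne_zero : deltaInvModC k ≠ 0 := by
  intro h
  have := order_deltaInvModC k
  rw [h, HahnSeries.order_zero] at this
  omega

end DeltaOrder

/-! ### (P) -/

section P

variable {k : Type*} [Field k]

theorem transcendental_jqModC' : Transcendental k (jqModC k) :=
  P2MW.S_ModularCurve_coeff_jqModC_neg_one.ModularCurve.CharLRows.transcendental_jqModC k

theorem thetaL_inv {a : LaurentSeries k} (ha : a ≠ 0) :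
    thetaL a⁻¹ = -(a⁻¹ * a⁻¹ * thetaL a) := by
  have h := thetaL_mul a a⁻¹
  rw [mul_inv_cancel₀ ha, thetaL_one] at h
  have h2 : a * thetaL a⁻¹ = -(thetaL a * a⁻¹) := by
    rw [eq_neg_iff_add_eq_zero, add_comm]; exact h.symm
  calc thetaL a⁻¹ = a⁻¹ * (a * thetaL a⁻¹) := by
        rw [← mul_assoc, inv_mul_cancel₀ ha, one_mul]
    _ = -(a⁻¹ * a⁻¹ * thetaL a) := by rw [h2]; ring

/-- `θ` maps `k(x)` into `k(x) · θ x` -/
theorem exists_thetaL_eq_mul (x : LaurentSeries k) {y : LaurentSeries k} (hy : y ∈ k⟮x⟯) :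
    ∃ ρ ∈ k⟮x⟯, thetaL y = ρ * thetaL x := by
  induction hy using IntermediateField.adjoin_induction with
  | mem z hz =>
    rw [Set.mem_singleton_iff] at hz
    subst hz
    exact ⟨1, one_mem _, (one_mul _).symm⟩
  | algebraMap c =>
    refine ⟨0, zero_mem _, ?_⟩
    rw [zero_mul, algebraMap_eq_single, thetaL_single]
    simp
  | add a b ha hb iha ihb =>
    obtain ⟨ρ₁, h₁, e₁⟩ := iha
    obtain ⟨ρ₂, h₂, e₂⟩ := ihb
    exact ⟨ρ₁ + ρ₂, add_mem h₁ h₂, by rw [map_add, e₁, e₂, add_mul]⟩
  | inv a ha iha =>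
    obtain ⟨ρ₁, h₁, e₁⟩ := iha
    by_cases ha0 : a = 0
    · subst ha0
      exact ⟨0, zero_mem _, by simp⟩
    · refine ⟨-(a⁻¹ * a⁻¹ * ρ₁), neg_mem (mul_mem (mul_mem (inv_mem ha) (inv_mem ha)) h₁), ?_⟩
      rw [thetaL_inv ha0, e₁]
      ring
  | mul a b ha hb iha ihb =>
    obtain ⟨ρ₁, h₁, e₁⟩ := iha
    obtain ⟨ρ₂, h₂, e₂⟩ := ihb
    refine ⟨ρ₁ * b + a * ρ₂, add_mem (mul_mem h₁ hb) (mul_mem ha h₂), ?_⟩
    rw [thetaL_mul, e₁, e₂]
    ring

/-- a root of a monic polynomial over `k[X]` evaluated at `x` is integral over `k[x]` -/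
theorem isIntegral_adjoin_of_eval₂ (x : LaurentSeries k) {Ψ : Polynomial (Polynomial k)}
    (hΨ : Ψ.Monic) {w : LaurentSeries k}
    (h : Ψ.eval₂ ((Polynomial.aeval x).toRingHom) w = 0) :
    IsIntegral (Algebra.adjoin k {x}) w := by
  let φ : Polynomial k →+* Algebra.adjoin k {x} :=
    (Polynomial.aeval (⟨x, Algebra.self_mem_adjoin_singleton k x⟩ : Algebra.adjoin k {x})).toRingHom
  have hφ : (algebraMap (Algebra.adjoin k {x}) (LaurentSeries k)).comp φ =
      (Polynomial.aeval x).toRingHom := by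
    refine Polynomial.ringHom_ext ?_ ?_
    · intro a
      simp [φ]
    · simp [φ]
  refine ⟨Ψ.map φ, hΨ.map φ, ?_⟩
  rw [Polynomial.eval₂_map, hφ]
  exact h

theorem natCast_laurent_eq (n : ℕ) :
    (n : LaurentSeries k) = algebraMap k (LaurentSeries k) (n : k) := by
  rw [map_natCast]

theorem natCast_laurent_ne_zero {n : ℕ} (hn : (n : k) ≠ 0) : (n : LaurentSeries k) ≠ 0 := by
  rw [natCast_laurent_eq]
  exact fun h => hn ((algebraMap k (LaurentSeries k)).injective (by rw [h, map_zero]))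

theorem qExpand_jqModC_sub_ofNat_ne_zero (r : ℕ) [NeZero r] (n : ℕ) [n.AtLeastTwo] :
    qExpand k r (jqModC k) - (OfNat.ofNat n : LaurentSeries k) ≠ 0 := by
  intro h
  have h1 := congrArg (fun x => x.coeff ((r : ℤ) * (-1))) h
  simp only [HahnSeries.coeff_sub, HahnSeries.coeff_zero, qExpand_coeff_mul] at h1
  rw [ModularCurve.coeff_jqModC_neg_one] at h1
  have h2 : (OfNat.ofNat n : LaurentSeries k) = HahnSeries.single 0 (OfNat.ofNat n : k) := by
    rw [← HahnSeries.C_apply, map_ofNat]
  rw [h2, HahnSeries.coeff_single_of_ne] at h1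
  · rw [sub_zero] at h1
    exact one_ne_zero h1
  · have : (r : ℤ) ≠ 0 := by exact_mod_cast NeZero.ne r
    simpa using this

/-- (P) : `j(t^r) ∉ k(j(t))` for a prime `r` invertible in `k`. -/
theorem primeStepP (r : ℕ) [NeZero r] (hr : r.Prime) (hrk : (r : k) ≠ 0)
    (hU : UnitIntegralOver k r)
    (hθ : (thetaL (jqModC k)) ^ 6 = deltaModC k * (jqModC k) ^ 4 * (jqModC k - 1728) ^ 3) :
    PrimeStepP k r := by
  intro hmem
  have htr : Transcendental k (jqModC k) := transcendental_jqModC'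
  obtain ⟨ρ, hρ, hρe⟩ := exists_thetaL_eq_mul (jqModC k) hmem
  have hjmem : jqModC k ∈ k⟮jqModC k⟯ := mem_adjoin_simple_self k _
  have h1 : thetaL (qExpand k r (jqModC k)) =
      (r : LaurentSeries k) * qExpand k r (thetaL (jqModC k)) := thetaL_qExpand r _
  have h2 : (qExpand k r (thetaL (jqModC k))) ^ 6 =
      qExpand k r (deltaModC k) * (qExpand k r (jqModC k)) ^ 4 *
        (qExpand k r (jqModC k) - 1728) ^ 3 := by
    have := congrArg (qExpand k r) hθ
    rw [map_pow, map_mul, map_mul, map_pow, map_pow, map_sub, map_ofNat] at this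
    exact this
  obtain ⟨Ψ₁, Ψ₂, m1, m2, e1, e2⟩ := hU
  have hw1 := isIntegral_adjoin_of_eval₂ (jqModC k) m1 e1
  have hw2 := isIntegral_adjoin_of_eval₂ (jqModC k) m2 e2
  generalize hj : jqModC k = j at *
  generalize hjr : qExpand k r j = jr at *
  set u := qExpand k r (deltaModC k) * deltaInvModC k with hu
  have h3 : ρ ^ 6 * (j ^ 4 * (j - 1728) ^ 3) =
      (r : LaurentSeries k) ^ 6 * (jr ^ 4 * (jr - 1728) ^ 3) * u := by
    have e : (ρ * thetaL j) ^ 6 = ((r : LaurentSeries k) * qExpand k r (thetaL j)) ^ 6 := by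
      rw [← hρe, h1]
    rw [mul_pow, mul_pow, hθ, h2] at e
    have e' : ρ ^ 6 * (deltaModC k * j ^ 4 * (j - 1728) ^ 3) * deltaInvModC k =
        (r : LaurentSeries k) ^ 6 *
          (qExpand k r (deltaModC k) * jr ^ 4 * (jr - 1728) ^ 3) * deltaInvModC k := by
      rw [e]
    calc ρ ^ 6 * (j ^ 4 * (j - 1728) ^ 3)
        = ρ ^ 6 * (deltaModC k * j ^ 4 * (j - 1728) ^ 3) * deltaInvModC k := by
          rw [show ρ ^ 6 * (deltaModC k * j ^ 4 * (j - 1728) ^ 3) * deltaInvModC k =
            ρ ^ 6 * (j ^ 4 * (j - 1728) ^ 3) * (deltaModC k * deltaInvModC k) by ring,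
            deltaModC_mul_inv, mul_one]
      _ = _ := by rw [e', hu]; ring
  have hrΛ : (r : LaurentSeries k) ≠ 0 := natCast_laurent_ne_zero hrk
  have hjr0 : jr ≠ 0 := by
    rw [← hjr, ← hj]
    exact qExpand_ne_zero r (fun h => by
      have := ModularCurve.coeff_jqModC_neg_one k
      rw [h, HahnSeries.coeff_zero] at this
      exact zero_ne_one this)
  have hjr1 : jr - 1728 ≠ 0 := by
    rw [← hjr, ← hj]
    exact qExpand_jqModC_sub_ofNat_ne_zero r 1728
  have hd : (r : LaurentSeries k) ^ 6 * (jr ^ 4 * (jr - 1728) ^ 3) ≠ 0 :=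
    mul_ne_zero (pow_ne_zero _ hrΛ) (mul_ne_zero (pow_ne_zero _ hjr0) (pow_ne_zero _ hjr1))
  have hrmem : (r : LaurentSeries k) ∈ k⟮j⟯ := IntermediateField.natCast_mem _ r
  have h1728 : (1728 : LaurentSeries k) ∈ k⟮j⟯ := ofNat_mem _ 1728
  have huK : u ∈ k⟮j⟯ := by
    have : u = (ρ ^ 6 * (j ^ 4 * (j - 1728) ^ 3)) /
        ((r : LaurentSeries k) ^ 6 * (jr ^ 4 * (jr - 1728) ^ 3)) := by
      rw [h3, mul_div_cancel_left₀ _ hd]
    rw [this]
    exact div_mem (mul_mem (pow_mem hρ 6)
      (mul_mem (pow_mem hjmem 4) (pow_mem (sub_mem hjmem h1728) 3)))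
      (mul_mem (pow_mem hrmem 6) (mul_mem (pow_mem hmem 4) (pow_mem (sub_mem hmem h1728) 3)))
  have huw : u * (deltaModC k * qExpand k r (deltaInvModC k)) = 1 := by
    calc u * (deltaModC k * qExpand k r (deltaInvModC k))
        = qExpand k r (deltaModC k * deltaInvModC k) * (deltaInvModC k * deltaModC k) := by
          rw [map_mul, hu]; ring
      _ = 1 := by rw [deltaModC_mul_inv, deltaInvModC_mul, map_one, one_mul]
  have hw1K : deltaModC k * qExpand k r (deltaInvModC k) ∈ k⟮j⟯ := by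
    rw [eq_inv_of_mul_eq_one_right huw]
    exact inv_mem huK
  have hw2K : (r : LaurentSeries k) ^ 12 * u ∈ k⟮j⟯ := mul_mem (pow_mem hrmem 12) huK
  have hw1A := mem_algebra_adjoin_of_isIntegral htr hw1K hw1
  have hw2A := mem_algebra_adjoin_of_isIntegral htr hw2K hw2
  have huA : u ∈ Algebra.adjoin k {j} := by
    have : u = algebraMap k (LaurentSeries k) (((r : k)⁻¹) ^ 12) *
        ((r : LaurentSeries k) ^ 12 * u) := by
      rw [natCast_laurent_eq, ← map_pow, ← mul_assoc, ← map_mul, ← mul_pow,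
        inv_mul_cancel₀ hrk, one_pow, map_one, one_mul]
    rw [this]
    exact Subalgebra.mul_mem _ (Subalgebra.algebraMap_mem _ _) hw2A
  obtain ⟨c, hc⟩ := exists_const_of_mul_eq_one htr huA hw1A huw
  have hu0 : u ≠ 0 := fun h => by rw [h, zero_mul] at huw; exact zero_ne_one huw
  have hc0 : c ≠ 0 := fun h => hu0 (by rw [hc, h, map_zero])
  have ho1 : u.order = (r : ℤ) * 1 + (-1) := by
    rw [hu, HahnSeries.order_mul (qExpand_ne_zero r (deltaModC_ne_zero k))
      (deltaInvModC_ne_zero k), order_qExpand, order_deltaModC, order_deltaInvModC]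
  have ho2 : u.order = 0 := by
    rw [hc, algebraMap_eq_single, HahnSeries.order_single hc0]
  have := hr.one_lt
  omega

end P

/-! ### (P') -/

section P'

variable {k : Type*} [Field k]

/-- `V_r` as a `k`-algebra endomorphism of `k((t))` -/
def qExpandAlg (k : Type*) [Field k] (r : ℕ) [NeZero r] :
    LaurentSeries k →ₐ[k] LaurentSeries k where
  __ := qExpand k r
  commutes' c := by
    show qExpand k r (algebraMap k (LaurentSeries k) c) = algebraMap k (LaurentSeries k) c
    rw [algebraMap_eq_single, qExpand_single, mul_zero]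

@[simp] theorem qExpandAlg_apply (r : ℕ) [NeZero r] (u : LaurentSeries k) :
    qExpandAlg k r u = qExpand k r u := rfl

/-- descent along the injective `V_r` -/
theorem mem_adjoin_of_qExpand_mem (r : ℕ) [NeZero r] {x y : LaurentSeries k}
    (h : qExpand k r y ∈ k⟮qExpand k r x⟯) : y ∈ k⟮x⟯ := by
  have hmap : (k⟮x⟯).map (qExpandAlg k r) = k⟮qExpand k r x⟯ := by
    rw [IntermediateField.adjoin_map, Set.image_singleton, qExpandAlg_apply]
  rw [← hmap] at h
  obtain ⟨z, hz, hzy⟩ := h
  have : z = y := qExpand_injective r hzy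
  exact this ▸ hz

/-- a rotation by an `r`-th root of unity fixes `k(u(t^r))` pointwise -/
theorem rotR_eq_self_of_mem_adjoin {r : ℕ} [NeZero r] {ξ : kˣ} (hξ : ξ ^ r = 1)
    (u : LaurentSeries k) {x : LaurentSeries k} (hx : x ∈ k⟮qExpand k r u⟯) :
    rotR ξ x = x := by
  induction hx using IntermediateField.adjoin_induction with
  | mem z hz =>
    rw [Set.mem_singleton_iff] at hz
    subst hz
    exact rotR_qExpand_of_pow_eq_one hξ u
  | algebraMap c =>
    rw [algebraMap_eq_single, rotR_single]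
    simp
  | add a b ha hb iha ihb => rw [map_add, iha, ihb]
  | inv a ha iha => rw [map_inv₀, iha]
  | mul a b ha hb iha ihb => rw [map_mul, iha, ihb]

theorem aeval_rotR_of_mem_adjoin {r : ℕ} [NeZero r] {ξ : kˣ} (hξ : ξ ^ r = 1)
    (u : LaurentSeries k) (p : Polynomial (k⟮qExpand k r u⟯)) (y : LaurentSeries k) :
    Polynomial.aeval (rotR ξ y) p = rotR ξ (Polynomial.aeval y p) := by
  rw [Polynomial.aeval_def, Polynomial.aeval_def, Polynomial.hom_eval₂]
  congr 1
  refine RingHom.ext fun x => ?_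
  exact (rotR_eq_self_of_mem_adjoin hξ u x.2).symm

theorem coeff_rotR_jqModC_neg_one (ξ : kˣ) :
    (rotR ξ (jqModC k)).coeff (-1) = ((ξ⁻¹ : kˣ) : k) := by
  rw [rotR_coeff, ModularCurve.coeff_jqModC_neg_one, mul_one, zpow_neg_one]

/-- (P') from (P) and the modular equation. -/
theorem primeStepP' (r : ℕ) [NeZero r] (hr : r.Prime) {ζ : kˣ} (hζ : IsPrimitiveRoot ζ r)
    (hΦ : ModEqOver k r ζ) (hP : PrimeStepP k r) : PrimeStepP' k r := by
  classical
  obtain ⟨Φ, hmon, hΦ⟩ := hΦ
  -- notation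
  set j := jqModC k with hj
  set jr := qExpand k r j with hjr
  set jrr := qExpand k (r ^ 2) j with hjrr
  let ψ : Polynomial k →+* k⟮jr⟯ :=
    (Polynomial.aeval (⟨jr, mem_adjoin_simple_self k jr⟩ : k⟮jr⟯)).toRingHom
  have hψ : (algebraMap k⟮jr⟯ (LaurentSeries k)).comp ψ = (Polynomial.aeval jr).toRingHom := by
    refine Polynomial.ringHom_ext ?_ ?_
    · intro a
      simp [ψ]
    · simp [ψ]
  set F : Polynomial k⟮jr⟯ := Φ.map ψ with hF
  have hFmon : F.Monic := hmon.map ψ
  have hFmap : F.map (algebraMap k⟮jr⟯ (LaurentSeries k)) =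
      (X - Polynomial.C jrr) * ∏ b ∈ Finset.range r, (X - Polynomial.C (rotR (ζ ^ b) j)) := by
    rw [hF, Polynomial.map_map, hψ, hΦ]
  have hFdeg : F.natDegree = r + 1 := by
    have h1 : (F.map (algebraMap k⟮jr⟯ (LaurentSeries k))).natDegree = F.natDegree :=
      Polynomial.natDegree_map _
    rw [← h1, hFmap, Polynomial.natDegree_mul (Polynomial.X_sub_C_ne_zero _)
      (Finset.prod_ne_zero_iff.mpr fun b _ => Polynomial.X_sub_C_ne_zero _),
      Polynomial.natDegree_X_sub_C, Polynomial.natDegree_prod _ _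
        (fun b _ => Polynomial.X_sub_C_ne_zero _)]
    simp [add_comm]
  -- the roots
  have hroot : ∀ b ∈ Finset.range r, Polynomial.aeval (rotR (ζ ^ b) j) F = 0 := by
    intro b hb
    rw [Polynomial.aeval_def, ← Polynomial.eval_map, hFmap, Polynomial.eval_mul,
      Polynomial.eval_prod, Finset.prod_eq_zero hb (by simp), mul_zero]
  have hrootrr : Polynomial.aeval jrr F = 0 := by
    rw [Polynomial.aeval_def, ← Polynomial.eval_map, hFmap, Polynomial.eval_mul]
    simp
  have hjroot : Polynomial.aeval j F = 0 := by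
    have := hroot 0 (Finset.mem_range.mpr hr.pos)
    rwa [pow_zero, rotR_one_apply] at this
  have hjint : IsIntegral k⟮jr⟯ j := ⟨F, hFmon, hjroot⟩
  have hjrrint : IsIntegral k⟮jr⟯ jrr := ⟨F, hFmon, hrootrr⟩
  -- the minimal polynomial of `j`
  set m := minpoly k⟮jr⟯ j with hm
  have hmmon : m.Monic := minpoly.monic hjint
  have hm0 : m ≠ 0 := hmmon.ne_zero
  obtain ⟨g, hg⟩ : m ∣ F := minpoly.dvd _ _ hjroot
  have hmroot : ∀ b, Polynomial.aeval (rotR (ζ ^ b) j) m = 0 := by
    intro b
    have hξ : (ζ ^ b) ^ r = 1 := by rw [← pow_mul, mul_comm, pow_mul, hζ.pow_eq_one, one_pow]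
    rw [aeval_rotR_of_mem_adjoin hξ j m j, hm, minpoly.aeval, map_zero]
  set mΛ := m.map (algebraMap k⟮jr⟯ (LaurentSeries k)) with hmΛ
  have hmΛ0 : mΛ ≠ 0 := (hmmon.map _).ne_zero
  have hmΛdeg : mΛ.natDegree = m.natDegree := Polynomial.natDegree_map _
  -- distinctness
  have hcoeff : ∀ b : ℕ, (rotR (ζ ^ b) j).coeff (-1) = (((ζ ^ b)⁻¹ : kˣ) : k) :=
    fun b => coeff_rotR_jqModC_neg_one _
  have hinj : Set.InjOn (fun b : ℕ => rotR (ζ ^ b) j) (Finset.range r : Set ℕ) := by
    intro a ha b hb hab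
    have h1 := congrArg (fun x => x.coeff (-1)) hab
    simp only [hcoeff] at h1
    have h2 : ζ ^ a = ζ ^ b := inv_injective (Units.ext h1)
    exact hζ.pow_inj (Finset.mem_range.mp ha) (Finset.mem_range.mp hb) h2
  set S : Finset (LaurentSeries k) := (Finset.range r).image (fun b : ℕ => rotR (ζ ^ b) j) with hS
  have hScard : S.card = r := by
    rw [hS, Finset.card_image_of_injOn hinj, Finset.card_range]
  have hSroots : ∀ x ∈ S, x ∈ mΛ.roots := by
    intro x hx
    obtain ⟨b, -, rfl⟩ := Finset.mem_image.mp hx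
    rw [Polynomial.mem_roots hmΛ0, Polynomial.IsRoot, hmΛ, Polynomial.eval_map,
      ← Polynomial.aeval_def]
    exact hmroot b
  have hjrrS : jrr ∉ S := by
    intro hx
    obtain ⟨b, -, hb⟩ := Finset.mem_image.mp hx
    have h1 := congrArg (fun x => x.coeff (-1)) hb
    simp only [hcoeff] at h1
    have h2 : jrr.coeff (-1) = 0 := by
      rw [hjrr]
      refine qExpand_coeff_of_not_dvd (r ^ 2) j ?_
      intro hdvd
      have h3 : ((r ^ 2 : ℕ) : ℤ) ∣ 1 := by simpa using hdvd
      have h4 : r ^ 2 ∣ 1 := by exact_mod_cast h3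
      have h5 : r ∣ 1 := (dvd_pow_self r two_ne_zero).trans h4
      exact hr.one_lt.ne' (Nat.dvd_one.mp h5)
    rw [h2] at h1
    exact Units.ne_zero _ h1
  have hrle : r ≤ m.natDegree := by
    rw [← hmΛdeg, ← hScard]
    exact Polynomial.card_le_degree_of_subset_roots (fun x hx => hSroots x hx)
  have hg0 : g ≠ 0 := by
    rintro rfl
    rw [mul_zero] at hg
    exact hFmon.ne_zero hg
  have hdegsum : m.natDegree + g.natDegree = r + 1 := by
    rw [← hFdeg, hg, Polynomial.natDegree_mul hm0 hg0]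
  have hgmon : g.Monic := hmmon.of_mul_monic_left (hg ▸ hFmon)
  -- `jrr` is a root of `m`
  have hcase : Polynomial.aeval jrr m = 0 := by
    have h1 : Polynomial.aeval jrr m * Polynomial.aeval jrr g = 0 := by
      rw [← map_mul, ← hg]; exact hrootrr
    rcases mul_eq_zero.mp h1 with h | h
    · exact h
    · exfalso
      have hgle : g.natDegree ≤ 1 := by omega
      rcases Nat.le_one_iff_eq_zero_or_eq_one.mp hgle with h0 | h1'
      · rw [Polynomial.eq_one_of_monic_natDegree_zero hgmon h0, map_one] at h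
        exact one_ne_zero h
      · rw [hgmon.eq_X_add_C h1', map_add, Polynomial.aeval_X, Polynomial.aeval_C] at h
        have hmem : jrr ∈ k⟮jr⟯ := by
          have : jrr = ((-(g.coeff 0) : k⟮jr⟯) : LaurentSeries k) := by
            rw [eq_neg_of_add_eq_zero_left h]; rfl
          rw [this]
          exact SetLike.coe_mem _
        apply hP
        refine mem_adjoin_of_qExpand_mem r (x := j) (y := jr) ?_
        have : qExpand k r jr = jrr := by
          rw [hjr, qExpand_qExpand, hjrr]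
          exact qExpand_congr (by ring) j
        rw [this]
        exact hmem
  have hle : r + 1 ≤ m.natDegree := by
    have hS' : ∀ x ∈ insert jrr S, x ∈ mΛ.roots := by
      intro x hx
      rcases Finset.mem_insert.mp hx with rfl | hx
      · rw [Polynomial.mem_roots hmΛ0, Polynomial.IsRoot, hmΛ, Polynomial.eval_map,
          ← Polynomial.aeval_def]
        exact hcase
      · exact hSroots x hx
    have := Polynomial.card_le_degree_of_subset_roots (p := mΛ) (Z := insert jrr S)
      (fun x hx => hS' x hx)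
    rwa [Finset.card_insert_of_notMem hjrrS, hScard, hmΛdeg] at this
  have hFm : F = m :=
    Polynomial.eq_of_monic_of_dvd_of_natDegree_le hmmon hFmon ⟨g, hg⟩ (by omega)
  refine ⟨hjint, hjrrint, ?_, ?_⟩
  · exact (minpoly.eq_of_irreducible_of_monic (minpoly.irreducible hjint) hcase hmmon).symm
  · rw [← hm, ← hFm, hFdeg]

end P'

/-! ### Assembly from the characteristic zero contracts -/

section Assembly

/-- a primitive `r`-th root of unity among the algebraic integers -/
theorem exists_primitiveRoot_R0 (r : ℕ) [NeZero r] : ∃ ζ : R0ˣ, IsPrimitiveRoot ζ r := by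
  have hr0 : r ≠ 0 := NeZero.ne r
  have hprim := Complex.isPrimitiveRoot_exp r hr0
  have hint : IsIntegral ℤ (Complex.exp (2 * Real.pi * Complex.I / r)) :=
    hprim.isIntegral (Nat.pos_of_ne_zero hr0)
  let z : R0 := ⟨_, hint⟩
  have hz : IsPrimitiveRoot z r :=
    IsPrimitiveRoot.of_map_of_injective (f := (integralClosure ℤ ℂ).val)
      (h := hprim) Subtype.val_injective
  exact ⟨Units.ofPowEqOne z r hz.pow_eq_one hr0, IsPrimitiveRoot.coe_units_iff.mp hz⟩

/-- primitive roots of unity stay primitive under a ring hom into a field where `r ≠ 0` -/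
theorem isPrimitiveRoot_units_map {A : Type*} [CommRing A] [IsDomain A] {k : Type*} [Field k]
    (π : A →+* k) {r : ℕ} [NeZero r] (hrk : (r : k) ≠ 0) {ζ : Aˣ} (hζ : IsPrimitiveRoot ζ r) :
    IsPrimitiveRoot (Units.map (π : A →* k) ζ) r := by
  have : NeZero (r : k) := ⟨hrk⟩
  have h1 : IsPrimitiveRoot (ζ : A) r := IsPrimitiveRoot.coe_units_iff.mpr hζ
  have h2 : (Polynomial.cyclotomic r A).IsRoot (ζ : A) :=
    h1.isRoot_cyclotomic (Nat.pos_of_ne_zero (NeZero.ne r))
  have h3 : (Polynomial.cyclotomic r k).IsRoot (π ζ) := by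
    rw [← Polynomial.map_cyclotomic r π]
    exact h2.map
  rw [← IsPrimitiveRoot.coe_units_iff]
  exact Polynomial.isRoot_cyclotomic_iff.mp h3

/-- the prime step in a field `k` receiving the algebraic integers, from the three
characteristic zero contracts. -/
theorem primeStep_of_contracts {k : Type*} [Field k] (π : R0 →+* k) (r : ℕ) [NeZero r]
    (hr : r.Prime) (hrk : (r : k) ≠ 0)
    (h1 : ModEqContract r) (h2 : UnitIntegralContract r) (h3 : ThetaIdentityContract) :
    PrimeStepP k r ∧ PrimeStepP' k r ∧ ∃ ζ : kˣ, IsPrimitiveRoot ζ r ∧ ModEqOver k r ζ := by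
  obtain ⟨ζ, hζ⟩ := exists_primitiveRoot_R0 r
  have hζk := isPrimitiveRoot_units_map π hrk hζ
  have hΦk : ModEqOver k r (Units.map (π : R0 →* k) ζ) := (h1 ζ hζ).map π
  have hUk : UnitIntegralOver k r := UnitIntegralOver.map h2 π
  have hP := primeStepP r hr hrk hUk (thetaIdentity_of_contract h3 k)
  exact ⟨hP, primeStepP' r hr hζk hΦk hP, _, hζk, hΦk⟩

end Assembly

end Fermat.Agent.S28
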