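/-
S28 package (B1): Gauss reduction of Laurent series with `ℤ_(ℓ)`-coefficients.

`R := GaloisRep.ratLocalizedAt ℓ ⊆ ℚ`, `redHom ℓ : R →+* ZMod ℓ`,
`intIncl ℓ : LaurentSeries R →+* LaurentSeries ℚ` (injective),
`redSeries ℓ : LaurentSeries R →+* LaurentSeries (ZMod ℓ)`;
kernel of `redSeries` = multiples of `ℓ`; every nonzero series is `ℓ^i * a₀` with
`redSeries a₀ ≠ 0`.
-/
import Mathlib
import Fermat.Prelude.Def_ModularCurve_IgusaScheme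
import Fermat.Prelude.Def_ModularCurve_LaurentCoeff

set_option autoImplicit false

namespace Fermat.Agent.S28

open ModularCurve

section RedHom

variable (ℓ : ℕ) [Fact ℓ.Prime]

theorem natCast_zmod_ne_zero_of_coprime {d : ℕ} (hd : d.Coprime ℓ) : ((d : ℕ) : ZMod ℓ) ≠ 0 := by
  rw [Ne, ZMod.natCast_eq_zero_iff]
  intro h
  have h1 : ℓ = 1 := Nat.Coprime.eq_one_of_dvd hd.symm h
  exact (Fact.out : ℓ.Prime).one_lt.ne' h1

/-- reduction `ℤ_(ℓ) → 𝔽_ℓ`. -/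
noncomputable def redHom : ↥(GaloisRep.ratLocalizedAt ℓ) →+* ZMod ℓ where
  toFun x := ((x : ℚ) : ZMod ℓ)
  map_one' := by simp
  map_mul' x y := by
    simpa using Rat.cast_mul_of_ne_zero (natCast_zmod_ne_zero_of_coprime ℓ x.2)
      (natCast_zmod_ne_zero_of_coprime ℓ y.2)
  map_zero' := by simp
  map_add' x y := by
    simpa using Rat.cast_add_of_ne_zero (natCast_zmod_ne_zero_of_coprime ℓ x.2)
      (natCast_zmod_ne_zero_of_coprime ℓ y.2)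

theorem redHom_apply (x : ↥(GaloisRep.ratLocalizedAt ℓ)) :
    redHom ℓ x = ((x : ℚ) : ZMod ℓ) := rfl

/-- the prime `ℓ` as an element of `ℤ_(ℓ)` is nonzero. -/
theorem natCast_prime_ne_zero : ((ℓ : ℕ) : ↥(GaloisRep.ratLocalizedAt ℓ)) ≠ 0 := by
  intro h
  have h1 : ((ℓ : ℕ) : ℚ) = 0 := by
    have := congrArg (fun z : ↥(GaloisRep.ratLocalizedAt ℓ) => (z : ℚ)) h
    simpa using this
  exact (Fact.out : ℓ.Prime).ne_zero (by exact_mod_cast h1)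

omit [Fact ℓ.Prime] in
/-- membership in `ℤ_(ℓ)` of a quotient `a / d` with `d` prime to `ℓ`. -/
theorem div_mem_ratLocalizedAt (a : ℤ) {d : ℕ} (hd : d.Coprime ℓ) :
    ((a : ℚ) / (d : ℚ)) ∈ GaloisRep.ratLocalizedAt ℓ := by
  show ((a : ℚ) / (d : ℚ)).den.Coprime ℓ
  have h1 : (((a : ℚ) / (d : ℚ)).den : ℤ) ∣ (d : ℤ) := by
    have := Rat.den_dvd a (d : ℤ)
    rwa [Rat.divInt_eq_div] at this
  have h2 : ((a : ℚ) / (d : ℚ)).den ∣ d := by exact_mod_cast h1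
  exact Nat.Coprime.coprime_dvd_left h2 hd

theorem redHom_eq_zero_iff (x : ↥(GaloisRep.ratLocalizedAt ℓ)) :
    redHom ℓ x = 0 ↔ ∃ y : ↥(GaloisRep.ratLocalizedAt ℓ), x = (ℓ : ↥(GaloisRep.ratLocalizedAt ℓ)) * y := by
  constructor
  · intro h
    rw [redHom_apply, Rat.cast_def, div_eq_zero_iff] at h
    have hnum : ((x : ℚ).num : ZMod ℓ) = 0 := by
      rcases h with h | h
      · exact h
      · exact absurd h (natCast_zmod_ne_zero_of_coprime ℓ x.2)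
    rw [ZMod.intCast_zmod_eq_zero_iff_dvd] at hnum
    obtain ⟨m, hm⟩ := hnum
    refine ⟨⟨(m : ℚ) / ((x : ℚ).den : ℚ), div_mem_ratLocalizedAt ℓ m x.2⟩, ?_⟩
    apply Subtype.ext
    have hden : (((x : ℚ).den : ℕ) : ℚ) ≠ 0 := by exact_mod_cast (x : ℚ).den_ne_zero
    have hx : (x : ℚ) = ((x : ℚ).num : ℚ) / ((x : ℚ).den : ℚ) := (Rat.num_div_den (x : ℚ)).symm
    have hx2 : (x : ℚ) = (ℓ : ℚ) * ((m : ℚ) / ((x : ℚ).den : ℚ)) := by
      calc (x : ℚ) = ((x : ℚ).num : ℚ) / ((x : ℚ).den : ℚ) := hx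
        _ = (((ℓ : ℤ) * m : ℤ) : ℚ) / ((x : ℚ).den : ℚ) := by rw [← hm]
        _ = (ℓ : ℚ) * ((m : ℚ) / ((x : ℚ).den : ℚ)) := by push_cast; ring
    simpa using hx2
  · rintro ⟨y, rfl⟩
    rw [map_mul, map_natCast]
    simp

omit [Fact ℓ.Prime] in
/-- membership in `ℤ_(ℓ)` of a quotient `a / b` of integers with `b` prime to `ℓ`. -/
theorem intDiv_mem_ratLocalizedAt (a : ℤ) {b : ℤ} (hb : b.natAbs.Coprime ℓ) :
    ((a : ℚ) / (b : ℚ)) ∈ GaloisRep.ratLocalizedAt ℓ := by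
  show ((a : ℚ) / (b : ℚ)).den.Coprime ℓ
  have h1 : (((a : ℚ) / (b : ℚ)).den : ℤ) ∣ b := by
    have := Rat.den_dvd a b
    rwa [Rat.divInt_eq_div] at this
  have h2 : ((a : ℚ) / (b : ℚ)).den ∣ b.natAbs := Int.natCast_dvd.mp h1
  exact Nat.Coprime.coprime_dvd_left h2 hb

theorem natAbs_coprime_of_not_dvd {c : ℤ} (hc : ¬ ((ℓ : ℤ) ∣ c)) : c.natAbs.Coprime ℓ := by
  have h1 : ¬ (ℓ ∣ c.natAbs) := fun h => hc (Int.natCast_dvd.mpr h)
  exact ((Nat.Prime.coprime_iff_not_dvd (Fact.out : ℓ.Prime)).mpr h1).symm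

theorem exists_int_eq_pow_mul (n : ℤ) (hn : n ≠ 0) :
    ∃ (a : ℕ) (c : ℤ), n = (ℓ : ℤ) ^ a * c ∧ ¬ ((ℓ : ℤ) ∣ c) := by
  have hfin : FiniteMultiplicity (ℓ : ℤ) n := by
    rw [Int.finiteMultiplicity_iff]
    exact ⟨by simpa using (Fact.out : ℓ.Prime).ne_one, hn⟩
  obtain ⟨c, h1, h2⟩ := hfin.exists_eq_pow_mul_and_not_dvd
  exact ⟨_, c, h1, h2⟩

/-- every nonzero rational is `ℓ^k * u` with `u` a unit of `ℤ_(ℓ)`. -/
theorem exists_zpow_mul_unit_rat (q : ℚ) (hq : q ≠ 0) :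
    ∃ (k : ℤ) (u : ℚ), u ∈ GaloisRep.ratLocalizedAt ℓ ∧ u⁻¹ ∈ GaloisRep.ratLocalizedAt ℓ ∧
      q = (ℓ : ℚ) ^ k * u := by
  have hnum : q.num ≠ 0 := Rat.num_ne_zero.mpr hq
  have hden : (q.den : ℤ) ≠ 0 := by exact_mod_cast q.den_ne_zero
  obtain ⟨a, c, hc1, hc2⟩ := exists_int_eq_pow_mul ℓ q.num hnum
  obtain ⟨b, d, hd1, hd2⟩ := exists_int_eq_pow_mul ℓ (q.den : ℤ) hden
  have hℓ : (ℓ : ℚ) ≠ 0 := by exact_mod_cast (Fact.out : ℓ.Prime).ne_zero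
  have hc0 : (c : ℚ) ≠ 0 := by
    intro h
    have : c = 0 := by exact_mod_cast h
    exact hc2 (this ▸ dvd_zero _)
  have hd0 : (d : ℚ) ≠ 0 := by
    intro h
    have : d = 0 := by exact_mod_cast h
    exact hd2 (this ▸ dvd_zero _)
  refine ⟨(a : ℤ) - (b : ℤ), (c : ℚ) / (d : ℚ),
    intDiv_mem_ratLocalizedAt ℓ c (natAbs_coprime_of_not_dvd ℓ hd2), ?_, ?_⟩
  · rw [inv_div]
    exact intDiv_mem_ratLocalizedAt ℓ d (natAbs_coprime_of_not_dvd ℓ hc2)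
  · have hq1 : q = (q.num : ℚ) / ((q.den : ℤ) : ℚ) := by
      rw [Int.cast_natCast]; exact (Rat.num_div_den q).symm
    rw [hq1, hc1, hd1, zpow_sub₀ hℓ, zpow_natCast, zpow_natCast]
    push_cast
    field_simp

end RedHom

section Series

variable (ℓ : ℕ) [Fact ℓ.Prime]

/-- inclusion of series with `ℤ_(ℓ)`-coefficients into rational series. -/
noncomputable def intIncl :
    LaurentSeries ↥(GaloisRep.ratLocalizedAt ℓ) →+* LaurentSeries ℚ :=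
  coeffMap (GaloisRep.ratLocalizedAt ℓ).subtype

omit [Fact ℓ.Prime] in
@[simp] theorem intIncl_coeff (a : LaurentSeries ↥(GaloisRep.ratLocalizedAt ℓ)) (n : ℤ) :
    (intIncl ℓ a).coeff n = ((a.coeff n : ↥(GaloisRep.ratLocalizedAt ℓ)) : ℚ) := rfl

omit [Fact ℓ.Prime] in
theorem intIncl_injective : Function.Injective (intIncl ℓ) := by
  intro a b h
  ext n
  have := congrArg (fun z : LaurentSeries ℚ => z.coeff n) h
  simpa using this

/-- coefficientwise reduction mod `ℓ`. -/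
noncomputable def redSeries :
    LaurentSeries ↥(GaloisRep.ratLocalizedAt ℓ) →+* LaurentSeries (ZMod ℓ) :=
  coeffMap (redHom ℓ)

@[simp] theorem redSeries_coeff (a : LaurentSeries ↥(GaloisRep.ratLocalizedAt ℓ)) (n : ℤ) :
    (redSeries ℓ a).coeff n = redHom ℓ (a.coeff n) := rfl

omit [Fact ℓ.Prime] in
/-- the prime `ℓ` as a series, written with `HahnSeries.C`. -/
theorem natCast_series_eq_C :
    ((ℓ : ℕ) : LaurentSeries ↥(GaloisRep.ratLocalizedAt ℓ)) =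
      HahnSeries.C ((ℓ : ℕ) : ↥(GaloisRep.ratLocalizedAt ℓ)) :=
  (map_natCast (HahnSeries.C : ↥(GaloisRep.ratLocalizedAt ℓ) →+* _) ℓ).symm

omit [Fact ℓ.Prime] in
theorem coeff_prime_mul (a : LaurentSeries ↥(GaloisRep.ratLocalizedAt ℓ)) (n : ℤ) :
    (((ℓ : ℕ) : LaurentSeries ↥(GaloisRep.ratLocalizedAt ℓ)) * a).coeff n =
      ((ℓ : ℕ) : ↥(GaloisRep.ratLocalizedAt ℓ)) * a.coeff n := by
  rw [natCast_series_eq_C, HahnSeries.C_mul_eq_smul, HahnSeries.coeff_smul, smul_eq_mul]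

open Classical in
/-- division by `ℓ` on `ℤ_(ℓ)` (zero when not divisible). -/
noncomputable def divPrime : ZeroHom ↥(GaloisRep.ratLocalizedAt ℓ) ↥(GaloisRep.ratLocalizedAt ℓ) where
  toFun x := if h : ∃ y : ↥(GaloisRep.ratLocalizedAt ℓ),
      x = ((ℓ : ℕ) : ↥(GaloisRep.ratLocalizedAt ℓ)) * y then h.choose else 0
  map_zero' := by
    split_ifs with h
    · have h1 := h.choose_spec
      rcases mul_eq_zero.mp h1.symm with h2 | h2
      · exact absurd h2 (natCast_prime_ne_zero ℓ)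
      · exact h2
    · rfl

open Classical in
theorem prime_mul_divPrime {x : ↥(GaloisRep.ratLocalizedAt ℓ)}
    (h : ∃ y : ↥(GaloisRep.ratLocalizedAt ℓ),
      x = ((ℓ : ℕ) : ↥(GaloisRep.ratLocalizedAt ℓ)) * y) :
    ((ℓ : ℕ) : ↥(GaloisRep.ratLocalizedAt ℓ)) * divPrime ℓ x = x := by
  show ((ℓ : ℕ) : ↥(GaloisRep.ratLocalizedAt ℓ)) * (if h : ∃ y : ↥(GaloisRep.ratLocalizedAt ℓ),
      x = ((ℓ : ℕ) : ↥(GaloisRep.ratLocalizedAt ℓ)) * y then h.choose else 0) = x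
  rw [dif_pos h]
  exact h.choose_spec.symm

/-- **Gauss**: the kernel of coefficientwise reduction consists of the multiples of `ℓ`. -/
theorem redSeries_eq_zero_iff (a : LaurentSeries ↥(GaloisRep.ratLocalizedAt ℓ)) :
    redSeries ℓ a = 0 ↔
      ∃ a' : LaurentSeries ↥(GaloisRep.ratLocalizedAt ℓ),
        a = ((ℓ : ℕ) : LaurentSeries ↥(GaloisRep.ratLocalizedAt ℓ)) * a' := by
  constructor
  · intro h
    refine ⟨a.map (divPrime ℓ), ?_⟩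
    ext n
    rw [coeff_prime_mul, HahnSeries.map_coeff]
    have hn : redHom ℓ (a.coeff n) = 0 := by
      have := congrArg (fun z : LaurentSeries (ZMod ℓ) => z.coeff n) h
      simpa using this
    exact congrArg Subtype.val (prime_mul_divPrime ℓ ((redHom_eq_zero_iff ℓ _).mp hn)).symm
  · rintro ⟨a', rfl⟩
    rw [map_mul, map_natCast]
    have : ((ℓ : ℕ) : LaurentSeries (ZMod ℓ)) = 0 := by
      rw [← map_natCast (HahnSeries.C : ZMod ℓ →+* LaurentSeries (ZMod ℓ)) ℓ]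
      simp
    rw [this, zero_mul]

theorem redHom_natCast_prime : redHom ℓ ((ℓ : ℕ) : ↥(GaloisRep.ratLocalizedAt ℓ)) = 0 := by
  rw [map_natCast]; simp

/-- every nonzero element of `ℤ_(ℓ)` is `ℓ^a * u` with `u` nonzero mod `ℓ`. -/
theorem exists_eq_pow_mul_redHom_ne_zero (c : ↥(GaloisRep.ratLocalizedAt ℓ)) (hc : c ≠ 0) :
    ∃ (a : ℕ) (u : ↥(GaloisRep.ratLocalizedAt ℓ)),
      c = ((ℓ : ℕ) : ↥(GaloisRep.ratLocalizedAt ℓ)) ^ a * u ∧ redHom ℓ u ≠ 0 := by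
  have hc' : (c : ℚ) ≠ 0 := fun h => hc (Subtype.ext h)
  have hnum : (c : ℚ).num ≠ 0 := Rat.num_ne_zero.mpr hc'
  obtain ⟨a, c', hc1, hc2⟩ := exists_int_eq_pow_mul ℓ (c : ℚ).num hnum
  have hden : (((c : ℚ).den : ℕ) : ℚ) ≠ 0 := by exact_mod_cast (c : ℚ).den_ne_zero
  refine ⟨a, ⟨(c' : ℚ) / ((c : ℚ).den : ℚ), div_mem_ratLocalizedAt ℓ c' c.2⟩, ?_, ?_⟩
  · apply Subtype.ext
    have hx : (c : ℚ) = ((c : ℚ).num : ℚ) / ((c : ℚ).den : ℚ) := (Rat.num_div_den (c : ℚ)).symm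
    have hx2 : (c : ℚ) = (ℓ : ℚ) ^ a * ((c' : ℚ) / ((c : ℚ).den : ℚ)) := by
      calc (c : ℚ) = ((c : ℚ).num : ℚ) / ((c : ℚ).den : ℚ) := hx
        _ = ((((ℓ : ℤ) ^ a * c' : ℤ)) : ℚ) / ((c : ℚ).den : ℚ) := by rw [← hc1]
        _ = (ℓ : ℚ) ^ a * ((c' : ℚ) / ((c : ℚ).den : ℚ)) := by push_cast; ring
    simpa using hx2
  · intro h
    rw [redHom_apply] at h
    simp only at h
    rw [Rat.cast_div_of_ne_zero] at h
    · rw [div_eq_zero_iff] at h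
      rcases h with h | h
      · rw [Rat.cast_intCast, ZMod.intCast_zmod_eq_zero_iff_dvd] at h
        exact hc2 h
      · rw [Rat.cast_natCast] at h
        exact natCast_zmod_ne_zero_of_coprime ℓ c.2 h
    · simp
    · simpa using natCast_zmod_ne_zero_of_coprime ℓ c.2

theorem pow_prime_ne_zero (m : ℕ) : ((ℓ : ℕ) : ↥(GaloisRep.ratLocalizedAt ℓ)) ^ m ≠ 0 :=
  pow_ne_zero _ (natCast_prime_ne_zero ℓ)

theorem exists_eq_pow_mul_redSeries_ne_zero_aux (m : ℕ) :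
    ∀ a : LaurentSeries ↥(GaloisRep.ratLocalizedAt ℓ),
      (∃ (n : ℤ) (u : ↥(GaloisRep.ratLocalizedAt ℓ)),
        a.coeff n = ((ℓ : ℕ) : ↥(GaloisRep.ratLocalizedAt ℓ)) ^ m * u ∧ redHom ℓ u ≠ 0) →
      ∃ (i : ℕ) (a₀ : LaurentSeries ↥(GaloisRep.ratLocalizedAt ℓ)),
        a = ((ℓ : ℕ) : LaurentSeries ↥(GaloisRep.ratLocalizedAt ℓ)) ^ i * a₀ ∧
          redSeries ℓ a₀ ≠ 0 := by
  induction m with
  | zero =>
    rintro a ⟨n, u, hu, hu'⟩
    refine ⟨0, a, by simp, ?_⟩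
    intro h
    have := congrArg (fun z : LaurentSeries (ZMod ℓ) => z.coeff n) h
    simp only [redSeries_coeff, HahnSeries.coeff_zero] at this
    rw [hu, pow_zero, one_mul] at this
    exact hu' this
  | succ m ih =>
    rintro a ⟨n, u, hu, hu'⟩
    by_cases h : redSeries ℓ a = 0
    · obtain ⟨a', rfl⟩ := (redSeries_eq_zero_iff ℓ a).mp h
      rw [coeff_prime_mul, pow_succ'] at hu
      have h1 : a'.coeff n = ((ℓ : ℕ) : ↥(GaloisRep.ratLocalizedAt ℓ)) ^ m * u := by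
        apply mul_left_cancel₀ (natCast_prime_ne_zero ℓ)
        rw [hu, mul_assoc]
      obtain ⟨i, a₀, rfl, h0⟩ := ih a' ⟨n, u, h1, hu'⟩
      exact ⟨i + 1, a₀, by rw [pow_succ', mul_assoc], h0⟩
    · exact ⟨0, a, by simp, h⟩

/-- **Gauss decomposition**: every nonzero integral series is `ℓ^i * a₀` with `a₀` nonzero
mod `ℓ`. -/
theorem exists_eq_pow_mul_redSeries_ne_zero (a : LaurentSeries ↥(GaloisRep.ratLocalizedAt ℓ))
    (ha : a ≠ 0) :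
    ∃ (i : ℕ) (a₀ : LaurentSeries ↥(GaloisRep.ratLocalizedAt ℓ)),
      a = ((ℓ : ℕ) : LaurentSeries ↥(GaloisRep.ratLocalizedAt ℓ)) ^ i * a₀ ∧
        redSeries ℓ a₀ ≠ 0 := by
  obtain ⟨n, hn⟩ : ∃ n, a.coeff n ≠ 0 := by
    by_contra h
    push Not at h
    exact ha (HahnSeries.ext (funext h))
  obtain ⟨m, u, hu, hu'⟩ := exists_eq_pow_mul_redHom_ne_zero ℓ (a.coeff n) hn
  exact exists_eq_pow_mul_redSeries_ne_zero_aux ℓ m a ⟨n, u, hu, hu'⟩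

end Series

end Fermat.Agent.S28
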