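/-
S28 package (B3)/(B4), abstract part: discrete valuation data with uniformizer `ℓ`.

`ValData ℓ F L` bundles a subring `O ⊆ F`, a residue map `res : O →+* L` whose kernel is
`ℓ O`, and the decomposition `z = ℓ^k * unit` of every nonzero `z : F`.
-/
import Fermat.Agent.S28.ValGauss

set_option autoImplicit false

universe u v

namespace Fermat.Agent.S28

/-- discrete valuation data with uniformizer the prime `ℓ`. -/
structure ValData (ℓ : ℕ) (F : Type u) [Field F] (L : Type v) [Field L] : Type (max u v) where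
  O : Subring F
  res : O →+* L
  prime_ne_zero : ((ℓ : ℕ) : F) ≠ 0
  res_prime : res ((ℓ : ℕ) : O) = 0
  ker : ∀ z : O, res z = 0 → ∃ z' : O, z = ((ℓ : ℕ) : O) * z'
  dec : ∀ z : F, z ≠ 0 → ∃ (k : ℤ) (u : F), u ∈ O ∧ u⁻¹ ∈ O ∧ z = ((ℓ : ℕ) : F) ^ k * u

namespace ValData

variable {ℓ : ℕ} {F : Type u} [Field F] {L : Type v} [Field L] (D : ValData ℓ F L)

theorem zpow_mem {k : ℤ} (hk : 0 ≤ k) : ((ℓ : ℕ) : F) ^ k ∈ D.O := by
  obtain ⟨n, rfl⟩ := Int.eq_ofNat_of_zero_le hk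
  rw [zpow_natCast]
  exact pow_mem (natCast_mem D.O ℓ) n

theorem res_unit_ne_zero (u : D.O) (hu : (u : F)⁻¹ ∈ D.O) (hu0 : (u : F) ≠ 0) : D.res u ≠ 0 := by
  intro h
  have h1 : u * ⟨(u : F)⁻¹, hu⟩ = 1 := Subtype.ext (mul_inv_cancel₀ hu0)
  have h2 := congrArg D.res h1
  rw [map_mul, h, zero_mul, map_one] at h2
  exact zero_ne_one h2

theorem res_pow_prime_mul (m : ℕ) (hm : 0 < m) (z : D.O) :
    D.res (((ℓ : ℕ) : D.O) ^ m * z) = 0 := by
  obtain ⟨m', rfl⟩ := Nat.exists_eq_succ_of_ne_zero hm.ne'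
  rw [map_mul, map_pow, D.res_prime, pow_succ, mul_zero, zero_mul]

/-- the valuation subring. -/
def valuationSubring : ValuationSubring F :=
  { D.O with
    mem_or_inv_mem' := by
      intro z
      by_cases hz : z = 0
      · left; rw [hz]; exact D.O.zero_mem
      · obtain ⟨k, u, hu, hu', rfl⟩ := D.dec z hz
        rcases le_or_gt 0 k with hk | hk
        · left
          exact D.O.mul_mem (D.zpow_mem hk) hu
        · right
          rw [mul_inv, ← zpow_neg]
          exact D.O.mul_mem (D.zpow_mem (by omega)) hu' }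

theorem mem_valuationSubring_iff {z : F} : z ∈ D.valuationSubring ↔ z ∈ D.O := Iff.rfl

/-- `O` is integrally closed in `F`. -/
theorem mem_of_isIntegral {z : F} (hz : IsIntegral D.O z) : z ∈ D.O := by
  have h1 : IsIntegral D.valuationSubring z := hz
  obtain ⟨y, hy⟩ := IsIntegrallyClosed.algebraMap_eq_of_integral h1
  rw [← hy]
  exact y.2

/-- **scaling**: a finite family, not all zero, can be scaled by a power of `ℓ` into `O` with
some residue nonzero. -/
theorem exists_scaling {ι : Type*} (s : Finset ι) (c : ι → F) (hc : ∃ i ∈ s, c i ≠ 0) :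
    ∃ (k : ℤ) (c' : ι → D.O), (∀ i ∈ s, (c' i : F) = ((ℓ : ℕ) : F) ^ k * c i) ∧
      ∃ i ∈ s, D.res (c' i) ≠ 0 := by
  classical
  have hex : ∀ i : ι, ∃ (k : ℤ) (u : F), c i ≠ 0 →
      (u ∈ D.O ∧ u⁻¹ ∈ D.O ∧ c i = ((ℓ : ℕ) : F) ^ k * u) := by
    intro i
    by_cases h : c i = 0
    · exact ⟨0, 0, fun h' => absurd h h'⟩
    · obtain ⟨k, u, h1, h2, h3⟩ := D.dec _ h
      exact ⟨k, u, fun _ => ⟨h1, h2, h3⟩⟩
  choose k u hku using hex
  obtain ⟨i₁, hi₁, hci₁⟩ := hc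
  obtain ⟨i₀, hi₀, hmin⟩ := Finset.exists_min_image (s.filter (fun i => c i ≠ 0)) k
    ⟨i₁, Finset.mem_filter.mpr ⟨hi₁, hci₁⟩⟩
  rw [Finset.mem_filter] at hi₀
  have hℓ := D.prime_ne_zero
  have hmem : ∀ i ∈ s, ((ℓ : ℕ) : F) ^ (-k i₀) * c i ∈ D.O := by
    intro i hi
    by_cases h : c i = 0
    · rw [h, mul_zero]; exact D.O.zero_mem
    · obtain ⟨h1, h2, h3⟩ := hku i h
      have hle : k i₀ ≤ k i := hmin i (Finset.mem_filter.mpr ⟨hi, h⟩)
      have : ((ℓ : ℕ) : F) ^ (-k i₀) * c i = ((ℓ : ℕ) : F) ^ (k i - k i₀) * u i := by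
        rw [h3, ← mul_assoc, ← zpow_add₀ hℓ]
        congr 2
        ring
      rw [this]
      exact D.O.mul_mem (D.zpow_mem (by omega)) h1
  refine ⟨-k i₀, fun i => if hi : i ∈ s then ⟨_, hmem i hi⟩ else 0, ?_, i₀, hi₀.1, ?_⟩
  · intro i hi
    beta_reduce
    rw [dif_pos hi]
  · beta_reduce
    rw [dif_pos hi₀.1]
    obtain ⟨h1, h2, h3⟩ := hku i₀ hi₀.2
    have hu0 : u i₀ ≠ 0 := by
      rintro h0
      rw [h0, mul_zero] at h3
      exact hi₀.2 h3
    have : ((ℓ : ℕ) : F) ^ (-k i₀) * c i₀ = u i₀ := by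
      rw [h3, ← mul_assoc, ← zpow_add₀ hℓ, neg_add_cancel, zpow_zero, one_mul]
    have h4 : (⟨((ℓ : ℕ) : F) ^ (-k i₀) * c i₀, hmem i₀ hi₀.1⟩ : D.O) = ⟨u i₀, h1⟩ :=
      Subtype.ext this
    rw [h4]
    exact D.res_unit_ne_zero ⟨u i₀, h1⟩ h2 hu0

end ValData

/-- the valuation data of `ℤ_(ℓ) ⊆ ℚ`. -/
noncomputable def ratValData (ℓ : ℕ) [Fact ℓ.Prime] : ValData ℓ ℚ (ZMod ℓ) where
  O := GaloisRep.ratLocalizedAt ℓ
  res := redHom ℓ
  prime_ne_zero := by exact_mod_cast (Fact.out : ℓ.Prime).ne_zero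
  res_prime := redHom_natCast_prime ℓ
  ker := fun z hz => (redHom_eq_zero_iff ℓ z).mp hz
  dec := fun z hz => exists_zpow_mul_unit_rat ℓ z hz

theorem exists_scaling_rat (ℓ : ℕ) [Fact ℓ.Prime] {ι : Type*} (s : Finset ι) (c : ι → ℚ)
    (hc : ∃ i ∈ s, c i ≠ 0) :
    ∃ (k : ℤ) (c' : ι → ↥(GaloisRep.ratLocalizedAt ℓ)),
      (∀ i ∈ s, ((c' i : ↥(GaloisRep.ratLocalizedAt ℓ)) : ℚ) = ((ℓ : ℕ) : ℚ) ^ k * c i) ∧
        ∃ i ∈ s, redHom ℓ (c' i) ≠ 0 :=
  (ratValData ℓ).exists_scaling s c hc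

open Polynomial in
/-- **polynomial Gauss**: a nonzero rational polynomial can be scaled by a power of `ℓ` to a
polynomial over `ℤ_(ℓ)` which is nonzero mod `ℓ`. -/
theorem exists_scaling_polynomial (ℓ : ℕ) [Fact ℓ.Prime] (f : ℚ[X]) (hf : f ≠ 0) :
    ∃ (k : ℤ) (f₀ : (↥(GaloisRep.ratLocalizedAt ℓ))[X]),
      f₀.map (algebraMap ↥(GaloisRep.ratLocalizedAt ℓ) ℚ) = C (((ℓ : ℕ) : ℚ) ^ k) * f ∧
        f₀.map (redHom ℓ) ≠ 0 := by
  classical
  obtain ⟨k, c', hc', i₀, hi₀, hres⟩ := exists_scaling_rat ℓ f.support f.coeff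
    ⟨f.natDegree, natDegree_mem_support_of_nonzero hf, by
      rw [coeff_natDegree]; exact leadingCoeff_ne_zero.mpr hf⟩
  refine ⟨k, ∑ i ∈ f.support, monomial i (c' i), ?_, ?_⟩
  · ext j
    rw [coeff_map, finsetSum_coeff, coeff_C_mul]
    simp only [coeff_monomial]
    rw [Finset.sum_ite_eq' f.support j]
    by_cases hj : j ∈ f.support
    · rw [if_pos hj]
      exact hc' j hj
    · rw [if_neg hj, map_zero, notMem_support_iff.mp hj, mul_zero]
  · intro h
    have h1 := congrArg (fun p : (ZMod ℓ)[X] => p.coeff i₀) h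
    simp only [coeff_map, finsetSum_coeff, coeff_monomial, coeff_zero] at h1
    rw [Finset.sum_ite_eq' f.support i₀, if_pos hi₀] at h1
    exact hres h1

section Descent

open Polynomial

variable {ℓ : ℕ} [Fact ℓ.Prime] {F : Type u} [Field F] [Algebra ℚ F]
  [Algebra ↥(GaloisRep.ratLocalizedAt ℓ) F] [IsScalarTower ↥(GaloisRep.ratLocalizedAt ℓ) ℚ F]
  {L : Type v} [Field L] (D : ValData ℓ F L) (g : F)

/-- the hypothesis that `ℤ_(ℓ) ⊆ O`. -/
def ValData.ContainsBase : Prop :=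
  ∀ r : ↥(GaloisRep.ratLocalizedAt ℓ), algebraMap ↥(GaloisRep.ratLocalizedAt ℓ) F r ∈ D.O

/-- the hypothesis that the residue of `g` is transcendental: a polynomial over `ℤ_(ℓ)` whose
value at `g` lies in `ℓ O` vanishes mod `ℓ`. -/
def ValData.ResTranscendental : Prop :=
  ∀ (f₀ : (↥(GaloisRep.ratLocalizedAt ℓ))[X]) (z : D.O),
    aeval g f₀ = ((ℓ : ℕ) : F) * z → f₀.map (redHom ℓ) = 0

variable {D g}

omit [Fact ℓ.Prime] [Algebra ℚ F] [IsScalarTower ↥(GaloisRep.ratLocalizedAt ℓ) ℚ F] in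
theorem ValData.adjoin_le (hR : D.ContainsBase) (hg : g ∈ D.O) {x : F}
    (hx : x ∈ Algebra.adjoin ↥(GaloisRep.ratLocalizedAt ℓ) {g}) : x ∈ D.O := by
  induction hx using Algebra.adjoin_induction with
  | mem y hy => rw [Set.mem_singleton_iff.mp hy]; exact hg
  | algebraMap r => exact hR r
  | add y z _ _ hy hz => exact D.O.add_mem hy hz
  | mul y z _ _ hy hz => exact D.O.mul_mem hy hz

omit [Fact ℓ.Prime] [Algebra ℚ F] [IsScalarTower ↥(GaloisRep.ratLocalizedAt ℓ) ℚ F] in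
/-- elements integral over `ℤ_(ℓ)[g]` lie in `O`. -/
theorem ValData.mem_of_isIntegral_adjoin (hR : D.ContainsBase) (hg : g ∈ D.O) {x : F}
    (hx : IsIntegral (Algebra.adjoin ↥(GaloisRep.ratLocalizedAt ℓ) {g}) x) : x ∈ D.O := by
  apply D.mem_of_isIntegral
  let φ : ↥(Algebra.adjoin ↥(GaloisRep.ratLocalizedAt ℓ) {g}) →+* ↥D.O :=
    { toFun := fun y => ⟨y.1, ValData.adjoin_le hR hg y.2⟩
      map_one' := rfl
      map_mul' := fun _ _ => rfl
      map_zero' := rfl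
      map_add' := fun _ _ => rfl }
  exact hx.map_of_comp_eq φ (RingHom.id F) (by ext; rfl)

/-- `ℚ[g] ∩ O = ℤ_(ℓ)[g]`. -/
theorem ValData.mem_adjoin_of_mem (htr : D.ResTranscendental g) {x : F}
    (hx : x ∈ Algebra.adjoin ℚ {g}) (hxO : x ∈ D.O) :
    x ∈ Algebra.adjoin ↥(GaloisRep.ratLocalizedAt ℓ) {g} := by
  rw [Algebra.adjoin_singleton_eq_range_aeval] at hx
  obtain ⟨f, rfl⟩ := hx
  by_cases hf : f = 0
  · rw [hf, map_zero]; exact Subalgebra.zero_mem _
  obtain ⟨k, f₀, hf₀, hprim⟩ := exists_scaling_polynomial ℓ f hf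
  have hℓ := D.prime_ne_zero
  have hval : aeval g f₀ = ((ℓ : ℕ) : F) ^ k * aeval g f := by
    have h1 := congrArg (aeval g) hf₀
    rw [aeval_map_algebraMap, map_mul, aeval_C, map_zpow₀, map_natCast] at h1
    exact h1
  rcases le_or_gt k 0 with hk | hk
  · have h2 : aeval g f = ((ℓ : ℕ) : F) ^ (-k) * aeval g f₀ := by
      rw [hval, ← mul_assoc, ← zpow_add₀ hℓ, neg_add_cancel, zpow_zero, one_mul]
    obtain ⟨n, hn⟩ := Int.eq_ofNat_of_zero_le (show 0 ≤ -k by omega)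
    rw [AlgHom.toRingHom_eq_coe, RingHom.coe_coe, h2, hn, zpow_natCast]
    refine Subalgebra.mul_mem _ (pow_mem (natCast_mem _ ℓ) n) ?_
    rw [Algebra.adjoin_singleton_eq_range_aeval]
    exact ⟨f₀, rfl⟩
  · exfalso
    apply hprim
    refine htr f₀ ⟨((ℓ : ℕ) : F) ^ (k - 1) * aeval g f,
      D.O.mul_mem (D.zpow_mem (by omega)) hxO⟩ ?_
    rw [hval, ← mul_assoc]
    congr 1
    rw [← zpow_one_add₀ hℓ]
    congr 1
    ring

end Descent

section Lattice

open Polynomial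

variable {ℓ : ℕ} {F : Type u} [Field F] [Algebra ℚ F]
  {L : Type v} [Field L] (D : ValData ℓ F L) (E : IntermediateField ℚ F) {n : ℕ}
  (y : Fin n → D.O)

/-- independence of the `y i` modulo `ℓ` over `O ∩ E`. -/
def ValData.IndepMod : Prop :=
  ∀ c : Fin n → D.O, (∀ i, (c i : F) ∈ E) → D.res (∑ i, c i * y i) = 0 → ∀ i, D.res (c i) = 0

variable {D E y}

theorem ValData.zpow_prime_mem_intermediateField (k : ℤ) : ((ℓ : ℕ) : F) ^ k ∈ E :=
  _root_.zpow_mem (natCast_mem E ℓ) k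

/-- independence mod `ℓ` implies linear independence over `E`. -/
theorem ValData.linearIndependent_of_indepMod (h : D.IndepMod E y) :
    LinearIndependent E (fun i => (y i : F)) := by
  rw [Fintype.linearIndependent_iff]
  intro d hd
  by_contra hne
  push Not at hne
  obtain ⟨i₁, hi₁⟩ := hne
  obtain ⟨k, c', hc', i₀, -, hres⟩ := D.exists_scaling Finset.univ (fun i => (d i : F))
    ⟨i₁, Finset.mem_univ _, by simpa using hi₁⟩
  have hE : ∀ i, (c' i : F) ∈ E := fun i => by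
    rw [hc' i (Finset.mem_univ i)]
    exact E.mul_mem (ValData.zpow_prime_mem_intermediateField k) (d i).2
  have hsum : (∑ i, c' i * y i : D.O) = 0 := by
    apply Subtype.ext
    push_cast
    have h1 : ∀ i ∈ Finset.univ, (c' i : F) * (y i : F) =
        ((ℓ : ℕ) : F) ^ k * (d i • (y i : F)) := fun i hi => by
      rw [hc' i hi, Algebra.smul_def, mul_assoc]; rfl
    rw [Finset.sum_congr rfl h1, ← Finset.mul_sum, hd, mul_zero]
  exact hres (h c' hE (by rw [hsum, map_zero]) i₀)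

/-- the lattice property: coordinates of elements of `O` lie in `O`. -/
theorem ValData.coeff_mem_of_indepMod (h : D.IndepMod E y) (z : D.O) (d : Fin n → E)
    (hz : (z : F) = ∑ i, d i • (y i : F)) : ∀ i, (d i : F) ∈ D.O := by
  by_contra hne
  push Not at hne
  obtain ⟨i₁, hi₁⟩ := hne
  have hi₁0 : (d i₁ : F) ≠ 0 := fun h0 => hi₁ (h0 ▸ D.O.zero_mem)
  obtain ⟨k, c', hc', i₀, -, hres⟩ := D.exists_scaling Finset.univ (fun i => (d i : F))
    ⟨i₁, Finset.mem_univ _, hi₁0⟩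
  have hℓ := D.prime_ne_zero
  rcases le_or_gt k 0 with hk | hk
  · apply hi₁
    have : (d i₁ : F) = ((ℓ : ℕ) : F) ^ (-k) * (c' i₁ : F) := by
      rw [hc' i₁ (Finset.mem_univ _), ← mul_assoc, ← zpow_add₀ hℓ, neg_add_cancel, zpow_zero,
        one_mul]
    rw [this]
    exact D.O.mul_mem (D.zpow_mem (by omega)) (c' i₁).2
  · have hE : ∀ i, (c' i : F) ∈ E := fun i => by
      rw [hc' i (Finset.mem_univ i)]
      exact E.mul_mem (ValData.zpow_prime_mem_intermediateField k) (d i).2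
    obtain ⟨m, hm⟩ := Int.eq_ofNat_of_zero_le hk.le
    have hm0 : 0 < m := by omega
    have hsum : (∑ i, c' i * y i : D.O) = ((ℓ : ℕ) : D.O) ^ m * z := by
      apply Subtype.ext
      push_cast
      have h1 : ∀ i ∈ Finset.univ, (c' i : F) * (y i : F) =
          ((ℓ : ℕ) : F) ^ k * (d i • (y i : F)) := fun i hi => by
        rw [hc' i hi, Algebra.smul_def, mul_assoc]; rfl
      rw [Finset.sum_congr rfl h1, ← Finset.mul_sum, ← hz, hm, zpow_natCast]
    exact hres (h c' hE (by rw [hsum, D.res_pow_prime_mul m hm0]) i₀)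

/-- under independence mod `ℓ` and the degree bound, the coefficients of the minimal polynomial
over `E` of an element of `O` lie in `O`. -/
theorem ValData.minpoly_coeff_mem (h : D.IndepMod E y) [FiniteDimensional E F]
    (hn : Module.finrank E F ≤ n) (w : D.O) (i : ℕ) :
    (((minpoly E (w : F)).coeff i : E) : F) ∈ D.O := by
  classical
  have hli := ValData.linearIndependent_of_indepMod h
  have hcard : Fintype.card (Fin n) = Module.finrank E F := by
    have := hli.fintype_card_le_finrank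
    rw [Fintype.card_fin] at this ⊢
    omega
  have hpos : 0 < Module.finrank E F := Module.finrank_pos
  have : Nonempty (Fin n) := by
    rw [← Fin.pos_iff_nonempty]
    rw [Fintype.card_fin] at hcard
    omega
  let b : Module.Basis (Fin n) E F := basisOfLinearIndependentOfCardEqFinrank hli hcard
  have hb : ∀ j, b j = (y j : F) := fun j => by
    simp only [b, coe_basisOfLinearIndependentOfCardEqFinrank]
  let M : Matrix (Fin n) (Fin n) E := Algebra.leftMulMatrix b (w : F)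
  have hM : ∀ j k, ((M j k : E) : F) ∈ D.O := by
    intro j k
    show (((Algebra.leftMulMatrix b (w : F)) j k : E) : F) ∈ D.O
    rw [Algebra.leftMulMatrix_eq_repr_mul]
    refine ValData.coeff_mem_of_indepMod h (w * y k) (fun j => b.repr ((w : F) * b k) j) ?_ j
    have h1 := b.sum_repr ((w : F) * b k)
    rw [hb k] at h1
    rw [Subring.coe_mul, ← h1]
    exact Finset.sum_congr rfl fun j _ => by rw [hb j, hb k]
  let OE : Subring E := D.O.comap (algebraMap E F)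
  let M₀ : Matrix (Fin n) (Fin n) OE := fun j k => ⟨M j k, hM j k⟩
  have hM₀ : M = M₀.map OE.subtype := by
    ext j k; rfl
  have hcp : M.charpoly = M₀.charpoly.map (algebraMap OE E) := by
    rw [hM₀, Matrix.charpoly_map]; rfl
  have haev : aeval (w : F) M.charpoly = 0 := by
    apply Algebra.leftMulMatrix_injective b
    rw [← Polynomial.aeval_algHom_apply, map_zero]
    exact Matrix.aeval_self_charpoly M
  have hint : IsIntegral E (w : F) := IsIntegral.of_finite E _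
  have hdvd : minpoly E (w : F) ∣ M₀.charpoly.map (algebraMap OE E) := by
    rw [← hcp]
    exact minpoly.dvd E (w : F) haev
  have hl := integralClosure.mem_lifts_of_monic_of_dvd_map E (Matrix.charpoly_monic M₀)
    (minpoly.monic hint) hdvd
  obtain ⟨c, hc⟩ := (Polynomial.lifts_iff_coeff_lifts _).mp hl i
  rw [← hc]
  apply D.mem_of_isIntegral
  let φ : ↥OE →+* ↥D.O :=
    { toFun := fun x => ⟨algebraMap E F x.1, x.2⟩
      map_one' := Subtype.ext (map_one _)
      map_mul' := fun _ _ => Subtype.ext (map_mul _ _ _)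
      map_zero' := Subtype.ext (map_zero _)
      map_add' := fun _ _ => Subtype.ext (map_add _ _ _) }
  exact (c.2 : IsIntegral OE (c : E)).map_of_comp_eq φ (algebraMap E F) (by ext; rfl)

end Lattice

section Final

open Polynomial IntermediateField

variable {ℓ : ℕ} [Fact ℓ.Prime] {F : Type u} [Field F] [Algebra ℚ F]
  [Algebra ↥(GaloisRep.ratLocalizedAt ℓ) F] [IsScalarTower ↥(GaloisRep.ratLocalizedAt ℓ) ℚ F]
  {L : Type v} [Field L] {D : ValData ℓ F L} {g : F} {n : ℕ} {y : Fin n → D.O}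

omit [Fact ℓ.Prime] in
theorem adjoin_base_le_adjoin_rat {x : F}
    (hx : x ∈ Algebra.adjoin ↥(GaloisRep.ratLocalizedAt ℓ) {g}) : x ∈ Algebra.adjoin ℚ {g} := by
  induction hx using Algebra.adjoin_induction with
  | mem y hy => exact Algebra.subset_adjoin hy
  | algebraMap r =>
    rw [IsScalarTower.algebraMap_apply ↥(GaloisRep.ratLocalizedAt ℓ) ℚ F]
    exact Subalgebra.algebraMap_mem _ _
  | add y z _ _ hy hz => exact Subalgebra.add_mem _ hy hz
  | mul y z _ _ hy hz => exact Subalgebra.mul_mem _ hy hz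

/-- `g` is transcendental over `ℚ` when its residue is. -/
theorem ValData.transcendental_of_resTranscendental (htr : D.ResTranscendental g) :
    Transcendental ℚ g := by
  rintro ⟨f, hf, hfg⟩
  obtain ⟨k, f₀, hf₀, hprim⟩ := exists_scaling_polynomial ℓ f hf
  apply hprim
  refine htr f₀ 0 ?_
  have h1 := congrArg (aeval g) hf₀
  rw [aeval_map_algebraMap, map_mul, hfg, mul_zero] at h1
  rw [h1]
  simp

omit [Fact ℓ.Prime] in
theorem isIntegral_adjoin_rat_of_base {x : F}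
    (hx : IsIntegral (Algebra.adjoin ↥(GaloisRep.ratLocalizedAt ℓ) {g}) x) :
    IsIntegral (Algebra.adjoin ℚ {g}) x := by
  obtain ⟨p, hp, hpx⟩ := hx
  have hlifts : p.map (algebraMap (Algebra.adjoin ↥(GaloisRep.ratLocalizedAt ℓ) {g}) F) ∈
      Polynomial.lifts (algebraMap (Algebra.adjoin ℚ {g}) F) :=
    (Polynomial.lifts_iff_coeff_lifts _).mpr fun i =>
      ⟨⟨_, adjoin_base_le_adjoin_rat (p.coeff i).2⟩, by rw [coeff_map]; rfl⟩
  obtain ⟨q, hq, -, hqm⟩ := Polynomial.lifts_and_natDegree_eq_and_monic hlifts (hp.map _)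
  exact ⟨q, hqm, by rw [Polynomial.eval₂_eq_eval_map, hq, Polynomial.eval_map, hpx]⟩

omit [Fact ℓ.Prime] [Algebra ↥(GaloisRep.ratLocalizedAt ℓ) F]
  [IsScalarTower ↥(GaloisRep.ratLocalizedAt ℓ) ℚ F] in
theorem isIntegral_adjoin_rat_of_mul {m : ℕ} (hm : ((m : ℕ) : F) ≠ 0) {w : F}
    (hx : IsIntegral (Algebra.adjoin ℚ {g}) (((m : ℕ) : F) * w)) :
    IsIntegral (Algebra.adjoin ℚ {g}) w := by
  have h1 : w = algebraMap (Algebra.adjoin ℚ {g}) F
      ⟨algebraMap ℚ F ((m : ℚ)⁻¹), Subalgebra.algebraMap_mem _ _⟩ * (((m : ℕ) : F) * w) := by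
    show w = algebraMap ℚ F ((m : ℚ)⁻¹) * (((m : ℕ) : F) * w)
    rw [map_inv₀, map_natCast, inv_mul_cancel_left₀ hm]
  rw [h1]
  exact isIntegral_algebraMap.mul hx

omit [Fact ℓ.Prime] [Algebra ↥(GaloisRep.ratLocalizedAt ℓ) F]
  [IsScalarTower ↥(GaloisRep.ratLocalizedAt ℓ) ℚ F] in
open algebraAdjoinAdjoin in
/-- the minimal polynomial over `ℚ(g)` of an element integral over `ℚ[g]` has coefficients in
`ℚ[g]`. -/
theorem minpoly_coeff_mem_adjoin_rat (htrans : Transcendental ℚ g) {w : F}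
    (hw : IsIntegral (Algebra.adjoin ℚ {g}) w) (i : ℕ) :
    (((minpoly ℚ⟮g⟯ w).coeff i : ℚ⟮g⟯) : F) ∈ Algebra.adjoin ℚ {g} := by
  have : IsIntegrallyClosed ↥(Algebra.adjoin ℚ {g}) :=
    IsIntegrallyClosed.of_equiv (Polynomial.algEquivOfTranscendental ℚ g htrans).toRingEquiv
  have hmin : minpoly ℚ⟮g⟯ w =
      (minpoly (Algebra.adjoin ℚ {g}) w).map (algebraMap (Algebra.adjoin ℚ {g}) ℚ⟮g⟯) :=
    minpoly.isIntegrallyClosed_eq_field_fractions' ℚ⟮g⟯ hw
  rw [hmin, coeff_map]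
  exact ((minpoly (Algebra.adjoin ℚ {g}) w).coeff i).2

/-- **descent**: if `ℓ * w` is integral over `ℤ_(ℓ)[g]` with `w ∈ O`, then so is `w`. -/
theorem ValData.isIntegral_of_prime_mul (htr : D.ResTranscendental g)
    (h : D.IndepMod ℚ⟮g⟯ y) [FiniteDimensional ℚ⟮g⟯ F] (hn : Module.finrank ℚ⟮g⟯ F ≤ n)
    (w : D.O)
    (hx : IsIntegral (Algebra.adjoin ↥(GaloisRep.ratLocalizedAt ℓ) {g})
      (((ℓ : ℕ) : F) * (w : F))) :
    IsIntegral (Algebra.adjoin ↥(GaloisRep.ratLocalizedAt ℓ) {g}) (w : F) := by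
  have hℓ := D.prime_ne_zero
  have htrans : Transcendental ℚ g := ValData.transcendental_of_resTranscendental htr
  have hwQ : IsIntegral (Algebra.adjoin ℚ {g}) (w : F) :=
    isIntegral_adjoin_rat_of_mul hℓ (isIntegral_adjoin_rat_of_base hx)
  have hint : IsIntegral ℚ⟮g⟯ (w : F) := IsIntegral.of_finite ℚ⟮g⟯ _
  -- coefficients lie in `ℤ_(ℓ)[g]`
  have hcoeff : ∀ i, (((minpoly ℚ⟮g⟯ (w : F)).coeff i : ℚ⟮g⟯) : F) ∈
      Algebra.adjoin ↥(GaloisRep.ratLocalizedAt ℓ) {g} := fun i =>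
    ValData.mem_adjoin_of_mem htr (minpoly_coeff_mem_adjoin_rat htrans hwQ i)
      (ValData.minpoly_coeff_mem h hn w i)
  have hlifts : (minpoly ℚ⟮g⟯ (w : F)).map (algebraMap ℚ⟮g⟯ F) ∈
      Polynomial.lifts (algebraMap (Algebra.adjoin ↥(GaloisRep.ratLocalizedAt ℓ) {g}) F) :=
    (Polynomial.lifts_iff_coeff_lifts _).mpr fun i => ⟨⟨_, hcoeff i⟩, by rw [coeff_map]; rfl⟩
  obtain ⟨q, hq, -, hqm⟩ := Polynomial.lifts_and_natDegree_eq_and_monic hlifts
    ((minpoly.monic hint).map _)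
  refine ⟨q, hqm, ?_⟩
  rw [Polynomial.eval₂_eq_eval_map, hq, Polynomial.eval_map, ← Polynomial.aeval_def, minpoly.aeval]

end Final

end Fermat.Agent.S28
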