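/-
S28 package (B3), residue-field side: from transcendence of the residue of `g` and linear
independence of residues over `𝔽_ℓ(ḡ)` to the hypotheses `ResTranscendental`, `IndepMod` of
`ValAbstract`.
-/
import Fermat.Agent.S28.ValAbstract

set_option autoImplicit false
set_option linter.unusedSectionVars false

universe u v

namespace Fermat.Agent.S28

open Polynomial IntermediateField

section RingHomExt

variable {ℓ : ℕ} [Fact ℓ.Prime] {L : Type v} [Field L] [CharP L ℓ]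

/-- ring homs out of `ℤ_(ℓ)` into a field of characteristic `ℓ` are unique. -/
theorem val_ratLocalizedAt_ringHom_ext (f₁ f₂ : ↥(GaloisRep.ratLocalizedAt ℓ) →+* L) : f₁ = f₂ := by
  ext r
  have hd : (((r : ℚ).den : ℕ) : L) ≠ 0 := by
    rw [Ne, CharP.cast_eq_zero_iff L ℓ]
    intro h
    have h1 : ℓ = 1 := Nat.Coprime.eq_one_of_dvd (Nat.Coprime.symm r.2) h
    exact (Fact.out : ℓ.Prime).one_lt.ne' h1
  have hr : r * (((r : ℚ).den : ℕ) : ↥(GaloisRep.ratLocalizedAt ℓ)) =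
      (((r : ℚ).num : ℤ) : ↥(GaloisRep.ratLocalizedAt ℓ)) := by
    apply Subtype.ext
    push_cast
    exact Rat.mul_den_eq_num (r : ℚ)
  have h1 := congrArg f₁ hr
  have h2 := congrArg f₂ hr
  rw [map_mul, map_natCast, map_intCast] at h1 h2
  exact mul_right_cancel₀ hd (h1.trans h2.symm)

end RingHomExt

section Residue

variable {ℓ : ℕ} [Fact ℓ.Prime] {F : Type u} [Field F] [Algebra ℚ F]
  [Algebra ↥(GaloisRep.ratLocalizedAt ℓ) F] [IsScalarTower ↥(GaloisRep.ratLocalizedAt ℓ) ℚ F]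
  {L : Type v} [Field L] [Algebra (ZMod ℓ) L] {D : ValData ℓ F L} {g : F}

/-- the base ring hom `ℤ_(ℓ) → O`. -/
def ValData.baseHom (hR : D.ContainsBase) : ↥(GaloisRep.ratLocalizedAt ℓ) →+* ↥D.O where
  toFun r := ⟨algebraMap ↥(GaloisRep.ratLocalizedAt ℓ) F r, hR r⟩
  map_one' := Subtype.ext (map_one _)
  map_mul' _ _ := Subtype.ext (map_mul _ _ _)
  map_zero' := Subtype.ext (map_zero _)
  map_add' _ _ := Subtype.ext (map_add _ _ _)

theorem ValData.res_comp_baseHom (hR : D.ContainsBase) :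
    D.res.comp (ValData.baseHom hR) = (algebraMap (ZMod ℓ) L).comp (redHom ℓ) := by
  have : CharP L ℓ := charP_of_injective_algebraMap (algebraMap (ZMod ℓ) L).injective ℓ
  exact val_ratLocalizedAt_ringHom_ext _ _

/-- evaluation of an integral polynomial at `g`, as an element of `O`. -/
noncomputable def ValData.evalO (hR : D.ContainsBase) (hg : g ∈ D.O)
    (f₀ : (↥(GaloisRep.ratLocalizedAt ℓ))[X]) : ↥D.O :=
  f₀.eval₂ (ValData.baseHom hR) ⟨g, hg⟩

theorem ValData.coe_evalO (hR : D.ContainsBase) (hg : g ∈ D.O)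
    (f₀ : (↥(GaloisRep.ratLocalizedAt ℓ))[X]) :
    ((ValData.evalO hR hg f₀ : ↥D.O) : F) = aeval g f₀ := by
  have h := Polynomial.hom_eval₂ f₀ (ValData.baseHom hR) D.O.subtype ⟨g, hg⟩
  rw [ValData.evalO]
  exact h

theorem ValData.res_evalO (hR : D.ContainsBase) (hg : g ∈ D.O)
    (f₀ : (↥(GaloisRep.ratLocalizedAt ℓ))[X]) :
    D.res (ValData.evalO hR hg f₀) = aeval (D.res ⟨g, hg⟩) (f₀.map (redHom ℓ)) := by
  rw [ValData.evalO, Polynomial.hom_eval₂, ValData.res_comp_baseHom hR, aeval_def,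
    Polynomial.eval₂_map]

/-- transcendence of the residue of `g` gives `ResTranscendental`. -/
theorem ValData.resTranscendental_of_transcendental (hR : D.ContainsBase) (hg : g ∈ D.O)
    (ht : Transcendental (ZMod ℓ) (D.res ⟨g, hg⟩)) : D.ResTranscendental g := by
  intro f₀ z hz
  have h1 : ValData.evalO hR hg f₀ = ((ℓ : ℕ) : D.O) * z := by
    apply Subtype.ext
    rw [ValData.coe_evalO, hz]
    rfl
  have h2 : D.res (ValData.evalO hR hg f₀) = 0 := by
    rw [h1, map_mul, D.res_prime, zero_mul]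
  rw [ValData.res_evalO] at h2
  exact (transcendental_iff.mp ht) _ h2

theorem aeval_eq_zpow_mul_of_map_eq {f : ℚ[X]} {f₀ : (↥(GaloisRep.ratLocalizedAt ℓ))[X]} {k : ℤ}
    (h : f₀.map (algebraMap ↥(GaloisRep.ratLocalizedAt ℓ) ℚ) = C (((ℓ : ℕ) : ℚ) ^ k) * f) :
    aeval g f₀ = ((ℓ : ℕ) : F) ^ k * aeval g f := by
  have h1 := congrArg (aeval g) h
  rw [aeval_map_algebraMap, map_mul, aeval_C, map_zpow₀, map_natCast] at h1
  exact h1

theorem aeval_mem_adjoin_simple {K : Type*} [Field K] {L' : Type*} [Field L'] [Algebra K L']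
    (x : L') (p : K[X]) : aeval x p ∈ K⟮x⟯ :=
  IntermediateField.algebra_adjoin_le_adjoin K {x} (Polynomial.aeval_mem_adjoin_singleton K x)

/-- residues of elements of `O ∩ ℚ(g)` lie in `𝔽_ℓ(ḡ)`. -/
theorem ValData.res_mem_adjoin (hR : D.ContainsBase) (hg : g ∈ D.O)
    (ht : Transcendental (ZMod ℓ) (D.res ⟨g, hg⟩)) (c : D.O) (hc : (c : F) ∈ ℚ⟮g⟯) :
    D.res c ∈ (ZMod ℓ)⟮D.res ⟨g, hg⟩⟯ := by
  obtain ⟨r, s, hrs⟩ := (mem_adjoin_simple_iff ℚ _).mp hc
  have hℓ := D.prime_ne_zero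
  by_cases hs : aeval g s = 0
  · rw [hs, div_zero] at hrs
    have : c = 0 := Subtype.ext hrs
    rw [this, map_zero]; exact zero_mem _
  by_cases hr : r = 0
  · rw [hr, map_zero, zero_div] at hrs
    have : c = 0 := Subtype.ext hrs
    rw [this, map_zero]; exact zero_mem _
  have hs0 : s ≠ 0 := by
    rintro rfl
    exact hs (map_zero _)
  obtain ⟨a, r₀, hr₀, hrp⟩ := exists_scaling_polynomial ℓ r hr
  obtain ⟨b, s₀, hs₀, hsp⟩ := exists_scaling_polynomial ℓ s hs0
  have hra := aeval_eq_zpow_mul_of_map_eq (g := g) hr₀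
  have hsb := aeval_eq_zpow_mul_of_map_eq (g := g) hs₀
  set Rr := ValData.evalO hR hg r₀ with hRr
  set S := ValData.evalO hR hg s₀ with hS
  have hresR : D.res Rr ≠ 0 := by
    rw [hRr, ValData.res_evalO]
    exact fun h => hrp ((transcendental_iff.mp ht) _ h)
  have hresS : D.res S ≠ 0 := by
    rw [hS, ValData.res_evalO]
    exact fun h => hsp ((transcendental_iff.mp ht) _ h)
  have hresRmem : D.res Rr ∈ (ZMod ℓ)⟮D.res ⟨g, hg⟩⟯ := by
    rw [hRr, ValData.res_evalO]; exact aeval_mem_adjoin_simple _ _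
  have hresSmem : D.res S ∈ (ZMod ℓ)⟮D.res ⟨g, hg⟩⟯ := by
    rw [hS, ValData.res_evalO]; exact aeval_mem_adjoin_simple _ _
  -- the relation `c * S = ℓ^(b-a) * R` in `F`
  have hrel : (c : F) * (S : F) = ((ℓ : ℕ) : F) ^ (b - a) * (Rr : F) := by
    rw [hRr, hS, ValData.coe_evalO, ValData.coe_evalO, hra, hsb, hrs, zpow_sub₀ hℓ]
    field_simp
  rcases le_or_gt 0 (b - a) with he | he
  · obtain ⟨m, hm⟩ := Int.eq_ofNat_of_zero_le he
    have hrelO : c * S = ((ℓ : ℕ) : D.O) ^ m * Rr := by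
      apply Subtype.ext
      push_cast
      rw [hrel, hm, zpow_natCast]
    have h1 := congrArg D.res hrelO
    rw [map_mul, map_mul, map_pow] at h1
    have h2 : D.res c = D.res ((ℓ : ℕ) : D.O) ^ m * D.res Rr / D.res S := by
      rw [← h1, mul_div_assoc, div_self hresS, mul_one]
    rw [h2, D.res_prime]
    exact div_mem (mul_mem (pow_mem (zero_mem _) m) hresRmem) hresSmem
  · exfalso
    obtain ⟨m, hm⟩ := Int.eq_ofNat_of_zero_le (show 0 ≤ -(b - a) by omega)
    have hm0 : 0 < m := by omega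
    have hrelO : ((ℓ : ℕ) : D.O) ^ m * (c * S) = Rr := by
      apply Subtype.ext
      push_cast
      rw [hrel, ← zpow_natCast, ← hm, ← mul_assoc, ← zpow_add₀ hℓ, neg_add_cancel, zpow_zero,
        one_mul]
    apply hresR
    rw [← hrelO, D.res_pow_prime_mul m hm0]

/-- linear independence of the residues over `𝔽_ℓ(ḡ)` gives `IndepMod`. -/
theorem ValData.indepMod_of_linearIndependent (hR : D.ContainsBase) (hg : g ∈ D.O)
    (ht : Transcendental (ZMod ℓ) (D.res ⟨g, hg⟩)) {n : ℕ} (y : Fin n → D.O)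
    (hli : LinearIndependent (ZMod ℓ)⟮D.res ⟨g, hg⟩⟯ (fun i => D.res (y i))) :
    D.IndepMod ℚ⟮g⟯ y := by
  intro c hc hsum
  rw [Fintype.linearIndependent_iff] at hli
  have h1 := hli (fun i => ⟨D.res (c i), ValData.res_mem_adjoin hR hg ht (c i) (hc i)⟩) (by
    rw [map_sum] at hsum
    rw [← hsum]
    exact Finset.sum_congr rfl fun i _ => by rw [map_mul]; rfl)
  intro i
  exact Subtype.ext_iff.mp (h1 i)

end Residue

end Fermat.Agent.S28
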