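/-
S28 package (B2): the Gauss valuation ring attached to a ring hom `φ : F →+* ℚ((t))`.

`valRing ℓ φ : Subring F` = elements `z` with `φ z * b = a` for integral series `a, b`,
`b` nonzero mod `ℓ`; `resMap ℓ φ : valRing ℓ φ →+* 𝔽_ℓ((t))`; its kernel is `ℓ * valRing`;
every nonzero element of the "fraction subfield" is `ℓ^k * unit`.
-/
import Fermat.Agent.S28.ValGauss

set_option autoImplicit false

namespace Fermat.Agent.S28

open ModularCurve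

section ValRing

variable (ℓ : ℕ) [Fact ℓ.Prime] {F : Type*} [Field F] (φ : F →+* LaurentSeries ℚ)

theorem natCast_laurentRat_ne_zero {m : ℕ} (hm : m ≠ 0) : ((m : ℕ) : LaurentSeries ℚ) ≠ 0 := by
  rw [← map_natCast (HahnSeries.C : ℚ →+* LaurentSeries ℚ) m]
  exact (map_ne_zero_iff _ HahnSeries.C_injective).mpr (by exact_mod_cast hm)

theorem natCast_laurentZMod_eq_zero : ((ℓ : ℕ) : LaurentSeries (ZMod ℓ)) = 0 := by
  rw [← map_natCast (HahnSeries.C : ZMod ℓ →+* LaurentSeries (ZMod ℓ)) ℓ]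
  simp

/-- the Gauss valuation ring of `φ`. -/
def valRing : Subring F where
  carrier := {z | ∃ a b : LaurentSeries ↥(GaloisRep.ratLocalizedAt ℓ),
    redSeries ℓ b ≠ 0 ∧ φ z * intIncl ℓ b = intIncl ℓ a}
  mul_mem' := by
    rintro z₁ z₂ ⟨a₁, b₁, hb₁, h₁⟩ ⟨a₂, b₂, hb₂, h₂⟩
    refine ⟨a₁ * a₂, b₁ * b₂, ?_, ?_⟩
    · rw [map_mul]; exact mul_ne_zero hb₁ hb₂
    · rw [map_mul, map_mul, map_mul, ← h₁, ← h₂]; ring
  one_mem' := ⟨1, 1, by simp, by simp⟩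
  add_mem' := by
    rintro z₁ z₂ ⟨a₁, b₁, hb₁, h₁⟩ ⟨a₂, b₂, hb₂, h₂⟩
    refine ⟨a₁ * b₂ + a₂ * b₁, b₁ * b₂, ?_, ?_⟩
    · rw [map_mul]; exact mul_ne_zero hb₁ hb₂
    · rw [map_add, map_add, map_mul, map_mul, map_mul, ← h₁, ← h₂]; ring
  zero_mem' := ⟨0, 1, by simp, by simp⟩
  neg_mem' := by
    rintro z ⟨a, b, hb, h⟩
    exact ⟨-a, b, hb, by rw [map_neg, map_neg, ← h]; ring⟩

theorem mem_valRing_iff {z : F} :
    z ∈ valRing ℓ φ ↔ ∃ a b : LaurentSeries ↥(GaloisRep.ratLocalizedAt ℓ),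
      redSeries ℓ b ≠ 0 ∧ φ z * intIncl ℓ b = intIncl ℓ a := Iff.rfl

/-- elements mapping to integral series are in the valuation ring. -/
theorem mem_valRing_of_eq {z : F} (a : LaurentSeries ↥(GaloisRep.ratLocalizedAt ℓ))
    (h : φ z = intIncl ℓ a) : z ∈ valRing ℓ φ :=
  ⟨a, 1, by simp, by simp [h]⟩

/-- the residue map, as a function. -/
noncomputable def resFun (z : valRing ℓ φ) : LaurentSeries (ZMod ℓ) :=
  redSeries ℓ z.2.choose / redSeries ℓ z.2.choose_spec.choose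

theorem resFun_eq (z : valRing ℓ φ) (a b : LaurentSeries ↥(GaloisRep.ratLocalizedAt ℓ))
    (hb : redSeries ℓ b ≠ 0) (h : φ z * intIncl ℓ b = intIncl ℓ a) :
    resFun ℓ φ z = redSeries ℓ a / redSeries ℓ b := by
  obtain ⟨hb', h'⟩ := z.2.choose_spec.choose_spec
  set a' := z.2.choose
  set b' := z.2.choose_spec.choose
  show redSeries ℓ a' / redSeries ℓ b' = _
  rw [div_eq_div_iff hb' hb]
  have h1 : intIncl ℓ (a' * b) = intIncl ℓ (a * b') := by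
    rw [map_mul, map_mul, ← h', ← h]; ring
  have h2 := intIncl_injective ℓ h1
  rw [← map_mul, ← map_mul, h2]

/-- the residue map of the Gauss valuation. -/
noncomputable def resMap : valRing ℓ φ →+* LaurentSeries (ZMod ℓ) where
  toFun := resFun ℓ φ
  map_one' := by
    rw [resFun_eq ℓ φ 1 1 1 (by simp) (by simp)]
    simp
  map_zero' := by
    rw [resFun_eq ℓ φ 0 0 1 (by simp) (by simp)]
    simp
  map_mul' := by
    rintro ⟨z₁, a₁, b₁, hb₁, h₁⟩ ⟨z₂, a₂, b₂, hb₂, h₂⟩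
    rw [resFun_eq ℓ φ ⟨z₁, a₁, b₁, hb₁, h₁⟩ a₁ b₁ hb₁ h₁,
      resFun_eq ℓ φ ⟨z₂, a₂, b₂, hb₂, h₂⟩ a₂ b₂ hb₂ h₂,
      resFun_eq ℓ φ (⟨z₁, a₁, b₁, hb₁, h₁⟩ * ⟨z₂, a₂, b₂, hb₂, h₂⟩) (a₁ * a₂) (b₁ * b₂)
        (by rw [map_mul]; exact mul_ne_zero hb₁ hb₂)
        (by
          show φ (z₁ * z₂) * _ = _
          rw [map_mul, map_mul, map_mul, ← h₁, ← h₂]; ring)]
    rw [map_mul, map_mul, div_mul_div_comm]
  map_add' := by
    rintro ⟨z₁, a₁, b₁, hb₁, h₁⟩ ⟨z₂, a₂, b₂, hb₂, h₂⟩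
    rw [resFun_eq ℓ φ ⟨z₁, a₁, b₁, hb₁, h₁⟩ a₁ b₁ hb₁ h₁,
      resFun_eq ℓ φ ⟨z₂, a₂, b₂, hb₂, h₂⟩ a₂ b₂ hb₂ h₂,
      resFun_eq ℓ φ (⟨z₁, a₁, b₁, hb₁, h₁⟩ + ⟨z₂, a₂, b₂, hb₂, h₂⟩) (a₁ * b₂ + a₂ * b₁) (b₁ * b₂)
        (by rw [map_mul]; exact mul_ne_zero hb₁ hb₂)
        (by
          show φ (z₁ + z₂) * _ = _
          rw [map_add, map_add, map_mul, map_mul, map_mul, ← h₁, ← h₂]; ring)]
    rw [map_add, map_mul, map_mul, map_mul, div_add_div _ _ hb₁ hb₂]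
    ring

theorem resMap_eq (z : valRing ℓ φ) (a b : LaurentSeries ↥(GaloisRep.ratLocalizedAt ℓ))
    (hb : redSeries ℓ b ≠ 0) (h : φ z * intIncl ℓ b = intIncl ℓ a) :
    resMap ℓ φ z = redSeries ℓ a / redSeries ℓ b :=
  resFun_eq ℓ φ z a b hb h

theorem resMap_of_eq (z : valRing ℓ φ) (a : LaurentSeries ↥(GaloisRep.ratLocalizedAt ℓ))
    (h : φ z = intIncl ℓ a) : resMap ℓ φ z = redSeries ℓ a := by
  rw [resMap_eq ℓ φ z a 1 (by simp) (by simp [h])]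
  simp

include φ in
theorem natCast_prime_ne_zero_of_hom : ((ℓ : ℕ) : F) ≠ 0 := by
  intro h0
  apply natCast_laurentRat_ne_zero (Fact.out : ℓ.Prime).ne_zero
  rw [← map_natCast φ, h0, map_zero]

/-- the kernel of the residue map is `ℓ * valRing`. -/
theorem resMap_eq_zero_iff (z : valRing ℓ φ) :
    resMap ℓ φ z = 0 ↔ ∃ z' : valRing ℓ φ, z = ((ℓ : ℕ) : valRing ℓ φ) * z' := by
  constructor
  · intro h
    obtain ⟨a, b, hb, hab⟩ := z.2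
    rw [resMap_eq ℓ φ z a b hb hab, div_eq_zero_iff] at h
    have ha : redSeries ℓ a = 0 := h.resolve_right hb
    obtain ⟨a', rfl⟩ := (redSeries_eq_zero_iff ℓ a).mp ha
    have hℓ : ((ℓ : ℕ) : LaurentSeries ℚ) ≠ 0 :=
      natCast_laurentRat_ne_zero (Fact.out : ℓ.Prime).ne_zero
    have hℓF : ((ℓ : ℕ) : F) ≠ 0 := natCast_prime_ne_zero_of_hom ℓ φ
    refine ⟨⟨(z : F) / ((ℓ : ℕ) : F), a', b, hb, ?_⟩, ?_⟩
    · rw [map_div₀, map_natCast]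
      rw [map_mul, map_natCast] at hab
      rw [div_mul_eq_mul_div, hab, mul_div_cancel_left₀ _ hℓ]
    · apply Subtype.ext
      show (z : F) = ((ℓ : ℕ) : F) * ((z : F) / ((ℓ : ℕ) : F))
      rw [mul_div_cancel₀ _ hℓF]
  · rintro ⟨z', rfl⟩
    rw [map_mul, map_natCast, natCast_laurentZMod_eq_zero, zero_mul]

/-- units of the valuation ring have nonzero residue. -/
theorem resMap_ne_zero_of_inv_mem (u : valRing ℓ φ) (hu : (u : F)⁻¹ ∈ valRing ℓ φ)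
    (hu0 : (u : F) ≠ 0) : resMap ℓ φ u ≠ 0 := by
  intro h
  have h1 : u * ⟨(u : F)⁻¹, hu⟩ = 1 := Subtype.ext (mul_inv_cancel₀ hu0)
  have h2 := congrArg (resMap ℓ φ) h1
  rw [map_mul, h, zero_mul, map_one] at h2
  exact zero_ne_one h2

/-- the subfield of elements whose image is a quotient of integral series. -/
def fracSubfield : Subfield F where
  carrier := {z | ∃ a b : LaurentSeries ↥(GaloisRep.ratLocalizedAt ℓ),
    b ≠ 0 ∧ φ z * intIncl ℓ b = intIncl ℓ a}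
  mul_mem' := by
    rintro z₁ z₂ ⟨a₁, b₁, hb₁, h₁⟩ ⟨a₂, b₂, hb₂, h₂⟩
    refine ⟨a₁ * a₂, b₁ * b₂, mul_ne_zero hb₁ hb₂, ?_⟩
    rw [map_mul, map_mul, map_mul, ← h₁, ← h₂]; ring
  one_mem' := ⟨1, 1, one_ne_zero, by simp⟩
  add_mem' := by
    rintro z₁ z₂ ⟨a₁, b₁, hb₁, h₁⟩ ⟨a₂, b₂, hb₂, h₂⟩
    refine ⟨a₁ * b₂ + a₂ * b₁, b₁ * b₂, mul_ne_zero hb₁ hb₂, ?_⟩
    rw [map_add, map_add, map_mul, map_mul, map_mul, ← h₁, ← h₂]; ring
  zero_mem' := ⟨0, 1, one_ne_zero, by simp⟩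
  neg_mem' := by
    rintro z ⟨a, b, hb, h⟩
    exact ⟨-a, b, hb, by rw [map_neg, map_neg, ← h]; ring⟩
  inv_mem' := by
    rintro z ⟨a, b, hb, h⟩
    by_cases hz : z = 0
    · subst hz
      exact ⟨0, 1, one_ne_zero, by simp⟩
    · have hφz : φ z ≠ 0 := (map_ne_zero φ).mpr hz
      have ha : a ≠ 0 := by
        rintro rfl
        rw [map_zero] at h
        rcases mul_eq_zero.mp h with h0 | h0
        · exact hφz h0
        · exact hb (intIncl_injective ℓ (by rw [h0, map_zero]))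
      refine ⟨b, a, ha, ?_⟩
      rw [map_inv₀, ← h, inv_mul_cancel_left₀ hφz]

omit [Fact ℓ.Prime] in
theorem mem_fracSubfield_iff {z : F} :
    z ∈ fracSubfield ℓ φ ↔ ∃ a b : LaurentSeries ↥(GaloisRep.ratLocalizedAt ℓ),
      b ≠ 0 ∧ φ z * intIncl ℓ b = intIncl ℓ a := Iff.rfl

omit [Fact ℓ.Prime] in
theorem mem_fracSubfield_of_eq {z : F} (a : LaurentSeries ↥(GaloisRep.ratLocalizedAt ℓ))
    (h : φ z = intIncl ℓ a) : z ∈ fracSubfield ℓ φ :=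
  ⟨a, 1, one_ne_zero, by simp [h]⟩

/-- **decomposition**: every nonzero element of the fraction subfield is `ℓ^k * unit`. -/
theorem exists_zpow_mul_unit {z : F} (hz : z ≠ 0) (hfr : z ∈ fracSubfield ℓ φ) :
    ∃ (k : ℤ) (u : F), u ∈ valRing ℓ φ ∧ u⁻¹ ∈ valRing ℓ φ ∧ z = ((ℓ : ℕ) : F) ^ k * u := by
  obtain ⟨a, b, hb, h⟩ := hfr
  have hφz : φ z ≠ 0 := (map_ne_zero φ).mpr hz
  have ha : a ≠ 0 := by
    rintro rfl
    rw [map_zero] at h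
    rcases mul_eq_zero.mp h with h0 | h0
    · exact hφz h0
    · exact hb (intIncl_injective ℓ (by rw [h0, map_zero]))
  obtain ⟨i, a₀, rfl, ha₀⟩ := exists_eq_pow_mul_redSeries_ne_zero ℓ a ha
  obtain ⟨j, b₀, rfl, hb₀⟩ := exists_eq_pow_mul_redSeries_ne_zero ℓ b hb
  have hℓ : ((ℓ : ℕ) : LaurentSeries ℚ) ≠ 0 :=
    natCast_laurentRat_ne_zero (Fact.out : ℓ.Prime).ne_zero
  have hℓF : ((ℓ : ℕ) : F) ≠ 0 := natCast_prime_ne_zero_of_hom ℓ φ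
  rw [map_mul, map_mul, map_pow, map_pow, map_natCast] at h
  set u : F := z * ((ℓ : ℕ) : F) ^ j / ((ℓ : ℕ) : F) ^ i with hu
  have hu1 : φ u * intIncl ℓ b₀ = intIncl ℓ a₀ := by
    rw [hu, map_div₀, map_mul, map_pow, map_pow, map_natCast, div_mul_eq_mul_div,
      div_eq_iff (pow_ne_zero _ hℓ)]
    rw [mul_comm (intIncl ℓ a₀), ← h]; ring
  have hu0 : u ≠ 0 := by
    rw [hu]
    exact div_ne_zero (mul_ne_zero hz (pow_ne_zero _ hℓF)) (pow_ne_zero _ hℓF)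
  have hφu : φ u ≠ 0 := (map_ne_zero φ).mpr hu0
  refine ⟨(i : ℤ) - (j : ℤ), u, ⟨a₀, b₀, hb₀, hu1⟩, ⟨b₀, a₀, ha₀, ?_⟩, ?_⟩
  · rw [map_inv₀, ← hu1, inv_mul_cancel_left₀ hφu]
  · rw [zpow_sub₀ hℓF, zpow_natCast, zpow_natCast, hu]
    field_simp

end ValRing

end Fermat.Agent.S28
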