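/-
S28 package (B4): the Gauss valuation on a field `F` embedded in `ℚ((t))`, descent for elements
integral over `ℤ_(ℓ)[g]`, and the residue homomorphisms on the Igusa chart algebras.
-/
import Fermat.Agent.S28.ValRing
import Fermat.Agent.S28.ValResidue
import Fermat.Prelude.Def_ModularCurve_IgusaScheme

set_option autoImplicit false
set_option linter.unusedSectionVars false

universe u

namespace Fermat.Agent.S28

open ModularCurve IntermediateField

section GaussData

variable (ℓ : ℕ) [Fact ℓ.Prime] {F : Type u} [Field F] (φ : F →+* LaurentSeries ℚ)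

/-- the Gauss valuation data of `φ`, when every element is a quotient of integral series. -/
noncomputable def gaussValData (hfr : ∀ z : F, z ∈ fracSubfield ℓ φ) :
    ValData ℓ F (LaurentSeries (ZMod ℓ)) where
  O := valRing ℓ φ
  res := resMap ℓ φ
  prime_ne_zero := natCast_prime_ne_zero_of_hom ℓ φ
  res_prime := by rw [map_natCast]; exact natCast_laurentZMod_eq_zero ℓ
  ker := fun z hz => (resMap_eq_zero_iff ℓ φ z).mp hz
  dec := fun z hz => exists_zpow_mul_unit ℓ φ hz (hfr z)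

variable [Algebra ℚ F] [Algebra ↥(GaloisRep.ratLocalizedAt ℓ) F]
  [IsScalarTower ↥(GaloisRep.ratLocalizedAt ℓ) ℚ F]

theorem hom_algebraMap_base (r : ↥(GaloisRep.ratLocalizedAt ℓ)) :
    φ (algebraMap ↥(GaloisRep.ratLocalizedAt ℓ) F r) = intIncl ℓ (HahnSeries.C r) := by
  have h1 : φ.comp (algebraMap ℚ F) = (HahnSeries.C : ℚ →+* LaurentSeries ℚ) :=
    RingHom.ext_rat _ _
  have h2 : intIncl ℓ (HahnSeries.C r) =
      (HahnSeries.C : ℚ →+* LaurentSeries ℚ) ((r : ↥(GaloisRep.ratLocalizedAt ℓ)) : ℚ) := by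
    rw [intIncl, HahnSeries.C_apply, coeffMap_single, HahnSeries.C_apply]
    rfl
  rw [IsScalarTower.algebraMap_apply ↥(GaloisRep.ratLocalizedAt ℓ) ℚ F, h2, ← h1]
  rfl

theorem gaussValData_containsBase (hfr : ∀ z : F, z ∈ fracSubfield ℓ φ) :
    (gaussValData ℓ φ hfr).ContainsBase := fun r =>
  mem_valRing_of_eq ℓ φ _ (hom_algebraMap_base ℓ φ r)

/-- **Gauss descent** for a coordinate `g`: elements integral over `ℤ_(ℓ)[g]` lie in the valuation
ring, and if their residue vanishes they are `ℓ` times an element integral over `ℤ_(ℓ)[g]`. -/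
theorem gauss_descent (hfr : ∀ z : F, z ∈ fracSubfield ℓ φ) (g : F) (hg : g ∈ valRing ℓ φ)
    (ht : Transcendental (ZMod ℓ) (resMap ℓ φ ⟨g, hg⟩)) {n : ℕ} [FiniteDimensional ℚ⟮g⟯ F]
    (hn : Module.finrank ℚ⟮g⟯ F ≤ n) (y : Fin n → valRing ℓ φ)
    (hli : LinearIndependent (ZMod ℓ)⟮resMap ℓ φ ⟨g, hg⟩⟯ (fun i => resMap ℓ φ (y i)))
    {x : F} (hx : IsIntegral (Algebra.adjoin ↥(GaloisRep.ratLocalizedAt ℓ) {g}) x) :
    ∃ hxO : x ∈ valRing ℓ φ, (resMap ℓ φ ⟨x, hxO⟩ = 0 →
      ∃ w : F, IsIntegral (Algebra.adjoin ↥(GaloisRep.ratLocalizedAt ℓ) {g}) w ∧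
        x = ((ℓ : ℕ) : F) * w) := by
  set D := gaussValData ℓ φ hfr with hD
  have hR : D.ContainsBase := gaussValData_containsBase ℓ φ hfr
  have hg' : g ∈ D.O := hg
  have ht' : Transcendental (ZMod ℓ) (D.res ⟨g, hg'⟩) := ht
  have htr := ValData.resTranscendental_of_transcendental hR hg' ht'
  have hli' : LinearIndependent (ZMod ℓ)⟮D.res ⟨g, hg'⟩⟯ (fun i => D.res (y i)) := hli
  have hInd := ValData.indepMod_of_linearIndependent hR hg' ht' y hli'
  have hxO : x ∈ D.O := ValData.mem_of_isIntegral_adjoin hR hg' hx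
  refine ⟨hxO, fun h0 => ?_⟩
  obtain ⟨w, hw⟩ := D.ker ⟨x, hxO⟩ h0
  have hxw : x = ((ℓ : ℕ) : F) * (w : F) := by
    have := congrArg (fun z : D.O => (z : F)) hw
    simpa using this
  exact ⟨w, ValData.isIntegral_of_prime_mul htr hInd hn w (hxw ▸ hx), hxw⟩

/-- elements of the valuation ring with nonzero residue are units. -/
theorem inv_mem_valRing_of_resMap_ne_zero (hfr : ∀ z : F, z ∈ fracSubfield ℓ φ)
    (z : valRing ℓ φ) (h : resMap ℓ φ z ≠ 0) : (z : F)⁻¹ ∈ valRing ℓ φ := by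
  have hz0 : (z : F) ≠ 0 := by
    intro h0
    apply h
    have : z = 0 := Subtype.ext h0
    rw [this, map_zero]
  have hℓ : ((ℓ : ℕ) : F) ≠ 0 := natCast_prime_ne_zero_of_hom ℓ φ
  set D := gaussValData ℓ φ hfr with hD
  obtain ⟨k, u, hu, hu', hzu⟩ := exists_zpow_mul_unit ℓ φ hz0 (hfr z)
  have hu0 : u ≠ 0 := by
    rintro rfl
    rw [mul_zero] at hzu
    exact hz0 hzu
  have hresu : resMap ℓ φ ⟨u, hu⟩ ≠ 0 := resMap_ne_zero_of_inv_mem ℓ φ ⟨u, hu⟩ hu' hu0
  rcases lt_trichotomy k 0 with hk | hk | hk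
  · exfalso
    obtain ⟨m, hm⟩ := Int.eq_ofNat_of_zero_le (show 0 ≤ -k by omega)
    have hm0 : 0 < m := by omega
    have h1 : (⟨u, hu⟩ : valRing ℓ φ) = ((ℓ : ℕ) : valRing ℓ φ) ^ m * z := by
      apply Subtype.ext
      push_cast
      rw [hzu, ← zpow_natCast, ← hm, ← mul_assoc, ← zpow_add₀ hℓ, neg_add_cancel, zpow_zero,
        one_mul]
    apply hresu
    rw [h1]
    exact D.res_pow_prime_mul m hm0 z
  · rw [hk, zpow_zero, one_mul] at hzu
    rw [hzu]; exact hu'
  · exfalso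
    obtain ⟨m, hm⟩ := Int.eq_ofNat_of_zero_le hk.le
    have hm0 : 0 < m := by omega
    have h1 : z = ((ℓ : ℕ) : valRing ℓ φ) ^ m * ⟨u, hu⟩ := by
      apply Subtype.ext
      push_cast
      rw [hzu, hm, zpow_natCast]
    apply h
    rw [h1]
    exact D.res_pow_prime_mul m hm0 ⟨u, hu⟩

end GaussData

section Inv

variable {K : Type*} [Field K] {M : Type*} [Field M] [Algebra K M]

theorem val_adjoin_simple_inv_eq (x : M) : K⟮x⁻¹⟯ = K⟮x⟯ := by
  apply le_antisymm
  · exact adjoin_simple_le_iff.mpr (inv_mem (mem_adjoin_simple_self K x))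
  · refine adjoin_simple_le_iff.mpr ?_
    have := inv_mem (mem_adjoin_simple_self K x⁻¹)
    rwa [inv_inv] at this

theorem transcendental_inv {x : M} (hx : Transcendental K x) : Transcendental K x⁻¹ := by
  intro h
  apply hx
  have := h.inv
  rwa [inv_inv] at this

theorem finrank_congr_intermediateField {E₁ E₂ : IntermediateField K M} (h : E₁ = E₂) :
    Module.finrank E₁ M = Module.finrank E₂ M := by
  subst h; rfl

theorem finiteDimensional_congr_intermediateField {E₁ E₂ : IntermediateField K M} (h : E₁ = E₂)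
    (hfd : FiniteDimensional E₁ M) : FiniteDimensional E₂ M := by
  subst h; exact hfd

theorem linearIndependent_congr_intermediateField {E₁ E₂ : IntermediateField K M} (h : E₁ = E₂)
    {ι : Type*} {v : ι → M} (hli : LinearIndependent E₁ v) : LinearIndependent E₂ v := by
  subst h; exact hli

end Inv

section Igusa

open ModularCurve.IgusaScheme

variable (N : ℕ) [NeZero N] (ℓ : ℕ) [Fact ℓ.Prime]
  (φ : ↥(modularFunctionFieldFull N) →+* LaurentSeries ℚ)

/-- if the generators of the full modular function field map to integral series, every element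
maps to a quotient of integral series. -/
theorem mem_fracSubfield_full
    (hgen : ∀ x (hx : x ∈ divisorExpansions N),
      ∃ a : LaurentSeries ↥(GaloisRep.ratLocalizedAt ℓ),
        φ ⟨x, subset_adjoin ℚ _ hx⟩ = intIncl ℓ a)
    (z : ↥(modularFunctionFieldFull N)) : z ∈ fracSubfield ℓ φ := by
  obtain ⟨x, hx⟩ := z
  refine IntermediateField.adjoin_induction (F := ℚ) (s := divisorExpansions N)
    (p := fun x hx => (⟨x, hx⟩ : ↥(modularFunctionFieldFull N)) ∈ fracSubfield ℓ φ)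
    ?_ ?_ ?_ ?_ ?_ hx
  · intro x hx
    obtain ⟨a, ha⟩ := hgen x hx
    exact mem_fracSubfield_of_eq ℓ φ a ha
  · intro q
    have e : (⟨algebraMap ℚ (LaurentSeries ℚ) q, IntermediateField.algebraMap_mem _ q⟩ :
        ↥(modularFunctionFieldFull N)) = ((q : ℚ) : ↥(modularFunctionFieldFull N)) := by
      apply Subtype.ext
      show algebraMap ℚ (LaurentSeries ℚ) q = _
      rw [eq_ratCast]
      exact (SubfieldClass.coe_ratCast (modularFunctionFieldFull N) q).symm
    rw [e]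
    exact SubfieldClass.ratCast_mem _ q
  · intro x y hx hy h1 h2
    have e : (⟨x + y, add_mem hx hy⟩ : ↥(modularFunctionFieldFull N)) =
        (⟨x, hx⟩ : ↥(modularFunctionFieldFull N)) + ⟨y, hy⟩ := Subtype.ext (by simp)
    rw [e]
    exact (fracSubfield ℓ φ).add_mem h1 h2
  · intro x hx h1
    have e : (⟨x⁻¹, inv_mem hx⟩ : ↥(modularFunctionFieldFull N)) =
        (⟨x, hx⟩ : ↥(modularFunctionFieldFull N))⁻¹ := Subtype.ext (by simp)
    rw [e]
    exact (fracSubfield ℓ φ).inv_mem h1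
  · intro x y hx hy h1 h2
    have e : (⟨x * y, mul_mem hx hy⟩ : ↥(modularFunctionFieldFull N)) =
        (⟨x, hx⟩ : ↥(modularFunctionFieldFull N)) * ⟨y, hy⟩ := Subtype.ext (by simp)
    rw [e]
    exact (fracSubfield ℓ φ).mul_mem h1 h2

variable {N ℓ φ}

/-- the residue homomorphism on a subalgebra contained in the valuation ring. -/
noncomputable def resHomOfLe (A : Subalgebra ↥(GaloisRep.ratLocalizedAt ℓ) ↥(modularFunctionFieldFull N))
    (hA : ∀ x ∈ A, x ∈ valRing ℓ φ) : ↥A →+* LaurentSeries (ZMod ℓ) :=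
  (resMap ℓ φ).comp
    { toFun := fun x => ⟨x.1, hA x.1 x.2⟩
      map_one' := Subtype.ext rfl
      map_mul' := fun _ _ => Subtype.ext rfl
      map_zero' := Subtype.ext rfl
      map_add' := fun _ _ => Subtype.ext rfl }

theorem resHomOfLe_apply (A : Subalgebra ↥(GaloisRep.ratLocalizedAt ℓ) ↥(modularFunctionFieldFull N))
    (hA : ∀ x ∈ A, x ∈ valRing ℓ φ) (x : ↥A) :
    resHomOfLe A hA x = resMap ℓ φ ⟨x.1, hA x.1 x.2⟩ := rfl

/-- kernel of the residue homomorphism, given descent. -/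
theorem ker_resHomOfLe (A : Subalgebra ↥(GaloisRep.ratLocalizedAt ℓ) ↥(modularFunctionFieldFull N))
    (hA : ∀ x ∈ A, x ∈ valRing ℓ φ)
    (hdesc : ∀ x (hx : x ∈ A), resMap ℓ φ ⟨x, hA x hx⟩ = 0 →
      ∃ w ∈ A, x = ((ℓ : ℕ) : ↥(modularFunctionFieldFull N)) * w) :
    RingHom.ker (resHomOfLe A hA) = Ideal.span {((ℓ : ℕ) : ↥A)} := by
  ext x
  rw [RingHom.mem_ker, Ideal.mem_span_singleton', resHomOfLe_apply]
  constructor
  · intro h
    obtain ⟨w, hw, hxw⟩ := hdesc x.1 x.2 h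
    refine ⟨⟨w, hw⟩, Subtype.ext ?_⟩
    push_cast
    rw [hxw, mul_comm]
  · rintro ⟨w, rfl⟩
    have h1 : (⟨(w * ((ℓ : ℕ) : ↥A) : ↥A).1, hA _ (w * ((ℓ : ℕ) : ↥A) : ↥A).2⟩ : valRing ℓ φ) =
        ((ℓ : ℕ) : valRing ℓ φ) * ⟨w.1, hA _ w.2⟩ := by
      apply Subtype.ext
      push_cast
      rw [mul_comm]
    rw [h1, map_mul, map_natCast, natCast_laurentZMod_eq_zero, zero_mul]

end Igusa

end Fermat.Agent.S28
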