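/-
S28 package (B4), final form: residue homomorphisms `chartAlg N ℓ S →+* 𝔽_ℓ((t))` with kernel
`(ℓ)` on the three Igusa charts, from
* a ring hom `φ : F_N →+* ℚ((t))` mapping the generators to integral series,
* transcendence over `𝔽_ℓ` of the reduction of `φ j`,
* `n ≥ ψ(N)` elements whose reductions are linearly independent over `𝔽_ℓ(reduction of φ j)`.
-/
import Fermat.Agent.S28.ValIgusa
import Fermat.Agent.S28.DegreeQ

set_option autoImplicit false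
set_option linter.unusedSectionVars false

namespace Fermat.Agent.S28

open ModularCurve IntermediateField ModularCurve.IgusaScheme

section Charts

variable {N : ℕ} [NeZero N] {ℓ : ℕ} [Fact ℓ.Prime]
  {φ : ↥(modularFunctionFieldFull N) →+* LaurentSeries ℚ}

/-- descent data on a coordinate `g` (for `g = j` and `g = j⁻¹`). -/
theorem chart_descent (hfr : ∀ z, z ∈ fracSubfield ℓ φ)
    (g : ↥(modularFunctionFieldFull N)) (hg : g ∈ valRing ℓ φ)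
    (ht : Transcendental (ZMod ℓ) (resMap ℓ φ ⟨g, hg⟩)) {n : ℕ}
    [FiniteDimensional ℚ⟮g⟯ ↥(modularFunctionFieldFull N)]
    (hn : Module.finrank ℚ⟮g⟯ ↥(modularFunctionFieldFull N) ≤ n) (y : Fin n → valRing ℓ φ)
    (hli : LinearIndependent (ZMod ℓ)⟮resMap ℓ φ ⟨g, hg⟩⟯ (fun i => resMap ℓ φ (y i))) :
    ∃ hA : ∀ x ∈ chartAlg N ℓ {g}, x ∈ valRing ℓ φ,
      ∀ x (hx : x ∈ chartAlg N ℓ {g}), resMap ℓ φ ⟨x, hA x hx⟩ = 0 →
        ∃ w ∈ chartAlg N ℓ {g}, x = ((ℓ : ℕ) : ↥(modularFunctionFieldFull N)) * w := by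
  have key := fun (x : ↥(modularFunctionFieldFull N))
      (hx : IsIntegral (Algebra.adjoin ↥(GaloisRep.ratLocalizedAt ℓ) {g}) x) =>
    gauss_descent ℓ φ hfr g hg ht hn y hli hx
  refine ⟨fun x hx => (key x ((mem_chartAlg_iff N ℓ).mp hx)).1, fun x hx h0 => ?_⟩
  obtain ⟨hxO, h1⟩ := key x ((mem_chartAlg_iff N ℓ).mp hx)
  obtain ⟨w, hw, hxw⟩ := h1 h0
  exact ⟨w, (mem_chartAlg_iff N ℓ).mpr hw, hxw⟩

theorem transcendental_ne_zero' {K M : Type*} [Field K] [Field M] [Algebra K M] {x : M}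
    (hx : Transcendental K x) : x ≠ 0 := fun h0 =>
  hx ⟨Polynomial.X, Polynomial.X_ne_zero, by rw [h0]; simp⟩

theorem resMap_inv (z : valRing ℓ φ) (hz : (z : ↥(modularFunctionFieldFull N))⁻¹ ∈ valRing ℓ φ)
    (hz0 : (z : ↥(modularFunctionFieldFull N)) ≠ 0) :
    resMap ℓ φ ⟨(z : ↥(modularFunctionFieldFull N))⁻¹, hz⟩ = (resMap ℓ φ z)⁻¹ := by
  have h1 : z * ⟨(z : ↥(modularFunctionFieldFull N))⁻¹, hz⟩ = 1 :=
    Subtype.ext (mul_inv_cancel₀ hz0)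
  have h2 := congrArg (resMap ℓ φ) h1
  rw [map_mul, map_one] at h2
  exact eq_inv_of_mul_eq_one_right h2

/-- **residue homomorphisms on the three charts.** -/
theorem exists_resHom_charts (N : ℕ) [NeZero N] (ℓ : ℕ) [Fact ℓ.Prime]
    (φ : ↥(modularFunctionFieldFull N) →+* LaurentSeries ℚ)
    (hgen : ∀ x (hx : x ∈ divisorExpansions N),
      ∃ a : LaurentSeries ↥(GaloisRep.ratLocalizedAt ℓ),
        φ ⟨x, subset_adjoin ℚ _ hx⟩ = intIncl ℓ a)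
    (aJ : LaurentSeries ↥(GaloisRep.ratLocalizedAt ℓ)) (haJ : φ (jFull N) = intIncl ℓ aJ)
    (ht : Transcendental (ZMod ℓ) (redSeries ℓ aJ)) {n : ℕ} (hn : dedekindPsi N ≤ n)
    (yF : Fin n → ↥(modularFunctionFieldFull N))
    (Y : Fin n → LaurentSeries ↥(GaloisRep.ratLocalizedAt ℓ))
    (hY : ∀ i, φ (yF i) = intIncl ℓ (Y i))
    (hli : LinearIndependent (ZMod ℓ)⟮redSeries ℓ aJ⟯ (fun i => redSeries ℓ (Y i))) :
    (∃ ρ : chartAlgFin N ℓ →+* LaurentSeries (ZMod ℓ),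
        RingHom.ker ρ = Ideal.span {((ℓ : ℕ) : chartAlgFin N ℓ)}) ∧
      (∃ ρ : chartAlgInf N ℓ →+* LaurentSeries (ZMod ℓ),
        RingHom.ker ρ = Ideal.span {((ℓ : ℕ) : chartAlgInf N ℓ)}) ∧
      (∃ ρ : chartAlgMid N ℓ →+* LaurentSeries (ZMod ℓ),
        RingHom.ker ρ = Ideal.span {((ℓ : ℕ) : chartAlgMid N ℓ)}) := by
  have hfr := mem_fracSubfield_full N ℓ φ hgen
  have hj : jFull N ∈ valRing ℓ φ := mem_valRing_of_eq ℓ φ aJ haJ
  have hresj : resMap ℓ φ ⟨jFull N, hj⟩ = redSeries ℓ aJ := resMap_of_eq ℓ φ ⟨jFull N, hj⟩ aJ haJ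
  have ht' : Transcendental (ZMod ℓ) (resMap ℓ φ ⟨jFull N, hj⟩) := by rw [hresj]; exact ht
  let y : Fin n → valRing ℓ φ := fun i => ⟨yF i, mem_valRing_of_eq ℓ φ (Y i) (hY i)⟩
  have hres_y : (fun i => resMap ℓ φ (y i)) = fun i => redSeries ℓ (Y i) :=
    funext fun i => resMap_of_eq ℓ φ (y i) (Y i) (hY i)
  have hli' : LinearIndependent (ZMod ℓ)⟮resMap ℓ φ ⟨jFull N, hj⟩⟯
      (fun i => resMap ℓ φ (y i)) := by
    rw [hres_y, hresj]; exact hli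
  have hfd : FiniteDimensional ℚ⟮jFull N⟯ ↥(modularFunctionFieldFull N) :=
    finiteDimensional_full_over_jFull N
  have hn' : Module.finrank ℚ⟮jFull N⟯ ↥(modularFunctionFieldFull N) ≤ n :=
    (finrank_full_over_jFull_le N).trans hn
  -- the chart at finite distance
  obtain ⟨hAfin, hdfin⟩ := chart_descent hfr (jFull N) hj ht' hn' y hli'
  -- the chart at infinity
  have hres0 : resMap ℓ φ ⟨jFull N, hj⟩ ≠ 0 := transcendental_ne_zero' ht'
  have hjinv : (jFull N)⁻¹ ∈ valRing ℓ φ :=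
    inv_mem_valRing_of_resMap_ne_zero ℓ φ hfr ⟨jFull N, hj⟩ hres0
  have hresinv : resMap ℓ φ ⟨(jFull N)⁻¹, hjinv⟩ = (resMap ℓ φ ⟨jFull N, hj⟩)⁻¹ :=
    resMap_inv ⟨jFull N, hj⟩ hjinv (jFull_ne_zero N)
  have htinv : Transcendental (ZMod ℓ) (resMap ℓ φ ⟨(jFull N)⁻¹, hjinv⟩) := by
    rw [hresinv]; exact transcendental_inv ht'
  have hfdinv : FiniteDimensional ℚ⟮(jFull N)⁻¹⟯ ↥(modularFunctionFieldFull N) :=
    finiteDimensional_congr_intermediateField (val_adjoin_simple_inv_eq (jFull N)).symm hfd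
  have hninv : Module.finrank ℚ⟮(jFull N)⁻¹⟯ ↥(modularFunctionFieldFull N) ≤ n := by
    rw [finrank_congr_intermediateField (val_adjoin_simple_inv_eq (K := ℚ) (jFull N))]; exact hn'
  have hliinv : LinearIndependent (ZMod ℓ)⟮resMap ℓ φ ⟨(jFull N)⁻¹, hjinv⟩⟯
      (fun i => resMap ℓ φ (y i)) := by
    refine linearIndependent_congr_intermediateField ?_ hli'
    rw [hresinv, val_adjoin_simple_inv_eq]
  obtain ⟨hAinf, hdinf⟩ := chart_descent hfr (jFull N)⁻¹ hjinv htinv hninv y hliinv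
  -- the middle chart
  have hmid : ∀ x ∈ chartAlgMid N ℓ, ∃ m : ℕ, jFull N ^ m * x ∈ chartAlgFin N ℓ := by
    intro x hx
    have hx' : x ∈ chartAlg N ℓ (insert (jFull N)⁻¹ {jFull N}) := by
      rwa [Set.pair_comm]
    exact exists_pow_mul_mem_chartAlg (Set.mem_singleton _) (jFull_ne_zero N) hx'
  have hAmid : ∀ x ∈ chartAlgMid N ℓ, x ∈ valRing ℓ φ := by
    intro x hx
    obtain ⟨m, hm⟩ := hmid x hx
    have h1 := hAfin _ hm
    have h2 : x = ((jFull N)⁻¹) ^ m * (jFull N ^ m * x) := by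
      rw [inv_pow, inv_mul_cancel_left₀ (pow_ne_zero _ (jFull_ne_zero N))]
    rw [h2]
    exact (valRing ℓ φ).mul_mem (pow_mem hjinv m) h1
  have hdmid : ∀ x (hx : x ∈ chartAlgMid N ℓ), resMap ℓ φ ⟨x, hAmid x hx⟩ = 0 →
      ∃ w ∈ chartAlgMid N ℓ, x = ((ℓ : ℕ) : ↥(modularFunctionFieldFull N)) * w := by
    intro x hx h0
    obtain ⟨m, hm⟩ := hmid x hx
    have h1 : (⟨jFull N ^ m * x, hAfin _ hm⟩ : valRing ℓ φ) =
        (⟨jFull N, hj⟩ : valRing ℓ φ) ^ m * ⟨x, hAmid x hx⟩ := Subtype.ext (by simp)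
    have h2 : resMap ℓ φ ⟨jFull N ^ m * x, hAfin _ hm⟩ = 0 := by
      rw [h1, map_mul, h0, mul_zero]
    obtain ⟨w, hw, hxw⟩ := hdfin _ hm h2
    refine ⟨((jFull N)⁻¹) ^ m * w, ?_, ?_⟩
    · refine Subalgebra.mul_mem _ (pow_mem ?_ m) (chartAlg_mono N ℓ (sFin_subset N) hw)
      exact subset_chartAlg N ℓ _ (Set.mem_insert_of_mem _ rfl)
    · have hjm : jFull N ^ m ≠ 0 := pow_ne_zero _ (jFull_ne_zero N)
      rw [inv_pow, mul_left_comm, ← hxw, inv_mul_cancel_left₀ hjm]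
  exact ⟨⟨resHomOfLe _ hAfin, ker_resHomOfLe _ hAfin hdfin⟩,
    ⟨resHomOfLe _ hAinf, ker_resHomOfLe _ hAinf hdinf⟩,
    ⟨resHomOfLe _ hAmid, ker_resHomOfLe _ hAmid hdmid⟩⟩

end Charts

end Fermat.Agent.S28
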