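/-
S28 package (B), wiring: from the tower contract to the residue homomorphisms on the three Igusa
charts, using the cusp-`0` embedding `cuspZeroEmb N`.
-/
import Fermat.Agent.S28.ValCharts
import Fermat.Agent.S28.CuspZero
import Fermat.Agent.S28.PrimeStep
import Fermat.Prelude.Def_ModularCurve_X0ModL

set_option autoImplicit false
set_option linter.unusedSectionVars false

namespace Fermat.Agent.S28

open ModularCurve IntermediateField ModularCurve.IgusaScheme

section Final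

variable (N : ℕ) [NeZero N] (ℓ : ℕ) [Fact ℓ.Prime]

/-- the integral model of `j(t^e)`. -/
noncomputable def jInt (e : ℕ) [NeZero e] : LaurentSeries ↥(GaloisRep.ratLocalizedAt ℓ) :=
  qExpand ↥(GaloisRep.ratLocalizedAt ℓ) e (jqModC ↥(GaloisRep.ratLocalizedAt ℓ))

theorem intIncl_jInt (e : ℕ) [NeZero e] : intIncl ℓ (jInt ℓ e) = qExpand ℚ e jq := by
  rw [intIncl, jInt, ModularCurve.coeffMap_qExpand, ModularCurve.coeffMap_jqModC, jqModC_rat]

theorem redSeries_jInt (e : ℕ) [NeZero e] :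
    redSeries ℓ (jInt ℓ e) = qExpand (ZMod ℓ) e (jqModC (ZMod ℓ)) := by
  rw [redSeries, jInt, ModularCurve.coeffMap_qExpand, ModularCurve.coeffMap_jqModC]

/-- the generators map to integral series under the cusp-`0` embedding. -/
theorem cuspZeroEmb_gen_integral (x : LaurentSeries ℚ) (hx : x ∈ divisorExpansions N) :
    ∃ a : LaurentSeries ↥(GaloisRep.ratLocalizedAt ℓ),
      cuspZeroEmb N ⟨x, subset_adjoin ℚ _ hx⟩ = intIncl ℓ a := by
  obtain ⟨d, hd0, ⟨e, hde⟩, rfl⟩ := hx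
  have he0 : NeZero e := ⟨by rintro rfl; rw [mul_zero] at hde; exact NeZero.ne N hde⟩
  refine ⟨jInt ℓ e, ?_⟩
  rw [intIncl_jInt]
  exact cuspZeroEmb_gen N d e hde.symm _

theorem transcendental_qExpand_jqModC {k : Type*} [Field k] (e : ℕ) [NeZero e] :
    Transcendental k (qExpand k e (jqModC k)) := by
  have h : Transcendental k (jqModC k) := transcendental_jqModC'
  intro halg
  apply h
  have hinj : Function.Injective (qExpandAlgHomC k e) :=
    (qExpandAlgHomC k e).toRingHom.injective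
  exact (isAlgebraic_algHom_iff (qExpandAlgHomC k e) hinj).mp halg

/-- lifting of the `𝔽_ℓ`-algebra generated by the `j(t^d)`, `d ∣ N`. -/
theorem exists_lift_of_mem_adjoin {t : LaurentSeries (ZMod ℓ)}
    (ht : t ∈ Algebra.adjoin (ZMod ℓ) (divisorExpansionsC (ZMod ℓ) N)) :
    ∃ (z : ↥(modularFunctionFieldFull N)) (a : LaurentSeries ↥(GaloisRep.ratLocalizedAt ℓ)),
      cuspZeroEmb N z = intIncl ℓ a ∧ redSeries ℓ a = t := by
  induction ht using Algebra.adjoin_induction with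
  | mem x hx =>
    obtain ⟨d, hd0, ⟨e, hde⟩, rfl⟩ := hx
    have he0 : NeZero e := ⟨by rintro rfl; rw [mul_zero] at hde; exact NeZero.ne N hde⟩
    refine ⟨⟨qExpand ℚ e jq, jqd_mem_full N ⟨d, by rw [hde, mul_comm]⟩⟩, jInt ℓ d, ?_, ?_⟩
    · rw [intIncl_jInt]
      exact cuspZeroEmb_gen N e d (by rw [hde, mul_comm]) _
    · exact redSeries_jInt ℓ d
  | algebraMap c =>
    obtain ⟨m, rfl⟩ := ZMod.natCast_zmod_surjective c
    refine ⟨(m : ↥(modularFunctionFieldFull N)), (m : LaurentSeries ↥(GaloisRep.ratLocalizedAt ℓ)),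
      ?_, ?_⟩
    · rw [map_natCast, map_natCast]
    · rw [map_natCast, map_natCast]
  | add x y _ _ hx hy =>
    obtain ⟨z₁, a₁, h₁, r₁⟩ := hx
    obtain ⟨z₂, a₂, h₂, r₂⟩ := hy
    exact ⟨z₁ + z₂, a₁ + a₂, by rw [map_add, map_add, h₁, h₂], by rw [map_add, r₁, r₂]⟩
  | mul x y _ _ hx hy =>
    obtain ⟨z₁, a₁, h₁, r₁⟩ := hx
    obtain ⟨z₂, a₂, h₂, r₂⟩ := hy
    exact ⟨z₁ * z₂, a₁ * a₂, by rw [map_mul, map_mul, h₁, h₂], by rw [map_mul, r₁, r₂]⟩

/-- **package (B), final form**: the tower contract gives residue homomorphisms with kernel `(ℓ)`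
on the three Igusa charts. -/
theorem exists_resHom_charts_of_tower (hT : TowerContract ℓ N) :
    (∃ ρ : chartAlgFin N ℓ →+* LaurentSeries (ZMod ℓ),
        RingHom.ker ρ = Ideal.span {((ℓ : ℕ) : chartAlgFin N ℓ)}) ∧
      (∃ ρ : chartAlgInf N ℓ →+* LaurentSeries (ZMod ℓ),
        RingHom.ker ρ = Ideal.span {((ℓ : ℕ) : chartAlgInf N ℓ)}) ∧
      (∃ ρ : chartAlgMid N ℓ →+* LaurentSeries (ZMod ℓ),
        RingHom.ker ρ = Ideal.span {((ℓ : ℕ) : chartAlgMid N ℓ)}) := by
  obtain ⟨s, hs, hli⟩ := hT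
  choose yF Y hY hred using fun i => exists_lift_of_mem_adjoin N ℓ (hs i)
  have haJ : cuspZeroEmb N (jFull N) = intIncl ℓ (jInt ℓ N) := by
    rw [intIncl_jInt]; exact cuspZeroEmb_jFull N
  have ht : Transcendental (ZMod ℓ) (redSeries ℓ (jInt ℓ N)) := by
    rw [redSeries_jInt]; exact transcendental_qExpand_jqModC N
  refine exists_resHom_charts N ℓ (cuspZeroEmb N) (cuspZeroEmb_gen_integral N ℓ) (jInt ℓ N) haJ ht
    le_rfl yF Y hY ?_
  have h1 : (fun i => redSeries ℓ (Y i)) = s := funext hred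
  rw [h1, redSeries_jInt]
  exact hli

end Final

end Fermat.Agent.S28
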