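/-
S28: assembly of the Igusa irreducibility statement from the tower contract.
`TowerContract ℓ N` ⇒ residue homs with kernel `(ℓ)` on the charts (package (B)) ⇒ the chart
algebras tensored with `K` are domains (TensorDomain) ⇒ the base change of the Igusa scheme is
integral (Glue).
-/
import Fermat.Agent.S28.ValFinal
import Fermat.Agent.S28.TensorDomain
import Fermat.Agent.S28.Glue

set_option autoImplicit false

open AlgebraicGeometry CategoryTheory CategoryTheory.Limits ModularCurve ModularCurve.IgusaScheme

namespace Fermat.Agent.S28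

set_option maxHeartbeats 4000000 in
set_option synthInstance.maxHeartbeats 400000 in
/-- the S28 statement from the tower contract. -/
theorem isIntegral_pullback_of_towerContract
    (N : ℕ) [NeZero N] (ℓ : ℕ) [Fact ℓ.Prime] (hT : TowerContract ℓ N)
    (K : Type) [Field K] [CharP K ℓ] [Algebra ↥(GaloisRep.ratLocalizedAt ℓ) K] :
    IsIntegral ↑(pullback (igusaTo N ℓ)
      (Spec.map (CommRingCat.ofHom (algebraMap ↥(GaloisRep.ratLocalizedAt ℓ) K)))) := by
  obtain ⟨⟨ρ₁, h₁⟩, ⟨ρ₂, h₂⟩, ⟨ρ₃, h₃⟩⟩ := exists_resHom_charts_of_tower N ℓ hT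
  have hFin := isDomain_tensorProduct_of_laurent ℓ K h₁
  have hInf := isDomain_tensorProduct_of_laurent ℓ K h₂
  have hMid := isDomain_tensorProduct_of_laurent ℓ K h₃
  exact isIntegral_pullback_of_charts N ℓ K hFin hInf (hMid.toNontrivial)

end Fermat.Agent.S28
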