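/-
S28 package [B3-β] (owner: helper2): the coprime step of the mirrored tower.

`k` algebraically closed, `r` prime, `r ∤ M`, modular equations available over `k` for `r` and for
the primes dividing `M`, and (P) for `r`.  Then
  `j(t^(rM)) ∉ k(j(t^d) : d ∣ M)`.
(With `q = t^M` this says `j(q^r) ∉ k(j(q^(1/e)) : e ∣ M)`.)

Idea: all conjugates over `k(j(q))` of the generators are monomial substitutions
`j(c q^(a/b))`, `ab ∣ M`, found by chaining the prime level modular equations; after the
substitution `t ↦ t^r` they all live in `k((t^r))`, while the conjugates `j(ζ q^(1/r))`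
of `j(q^r)` do not.
-/
import Mathlib
import Fermat.Agent.S28.Defs
import Fermat.Agent.S28.LaurentAPI
import Fermat.Agent.S28.PrimeStep

set_option autoImplicit false

noncomputable section

namespace Fermat.Agent.S28

open HahnSeries ModularCurve Polynomial IntermediateField

/-! ### Monomial substitutions `t ↦ c t^m` -/

section Subst

variable {k : Type*} [Field k]

/-- the substitution `u(t) ↦ u(c t^m)` -/
def substCM (c : kˣ) (m : ℕ) [NeZero m] : LaurentSeries k →+* LaurentSeries k :=
  (qExpand k m).comp (rotR c)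

theorem substCM_apply (c : kˣ) (m : ℕ) [NeZero m] (u : LaurentSeries k) :
    substCM c m u = qExpand k m (rotR c u) := rfl

theorem substCM_algebraMap (c : kˣ) (m : ℕ) [NeZero m] (a : k) :
    substCM c m (algebraMap k (LaurentSeries k) a) = algebraMap k (LaurentSeries k) a := by
  rw [substCM_apply, algebraMap_eq_single, rotR_single, qExpand_single]
  simp

theorem ringHom_comp_aeval {A : Type*} [CommRing A] [Algebra k A] (τ : LaurentSeries k →+* A)
    (hτ : ∀ a, τ (algebraMap k (LaurentSeries k) a) = algebraMap k A a) (x : LaurentSeries k) :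
    τ.comp ((Polynomial.aeval (R := k) x).toRingHom) =
      (Polynomial.aeval (R := k) (τ x)).toRingHom := by
  refine Polynomial.ringHom_ext ?_ ?_
  · intro a
    simp [hτ]
  · simp

/-- the modular equation after the substitution `t ↦ c t^m` -/
theorem modEq_substCM {p : ℕ} [NeZero p] {ζ : kˣ} {Φ : Polynomial (Polynomial k)}
    (hΦ : Φ.map ((Polynomial.aeval (qExpand k p (jqModC k))).toRingHom) =
      (X - Polynomial.C (qExpand k (p ^ 2) (jqModC k))) *
        ∏ b ∈ Finset.range p, (X - Polynomial.C (rotR (ζ ^ b) (jqModC k))))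
    (c : kˣ) (m : ℕ) [NeZero m] :
    Φ.map ((Polynomial.aeval (substCM (c ^ p) (m * p) (jqModC k))).toRingHom) =
      (X - Polynomial.C (substCM (c ^ (p ^ 2)) (m * p ^ 2) (jqModC k))) *
        ∏ b ∈ Finset.range p, (X - Polynomial.C (substCM (c * ζ ^ b) m (jqModC k))) := by
  have h := congrArg (Polynomial.map (substCM c m)) hΦ
  rw [Polynomial.map_map, ringHom_comp_aeval _ (substCM_algebraMap c m)] at h
  have e1 : substCM c m (qExpand k p (jqModC k)) = substCM (c ^ p) (m * p) (jqModC k) := by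
    rw [substCM_apply, substCM_apply, rotR_qExpand, qExpand_qExpand]
  have e2 : substCM c m (qExpand k (p ^ 2) (jqModC k)) =
      substCM (c ^ (p ^ 2)) (m * p ^ 2) (jqModC k) := by
    rw [substCM_apply, substCM_apply, rotR_qExpand, qExpand_qExpand]
  have e3 : ∀ b : ℕ, substCM c m (rotR (ζ ^ b) (jqModC k)) =
      substCM (c * ζ ^ b) m (jqModC k) := by
    intro b
    rw [substCM_apply, substCM_apply, rotR_mul_apply]
  rw [e1] at h
  rw [h, Polynomial.map_mul, Polynomial.map_sub, Polynomial.map_X, Polynomial.map_C, e2,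
    Polynomial.map_prod]
  congr 1
  refine Finset.prod_congr rfl fun b _ => ?_
  rw [Polynomial.map_sub, Polynomial.map_X, Polynomial.map_C, e3]

end Subst

/-! ### Chains of modular equations -/

section Chain

variable {k : Type*} [Field k] {Ω : Type*} [Field Ω] [Algebra k Ω]
  (ι : LaurentSeries k →ₐ[k] Ω)

/-- `z` is the image of a monomial substitution `j(c t^m)` with `D ∣ m` -/
def IsSubstImage (D : ℕ) (z : Ω) : Prop :=
  ∃ (c : kˣ) (m : ℕ) (_ : NeZero m), D ∣ m ∧ z = ι (substCM c m (jqModC k))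

variable {ι}

theorem IsSubstImage.step [IsAlgClosed k] {p : ℕ} [NeZero p] {ζ : kˣ}
    {Φ : Polynomial (Polynomial k)}
    (hΦ : Φ.map ((Polynomial.aeval (qExpand k p (jqModC k))).toRingHom) =
      (X - Polynomial.C (qExpand k (p ^ 2) (jqModC k))) *
        ∏ b ∈ Finset.range p, (X - Polynomial.C (rotR (ζ ^ b) (jqModC k))))
    {D : ℕ} {z z' : Ω} (hz : IsSubstImage ι (D * p) z)
    (hzz' : Φ.eval₂ ((Polynomial.aeval (R := k) z).toRingHom) z' = 0) :
    IsSubstImage ι D z' := by
  obtain ⟨c, m, hm, hdvd, rfl⟩ := hz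
  have hp0 : p ≠ 0 := NeZero.ne p
  obtain ⟨m', rfl⟩ := exists_eq_mul_left_of_dvd ((Dvd.intro_left D rfl).trans hdvd)
  have hm'0 : m' ≠ 0 := fun h => by
    apply NeZero.ne (m' * p); rw [h, zero_mul]
  have : NeZero m' := ⟨hm'0⟩
  have hD : D ∣ m' := Nat.dvd_of_mul_dvd_mul_right (Nat.pos_of_ne_zero hp0) hdvd
  obtain ⟨c0, hc0⟩ := IsAlgClosed.exists_pow_nat_eq (c : k) (Nat.pos_of_ne_zero hp0)
  have hc00 : c0 ≠ 0 := fun h => by
    rw [h, zero_pow hp0] at hc0
    exact c.ne_zero hc0.symm
  obtain ⟨c', rfl⟩ : ∃ c' : kˣ, c' ^ p = c :=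
    ⟨Units.mk0 c0 hc00, Units.ext (by simpa using hc0)⟩
  have key := congrArg (Polynomial.map (ι : LaurentSeries k →+* Ω)) (modEq_substCM hΦ c' m')
  have hι := ringHom_comp_aeval (ι : LaurentSeries k →+* Ω) (fun a => ι.commutes a)
    (substCM (c' ^ p) (m' * p) (jqModC k))
  rw [Polynomial.map_map, hι, RingHom.coe_coe] at key
  rw [← Polynomial.eval_map, key, Polynomial.map_mul, Polynomial.eval_mul, Polynomial.map_sub,
    Polynomial.map_X, Polynomial.map_C, Polynomial.eval_sub, Polynomial.eval_X,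
    Polynomial.eval_C, Polynomial.map_prod, Polynomial.eval_prod] at hzz'
  rcases mul_eq_zero.mp hzz' with h | h
  · refine ⟨c' ^ (p ^ 2), m' * p ^ 2, inferInstance, Dvd.dvd.mul_right hD _, ?_⟩
    exact sub_eq_zero.mp h
  · obtain ⟨b, -, hb⟩ := Finset.prod_eq_zero_iff.mp h
    rw [Polynomial.map_sub, Polynomial.map_X, Polynomial.map_C, Polynomial.eval_sub,
      Polynomial.eval_X, Polynomial.eval_C] at hb
    exact ⟨c' * ζ ^ b, m', inferInstance, hD, sub_eq_zero.mp hb⟩

theorem IsSubstImage.mem_range {r : ℕ} [NeZero r] {z : Ω} (hz : IsSubstImage ι r z) :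
    ∃ u : LaurentSeries k, z = ι (qExpand k r u) := by
  obtain ⟨c, m, hm, hdvd, rfl⟩ := hz
  obtain ⟨m', rfl⟩ := hdvd
  have hm'0 : m' ≠ 0 := fun h => by
    apply NeZero.ne (r * m'); rw [h, mul_zero]
  have : NeZero m' := ⟨hm'0⟩
  exact ⟨qExpand k m' (rotR c (jqModC k)), by rw [substCM_apply, qExpand_qExpand]⟩

theorem IsSubstImage.mono {D D' : ℕ} (h : D' ∣ D) {z : Ω} (hz : IsSubstImage ι D z) :
    IsSubstImage ι D' z := by
  obtain ⟨c, m, hm, hdvd, rfl⟩ := hz
  exact ⟨c, m, hm, h.trans hdvd, rfl⟩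

end Chain

/-! ### Integrality along a modular equation -/

section Integral

variable {k : Type*} [Field k]

/-- a root of `Φ(y, Y)` (`Φ ∈ k[X][Y]` monic in `Y`) is integral over any field over which `y`
is integral -/
theorem isIntegral_of_eval₂_eq_zero {E : Type*} [Field E] [Algebra k E]
    [Algebra E (LaurentSeries k)]
    (htower : ∀ a : k, algebraMap E (LaurentSeries k) (algebraMap k E a) =
      algebraMap k (LaurentSeries k) a)
    {Φ : Polynomial (Polynomial k)} (hΦ : Φ.Monic) {y y' : LaurentSeries k}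
    (hy : IsIntegral E y)
    (h : Φ.eval₂ ((Polynomial.aeval (R := k) y).toRingHom) y' = 0) : IsIntegral E y' := by
  let IC := integralClosure E (LaurentSeries k)
  let θ : Polynomial k →+* IC :=
    Polynomial.eval₂RingHom ((algebraMap E IC).comp (algebraMap k E)) ⟨y, hy⟩
  have hθ : (algebraMap IC (LaurentSeries k)).comp θ = (Polynomial.aeval (R := k) y).toRingHom := by
    refine Polynomial.ringHom_ext ?_ ?_
    · intro a
      simp only [θ, RingHom.comp_apply, Polynomial.coe_eval₂RingHom, Polynomial.eval₂_C,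
        AlgHom.toRingHom_eq_coe, RingHom.coe_coe, Polynomial.aeval_C]
      have e1 := IsScalarTower.algebraMap_apply E IC (LaurentSeries k) (algebraMap k E a)
      rw [← e1, htower]
    · simp only [θ, RingHom.comp_apply, Polynomial.coe_eval₂RingHom, Polynomial.eval₂_X,
        AlgHom.toRingHom_eq_coe, RingHom.coe_coe, Polynomial.aeval_X]
      rfl
  refine isIntegral_trans (A := IC) y' ⟨Φ.map θ, hΦ.map θ, ?_⟩
  rw [Polynomial.eval₂_map, hθ]
  exact h

end Integral

/-! ### The level `a` expansion `j(t^a)` as a total function of `a` -/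

section Jn

variable (k : Type*) [Field k]

/-- `j(t^a)` (junk value `0` for `a = 0`) -/
def Jn (a : ℕ) : LaurentSeries k :=
  if h : a = 0 then 0 else @qExpand k _ a ⟨h⟩ (jqModC k)

variable {k}

theorem Jn_eq (a : ℕ) [NeZero a] : Jn k a = qExpand k a (jqModC k) := by
  rw [Jn, dif_neg (NeZero.ne a)]

theorem qExpand_Jn (m a : ℕ) [NeZero m] (ha : a ≠ 0) : qExpand k m (Jn k a) = Jn k (m * a) := by
  have : NeZero a := ⟨ha⟩
  rw [Jn_eq, Jn_eq, qExpand_qExpand]

/-- `Φ_p(j(t^(a p)), j(t^a)) = 0` -/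
theorem modEq_Jn {p : ℕ} [NeZero p] {ζ : kˣ} {Φ : Polynomial (Polynomial k)}
    (hΦ : Φ.map ((Polynomial.aeval (qExpand k p (jqModC k))).toRingHom) =
      (X - Polynomial.C (qExpand k (p ^ 2) (jqModC k))) *
        ∏ b ∈ Finset.range p, (X - Polynomial.C (rotR (ζ ^ b) (jqModC k))))
    {a : ℕ} (ha : a ≠ 0) :
    Φ.eval₂ ((Polynomial.aeval (R := k) (Jn k (a * p))).toRingHom) (Jn k a) = 0 := by
  have : NeZero a := ⟨ha⟩
  have h0 : Φ.eval₂ ((Polynomial.aeval (R := k) (qExpand k p (jqModC k))).toRingHom)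
      (jqModC k) = 0 := by
    rw [← Polynomial.eval_map, hΦ, Polynomial.eval_mul, Polynomial.eval_prod,
      Finset.prod_eq_zero (Finset.mem_range.mpr (Nat.pos_of_ne_zero (NeZero.ne p))) (by
        rw [pow_zero, rotR_one_apply]; simp), mul_zero]
  have h1 := congrArg (qExpand k a) h0
  rw [map_zero, Polynomial.hom_eval₂, ringHom_comp_aeval (qExpand k a) (fun c => by
    rw [algebraMap_eq_single, qExpand_single, mul_zero])] at h1
  rw [Jn_eq, Jn_eq, ← qExpand_qExpand]
  exact h1

end Jn

/-! ### Embeddings into the algebraic closure -/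

section Emb

variable {k : Type*} [Field k]

/-- an algebraic closure of `k((t))` -/
abbrev OmegaK (k : Type*) [Field k] : Type _ := AlgebraicClosure (LaurentSeries k)

/-- the inclusion `k((t)) → Ω` as a `k`-algebra hom -/
def iotaK (k : Type*) [Field k] : LaurentSeries k →ₐ[k] OmegaK k :=
  IsScalarTower.toAlgHom k (LaurentSeries k) (OmegaK k)

theorem iotaK_apply (x : LaurentSeries k) :
    iotaK k x = algebraMap (LaurentSeries k) (OmegaK k) x := rfl

theorem iotaK_injective : Function.Injective (iotaK k) := (iotaK k).toRingHom.injective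

/-- transfer of a bivariate relation with constant coefficients along an embedding -/
theorem eval₂_algHom_eq_zero (E : IntermediateField k (LaurentSeries k))
    (K : IntermediateField E (LaurentSeries k)) (φ : K →ₐ[E] OmegaK k)
    {Φ : Polynomial (Polynomial k)} {y y' : LaurentSeries k} (hy : y ∈ K) (hy' : y' ∈ K)
    (h : Φ.eval₂ ((Polynomial.aeval (R := k) y).toRingHom) y' = 0) :
    Φ.eval₂ ((Polynomial.aeval (R := k) (φ ⟨y, hy⟩)).toRingHom) (φ ⟨y', hy'⟩) = 0 := by
  let κ : k →+* K := (algebraMap E K).comp (algebraMap k E)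
  let fK : Polynomial k →+* K := Polynomial.eval₂RingHom κ ⟨y, hy⟩
  have h1 : (algebraMap K (LaurentSeries k)).comp fK =
      (Polynomial.aeval (R := k) y).toRingHom := by
    refine Polynomial.ringHom_ext ?_ ?_
    · intro a
      simp only [fK, κ, RingHom.comp_apply, Polynomial.coe_eval₂RingHom, Polynomial.eval₂_C,
        AlgHom.toRingHom_eq_coe, RingHom.coe_coe, Polynomial.aeval_C]
      rfl
    · simp only [fK, RingHom.comp_apply, Polynomial.coe_eval₂RingHom, Polynomial.eval₂_X,
        AlgHom.toRingHom_eq_coe, RingHom.coe_coe, Polynomial.aeval_X]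
      rfl
  have h2 : (φ : K →+* OmegaK k).comp fK =
      (Polynomial.aeval (R := k) (φ ⟨y, hy⟩)).toRingHom := by
    refine Polynomial.ringHom_ext ?_ ?_
    · intro a
      simp only [fK, κ, RingHom.comp_apply, Polynomial.coe_eval₂RingHom, Polynomial.eval₂_C,
        AlgHom.toRingHom_eq_coe, RingHom.coe_coe, Polynomial.aeval_C, AlgHom.commutes]
      exact (IsScalarTower.algebraMap_apply k E (OmegaK k) a).symm
    · simp only [fK, RingHom.comp_apply, Polynomial.coe_eval₂RingHom, Polynomial.eval₂_X,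
        AlgHom.toRingHom_eq_coe, RingHom.coe_coe, Polynomial.aeval_X]
  have h3 : Φ.eval₂ fK ⟨y', hy'⟩ = 0 := by
    apply (algebraMap K (LaurentSeries k)).injective
    rw [Polynomial.hom_eval₂, h1, map_zero]
    exact h
  have h4 := congrArg (φ : K →+* OmegaK k) h3
  rw [Polynomial.hom_eval₂, h2, map_zero] at h4
  exact h4

end Emb

/-! ### The coprime step -/

section Main

variable {k : Type*} [Field k]

theorem mem_range_qExpand_of_mem_adjoin {r : ℕ} [NeZero r] {u x : LaurentSeries k}
    (hx : x ∈ k⟮qExpand k r u⟯) : ∃ v, qExpand k r v = x := by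
  have hmap : (k⟮u⟯).map (qExpandAlg k r) = k⟮qExpand k r u⟯ := by
    rw [IntermediateField.adjoin_map, Set.image_singleton, qExpandAlg_apply]
  rw [← hmap] at hx
  obtain ⟨z, -, hzx⟩ := hx
  exact ⟨z, hzx⟩

/-- `Φ_p(j(t^a), j(t^(a p))) = 0` when `p ∣ a` -/
theorem modEq_Jn_up {p : ℕ} [NeZero p] {ζ : kˣ} {Φ : Polynomial (Polynomial k)}
    (hΦ : Φ.map ((Polynomial.aeval (qExpand k p (jqModC k))).toRingHom) =
      (X - Polynomial.C (qExpand k (p ^ 2) (jqModC k))) *
        ∏ b ∈ Finset.range p, (X - Polynomial.C (rotR (ζ ^ b) (jqModC k))))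
    {a : ℕ} (ha : a ≠ 0) (hpa : p ∣ a) :
    Φ.eval₂ ((Polynomial.aeval (R := k) (Jn k a)).toRingHom) (Jn k (a * p)) = 0 := by
  obtain ⟨a', rfl⟩ := exists_eq_mul_left_of_dvd hpa
  have ha' : a' ≠ 0 := fun h => ha (by rw [h, zero_mul])
  have : NeZero a' := ⟨ha'⟩
  have h0 : Φ.eval₂ ((Polynomial.aeval (R := k) (qExpand k p (jqModC k))).toRingHom)
      (qExpand k (p ^ 2) (jqModC k)) = 0 := by
    rw [← Polynomial.eval_map, hΦ, Polynomial.eval_mul]
    simp
  have h1 := congrArg (qExpand k a') h0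
  rw [map_zero, Polynomial.hom_eval₂, ringHom_comp_aeval (qExpand k a') (fun c => by
    rw [algebraMap_eq_single, qExpand_single, mul_zero])] at h1
  rw [Jn_eq, Jn_eq, ← qExpand_qExpand]
  have h2 : qExpand k (a' * p * p) (jqModC k) = qExpand k a' (qExpand k (p ^ 2) (jqModC k)) := by
    rw [qExpand_qExpand]
    exact qExpand_congr (by ring) _
  rw [h2]
  exact h1

variable [IsAlgClosed k]

omit [IsAlgClosed k] in
/-- generic form of the coprime step: generators which are integral over `E = k(j(t^(rM)))` and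
all of whose conjugates are series in `t^r`. -/
theorem betaStep_generic (r M : ℕ) [NeZero r] [NeZero M] (hrM : ¬ r ∣ M)
    {ζ : kˣ} (hζ : IsPrimitiveRoot ζ r) (hΦr : ModEqOver k r ζ) (hPr : PrimeStepP k r)
    (gens : Set (LaurentSeries k))
    (hgens_int : ∀ g ∈ gens, IsIntegral k⟮Jn k (r * M)⟯ g)
    (hgens_loc : ∀ (φ : IntermediateField.adjoin k⟮Jn k (r * M)⟯ gens →ₐ[k⟮Jn k (r * M)⟯]
        OmegaK k) (g : LaurentSeries k) (hg : g ∈ gens),
        IsSubstImage (iotaK k) r (φ ⟨g, IntermediateField.subset_adjoin _ _ hg⟩)) :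
    Jn k (M * r ^ 2) ∉ IntermediateField.adjoin k gens := by
  classical
  intro hmem
  obtain ⟨Φ, hΦmon, hΦ⟩ := hΦr
  have hM0 : M ≠ 0 := NeZero.ne M
  have hr0 : r ≠ 0 := NeZero.ne r
  set X₀ : LaurentSeries k := Jn k (r * M) with hX₀
  let E : IntermediateField k (LaurentSeries k) := k⟮X₀⟯
  have hX₀E : X₀ ∈ E := mem_adjoin_simple_self k X₀
  -- every element of `E` is a series in `t^r`
  have hErange : ∀ a : E, ∃ v, qExpand k r v = (a : LaurentSeries k) := by
    intro a
    have ha : (a : LaurentSeries k) ∈ k⟮qExpand k r (Jn k M)⟯ := by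
      rw [qExpand_Jn r M hM0]
      exact a.2
    exact mem_range_qExpand_of_mem_adjoin ha
  have hle : IntermediateField.adjoin k gens ≤
      (IntermediateField.adjoin E gens).restrictScalars k :=
    IntermediateField.adjoin_le_iff.mpr (fun g hg => IntermediateField.subset_adjoin E _ hg)
  have hmem2 : Jn k (M * r ^ 2) ∈ IntermediateField.adjoin E gens := hle hmem
  -- the modular polynomial over `E`
  let ψ : Polynomial k →+* E := Polynomial.eval₂RingHom (algebraMap k E) ⟨X₀, hX₀E⟩
  have hψ : (algebraMap E (LaurentSeries k)).comp ψ =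
      (Polynomial.aeval (R := k) X₀).toRingHom := by
    refine Polynomial.ringHom_ext ?_ ?_
    · intro a
      simp only [ψ, RingHom.comp_apply, Polynomial.coe_eval₂RingHom, Polynomial.eval₂_C,
        AlgHom.toRingHom_eq_coe, RingHom.coe_coe, Polynomial.aeval_C]
      rfl
    · simp only [ψ, RingHom.comp_apply, Polynomial.coe_eval₂RingHom, Polynomial.eval₂_X,
        AlgHom.toRingHom_eq_coe, RingHom.coe_coe, Polynomial.aeval_X]
      rfl
  set F : Polynomial E := Φ.map ψ with hF
  have hFmon : F.Monic := hΦmon.map ψ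
  have hsub := modEq_substCM hΦ (1 : kˣ) M
  have e1 : substCM ((1 : kˣ) ^ r) (M * r) (jqModC k) = X₀ := by
    rw [one_pow, substCM_apply, rotR_one_apply, hX₀, Jn_eq]
    exact qExpand_congr (mul_comm M r) _
  have e2 : substCM ((1 : kˣ) ^ (r ^ 2)) (M * r ^ 2) (jqModC k) = Jn k (M * r ^ 2) := by
    rw [one_pow, substCM_apply, rotR_one_apply, Jn_eq]
  set y : ℕ → LaurentSeries k := fun b => substCM (1 * ζ ^ b) M (jqModC k) with hy
  set xs : LaurentSeries k := Jn k (M * r ^ 2) with hxs
  rw [e1, e2] at hsub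
  have hFmap : F.map (algebraMap E (LaurentSeries k)) =
      (X - Polynomial.C xs) * ∏ b ∈ Finset.range r, (X - Polynomial.C (y b)) := by
    rw [hF, Polynomial.map_map, hψ, hsub]
  have hFdeg : F.natDegree = r + 1 := by
    have h1 : (F.map (algebraMap E (LaurentSeries k))).natDegree = F.natDegree :=
      Polynomial.natDegree_map _
    rw [← h1, hFmap, Polynomial.natDegree_mul (Polynomial.X_sub_C_ne_zero _)
      (Finset.prod_ne_zero_iff.mpr fun b _ => Polynomial.X_sub_C_ne_zero _),
      Polynomial.natDegree_X_sub_C, Polynomial.natDegree_prod _ _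
        (fun b _ => Polynomial.X_sub_C_ne_zero _)]
    simp [add_comm]
  have hyroot : ∀ b ∈ Finset.range r, Polynomial.aeval (y b) F = 0 := by
    intro b hb
    rw [Polynomial.aeval_def, ← Polynomial.eval_map, hFmap, Polynomial.eval_mul,
      Polynomial.eval_prod, Finset.prod_eq_zero hb (by simp), mul_zero]
  have hxsroot : Polynomial.aeval xs F = 0 := by
    rw [Polynomial.aeval_def, ← Polynomial.eval_map, hFmap, Polynomial.eval_mul]
    simp
  have hxsint : IsIntegral E xs := ⟨F, hFmon, hxsroot⟩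
  set μ := minpoly E xs with hμ
  have hμmon : μ.Monic := minpoly.monic hxsint
  obtain ⟨g, hg⟩ : μ ∣ F := minpoly.dvd _ _ hxsroot
  -- the coefficient of `t^(-M)` in `y b`
  have hycoeff : ∀ b : ℕ, (y b).coeff ((M : ℤ) * (-1)) = (((1 * ζ ^ b)⁻¹ : kˣ) : k) := by
    intro b
    simp only [hy, substCM_apply, qExpand_coeff_mul]
    exact coeff_rotR_jqModC_neg_one _
  -- key claim: the `y b` are not conjugate to `xs` over `E`
  have hclaim : ∀ b : ℕ, Polynomial.aeval (y b) μ ≠ 0 := by
    intro b hb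
    have hK : ∀ s ∈ gens, IsIntegral E s ∧
        ((minpoly E s).map (algebraMap E (OmegaK k))).Splits :=
      fun s hs => ⟨hgens_int s hs, IsAlgClosed.splits _⟩
    have hyΩ : Polynomial.aeval (iotaK k (y b)) (minpoly E xs) = 0 := by
      rw [iotaK_apply, Polynomial.aeval_algebraMap_apply, hb, map_zero]
    obtain ⟨φ, hφ⟩ := IntermediateField.exists_algHom_adjoin_of_splits_of_aeval hK hmem2 hyΩ
    -- everything lands in series in `t^r`
    have hT : ∀ (x : LaurentSeries k) (hx : x ∈ IntermediateField.adjoin E gens),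
        ∃ v, iotaK k (qExpand k r v) = φ ⟨x, hx⟩ := by
      intro x hx
      induction hx using IntermediateField.adjoin_induction with
      | mem g hg =>
        obtain ⟨u, hu⟩ := (hgens_loc φ g hg).mem_range
        exact ⟨u, hu.symm⟩
      | algebraMap a =>
        obtain ⟨v, hv⟩ := hErange a
        refine ⟨v, ?_⟩
        have h1 : (⟨algebraMap E (LaurentSeries k) a, IntermediateField.algebraMap_mem _ a⟩ :
            IntermediateField.adjoin E gens) = algebraMap E _ a := Subtype.ext rfl
        rw [h1, φ.commutes, hv]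
        rfl
      | add a b ha hb iha ihb =>
        obtain ⟨u, hu⟩ := iha
        obtain ⟨v, hv⟩ := ihb
        refine ⟨u + v, ?_⟩
        have h1 : (⟨a + b, add_mem ha hb⟩ : IntermediateField.adjoin E gens) =
            ⟨a, ha⟩ + ⟨b, hb⟩ := rfl
        rw [h1, map_add, map_add, map_add, hu, hv]
      | inv a ha iha =>
        obtain ⟨u, hu⟩ := iha
        refine ⟨u⁻¹, ?_⟩
        have h1 : (⟨a⁻¹, inv_mem ha⟩ : IntermediateField.adjoin E gens) =
            (⟨a, ha⟩)⁻¹ := rfl
        rw [h1, map_inv₀, map_inv₀, map_inv₀, hu]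
      | mul a b ha hb iha ihb =>
        obtain ⟨u, hu⟩ := iha
        obtain ⟨v, hv⟩ := ihb
        refine ⟨u * v, ?_⟩
        have h1 : (⟨a * b, mul_mem ha hb⟩ : IntermediateField.adjoin E gens) =
            ⟨a, ha⟩ * ⟨b, hb⟩ := rfl
        rw [h1, map_mul, map_mul, map_mul, hu, hv]
    obtain ⟨u, hu⟩ := hT xs hmem2
    rw [hφ] at hu
    have hu' : qExpand k r u = y b := iotaK_injective hu
    have h1 := congrArg (fun x => x.coeff ((M : ℤ) * (-1))) hu'
    simp only [hycoeff] at h1
    rw [qExpand_coeff_of_not_dvd r u (by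
      intro hdvd
      apply hrM
      have h2 : (r : ℤ) ∣ (M : ℤ) := by
        have := (dvd_neg.mpr hdvd)
        simpa using this
      exact_mod_cast h2)] at h1
    exact Units.ne_zero _ h1.symm
  -- hence all `y b` are roots of the cofactor
  have hgroot : ∀ b ∈ Finset.range r, Polynomial.aeval (y b) g = 0 := by
    intro b hb
    have h1 := hyroot b hb
    rw [hg, map_mul] at h1
    exact (mul_eq_zero.mp h1).resolve_left (hclaim b)
  have hinj : Set.InjOn y (Finset.range r : Set ℕ) := by
    intro a ha b hb hab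
    have h1 := congrArg (fun x => x.coeff ((M : ℤ) * (-1))) hab
    simp only [hycoeff] at h1
    have h2 : (1 : kˣ) * ζ ^ a = 1 * ζ ^ b := inv_injective (Units.ext h1)
    rw [one_mul, one_mul] at h2
    exact hζ.pow_inj (Finset.mem_range.mp ha) (Finset.mem_range.mp hb) h2
  have hg0 : g ≠ 0 := by
    rintro rfl
    rw [mul_zero] at hg
    exact hFmon.ne_zero hg
  set gΛ := g.map (algebraMap E (LaurentSeries k)) with hgΛ
  have hgΛ0 : gΛ ≠ 0 :=
    (Polynomial.map_ne_zero_iff (algebraMap E (LaurentSeries k)).injective).mpr hg0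
  have hgdeg : r ≤ g.natDegree := by
    have hsub : ∀ x ∈ (Finset.range r).image y, x ∈ gΛ.roots := by
      intro x hx
      obtain ⟨b, hb, rfl⟩ := Finset.mem_image.mp hx
      rw [Polynomial.mem_roots hgΛ0, Polynomial.IsRoot, hgΛ, Polynomial.eval_map,
        ← Polynomial.aeval_def]
      exact hgroot b hb
    have := Polynomial.card_le_degree_of_subset_roots (p := gΛ) (Z := (Finset.range r).image y)
      (fun x hx => hsub x hx)
    rwa [Finset.card_image_of_injOn hinj, Finset.card_range, hgΛ, Polynomial.natDegree_map] at this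
  have hμdeg : μ.natDegree = 1 := by
    have h1 : μ.natDegree + g.natDegree = r + 1 := by
      rw [← hFdeg, hg, Polynomial.natDegree_mul hμmon.ne_zero hg0]
    have h2 : 0 < μ.natDegree := minpoly.natDegree_pos hxsint
    omega
  obtain ⟨a, ha⟩ := minpoly.natDegree_eq_one_iff.mp hμdeg
  -- descent to (P)
  apply hPr
  refine mem_adjoin_of_qExpand_mem (M * r) (x := jqModC k) (y := qExpand k r (jqModC k)) ?_
  have h1 : qExpand k (M * r) (qExpand k r (jqModC k)) = xs := by
    rw [qExpand_qExpand, hxs, Jn_eq]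
    exact qExpand_congr (by ring) _
  have h2 : qExpand k (M * r) (jqModC k) = X₀ := by
    rw [hX₀, Jn_eq]
    exact qExpand_congr (mul_comm M r) _
  rw [h1, h2, ← ha]
  exact a.2

omit [IsAlgClosed k] in
/-- base of the chains: the image of `j(t^(rM))` -/
theorem isSubstImage_base (r M : ℕ) [NeZero r] [NeZero M] (gens : Set (LaurentSeries k))
    (φ : IntermediateField.adjoin k⟮Jn k (r * M)⟯ gens →ₐ[k⟮Jn k (r * M)⟯] OmegaK k)
    (h : Jn k (r * M) ∈ IntermediateField.adjoin k⟮Jn k (r * M)⟯ gens) :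
    IsSubstImage (iotaK k) (r * M) (φ ⟨Jn k (r * M), h⟩) := by
  refine ⟨1, r * M, inferInstance, dvd_rfl, ?_⟩
  have h1 : (⟨Jn k (r * M), h⟩ : IntermediateField.adjoin k⟮Jn k (r * M)⟯ gens) =
      algebraMap k⟮Jn k (r * M)⟯ _ ⟨Jn k (r * M), mem_adjoin_simple_self k _⟩ := Subtype.ext rfl
  rw [h1, φ.commutes, substCM_apply, rotR_one_apply, ← Jn_eq]
  rfl

/-! #### the un-mirrored generators `j(t^(r M d))`, `d ∣ M` -/

/-- the generators `j(t^d)`, `d ∣ M`, after the twist `t ↦ t^(rM)` -/
def gensU (k : Type*) [Field k] (r M : ℕ) : Set (LaurentSeries k) :=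
  {g | ∃ d, d ∣ M ∧ g = Jn k (r * M * d)}

theorem betaStep_coreU (r M : ℕ) [NeZero r] [NeZero M] (hrM : ¬ r ∣ M)
    {ζ : kˣ} (hζ : IsPrimitiveRoot ζ r) (hΦr : ModEqOver k r ζ) (hPr : PrimeStepP k r)
    (hΦM : ∀ p : ℕ, p.Prime → p ∣ M → ∃ (_ : NeZero p) (ξ : kˣ), ModEqOver k p ξ) :
    Jn k (M * r ^ 2) ∉ IntermediateField.adjoin k (gensU k r M) := by
  have hM0 : M ≠ 0 := NeZero.ne M
  have hr0 : r ≠ 0 := NeZero.ne r
  refine betaStep_generic r M hrM hζ hΦr hPr (gensU k r M) ?_ ?_
  · -- integrality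
    have hint : ∀ d : ℕ, d ∣ M → IsIntegral k⟮Jn k (r * M)⟯ (Jn k (r * M * d)) := by
      intro d
      induction d using Nat.strong_induction_on with
      | _ d ih =>
        intro hdM
        rcases eq_or_ne d 1 with rfl | hd1
        · rw [mul_one]
          exact isIntegral_algebraMap
            (x := (⟨Jn k (r * M), mem_adjoin_simple_self k _⟩ : k⟮Jn k (r * M)⟯))
        · obtain ⟨p, hp, d', rfl⟩ := Nat.exists_prime_and_dvd hd1
          have hpM : p ∣ M := (Dvd.intro _ rfl).trans hdM
          have hd'M : d' ∣ M := (Dvd.intro_left _ rfl).trans hdM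
          obtain ⟨hpne, ξ, Φp, hΦpmon, hΦp⟩ := hΦM p hp hpM
          have hd'0 : d' ≠ 0 := by
            rintro rfl
            rw [mul_zero, zero_dvd_iff] at hdM
            exact hM0 hdM
          have hd'lt : d' < p * d' := by
            calc d' = 1 * d' := (one_mul _).symm
              _ < p * d' := Nat.mul_lt_mul_of_pos_right hp.one_lt (Nat.pos_of_ne_zero hd'0)
          have ih' := ih d' hd'lt hd'M
          have hrel := modEq_Jn_up hΦp (a := r * M * d')
            (mul_ne_zero (mul_ne_zero hr0 hM0) hd'0)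
            ((hpM.mul_left r).mul_right d')
          have hcomm : r * M * d' * p = r * M * (p * d') := by ring
          rw [hcomm] at hrel
          exact isIntegral_of_eval₂_eq_zero (k := k) (E := k⟮Jn k (r * M)⟯) (Φ := Φp)
            (y := Jn k (r * M * d')) (y' := Jn k (r * M * (p * d'))) (fun a => rfl) hΦpmon
            ih' hrel
    rintro g ⟨d, hd, rfl⟩
    exact hint d hd
  · -- location of the conjugates
    intro φ
    have hgmem : ∀ d : ℕ, d ∣ M → Jn k (r * M * d) ∈
        IntermediateField.adjoin k⟮Jn k (r * M)⟯ (gensU k r M) :=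
      fun d hd => IntermediateField.subset_adjoin _ _ ⟨d, hd, rfl⟩
    have hloc : ∀ d e : ℕ, ∀ hde : d * e = M,
        IsSubstImage (iotaK k) (r * e) (φ ⟨Jn k (r * M * d), hgmem d ⟨e, hde.symm⟩⟩) := by
      intro d
      induction d using Nat.strong_induction_on with
      | _ d ih =>
        intro e hde
        rcases eq_or_ne d 1 with rfl | hd1
        · have heM : e = M := by rw [one_mul] at hde; exact hde
          subst heM
          have hb := isSubstImage_base r e (gensU k r e) φ (by
            have := hgmem 1 ⟨e, hde.symm⟩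
            rwa [mul_one] at this)
          have hsame : (⟨Jn k (r * e * 1), hgmem 1 ⟨e, hde.symm⟩⟩ :
              IntermediateField.adjoin k⟮Jn k (r * e)⟯ (gensU k r e)) =
              ⟨Jn k (r * e), by
                have := hgmem 1 ⟨e, hde.symm⟩
                rwa [mul_one] at this⟩ := Subtype.ext (congrArg (Jn k) (mul_one _))
          rw [hsame]
          exact hb
        · obtain ⟨p, hp, d', rfl⟩ := Nat.exists_prime_and_dvd hd1
          have hpM : p ∣ M := ⟨d' * e, by rw [← hde]; ring⟩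
          obtain ⟨hpne, ξ, Φp, hΦpmon, hΦp⟩ := hΦM p hp hpM
          have hd'0 : d' ≠ 0 := by
            rintro rfl
            exact hM0 (by rw [← hde, mul_zero, zero_mul])
          have hd'lt : d' < p * d' := by
            calc d' = 1 * d' := (one_mul _).symm
              _ < p * d' := Nat.mul_lt_mul_of_pos_right hp.one_lt (Nat.pos_of_ne_zero hd'0)
          have hde' : d' * (p * e) = M := by rw [← hde]; ring
          have ih' := ih d' hd'lt (p * e) hde'
          have hrel := modEq_Jn_up hΦp (a := r * M * d')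
            (mul_ne_zero (mul_ne_zero hr0 hM0) hd'0)
            ((hpM.mul_left r).mul_right d')
          have hmem' : Jn k (r * M * d' * p) ∈
              IntermediateField.adjoin k⟮Jn k (r * M)⟯ (gensU k r M) := by
            have := hgmem (p * d') ⟨e, hde.symm⟩
            rwa [show r * M * (p * d') = r * M * d' * p by ring] at this
          have hrel' := eval₂_algHom_eq_zero k⟮Jn k (r * M)⟯ _ φ
            (hgmem d' ⟨p * e, hde'.symm⟩) hmem' hrel
          have hsame : (⟨Jn k (r * M * d' * p), hmem'⟩ :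
              IntermediateField.adjoin k⟮Jn k (r * M)⟯ (gensU k r M)) =
              ⟨Jn k (r * M * (p * d')), hgmem (p * d') ⟨e, hde.symm⟩⟩ :=
            Subtype.ext (congrArg (Jn k) (by ring))
          rw [hsame] at hrel'
          have ih'' : IsSubstImage (iotaK k) (r * e * p)
              (φ ⟨Jn k (r * M * d'), hgmem d' ⟨p * e, hde'.symm⟩⟩) := by
            rw [show r * e * p = r * (p * e) by ring]; exact ih'
          exact IsSubstImage.step hΦp ih'' hrel'
    rintro g ⟨d, ⟨e, hde⟩, rfl⟩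
    exact (hloc d e hde.symm).mono (Dvd.intro _ rfl)

omit [IsAlgClosed k] in
theorem image_qExpand_divisorExpansionsC_U (r M : ℕ) [NeZero r] [NeZero M] :
    (qExpandAlg k (r * M)) '' (divisorExpansionsC k M) = gensU k r M := by
  ext g
  constructor
  · rintro ⟨x, ⟨d, hd, hdM, rfl⟩, rfl⟩
    exact ⟨d, hdM, by rw [qExpandAlg_apply, qExpand_qExpand, Jn_eq]⟩
  · rintro ⟨d, hdM, rfl⟩
    have hd0 : d ≠ 0 := fun h => NeZero.ne M (by rw [h, zero_dvd_iff] at hdM; exact hdM)
    have : NeZero d := ⟨hd0⟩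
    exact ⟨qExpand k d (jqModC k), ⟨d, ‹_›, hdM, rfl⟩,
      by rw [qExpandAlg_apply, qExpand_qExpand, Jn_eq]⟩

/-- **(β)**, un-mirrored form (the hypothesis of `Tower.towerClaim_of_beta`): for `k` algebraically
closed, `r ∤ M`, `j(t^r) ∉ k(j(t^d) : d ∣ M)`. -/
theorem betaStepU (r M : ℕ) [NeZero r] [NeZero M] (hrM : ¬ r ∣ M)
    {ζ : kˣ} (hζ : IsPrimitiveRoot ζ r) (hΦr : ModEqOver k r ζ) (hPr : PrimeStepP k r)
    (hΦM : ∀ p : ℕ, p.Prime → p ∣ M → ∃ (_ : NeZero p) (ξ : kˣ), ModEqOver k p ξ) :
    qExpand k r (jqModC k) ∉ IntermediateField.adjoin k (divisorExpansionsC k M) := by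
  intro hmem
  apply betaStep_coreU r M hrM hζ hΦr hPr hΦM
  rw [← image_qExpand_divisorExpansionsC_U, ← IntermediateField.adjoin_map]
  refine ⟨_, hmem, ?_⟩
  show qExpandAlg k (r * M) (qExpand k r (jqModC k)) = Jn k (M * r ^ 2)
  rw [qExpandAlg_apply, qExpand_qExpand, Jn_eq]
  exact qExpand_congr (by ring) _

end Main

end Fermat.Agent.S28
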