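import Mathlib
import Fermat.Agent.S24.Real.QDict
import Fermat.Agent.S24.JOrder

set_option autoImplicit false

/-!
# S28, package [A3]: the `q`-dictionary commutes with `θ = q d/dq`

If the formal Laurent series `u` is the `q`-expansion of `h : ℍ → ℂ` (`QRep ι u h`), then
`θ u = ∑ n aₙ qⁿ` is the `q`-expansion of `D h = (2πi)⁻¹ h'`.
-/

namespace Fermat.Agent.S28

open UpperHalfPlane hiding I
open Complex Real Filter Topology ModularCurve Fermat.Agent.S24 Derivative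

noncomputable section

local notation "𝕢" => Function.Periodic.qParam

/-- The Euler operator `θ = q d/dq` on formal Laurent series, coefficientwise `aₙ ↦ n aₙ`. -/
def thetaS {R : Type*} [CommRing R] (u : LaurentSeries R) : LaurentSeries R where
  coeff n := (n : R) * u.coeff n
  isPWO_support' := u.isPWO_support.mono fun n hn => by
    simp only [Function.mem_support, ne_eq] at hn ⊢
    intro h
    exact hn (by rw [h, mul_zero])

@[simp]
theorem thetaS_coeff {R : Type*} [CommRing R] (u : LaurentSeries R) (n : ℤ) :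
    (thetaS u).coeff n = (n : R) * u.coeff n := rfl

/-- Taylor coefficients of the derivative. -/
theorem taylor0_deriv_coeff (g : ℂ → ℂ) (n : ℕ) :
    (taylor0 (deriv g)).coeff n = ((n : ℂ) + 1) * (taylor0 g).coeff (n + 1) := by
  rw [taylor0_coeff, taylor0_coeff, iteratedDeriv_succ', Nat.factorial_succ]
  have h1 : ((n.factorial : ℕ) : ℂ) ≠ 0 := by exact_mod_cast n.factorial_ne_zero
  have h2 : ((n : ℂ) + 1) ≠ 0 := by exact_mod_cast n.succ_ne_zero
  push_cast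
  field_simp

/-- Taylor coefficients of `x ↦ x g'(x) - m g(x)`. -/
theorem taylor0_euler_coeff {g : ℂ → ℂ} (hg : AnalyticAt ℂ g 0) (m n : ℕ) :
    (taylor0 (fun x : ℂ => x * deriv g x - (m : ℂ) * g x)).coeff n =
      ((n : ℂ) - m) * (taylor0 g).coeff n := by
  have hid : AnalyticAt ℂ (fun q : ℂ => q) 0 := analyticAt_id
  have hd : AnalyticAt ℂ (deriv g) 0 := hg.deriv
  have hc : AnalyticAt ℂ (fun _ : ℂ => -(m : ℂ)) 0 := analyticAt_const
  have e : (fun x : ℂ => x * deriv g x - (m : ℂ) * g x) =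
      (fun q : ℂ => q) * deriv g + (fun _ : ℂ => -(m : ℂ)) * g := by
    funext x; simp only [Pi.add_apply, Pi.mul_apply]; ring
  rw [e, taylor0_add (hid.mul hd) (hc.mul hg), taylor0_mul hid hd, taylor0_mul hc hg, taylor0_id,
    taylor0_const, map_add, PowerSeries.coeff_C_mul]
  rcases n with _ | n
  · simp
  · rw [PowerSeries.coeff_succ_X_mul, taylor0_deriv_coeff]
    push_cast
    ring

/-- **The dictionary commutes with the Euler operator.** -/
theorem qrep_theta {L : Type} [Field L] {ι : L →+* ℂ} {u : LaurentSeries L} {h : ℍ → ℂ}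
    (H : QRep ι u h) : QRep ι (thetaS u) (D h) := by
  obtain ⟨m, g, hg, hgh, hgt⟩ := H
  have hga : AnalyticAt ℂ g 0 := qrep_analyticAt hg
  refine ⟨m, fun x : ℂ => x * deriv g x - (m : ℂ) * g x, ?_, ?_, ?_⟩
  · -- holomorphy on the disc
    have hdg : DifferentiableOn ℂ (deriv g) (Metric.ball 0 1) :=
      hg.deriv Metric.isOpen_ball
    exact (differentiableOn_id.mul hdg).sub ((differentiableOn_const _).mul hg)
  · -- the functional equation
    intro τ
    have hq0 : 𝕢 1 (τ : ℂ) ≠ 0 := Function.Periodic.qParam_ne_zero _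
    have hqball : 𝕢 1 (τ : ℂ) ∈ Metric.ball (0 : ℂ) 1 := by
      simpa using (show ‖𝕢 1 (τ : ℂ)‖ < 1 by exact_mod_cast norm_qParam_lt_one 1 τ)
    -- derivative of `q`
    have hqd : HasDerivAt (𝕢 1) (2 * π * I * 𝕢 1 (τ : ℂ)) (τ : ℂ) := by
      have h1 : HasDerivAt (fun z : ℂ => 2 * π * I * z / (1 : ℝ)) (2 * π * I) (τ : ℂ) := by
        simpa using ((hasDerivAt_id (τ : ℂ)).const_mul (2 * π * I)).div_const ((1 : ℝ) : ℂ)
      have h2 := h1.cexp
      have e : (fun z : ℂ => cexp (2 * π * I * z / (1 : ℝ))) = 𝕢 1 := by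
        funext z; rfl
      rw [e] at h2
      refine h2.congr_deriv ?_
      rw [mul_comm]
      rfl
    have hgd : HasDerivAt g (deriv g (𝕢 1 (τ : ℂ))) (𝕢 1 (τ : ℂ)) :=
      (hg.differentiableAt (Metric.isOpen_ball.mem_nhds hqball)).hasDerivAt
    have hcomp : HasDerivAt (fun z : ℂ => g (𝕢 1 z))
        (deriv g (𝕢 1 (τ : ℂ)) * (2 * π * I * 𝕢 1 (τ : ℂ))) (τ : ℂ) :=
      hgd.comp (τ : ℂ) hqd
    have hpow : HasDerivAt (fun z : ℂ => 𝕢 1 z ^ m)
        ((m : ℂ) * 𝕢 1 (τ : ℂ) ^ (m - 1) * (2 * π * I * 𝕢 1 (τ : ℂ))) (τ : ℂ) :=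
      hqd.pow m
    have hquot := hcomp.div hpow (pow_ne_zero m hq0)
    -- `h ∘ ofComplex` agrees with the quotient near `τ`
    have hev : (h ∘ ofComplex) =ᶠ[𝓝 (τ : ℂ)] fun z : ℂ => g (𝕢 1 z) / 𝕢 1 z ^ m := by
      filter_upwards [isOpen_upperHalfPlaneSet.mem_nhds τ.im_pos] with z hz
      have := hgh ⟨z, hz⟩
      simp only [Function.comp_apply, ofComplex_apply_of_im_pos hz]
      rw [show (((⟨z, hz⟩ : ℍ) : ℂ)) = z from rfl] at this
      rw [this, mul_div_cancel_left₀ _ (pow_ne_zero m (Function.Periodic.qParam_ne_zero z))]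
    have hderiv : deriv (h ∘ ofComplex) (τ : ℂ) = _ := (hev.deriv_eq).trans hquot.deriv
    have h2pi : (2 * π * I : ℂ) ≠ 0 := by simp [Real.pi_ne_zero, I_ne_zero]
    show 𝕢 1 (τ : ℂ) * deriv g (𝕢 1 (τ : ℂ)) - (m : ℂ) * g (𝕢 1 (τ : ℂ)) =
      𝕢 1 (τ : ℂ) ^ m * D h τ
    rw [normalizedDerivOfComplex, hderiv]
    have hpm : (m : ℂ) * 𝕢 1 (τ : ℂ) ^ (m - 1) * 𝕢 1 (τ : ℂ) = (m : ℂ) * 𝕢 1 (τ : ℂ) ^ m := by
      rcases m with _ | m
      · simp
      · rw [Nat.add_sub_cancel, pow_succ]; ring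
    have hqm : 𝕢 1 (τ : ℂ) ^ m ≠ 0 := pow_ne_zero m hq0
    have key : deriv g (𝕢 1 (τ : ℂ)) * (2 * π * I * 𝕢 1 (τ : ℂ)) * 𝕢 1 (τ : ℂ) ^ m -
        g (𝕢 1 (τ : ℂ)) * ((m : ℂ) * 𝕢 1 (τ : ℂ) ^ (m - 1) * (2 * π * I * 𝕢 1 (τ : ℂ))) =
        (2 * π * I) * 𝕢 1 (τ : ℂ) ^ m *
          (𝕢 1 (τ : ℂ) * deriv g (𝕢 1 (τ : ℂ)) - (m : ℂ) * g (𝕢 1 (τ : ℂ))) := by
      linear_combination (-(2 * π * I) * g (𝕢 1 (τ : ℂ))) * hpm
    rw [key]
    field_simp
  · -- Taylor series
    ext k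
    rw [HahnSeries.coeff_single_mul, one_mul, coeffMap_coeff, thetaS_coeff, map_mul, map_intCast]
    have hk := congrArg (fun w : LaurentSeries ℂ => w.coeff k) hgt
    simp only [HahnSeries.coeff_single_mul, one_mul, coeffMap_coeff] at hk
    rcases lt_or_ge k 0 with hk0 | hk0
    · rw [ofPowerSeries_coeff_of_neg _ hk0] at hk ⊢
      rw [← hk, mul_zero]
    · lift k to ℕ using hk0
      rw [HahnSeries.ofPowerSeries_apply_coeff] at hk ⊢
      rw [taylor0_euler_coeff hga, hk]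
      push_cast
      ring

end

end Fermat.Agent.S28
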