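import Mathlib
import Fermat.Agent.S28.QRepDeriv
import Fermat.Agent.S28.Defs
import Fermat.Prelude.Def_ModularCurve_X0ModL

set_option autoImplicit false

/-!
# S28, package [A3]: the formal identity `(θ j)⁶ = Δ j⁴ (j - 1728)³`

In `ℤ((q))`, with `j = jqModC ℤ = q⁻¹ + 744 + ⋯`, `Δ = q ∏ (1 - qⁿ)²⁴` and `θ = q d/dq`:
`(θ j)⁶ = Δ · j⁴ · (j - 1728)³`.

Proof: the analytic identity `(D j)⁶ = Δ j⁴ (j - 1728)³` (from `D j = -E₄²E₆/Δ`,
`j - 1728 = E₆²/Δ`, `j = E₄³/Δ`) transported through the `q`-dictionary (`QRep`, S24), which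
commutes with `θ` (`qrep_theta`).
-/

namespace Fermat.Agent.S28

open UpperHalfPlane hiding I
open Complex Real Filter Topology ModularCurve Fermat.Agent.S24 Derivative ModularForm
  EisensteinSeries

noncomputable section

local notation "𝕢" => Function.Periodic.qParam
local notation "Δ" => ModularForm.discriminant

/-- The formal discriminant `Δ = q ∏ (1 - qⁿ)²⁴` with coefficients in `R`. -/
def deltaS (R : Type*) [CommRing R] : LaurentSeries R :=
  HahnSeries.single (1 : ℤ) 1 *
    HahnSeries.ofPowerSeries ℤ R (dedekindEtaUnit.map (Int.castRingHom R))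

section CoeffMap

variable {R S : Type*} [CommRing R] [CommRing S]

theorem coeffMap_thetaS (f : R →+* S) (u : LaurentSeries R) :
    coeffMap f (thetaS u) = thetaS (coeffMap f u) := by
  ext k
  rw [coeffMap_coeff, thetaS_coeff, thetaS_coeff, coeffMap_coeff, map_mul, map_intCast]

theorem coeffMap_deltaS (f : R →+* S) : coeffMap f (deltaS R) = deltaS S := by
  rw [deltaS, map_mul, coeffMap_single, map_one, coeffMap_ofPowerSeries,
    ← RingHom.comp_apply (PowerSeries.map f) (PowerSeries.map (Int.castRingHom R)),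
    ← PowerSeries.map_comp, RingHom.ext_int (f.comp (Int.castRingHom R)) (Int.castRingHom S)]
  rfl

end CoeffMap

section QRepExtra

variable {L : Type} [Field L]

theorem qrep_pow {ι : L →+* ℂ} {u : LaurentSeries L} {h : ℍ → ℂ} (H : QRep ι u h) (n : ℕ) :
    QRep ι (u ^ n) (h ^ n) := by
  induction n with
  | zero =>
    have := QRep.const ι (1 : L)
    rw [pow_zero, pow_zero]
    change QRep ι 1 (fun _ => 1)
    simpa using this
  | succ n ih =>
    rw [pow_succ, pow_succ]
    exact ih.mul H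

theorem qrep_neg {ι : L →+* ℂ} {u : LaurentSeries L} {h : ℍ → ℂ} (H : QRep ι u h) :
    QRep ι (-u) (-h) := by
  have h1 := (QRep.const ι (-1 : L)).mul H
  have e1 : algebraMap L (LaurentSeries L) (-1) * u = -u := by simp
  have e2 : (fun _ : ℍ => ι (-1)) * h = -h := by
    funext τ; simp
  rwa [e1, e2] at h1

theorem qrep_sub {ι : L →+* ℂ} {u u' : LaurentSeries L} {h h' : ℍ → ℂ} (H : QRep ι u h)
    (H' : QRep ι u' h') : QRep ι (u - u') (h - h') := by
  rw [sub_eq_add_neg, sub_eq_add_neg]
  exact H.add (qrep_neg H')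

/-- The formal `j` is the `q`-expansion of the analytic `j`. -/
theorem qrep_jFun (ι : L →+* ℂ) : QRep ι (jqModC L) jFun := by
  refine ⟨1, qjFun, differentiableOn_qjFun, fun τ => ?_, ?_⟩
  · rw [qjFun_qParam, pow_one]
  · rw [taylor0_qjFun, coeffMap_jqModC, jqModC, ← mul_assoc, HahnSeries.single_mul_single]
    simp

/-- The formal `Δ` is the `q`-expansion of the analytic `Δ`. -/
theorem qrep_discriminant (ι : L →+* ℂ) : QRep ι (deltaS L) (Δ : ℍ → ℂ) := by
  have hid : AnalyticAt ℂ (fun q : ℂ => q) 0 := analyticAt_id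
  refine ⟨0, (fun q : ℂ => q) * eulerProd ^ 24, ?_, fun τ => ?_, ?_⟩
  · exact differentiableOn_id.mul (differentiableOn_tprod_one_sub_pow.pow 24)
  · have hq : ‖𝕢 1 (τ : ℂ)‖ < 1 := by exact_mod_cast norm_qParam_lt_one 1 τ
    rw [pow_zero, one_mul, discriminant_eq_q_prod τ]
    simp only [Pi.mul_apply, Pi.pow_apply, eulerProd]
    rw [(multipliable_one_sub_pow hq).tprod_pow 24]
  · rw [taylor0_mul hid (eulerProd_analyticAt_zero.pow 24), taylor0_id,
      taylor0_pow eulerProd_analyticAt_zero, taylor0_eulerProd, coeffMap_deltaS, deltaS,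
      map_mul, HahnSeries.ofPowerSeries_X, dedekindEtaUnit, map_pow, map_pow]
    simp

end QRepExtra

/-- The analytic identity `(D j)⁶ = Δ j⁴ (j - 1728)³`. -/
theorem D_jFun_pow_six (τ : ℍ) :
    D jFun τ ^ 6 = Δ τ * jFun τ ^ 4 * (jFun τ - 1728) ^ 3 := by
  have hne := discriminant_ne_zero τ
  rw [D_jFun, jFun_sub_1728, jFun]
  field_simp

/-- **The formal identity over `ℚ`.** -/
theorem thetaS_jq_pow_six_rat :
    thetaS (jqModC ℚ) ^ 6 = deltaS ℚ * jqModC ℚ ^ 4 * (jqModC ℚ - 1728) ^ 3 := by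
  set ι : ℚ →+* ℂ := algebraMap ℚ ℂ with hι
  have hj := qrep_jFun ι
  have hd := qrep_discriminant ι
  have hc : QRep ι (1728 : LaurentSeries ℚ) (fun _ => (1728 : ℂ)) := by
    have := QRep.const ι (1728 : ℚ)
    simpa using this
  have H := qrep_sub (qrep_pow (qrep_theta hj) 6)
    ((hd.mul (qrep_pow hj 4)).mul (qrep_pow (qrep_sub hj hc) 3))
  rw [← sub_eq_zero, H.eq_zero_iff]
  intro τ
  simp only [Pi.sub_apply, Pi.mul_apply, Pi.pow_apply]
  rw [D_jFun_pow_six, sub_self]

/-- **The formal identity `(θ j)⁶ = Δ j⁴ (j - 1728)³` in `ℤ((q))`.** -/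
theorem thetaS_jq_pow_six :
    thetaS (jqModC ℤ) ^ 6 = deltaS ℤ * jqModC ℤ ^ 4 * (jqModC ℤ - 1728) ^ 3 := by
  have hinj : Function.Injective (coeffMap (Int.castRingHom ℚ)) := by
    intro u v huv
    ext k
    have := congrArg (fun w : LaurentSeries ℚ => w.coeff k) huv
    simp only [coeffMap_coeff] at this
    exact Int.cast_injective this
  apply hinj
  simp only [map_mul, map_pow, map_sub, coeffMap_thetaS, coeffMap_deltaS, coeffMap_jqModC,
    map_ofNat]
  exact thetaS_jq_pow_six_rat

/-- The same identity with coefficients in an arbitrary commutative ring. -/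
theorem thetaS_jq_pow_six_ring (R : Type*) [CommRing R] :
    thetaS (jqModC R) ^ 6 = deltaS R * jqModC R ^ 4 * (jqModC R - 1728) ^ 3 := by
  have h := congrArg (coeffMap (Int.castRingHom R)) thetaS_jq_pow_six
  simpa only [map_mul, map_pow, map_sub, coeffMap_thetaS, coeffMap_deltaS, coeffMap_jqModC,
    map_ofNat] using h

/-! ### The contract of `Defs.lean` -/

theorem thetaL_eq_thetaS {R : Type*} [CommRing R] (u : LaurentSeries R) :
    thetaL u = thetaS u := rfl

theorem deltaModC_eq_deltaS (R : Type*) [CommRing R] : deltaModC R = deltaS R := rfl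

/-- **(I3)** the contract `ThetaIdentityContract` of `Defs.lean` holds. -/
theorem thetaIdentityContract : ThetaIdentityContract := by
  unfold ThetaIdentityContract
  rw [thetaL_eq_thetaS, deltaModC_eq_deltaS]
  exact thetaS_jq_pow_six

/-- **(I3)** over any commutative ring: `(θ j)⁶ = Δ j⁴ (j - 1728)³`. -/
theorem thetaL_jq_pow_six (R : Type*) [CommRing R] :
    (thetaL (jqModC R)) ^ 6 = deltaModC R * (jqModC R) ^ 4 * (jqModC R - 1728) ^ 3 :=
  thetaIdentity_of_contract thetaIdentityContract R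

end

end Fermat.Agent.S28
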