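/-
S28 package (IntegralCoeff): the triangular (leading-term) integrality lemma.

If `U ∈ B((t))` has coefficients in a subring `A ⊆ B`, order `-m < 0` and leading coefficient `1`,
and `P ∈ B[X]` is such that `P(U)` has all its coefficients in `A`, then `P ∈ A[X]`.
Mathlib only.
-/
import Mathlib

set_option autoImplicit false

namespace Fermat.Agent.S28

open HahnSeries Polynomial

variable {B : Type*} [CommRing B]

/-- Laurent series all of whose coefficients lie in the subring `A`. -/
def laurentCoeffSubring (A : Subring B) : Subring (LaurentSeries B) where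
  carrier := {u | ∀ n, u.coeff n ∈ A}
  mul_mem' := by
    intro u v hu hv n
    rw [HahnSeries.coeff_mul]
    exact Subring.sum_mem _ fun ij _ => A.mul_mem (hu _) (hv _)
  one_mem' := by
    intro n
    rw [HahnSeries.coeff_one]
    split_ifs
    · exact A.one_mem
    · exact A.zero_mem
  add_mem' := fun hu hv n => by rw [HahnSeries.coeff_add]; exact A.add_mem (hu n) (hv n)
  zero_mem' := fun n => by rw [HahnSeries.coeff_zero]; exact A.zero_mem
  neg_mem' := fun hu n => by rw [HahnSeries.coeff_neg]; exact A.neg_mem (hu n)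

theorem mem_laurentCoeffSubring {A : Subring B} {u : LaurentSeries B} :
    u ∈ laurentCoeffSubring A ↔ ∀ n, u.coeff n ∈ A := Iff.rfl

theorem coeff_C_mul' (c : B) (u : LaurentSeries B) (n : ℤ) :
    (HahnSeries.C c * u).coeff n = c * u.coeff n := by
  rw [HahnSeries.C_mul_eq_smul]
  rfl

theorem C_mem_laurentCoeffSubring {A : Subring B} {c : B} (hc : c ∈ A) :
    (HahnSeries.C c : LaurentSeries B) ∈ laurentCoeffSubring A := by
  intro n
  rw [HahnSeries.C_apply, HahnSeries.coeff_single]
  split_ifs
  · exact hc
  · exact A.zero_mem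

theorem algebraMap_laurent_eq_C (c : B) :
    algebraMap B (LaurentSeries B) c = HahnSeries.C c := by
  rw [HahnSeries.algebraMap_apply']
  simp

section Leading

variable {u v : LaurentSeries B} {d e : ℤ}

theorem coeff_mul_eq_zero_of_lt (hu : ∀ n < d, u.coeff n = 0) (hv : ∀ n < e, v.coeff n = 0)
    {n : ℤ} (hn : n < d + e) : (u * v).coeff n = 0 := by
  rw [HahnSeries.coeff_mul]
  refine Finset.sum_eq_zero fun ij hij => ?_
  have hsum : ij.1 + ij.2 = n := (Finset.mem_antidiagonal.mp hij).2.2
  by_cases h1 : ij.1 < d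
  · rw [hu _ h1, zero_mul]
  · have h2 : ij.2 < e := by omega
    rw [hv _ h2, mul_zero]

theorem coeff_mul_add_eq (hu : ∀ n < d, u.coeff n = 0) (hv : ∀ n < e, v.coeff n = 0) :
    (u * v).coeff (d + e) = u.coeff d * v.coeff e := by
  rw [HahnSeries.coeff_mul]
  refine Finset.sum_eq_single (d, e) ?_ ?_
  · intro ij hij hne
    have hsum : ij.1 + ij.2 = d + e := (Finset.mem_antidiagonal.mp hij).2.2
    by_cases h1 : ij.1 < d
    · rw [hu _ h1, zero_mul]
    · by_cases h2 : ij.2 < e
      · rw [hv _ h2, mul_zero]
      · exfalso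
        apply hne
        have e1 : ij.1 = d := by omega
        have e2 : ij.2 = e := by omega
        exact Prod.ext e1 e2
  · intro hnot
    by_contra hne
    apply hnot
    rw [Finset.mem_antidiagonal]
    refine ⟨?_, ?_, rfl⟩
    · intro h0
      apply hne
      show u.coeff d * v.coeff e = 0
      rw [h0, zero_mul]
    · intro h0
      apply hne
      show u.coeff d * v.coeff e = 0
      rw [h0, mul_zero]

theorem coeff_pow_eq_zero_of_lt (hu : ∀ n < d, u.coeff n = 0) (i : ℕ) :
    ∀ n < (i : ℤ) * d, (u ^ i).coeff n = 0 := by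
  induction i with
  | zero =>
    intro n hn
    rw [pow_zero, HahnSeries.coeff_one, if_neg]
    simp at hn
    omega
  | succ i ih =>
    intro n hn
    rw [pow_succ]
    refine coeff_mul_eq_zero_of_lt ih hu ?_
    have : ((i + 1 : ℕ) : ℤ) * d = (i : ℤ) * d + d := by push_cast; ring
    omega

theorem coeff_pow_self_eq (hu : ∀ n < d, u.coeff n = 0) (i : ℕ) :
    (u ^ i).coeff ((i : ℤ) * d) = u.coeff d ^ i := by
  induction i with
  | zero => simp
  | succ i ih =>
    have : ((i + 1 : ℕ) : ℤ) * d = (i : ℤ) * d + d := by push_cast; ring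
    rw [pow_succ, this, coeff_mul_add_eq (coeff_pow_eq_zero_of_lt hu i) hu, ih, pow_succ]

end Leading

/-- **Triangular integrality lemma** (`eval₂ C` form). -/
theorem coeff_mem_of_eval₂_mem (A : Subring B) (U : LaurentSeries B) (m : ℕ) (hm : 0 < m)
    (hUA : U ∈ laurentCoeffSubring A) (hlt : ∀ n < -(m : ℤ), U.coeff n = 0)
    (hlead : U.coeff (-(m : ℤ)) = 1) (P : B[X])
    (hP : P.eval₂ (HahnSeries.C : B →+* LaurentSeries B) U ∈ laurentCoeffSubring A) :
    ∀ i, P.coeff i ∈ A := by
  induction hdeg : P.natDegree using Nat.strong_induction_on generalizing P with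
  | _ n ih =>
    -- the leading coefficient
    have hlead_mem : P.coeff n ∈ A := by
      have hcoeff : (P.eval₂ (HahnSeries.C : B →+* LaurentSeries B) U).coeff ((n : ℤ) * (-(m : ℤ))) =
          P.coeff n := by
        rw [Polynomial.eval₂_eq_sum_range, HahnSeries.coeff_sum, hdeg]
        rw [Finset.sum_eq_single n]
        · rw [coeff_C_mul', coeff_pow_self_eq hlt, hlead, one_pow, mul_one]
        · intro i hi hin
          have hlt' : i < n := lt_of_le_of_ne (Nat.le_of_lt_succ (Finset.mem_range.mp hi)) hin
          rw [coeff_C_mul', coeff_pow_eq_zero_of_lt hlt i, mul_zero]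
          have h1 : (i : ℤ) < (n : ℤ) := by exact_mod_cast hlt'
          have h2 : (0 : ℤ) < (m : ℤ) := by exact_mod_cast hm
          nlinarith
        · intro h
          exact absurd (Finset.mem_range.mpr (Nat.lt_succ_self n)) h
      rw [← hcoeff]
      exact hP _
    rcases Nat.eq_zero_or_pos n with hn0 | hnpos
    · -- constant polynomial
      intro i
      rcases Nat.eq_zero_or_pos i with hi | hi
      · rw [hi, ← hn0]; exact hlead_mem
      · rw [Polynomial.coeff_eq_zero_of_natDegree_lt (by omega)]
        exact A.zero_mem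
    · -- erase the leading term
      set Q := P.eraseLead with hQ
      have hQdeg : Q.natDegree < n := by
        have h1 : Q.natDegree ≤ P.natDegree - 1 := Polynomial.eraseLead_natDegree_le P
        rw [hdeg] at h1
        omega
      have hPQ : Q + Polynomial.monomial n (P.coeff n) = P := by
        have := Polynomial.eraseLead_add_monomial_natDegree_leadingCoeff P
        rw [hdeg] at this
        rwa [Polynomial.leadingCoeff, hdeg] at this
      have hQP : Q.eval₂ (HahnSeries.C : B →+* LaurentSeries B) U =
          P.eval₂ (HahnSeries.C : B →+* LaurentSeries B) U - HahnSeries.C (P.coeff n) * U ^ n := by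
        rw [← hPQ, Polynomial.eval₂_add, Polynomial.eval₂_monomial, hPQ]
        ring
      have hQmem : Q.eval₂ (HahnSeries.C : B →+* LaurentSeries B) U ∈ laurentCoeffSubring A := by
        rw [hQP]
        exact Subring.sub_mem _ hP
          (Subring.mul_mem _ (C_mem_laurentCoeffSubring hlead_mem) (Subring.pow_mem _ hUA n))
      have hQall := ih Q.natDegree hQdeg Q hQmem rfl
      intro i
      by_cases hin : i = n
      · rw [hin]; exact hlead_mem
      · have : Q.coeff i = P.coeff i := by
          rw [hQ, Polynomial.eraseLead_coeff, hdeg, if_neg hin]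
        rw [← this]
        exact hQall i

/-- **Triangular integrality lemma** (`aeval` form). -/
theorem coeff_mem_of_aeval_mem (A : Subring B) (U : LaurentSeries B) (m : ℕ) (hm : 0 < m)
    (hUA : U ∈ laurentCoeffSubring A) (hlt : ∀ n < -(m : ℤ), U.coeff n = 0)
    (hlead : U.coeff (-(m : ℤ)) = 1) (P : B[X])
    (hP : Polynomial.aeval U P ∈ laurentCoeffSubring A) :
    ∀ i, P.coeff i ∈ A := by
  refine coeff_mem_of_eval₂_mem A U m hm hUA hlt hlead P ?_
  have : P.eval₂ (HahnSeries.C : B →+* LaurentSeries B) U = Polynomial.aeval U P := by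
    rw [Polynomial.aeval_def]
    congr 1
    ext c : 1
    exact (algebraMap_laurent_eq_C c).symm
  rwa [this]

/-- a polynomial with coefficients in the subring `A` lifts to `A[X]`. -/
theorem exists_lift_of_coeff_mem (A : Subring B) (P : B[X]) (hP : ∀ i, P.coeff i ∈ A) :
    ∃ P' : A[X], P'.map A.subtype = P := by
  have : P ∈ Polynomial.lifts A.subtype := by
    rw [Polynomial.lifts_iff_coeff_lifts]
    intro i
    exact ⟨⟨P.coeff i, hP i⟩, rfl⟩
  exact this

/-- **Bivariate form**: if every coefficient `c_k ∈ B[Y]` of `R ∈ B[Y][X]` satisfies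
`c_k(U) ∈ A((t))`, then `R` comes from `A[Y][X]`. -/
theorem exists_lift_of_aeval_coeff_mem (A : Subring B) (U : LaurentSeries B) (m : ℕ) (hm : 0 < m)
    (hUA : U ∈ laurentCoeffSubring A) (hlt : ∀ n < -(m : ℤ), U.coeff n = 0)
    (hlead : U.coeff (-(m : ℤ)) = 1) (R : Polynomial (Polynomial B))
    (hR : ∀ k, Polynomial.aeval U (R.coeff k) ∈ laurentCoeffSubring A) :
    ∃ R' : Polynomial (Polynomial A), R'.map (Polynomial.mapRingHom A.subtype) = R := by
  have : R ∈ Polynomial.lifts (Polynomial.mapRingHom A.subtype) := by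
    rw [Polynomial.lifts_iff_coeff_lifts]
    intro k
    obtain ⟨P', hP'⟩ := exists_lift_of_coeff_mem A (R.coeff k)
      (coeff_mem_of_aeval_mem A U m hm hUA hlt hlead (R.coeff k) (hR k))
    exact ⟨P', hP'⟩
  exact this

end Fermat.Agent.S28
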