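/-
S28 package (G2), part I: the modular equation of prime level `r` over `ℂ`, as an identity of
polynomials over `ℂ((t))`, `t = q^{1/r}`.
-/
import Fermat.Agent.S24.Real.Degree
import Fermat.Agent.S24.Real.EmbInfty
import Fermat.Agent.S24.Real.LaurentInftySum
import Fermat.Prelude.Thm_ModularCurve_coeffMap_qExpand

set_option autoImplicit false

namespace Fermat.Agent.S28

open UpperHalfPlane ModularForm MatrixGroups CongruenceSubgroup ModularCurve Polynomial
open Fermat.Agent.S24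
open scoped Manifold Polynomial.Bivariate

noncomputable section

/-! ### generalities on bivariate evaluation -/

section Biv

variable {K A : Type*} [CommRing K] [CommRing A] [Algebra K A]

theorem aevalAeval_eq_map_eval (x y : A) (R : K[X][Y]) :
    aevalAeval x y R = (R.map (Polynomial.aeval x).toRingHom).eval y := by
  induction R using Polynomial.induction_on' with
  | add p q hp hq => rw [map_add, Polynomial.map_add, eval_add, hp, hq]
  | monomial n c =>
    rw [← C_mul_X_pow_eq_monomial, map_mul, map_pow, aevalAeval_C, aevalAeval_Y, Polynomial.map_mul,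
      Polynomial.map_pow, map_C, map_X, eval_mul, eval_pow, eval_C, eval_X]
    rfl

end Biv

/-! ### the conjugates of `j(rτ)` -/

variable (r : ℕ)

/-- `τ ↦ j((τ + b) / r)`. -/
def conjFn [NeZero r] (b : ℤ) : ℍ → ℂ := fun τ =>
  jFun (upperGL 1 b r one_pos (by exact_mod_cast Nat.pos_of_ne_zero (NeZero.ne r)) • τ)

theorem conjFn_eq_Jd_smul [NeZero r] (b : ℤ) (τ : ℍ) :
    conjFn r b τ = Jd r ((ModularGroup.S * ModularGroup.T ^ b) • τ) := by
  have hr0 : 0 < r := Nat.pos_of_ne_zero (NeZero.ne r)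
  have hrC : (r : ℂ) ≠ 0 := by exact_mod_cast hr0.ne'
  have key : scaleMat r • ((ModularGroup.S * ModularGroup.T ^ b) • τ) =
      ModularGroup.S • (upperGL 1 b r one_pos (by exact_mod_cast hr0) • τ) := by
    apply UpperHalfPlane.ext
    rw [coe_scaleMat_smul r hr0, mul_smul, UpperHalfPlane.modular_S_smul,
      UpperHalfPlane.modular_S_smul, UpperHalfPlane.modular_T_zpow_smul]
    simp only [coe_upperGL_smul, UpperHalfPlane.coe_vadd]
    have hne : ((b : ℝ) : ℂ) + (τ : ℂ) ≠ 0 := by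
      have := UpperHalfPlane.ne_zero ((b : ℝ) +ᵥ τ)
      simpa [UpperHalfPlane.coe_vadd] using this
    push_cast at hne ⊢
    rw [inv_neg, inv_neg, inv_div, mul_neg, one_mul, add_comm (τ : ℂ), div_eq_mul_inv]
  rw [conjFn, Jd_apply, key, jFun_smul]

/-- the formal `j` over `ℂ`. -/
def Jc : LaurentSeries ℂ := coeffMap (algebraMap ℚ ℂ) jq

theorem laurentInfty_one_jFun : laurentInfty 1 jFun = Jc := laurentInfty_jFun

theorem mdiff_conjFn [NeZero r] (b : ℤ) : MDiff (conjFn r b) :=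
  mdiff_jFun.comp (mdifferentiable_upperGL_smul 1 b r one_pos
    (by exact_mod_cast Nat.pos_of_ne_zero (NeZero.ne r)))

/-- `q_1((τ + b)/r) = ζ_r^b q_r(τ)`. -/
theorem qParam_upperGL [NeZero r] (b : ℤ) (τ : ℍ) :
    Function.Periodic.qParam ((1 : ℕ) : ℝ)
      ((upperGL 1 b r one_pos (by exact_mod_cast Nat.pos_of_ne_zero (NeZero.ne r)) • τ : ℍ) : ℂ) =
      ((zetaInfty r ^ b : ℂˣ) : ℂ) * Function.Periodic.qParam (r : ℝ) (τ : ℂ) := by
  have hrC : (r : ℂ) ≠ 0 := by exact_mod_cast NeZero.ne r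
  rw [coe_upperGL_smul, Units.val_zpow_eq_zpow_val, coe_zetaInfty, ← Complex.exp_int_mul]
  simp only [Function.Periodic.qParam]
  rw [← Complex.exp_add]
  congr 1
  push_cast
  field_simp
  ring

/-- the `q_r`-expansion of `τ ↦ j((τ + b)/r)` is `j(ζ^b t)`. -/
theorem laurentInfty_conjFn [NeZero r] (b : ℤ) :
    IsMeroAtInfty r (conjFn r b) ∧ laurentInfty r (conjFn r b) = rot (zetaInfty r ^ b) Jc := by
  refine eq_laurentInfty_of_hasSum (mdiff_conjFn r b) _ fun τ => ?_
  have h1 := hasSum_laurentInfty isMeroAtInfty_jFun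
    (upperGL 1 b r one_pos (by exact_mod_cast Nat.pos_of_ne_zero (NeZero.ne r)) • τ)
  rw [laurentInfty_one_jFun, qParam_upperGL] at h1
  refine h1.congr_fun fun n => ?_
  rw [rot_coeff, mul_zpow, ← Units.val_zpow_eq_zpow_val]
  ring

theorem isMeroAtInfty_conjFn [NeZero r] (b : ℤ) : IsMeroAtInfty r (conjFn r b) :=
  (laurentInfty_conjFn r b).1

/-- the `q_r`-expansion of `j(τ)` is `j(t^r)`. -/
theorem laurentInfty_r_jFun [NeZero r] : laurentInfty r jFun = qExpand ℂ r Jc := by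
  rw [laurentInfty_period r isMeroAtInfty_jFun, laurentInfty_one_jFun]

/-- the `q_r`-expansion of `j(rτ)` is `j(t^{r²})`. -/
theorem laurentInfty_r_Jd [NeZero r] : laurentInfty r (Jd r) = qExpand ℂ r (qExpand ℂ r Jc) := by
  have hr0 : 0 < r := Nat.pos_of_ne_zero (NeZero.ne r)
  rw [laurentInfty_period r (isMeroAtInfty_Jd r hr0), laurentInfty_Jd_eq_jqBar r hr0,
    jqBar_of_ne_zero, coeffEmb, ModularCurve.coeffMap_qExpand]
  rfl

/-! ### a monic polynomial with the right number of distinct roots -/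

theorem eq_prod_X_sub_C_of_roots {F ι : Type*} [Field F] [Fintype ι] (P : F[X]) (hm : P.Monic)
    (u : ι → F) (hu : Function.Injective u) (hroot : ∀ i, P.eval (u i) = 0)
    (hdeg : P.natDegree = Fintype.card ι) : P = ∏ i, (X - C (u i)) := by
  classical
  have hQm : (∏ i, (X - C (u i)) : F[X]).Monic :=
    Polynomial.monic_prod_of_monic _ _ fun i _ => Polynomial.monic_X_sub_C _
  have hQdeg : (∏ i, (X - C (u i)) : F[X]).natDegree = Fintype.card ι := by
    rw [Polynomial.natDegree_prod_of_monic _ _ fun i _ => Polynomial.monic_X_sub_C _]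
    simp
  refine Polynomial.eq_of_degree_le_of_eval_index_eq (v := u) Finset.univ
    (fun a _ b _ h => hu h) ?_ ?_ ?_ ?_
  · rw [Polynomial.degree_eq_natDegree hm.ne_zero, hdeg, Finset.card_univ]
  · rw [Polynomial.degree_eq_natDegree hm.ne_zero, Polynomial.degree_eq_natDegree hQm.ne_zero,
      hdeg, hQdeg]
  · rw [hm.leadingCoeff, hQm.leadingCoeff]
  · intro i _
    rw [hroot i, Polynomial.eval_prod]
    symm
    refine Finset.prod_eq_zero (Finset.mem_univ i) ?_
    simp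

/-! ### the pointwise modular equation -/

theorem exists_modEq_pointwise (hr : r.Prime) :
    ∃ Φ : ℂ[X][Y], Φ.Monic ∧ Φ.natDegree = r + 1 ∧
      ∀ (g : SL(2, ℤ)) (τ : ℍ), (Φ.map (evalRingHom (jFun τ))).eval (Jd r (g • τ)) = 0 := by
  have : NeZero r := ⟨hr.ne_zero⟩
  have : Fintype (SL(2, ℤ) ⧸ Gamma0 r) := Fintype.ofFinite _
  obtain ⟨Φ, hmonic, hdeg, hroot⟩ := exists_monic_poly_J (H := Gamma0 r) (Jd_mdiff r)
    (fun γ hγ τ => Jd_smul_of_mem_Gamma0 (dvd_refl r) hγ τ)
    (fun g => polarAtInfty_Jd_smul r hr.pos g)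
  refine ⟨Φ, hmonic, ?_, fun g τ => ?_⟩
  · rw [hdeg, ← Nat.card_eq_fintype_card, card_quotient_gamma0]
    have := dedekindPsi_prime_pow hr one_pos
    simpa using this
  · have := hroot (g • τ)
    rwa [← jFun_apply, jFun_smul] at this

/-- the modular equation holds for every conjugate, as Laurent series in `t = q^{1/r}`. -/
theorem exists_modEq_laurent_roots (hr : r.Prime) :
    haveI : NeZero r := ⟨hr.ne_zero⟩
    ∃ Φ : ℂ[X][Y], Φ.Monic ∧ Φ.natDegree = r + 1 ∧
      (Φ.map (Polynomial.aeval (qExpand ℂ r Jc)).toRingHom).eval (qExpand ℂ r (qExpand ℂ r Jc)) = 0 ∧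
      ∀ b : ℤ, (Φ.map (Polynomial.aeval (qExpand ℂ r Jc)).toRingHom).eval
        (rot (zetaInfty r ^ b) Jc) = 0 := by
  haveI : NeZero r := ⟨hr.ne_zero⟩
  obtain ⟨Φ, hmonic, hdeg, hroot⟩ := exists_modEq_pointwise r hr
  -- the key transfer statement
  have key : ∀ g : SL(2, ℤ),
      (Φ.map (Polynomial.aeval (qExpand ℂ r Jc)).toRingHom).eval
        (laurentInfty r (fun τ => Jd r (g • τ))) = 0 := by
    intro g
    set Xm : meroSubalgebra r := ⟨jFun, isMeroAtInfty_jFun.of_one r⟩ with hXm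
    set Ym : meroSubalgebra r := ⟨fun τ => Jd r (g • τ), isMeroAtInfty_Jd_smul (dvd_refl r) g⟩
      with hYm
    have h0 : aevalAeval Xm Ym Φ = 0 := by
      apply Subtype.ext
      have h1 : ((aevalAeval Xm Ym Φ : meroSubalgebra r) : ℍ → ℂ) =
          aevalAeval (jFun : ℍ → ℂ) (fun τ => Jd r (g • τ)) Φ :=
        algHom_aevalAeval (meroSubalgebra r).val Xm Ym Φ
      rw [h1]
      funext τ
      have h2 := algHom_aevalAeval (Pi.evalAlgHom ℂ (fun _ : ℍ => ℂ) τ) (jFun : ℍ → ℂ)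
        (fun τ => Jd r (g • τ)) Φ
      simp only [Pi.evalAlgHom_apply] at h2
      rw [h2, aevalAeval_self_eq]
      exact hroot g τ
    have h3 := congrArg (laurentInftyAlgHom r) h0
    rw [map_zero, algHom_aevalAeval, aevalAeval_eq_map_eval] at h3
    rw [laurentInftyAlgHom_apply, laurentInftyAlgHom_apply] at h3
    simp only [hXm, hYm] at h3
    rw [laurentInfty_r_jFun] at h3
    exact h3
  refine ⟨Φ, hmonic, hdeg, ?_, fun b => ?_⟩
  · have := key 1
    simp only [one_smul] at this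
    rw [show (fun τ => Jd r τ) = Jd r from rfl, laurentInfty_r_Jd] at this
    exact this
  · have := key (ModularGroup.S * ModularGroup.T ^ b)
    have hfun : (fun τ => Jd r ((ModularGroup.S * ModularGroup.T ^ b) • τ)) = conjFn r b :=
      funext fun τ => (conjFn_eq_Jd_smul r b τ).symm
    rw [hfun, (laurentInfty_conjFn r b).2] at this
    exact this

/-! ### the factorisation -/

/-- the `r + 1` roots of the modular equation in `ℂ((t))`: `j(t^{r²})` and `j(ζ^b t)`, `b < r`. -/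
def modEqRoots [NeZero r] (ζ : ℂˣ) : Option (Fin r) → LaurentSeries ℂ
  | none => qExpand ℂ r (qExpand ℂ r Jc)
  | some b => rot (ζ ^ (b : ℕ)) Jc

theorem coeff_Jc_neg_one : Jc.coeff (-1) = 1 := by
  rw [← laurentInfty_one_jFun]
  exact coeff_laurentInfty_jFun_neg_one

theorem coeff_modEqRoots_none [NeZero r] (hr : 2 ≤ r) (ζ : ℂˣ) :
    (modEqRoots r ζ none).coeff (-1) = 0 := by
  refine qExpand_coeff_of_not_dvd r _ ?_
  intro h
  have h1 : (r : ℤ) ∣ 1 := (dvd_neg.mp h)
  have h2 : (r : ℤ) ≤ 1 := Int.le_of_dvd one_pos h1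
  omega

theorem coeff_modEqRoots_some [NeZero r] (ζ : ℂˣ) (b : Fin r) :
    (modEqRoots r ζ (some b)).coeff (-1) = (((ζ ^ (b : ℕ))⁻¹ : ℂˣ) : ℂ) := by
  rw [modEqRoots, rot_coeff, coeff_Jc_neg_one, mul_one, zpow_neg_one]

theorem modEqRoots_injective [NeZero r] (hr : 2 ≤ r) {ζ : ℂˣ} (hζ : IsPrimitiveRoot ζ r) :
    Function.Injective (modEqRoots r ζ) := by
  intro i j hij
  have hc : (modEqRoots r ζ i).coeff (-1) = (modEqRoots r ζ j).coeff (-1) := by rw [hij]
  rcases i with _ | b <;> rcases j with _ | b'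
  · rfl
  · rw [coeff_modEqRoots_none r hr, coeff_modEqRoots_some] at hc
    exact absurd hc.symm (Units.ne_zero _)
  · rw [coeff_modEqRoots_none r hr, coeff_modEqRoots_some] at hc
    exact absurd hc (Units.ne_zero _)
  · rw [coeff_modEqRoots_some, coeff_modEqRoots_some] at hc
    have h1 : ζ ^ (b : ℕ) = ζ ^ (b' : ℕ) := inv_injective (Units.ext hc)
    have h2 := hζ.pow_inj b.2 b'.2 h1
    exact congrArg some (Fin.ext h2)

/-- every `r`-th root of unity is a power of `zetaInfty r`. -/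
theorem exists_zetaInfty_pow_eq [NeZero r] {ζ : ℂˣ} (hζ : ζ ^ r = 1) :
    ∃ i : ℕ, zetaInfty r ^ i = ζ := by
  have h1 : ((ζ : ℂˣ) : ℂ) ^ r = 1 := by
    rw [← Units.val_pow_eq_pow_val, hζ, Units.val_one]
  obtain ⟨i, -, hi⟩ := (zetaInfty_isPrimitiveRoot r).eq_pow_of_pow_eq_one h1
  refine ⟨i, Units.ext ?_⟩
  rw [Units.val_pow_eq_pow_val, hi]

/-- **Modular equation of prime level `r` over `ℂ`**, as an identity in `ℂ((t))[X]`,
`t = q^{1/r}`: `Φ(X, j(t^r)) = (X - j(t^{r²})) ∏_{b<r} (X - j(ζ^b t))`, for every primitive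
`r`-th root of unity `ζ`. -/
theorem exists_modEq_complex (hr : r.Prime) :
    haveI : NeZero r := ⟨hr.ne_zero⟩
    ∃ Φ : ℂ[X][Y], Φ.Monic ∧ Φ.natDegree = r + 1 ∧
      ∀ ζ : ℂˣ, IsPrimitiveRoot ζ r →
        Φ.map (Polynomial.aeval (qExpand ℂ r Jc)).toRingHom =
          ∏ i : Option (Fin r), (X - C (modEqRoots r ζ i)) := by
  haveI : NeZero r := ⟨hr.ne_zero⟩
  obtain ⟨Φ, hmonic, hdeg, h1, h2⟩ := exists_modEq_laurent_roots r hr
  refine ⟨Φ, hmonic, hdeg, fun ζ hζ => ?_⟩
  obtain ⟨i, hi⟩ := exists_zetaInfty_pow_eq r hζ.pow_eq_one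
  refine eq_prod_X_sub_C_of_roots _ (hmonic.map _) (modEqRoots r ζ)
    (modEqRoots_injective r hr.two_le hζ) ?_ ?_
  · rintro (_ | b)
    · exact h1
    · have := h2 ((i * (b : ℕ) : ℕ) : ℤ)
      rw [zpow_natCast, pow_mul, hi] at this
      exact this
  · rw [hmonic.natDegree_map, hdeg]
    simp

/-- the same with the product written out. -/
theorem exists_modEq_complex' (hr : r.Prime) :
    haveI : NeZero r := ⟨hr.ne_zero⟩
    ∃ Φ : ℂ[X][Y], Φ.Monic ∧ Φ.natDegree = r + 1 ∧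
      ∀ ζ : ℂˣ, IsPrimitiveRoot ζ r →
        Φ.map (Polynomial.aeval (qExpand ℂ r Jc)).toRingHom =
          (X - C (qExpand ℂ r (qExpand ℂ r Jc))) *
            ∏ b ∈ Finset.range r, (X - C (rot (ζ ^ b) Jc)) := by
  haveI : NeZero r := ⟨hr.ne_zero⟩
  obtain ⟨Φ, hmonic, hdeg, h⟩ := exists_modEq_complex r hr
  refine ⟨Φ, hmonic, hdeg, fun ζ hζ => ?_⟩
  rw [h ζ hζ, Fintype.prod_option]
  congr 1
  exact Fin.prod_univ_eq_prod_range (fun b => (X - C (rot (ζ ^ b) Jc) : (LaurentSeries ℂ)[X])) r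

end

end Fermat.Agent.S28
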