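/-
S28 package [A1]: the modular equation of prime level `r` over the algebraic integers `R0`
(contract `ModEqContract r` of `Defs.lean`).
-/
import Fermat.Agent.S28.Defs
import Fermat.Agent.S28.IntegralCoeff
import Fermat.Agent.S28.ModEqAnalytic
import Fermat.Prelude.Thm_ModularCurve_coeff_jqModC_neg_one
import Fermat.Prelude.Thm_ModularCurve_coeff_jqModC_pow_of_lt

set_option autoImplicit false

namespace Fermat.Agent.S28

open ModularCurve Polynomial Fermat.Agent.S24
open scoped Polynomial.Bivariate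

noncomputable section

/-! ### bookkeeping -/

theorem Jc_eq_jqModC : Jc = jqModC ℂ := by
  rw [Jc, ← jqModC_rat, coeffMap_jqModC']

theorem rot_eq_rotR (ζ : ℂˣ) (u : LaurentSeries ℂ) : rot ζ u = rotR ζ u := by
  ext m
  rfl

theorem coeff_jqModC_of_lt (K : Type*) [CommRing K] {m : ℤ} (hm : m < -1) :
    (jqModC K).coeff m = 0 := by
  have := coeff_jqModC_pow_of_lt K (b := 1) (m := m) (by simpa using hm)
  rwa [pow_one] at this

/-- the algebraic integers as a subring of `ℂ`. -/
def intSubring : Subring ℂ := (integralClosure ℤ ℂ).toSubring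

theorem mem_intSubring {z : ℂ} : z ∈ intSubring ↔ z ∈ integralClosure ℤ ℂ := Iff.rfl

theorem jqModC_mem_intSeries : jqModC ℂ ∈ laurentCoeffSubring intSubring := by
  intro n
  rw [jqModC_eq_map_intCast ℂ]
  change ((Int.castRingHom ℂ) ((jqModC ℤ).coeff n)) ∈ intSubring
  rw [eq_intCast]
  exact intCast_mem intSubring _

theorem qExpand_mem_laurentCoeffSubring {B : Type*} [CommRing B] (A : Subring B) (d : ℕ) [NeZero d]
    {u : LaurentSeries B} (hu : u ∈ laurentCoeffSubring A) :
    qExpand B d u ∈ laurentCoeffSubring A := by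
  intro n
  by_cases hn : (d : ℤ) ∣ n
  · obtain ⟨k, rfl⟩ := hn
    rw [qExpand_coeff_mul]
    exact hu k
  · rw [qExpand_coeff_of_not_dvd d _ hn]
    exact A.zero_mem

theorem rotR_mem_intSeries (ζ : R0ˣ) {u : LaurentSeries ℂ}
    (hu : u ∈ laurentCoeffSubring intSubring) :
    rotR (Units.map ((algebraMap R0 ℂ : R0 →+* ℂ) : R0 →* ℂ) ζ) u ∈
      laurentCoeffSubring intSubring := by
  intro n
  rw [rotR_coeff]
  refine intSubring.mul_mem ?_ (hu n)
  rw [← map_zpow]
  exact (ζ ^ n : R0ˣ).val.2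

/-! ### descent of the coefficients -/

section Lift

variable (r : ℕ) [NeZero r]

/-- a polynomial over `ℂ[Y]` all of whose coefficients are algebraic integers comes from `R0`. -/
theorem exists_lift_R0 (Φ : ℂ[X][Y]) (hm : Φ.Monic)
    (h : ∀ k i, (Φ.coeff k).coeff i ∈ integralClosure ℤ ℂ) :
    ∃ Φ0 : R0[X][Y], Φ0.Monic ∧ Φ0.map (Polynomial.mapRingHom (algebraMap R0 ℂ)) = Φ := by
  have hlift : Φ ∈ Polynomial.lifts (Polynomial.mapRingHom (algebraMap R0 ℂ)) := by
    rw [Polynomial.lifts_iff_coeff_lifts]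
    intro k
    have hk : Φ.coeff k ∈ Polynomial.lifts (algebraMap R0 ℂ) := by
      rw [Polynomial.lifts_iff_coeff_lifts]
      intro i
      exact ⟨⟨(Φ.coeff k).coeff i, h k i⟩, rfl⟩
    exact hk
  obtain ⟨Φ0, h1, -, h3⟩ := Polynomial.lifts_and_natDegree_eq_and_monic hlift hm
  exact ⟨Φ0, h3, h1⟩

end Lift

/-! ### polynomials with coefficients in a subring -/

section PolyCoeff

variable {B : Type*} [CommRing B]

/-- polynomials all of whose coefficients lie in the subring `S`. -/
def polyCoeffSubring (S : Subring B) : Subring B[X] where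
  carrier := {p | ∀ n, p.coeff n ∈ S}
  mul_mem' := by
    intro p q hp hq n
    rw [Polynomial.coeff_mul]
    exact Subring.sum_mem _ fun ij _ => S.mul_mem (hp _) (hq _)
  one_mem' := by
    intro n
    rw [Polynomial.coeff_one]
    split_ifs
    · exact S.one_mem
    · exact S.zero_mem
  add_mem' := fun hp hq n => by rw [Polynomial.coeff_add]; exact S.add_mem (hp n) (hq n)
  zero_mem' := fun n => by rw [Polynomial.coeff_zero]; exact S.zero_mem
  neg_mem' := fun hp n => by rw [Polynomial.coeff_neg]; exact S.neg_mem (hp n)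

theorem X_sub_C_mem_polyCoeffSubring {S : Subring B} {a : B} (ha : a ∈ S) :
    (X - C a : B[X]) ∈ polyCoeffSubring S := by
  intro n
  rw [Polynomial.coeff_sub, Polynomial.coeff_X, Polynomial.coeff_C]
  refine S.sub_mem ?_ ?_
  · split_ifs
    · exact S.one_mem
    · exact S.zero_mem
  · split_ifs
    · exact ha
    · exact S.zero_mem

end PolyCoeff

theorem qExpand_qExpand_sq {R : Type*} [CommRing R] (r : ℕ) [NeZero r] (u : LaurentSeries R) :
    qExpand R r (qExpand R r u) = qExpand R (r ^ 2) u := by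
  ext k
  by_cases hk : ((r ^ 2 : ℕ) : ℤ) ∣ k
  · obtain ⟨m, rfl⟩ := hk
    rw [qExpand_coeff_mul]
    have : ((r ^ 2 : ℕ) : ℤ) * m = (r : ℤ) * ((r : ℤ) * m) := by push_cast; ring
    rw [this, qExpand_coeff_mul, qExpand_coeff_mul]
  · rw [qExpand_coeff_of_not_dvd (r ^ 2) _ hk]
    by_cases hk1 : (r : ℤ) ∣ k
    · obtain ⟨m, rfl⟩ := hk1
      rw [qExpand_coeff_mul]
      refine qExpand_coeff_of_not_dvd r _ ?_
      rintro ⟨m', rfl⟩
      apply hk
      refine ⟨m', ?_⟩
      push_cast
      ring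
    · exact qExpand_coeff_of_not_dvd r _ hk1

theorem coeffMap_injective_of_injective {R S : Type*} [CommRing R] [CommRing S] (f : R →+* S)
    (hf : Function.Injective f) : Function.Injective (coeffMap f) := by
  intro u v huv
  ext n
  apply hf
  have := congrArg (fun w : LaurentSeries S => w.coeff n) huv
  simpa using this

/-! ### the contract -/

/-- **[A1]** the modular equation of prime level `r` over the algebraic integers. -/
theorem modEqContract (r : ℕ) [NeZero r] (hr : r.Prime) : ModEqContract r := by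
  intro ζ hζ
  set ι : R0 →+* ℂ := algebraMap R0 ℂ with hι
  have hιinj : Function.Injective ι := Subtype.val_injective
  set ζc : ℂˣ := Units.map (ι : R0 →* ℂ) ζ with hζc
  have hζc_prim : IsPrimitiveRoot ζc r :=
    hζ.map_of_injective (f := Units.map (ι : R0 →* ℂ)) (Units.map_injective hιinj)
  obtain ⟨Φ, hmonic, -, hΦ⟩ := exists_modEq_complex' r hr
  have hΦζ := hΦ ζc hζc_prim
  rw [Jc_eq_jqModC, qExpand_qExpand_sq] at hΦζ
  simp_rw [rot_eq_rotR] at hΦζ
  -- integrality of the coefficients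
  set U : LaurentSeries ℂ := qExpand ℂ r (jqModC ℂ) with hU
  have hUmem : U ∈ laurentCoeffSubring intSubring :=
    qExpand_mem_laurentCoeffSubring _ r jqModC_mem_intSeries
  have hrpos : 0 < r := hr.pos
  have hUlt : ∀ n < -(r : ℤ), U.coeff n = 0 := by
    intro n hn
    by_cases hdvd : (r : ℤ) ∣ n
    · obtain ⟨k, rfl⟩ := hdvd
      rw [hU, qExpand_coeff_mul]
      refine coeff_jqModC_of_lt ℂ ?_
      have h0 : (0 : ℤ) < r := by exact_mod_cast hrpos
      nlinarith
    · rw [hU, qExpand_coeff_of_not_dvd r _ hdvd]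
  have hUlead : U.coeff (-(r : ℤ)) = 1 := by
    have : -(r : ℤ) = (r : ℤ) * (-1) := by ring
    rw [this, hU, qExpand_coeff_mul, coeff_jqModC_neg_one]
  have hRHS : ((X - C (qExpand ℂ (r ^ 2) (jqModC ℂ))) *
      ∏ b ∈ Finset.range r, (X - C (rotR (ζc ^ b) (jqModC ℂ))) : (LaurentSeries ℂ)[X]) ∈
      polyCoeffSubring (laurentCoeffSubring intSubring) := by
    refine Subring.mul_mem _ (X_sub_C_mem_polyCoeffSubring
      (qExpand_mem_laurentCoeffSubring _ _ jqModC_mem_intSeries)) ?_
    refine Subring.prod_mem _ fun b _ => X_sub_C_mem_polyCoeffSubring ?_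
    rw [hζc, ← map_pow]
    exact rotR_mem_intSeries (ζ ^ b) jqModC_mem_intSeries
  have hcoef : ∀ k, Polynomial.aeval U (Φ.coeff k) ∈ laurentCoeffSubring intSubring := by
    intro k
    have h1 : Polynomial.aeval U (Φ.coeff k) =
        (Φ.map (Polynomial.aeval U).toRingHom).coeff k := by
      rw [Polynomial.coeff_map]
      rfl
    rw [h1, hΦζ]
    exact hRHS k
  have hint : ∀ k i, (Φ.coeff k).coeff i ∈ integralClosure ℤ ℂ := fun k i =>
    coeff_mem_of_aeval_mem intSubring U r hrpos hUmem hUlt hUlead (Φ.coeff k) (hcoef k) i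
  obtain ⟨Φ0, hΦ0m, hΦ0⟩ := exists_lift_R0 Φ hmonic hint
  refine ⟨Φ0, hΦ0m, ?_⟩
  apply Polynomial.map_injective (coeffMap ι) (coeffMap_injective_of_injective ι hιinj)
  have h1 : (Φ0.map (Polynomial.aeval (qExpand R0 r (jqModC R0))).toRingHom).map (coeffMap ι) =
      Φ.map (Polynomial.aeval U).toRingHom := by
    rw [Polynomial.map_map, coeffMap_comp_aeval, ← Polynomial.map_map, hΦ0, coeffMap_qExpand,
      coeffMap_jqModC']
  rw [h1, hΦζ, Polynomial.map_mul, Polynomial.map_sub, Polynomial.map_X, Polynomial.map_C,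
    Polynomial.map_prod, coeffMap_qExpand, coeffMap_jqModC']
  congr 1
  refine Finset.prod_congr rfl fun b _ => ?_
  rw [Polynomial.map_sub, Polynomial.map_X, Polynomial.map_C, coeffMap_rotR, coeffMap_jqModC',
    map_pow]

end

end Fermat.Agent.S28
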