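/-
S28 stream [G], package [B3] (owner helper10): the mirrored tower (G).
For `k` algebraically closed of characteristic `l ∤ N`:
`[k(j(t^d) : d ∣ N) : k(j(t^N))] ≥ ψ(N)`, in the form of `ψ(N)` elements of the `k`-algebra
generated by the `j(t^d)` which are linearly independent over `k(j(t^N))`; then descent of the
linear independence to `ZMod l` (`TowerContract`).
The step `(β)` (`j(t^r) ∉ k(j(t^d) : d ∣ M)` for `r ∤ M`) is a hypothesis here
(proved in `BetaStep.lean`).
-/
import Mathlib
import Fermat.Agent.S28.PrimeStepAux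
import Fermat.Agent.S28.ModEq
import Fermat.Agent.S24.PsiMult

set_option autoImplicit false
set_option linter.style.haveILetI false

noncomputable section

namespace Fermat.Agent.S28

open HahnSeries ModularCurve Polynomial IntermediateField Fermat.Agent.S24

section Degree

variable {k : Type*} [Field k]

/-- **Degree lemma.** Let `L` be a field inside `k((t))` which is pointwise fixed by the rotation
`t ↦ ζ t` and over which the modular polynomial `Φ_r(X, j(t^r))` is defined.  Then `j(t)` has degree
at least `r` over `L`, and degree `r + 1` unless `j(t^(r^2)) ∈ L`. -/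
theorem natDegree_minpoly_J {ζ : kˣ} {r : ℕ} (hζ : IsPrimitiveRoot ζ r) (hr : 2 ≤ r)
    {L : Type*} [Field L] [Algebra L (LaurentSeries k)]
    (hfix : ∀ x : L, rot ζ (algebraMap L (LaurentSeries k) x) = algebraMap L (LaurentSeries k) x)
    (ρ : LaurentSeries k) (PL : L[X]) (hPLm : PL.Monic)
    (hPL : PL.map (algebraMap L (LaurentSeries k)) =
      (X - Polynomial.C ρ) * ∏ b ∈ Finset.range r, (X - Polynomial.C (rotRoot ζ b))) :
    IsIntegral L (jqModC k) ∧ r ≤ (minpoly L (jqModC k)).natDegree ∧
      (ρ ∉ Set.range (algebraMap L (LaurentSeries k)) →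
        (minpoly L (jqModC k)).natDegree = r + 1) := by
  classical
  set ι : L →+* LaurentSeries k := algebraMap L (LaurentSeries k) with hι
  set σ : LaurentSeries k →+* LaurentSeries k := (rot ζ : LaurentSeries k →+* LaurentSeries k) with hσ
  set Jk := jqModC k with hJk
  have hσι : σ.comp ι = ι := RingHom.ext fun x => hfix x
  have hJ0 : rotRoot ζ 0 = Jk := by rw [rotRoot, pow_zero, rot_one_apply]
  set Pi0 : (LaurentSeries k)[X] := (X - Polynomial.C ρ) * ∏ b ∈ Finset.range r, (X - Polynomial.C (rotRoot ζ b))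
    with hPi0
  have hPi0deg : Pi0.natDegree = r + 1 := by
    have hne : (∏ b ∈ Finset.range r, (X - Polynomial.C (rotRoot ζ b)) : (LaurentSeries k)[X]) ≠ 0 :=
      Finset.prod_ne_zero_iff.mpr fun b _ => X_sub_C_ne_zero _
    rw [hPi0, Polynomial.natDegree_mul (X_sub_C_ne_zero _) hne, natDegree_X_sub_C,
      Polynomial.natDegree_finsetProd_X_sub_C_eq_card, Finset.card_range, add_comm]
  have hPLdeg : PL.natDegree = r + 1 := by
    have h := Polynomial.natDegree_map (p := PL) ι
    rw [hPL, hPi0deg] at h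
    exact h.symm
  have hrootJ : Pi0.IsRoot Jk := by
    rw [hPi0, Polynomial.root_mul]
    right
    rw [Polynomial.isRoot_prod]
    exact ⟨0, Finset.mem_range.mpr (by omega), Polynomial.root_X_sub_C.mpr hJ0⟩
  have haevalJ : aeval Jk PL = 0 := by
    rw [Polynomial.aeval_def, Polynomial.eval₂_eq_eval_map, hPL]
    exact hrootJ
  have hint : IsIntegral L Jk := ⟨PL, hPLm, haevalJ⟩
  set μ := minpoly L Jk with hμ
  have hμm : μ.Monic := minpoly.monic hint
  have hrootPi : ∀ x, Pi0.IsRoot x → x = ρ ∨ ∃ b, x = rotRoot ζ b := by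
    intro x hx
    rw [hPi0, Polynomial.root_mul] at hx
    rcases hx with hx | hx
    · left; exact (Polynomial.root_X_sub_C.mp hx).symm
    · right
      rw [Polynomial.isRoot_prod] at hx
      obtain ⟨b, -, hb⟩ := hx
      exact ⟨b, (Polynomial.root_X_sub_C.mp hb).symm⟩
  -- any monic polynomial over `L` with a conjugate root has degree ≥ r
  have hge : ∀ f : L[X], f.Monic → ∀ b, (f.map ι).IsRoot (rotRoot ζ b) → r ≤ f.natDegree := by
    intro f hf b hb
    have hf' : (f.map ι) ≠ 0 := (hf.map ι).ne_zero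
    have hfixf : (f.map ι).map σ = f.map ι := by rw [Polynomial.map_map, hσι]
    have h1 := le_natDegree_of_isRoot_rotRoot hζ (by omega) hf' hfixf hb
    rwa [Polynomial.natDegree_map] at h1
  have hμroot : (μ.map ι).IsRoot (rotRoot ζ 0) := by
    rw [hJ0, Polynomial.IsRoot.def, Polynomial.eval_map, ← Polynomial.aeval_def]
    exact minpoly.aeval L Jk
  have hμge : r ≤ μ.natDegree := hge μ hμm 0 hμroot
  refine ⟨hint, hμge, fun hρ => ?_⟩
  obtain ⟨g, hg⟩ : μ ∣ PL := minpoly.dvd L Jk haevalJ
  have hgm : g.Monic := hμm.of_mul_monic_left (hg ▸ hPLm)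
  have hdeg : μ.natDegree + g.natDegree = r + 1 := by
    rw [← hμm.natDegree_mul hgm, ← hg, hPLdeg]
  by_contra hne
  have hg1 : g.natDegree = 1 := by omega
  have hgdeg : g.degree = 1 := by
    rw [Polynomial.degree_eq_natDegree hgm.ne_zero, hg1]; rfl
  obtain ⟨c, hc⟩ := Polynomial.exists_root_of_degree_eq_one hgdeg
  have hc' : (g.map ι).IsRoot (ι c) := hc.map
  have hcPi : Pi0.IsRoot (ι c) := by
    rw [← hPL, hg, Polynomial.map_mul, Polynomial.root_mul]
    exact Or.inr hc'
  rcases hrootPi _ hcPi with h | ⟨b, hb⟩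
  · exact hρ ⟨c, h⟩
  · have := hge g hgm b (hb ▸ hc')
    omega

end Degree

/-! ### The induction step `M → r M` -/

section Step

variable {k : Type*} [Field k]

/-- the claim (G) for level `M` -/
def TowerClaim (k : Type*) [Field k] (M : ℕ) [NeZero M] : Prop :=
  ∃ s : Fin (dedekindPsi M) → LaurentSeries k,
    (∀ i, s i ∈ Submonoid.closure (divisorExpansionsC k M)) ∧
    LinearIndependent (IntermediateField.adjoin k {qExpand k M (jqModC k)}) s

theorem closure_le_adjoin (S : Set (LaurentSeries k)) :
    Submonoid.closure S ≤ (Algebra.adjoin k S).toSubmonoid :=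
  Submonoid.closure_le.mpr Algebra.subset_adjoin

theorem J_mem_divisorExpansionsC (M : ℕ) : jqModC k ∈ divisorExpansionsC k M :=
  ⟨1, inferInstance, one_dvd M, (qExpand_one_apply _).symm⟩

theorem qExpand_mem_divisorExpansionsC {M d : ℕ} [NeZero d] (hd : d ∣ M) :
    qExpand k d (jqModC k) ∈ divisorExpansionsC k M := ⟨d, inferInstance, hd, rfl⟩

theorem image_qExpand_divisorExpansionsC_subset (r M : ℕ) [NeZero r] :
    (qExpand k r) '' divisorExpansionsC k M ⊆ divisorExpansionsC k (r * M) := by
  rintro _ ⟨x, ⟨d, hd0, hd, rfl⟩, rfl⟩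
  have := hd0
  exact ⟨r * d, inferInstance, mul_dvd_mul_left r hd, qExpand_qExpand d r _⟩

theorem dedekindPsi_prime_mul {r M : ℕ} (hr : r.Prime) (hM : M ≠ 0) :
    dedekindPsi (r * M) = dedekindPsi M * (if r ∣ M then r else r + 1) := by
  obtain ⟨a, m, hm, rfl⟩ := Nat.exists_eq_pow_mul_and_not_dvd hM r hr.ne_one
  have hcop : ∀ e, (r ^ e).Coprime m := fun e =>
    Nat.Coprime.pow_left e ((Nat.Prime.coprime_iff_not_dvd hr).mpr hm)
  have h1 : r * (r ^ a * m) = r ^ (a + 1) * m := by ring
  rw [h1, dedekindPsi_mul_of_coprime (hcop _), dedekindPsi_mul_of_coprime (hcop _),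
    dedekindPsi_prime_pow hr (Nat.succ_pos a), Nat.succ_sub_one]
  rcases Nat.eq_zero_or_pos a with rfl | ha
  · have : ¬ r ∣ r ^ 0 * m := by simpa using hm
    rw [if_neg this]
    simp
    ring
  · have : r ∣ r ^ a * m := Dvd.dvd.mul_right (dvd_pow_self r ha.ne') m
    rw [if_pos this, dedekindPsi_prime_pow hr ha]
    obtain ⟨a', rfl⟩ : ∃ a', a = a' + 1 := ⟨a - 1, by omega⟩
    simp only [Nat.add_sub_cancel, Nat.succ_eq_add_one]
    ring

theorem intermediateField_smul_def {E : IntermediateField k (LaurentSeries k)} (a : E)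
    (x : LaurentSeries k) : a • x = (a : LaurentSeries k) * x := rfl

/-- transport of linear independence along `t ↦ t^r` -/
theorem linearIndependent_qExpand (r M : ℕ) [NeZero r] [NeZero M] {n : ℕ}
    {s : Fin n → LaurentSeries k}
    (hs : LinearIndependent (IntermediateField.adjoin k {qExpand k M (jqModC k)}) s) :
    LinearIndependent (IntermediateField.adjoin k {qExpand k (r * M) (jqModC k)})
      (fun i => qExpand k r (s i)) := by
  rw [Fintype.linearIndependent_iff] at hs ⊢
  intro g hg
  have hE : IntermediateField.adjoin k {qExpand k (r * M) (jqModC k)} =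
      (IntermediateField.adjoin k {qExpand k M (jqModC k)}).map (qExpandAlg k r) := by
    rw [IntermediateField.adjoin_map, Set.image_singleton, qExpandAlg_apply, qExpand_qExpand]
  have hex : ∀ i, ∃ b : IntermediateField.adjoin k {qExpand k M (jqModC k)},
      qExpand k r (b : LaurentSeries k) = (g i : LaurentSeries k) := by
    intro i
    have h : ((g i : LaurentSeries k)) ∈
        (IntermediateField.adjoin k {qExpand k M (jqModC k)}).map (qExpandAlg k r) :=
      hE ▸ (g i).2
    obtain ⟨x, hx, hxg⟩ := h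
    exact ⟨⟨x, hx⟩, hxg⟩
  choose b hb using hex
  have h0 : ∑ i, b i • s i = 0 := by
    apply qExpand_injective r
    rw [map_zero, map_sum, ← hg]
    refine Finset.sum_congr rfl fun i _ => ?_
    rw [intermediateField_smul_def, intermediateField_smul_def, map_mul, hb]
  intro i
  have hbi := hs b h0 i
  apply Subtype.ext
  rw [← hb i, hbi]
  simp

/-- **the induction step** of (G): from level `M` to level `r M`. -/
theorem towerClaim_prime_mul (M r : ℕ) [NeZero M] [NeZero r] (hr : r.Prime) {ζ : kˣ}
    (hζ : IsPrimitiveRoot ζ r) (hmod : ModEqOver k r ζ) (hβ : ¬ r ∣ M →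
      qExpand k r (jqModC k) ∉ IntermediateField.adjoin k (divisorExpansionsC k M))
    (h : TowerClaim k M) : TowerClaim k (r * M) := by
  classical
  obtain ⟨s, hsmem, hsli⟩ := h
  obtain ⟨Φ, hΦm, hΦ⟩ := hmod
  set Jk := jqModC k with hJk
  set m : ℕ := if r ∣ M then r else r + 1 with hm
  set gensM := divisorExpansionsC k M with hgensM
  -- the fields
  set E' : IntermediateField k (LaurentSeries k) :=
    IntermediateField.adjoin k {qExpand k (r * M) Jk} with hE'
  set K' : IntermediateField k (LaurentSeries k) :=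
    IntermediateField.adjoin k ((qExpand k r) '' gensM) with hK'
  have hK'map : K' = (IntermediateField.adjoin k gensM).map (qExpandAlg k r) := by
    rw [IntermediateField.adjoin_map]; rfl
  have hEK : E' ≤ K' := by
    rw [hE', adjoin_simple_le_iff, hK']
    refine IntermediateField.subset_adjoin k _ ⟨qExpand k M Jk, ?_, qExpand_qExpand M r _⟩
    exact qExpand_mem_divisorExpansionsC dvd_rfl
  set L : IntermediateField E' (LaurentSeries k) := IntermediateField.extendScalars hEK with hL
  have hmemL : ∀ x, x ∈ L ↔ x ∈ K' := fun x => IntermediateField.mem_extendScalars hEK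
  -- `K'` is fixed by the rotation
  have hζr : ζ ^ r = 1 := hζ.pow_eq_one
  have hfixK : K' ≤ fixedFieldOf (rot ζ) := by
    rw [hK', IntermediateField.adjoin_le_iff]
    rintro _ ⟨x, -, rfl⟩
    exact mem_fixedFieldOf.mpr (rot_qExpand_of_pow_eq_one hζr x)
  have hfixL : ∀ x : L, rot ζ (algebraMap L (LaurentSeries k) x) =
      algebraMap L (LaurentSeries k) x := fun x =>
    mem_fixedFieldOf.mp (hfixK ((hmemL _).mp x.2))
  -- `j(t^r) ∈ K'`
  have hyK : qExpand k r Jk ∈ K' :=
    IntermediateField.subset_adjoin k _ ⟨Jk, J_mem_divisorExpansionsC M, rfl⟩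
  -- the modular polynomial over `L`
  set Pi' : (LaurentSeries k)[X] :=
    Φ.map ((Polynomial.aeval (qExpand k r Jk)).toRingHom) with hPi'
  have hPi'm : Pi'.Monic := hΦm.map _
  have hcoeff : ∀ i, Pi'.coeff i ∈ L := by
    intro i
    rw [hmemL, hPi', Polynomial.coeff_map]
    have h1 := Polynomial.aeval_mem_adjoin_singleton k (qExpand k r Jk) (p := Φ.coeff i)
    have h2 : Algebra.adjoin k {qExpand k r Jk} ≤ K'.toSubalgebra :=
      Algebra.adjoin_le (Set.singleton_subset_iff.mpr hyK)
    exact h2 h1
  have hlifts : Pi' ∈ Polynomial.lifts (algebraMap L (LaurentSeries k)) :=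
    (Polynomial.lifts_iff_coeff_lifts Pi').mpr fun i => ⟨⟨Pi'.coeff i, hcoeff i⟩, rfl⟩
  obtain ⟨PL, hPLmap, -, hPLm⟩ := Polynomial.lifts_and_natDegree_eq_and_monic hlifts hPi'm
  set ρ := qExpand k (r ^ 2) Jk with hρ
  have hPL : PL.map (algebraMap L (LaurentSeries k)) =
      (X - Polynomial.C ρ) * ∏ b ∈ Finset.range r, (X - Polynomial.C (rotRoot ζ b)) := by
    rw [hPLmap, hΦ]
    congr 1
  obtain ⟨hint, hge, hgt⟩ := natDegree_minpoly_J hζ hr.two_le hfixL ρ PL hPLm hPL
  have hmdeg : m ≤ (minpoly L Jk).natDegree := by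
    rw [hm]
    split_ifs with hdiv
    · exact hge
    · refine (hgt ?_).ge
      rintro ⟨x, hx⟩
      have hx' : ρ ∈ K' := by rw [← hx]; exact (hmemL _).mp x.2
      rw [hK'map] at hx'
      obtain ⟨z, hz, hzρ⟩ := hx'
      have hz' : z = qExpand k r Jk := by
        apply qExpand_injective r
        have hzρ' : qExpand k r z = ρ := hzρ
        rw [hzρ', hρ, qExpand_qExpand]
        exact qExpand_congr (by ring) _
      exact hβ hdiv (hz' ▸ hz)
  -- the new family
  have hsL : ∀ i, qExpand k r (s i) ∈ L := by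
    intro i
    rw [hmemL, hK'map]
    exact ⟨s i, IntermediateField.algebra_adjoin_le_adjoin k _ (closure_le_adjoin _ (hsmem i)), rfl⟩
  set b : Fin (dedekindPsi M) → L := fun i => ⟨qExpand k r (s i), hsL i⟩ with hb
  have hbli : LinearIndependent E' b := by
    have h1 : LinearIndependent E' (fun i => qExpand k r (s i)) := linearIndependent_qExpand r M hsli
    exact LinearIndependent.of_comp (L.val.toLinearMap) h1
  have hcli : LinearIndependent L (fun a : Fin m => Jk ^ (a : ℕ)) :=
    (linearIndependent_pow (K := L) Jk).comp (Fin.castLE hmdeg) (Fin.castLE_injective hmdeg)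
  have hprod := linearIndependent_smul hbli hcli
  have hψ : dedekindPsi (r * M) = dedekindPsi M * m := dedekindPsi_prime_mul hr (NeZero.ne M)
  set e : Fin (dedekindPsi (r * M)) ≃ Fin (dedekindPsi M) × Fin m :=
    (finCongr hψ).trans finProdFinEquiv.symm with he
  refine ⟨fun i => (b (e i).1 : LaurentSeries k) * Jk ^ ((e i).2 : ℕ), fun i => ?_, ?_⟩
  · refine mul_mem ?_ (pow_mem (Submonoid.subset_closure (J_mem_divisorExpansionsC _)) _)
    have h1 : qExpand k r (s (e i).1) ∈
        (Submonoid.closure gensM).map ((qExpand k r : LaurentSeries k →+* LaurentSeries k) :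
          LaurentSeries k →* LaurentSeries k) := ⟨s (e i).1, hsmem _, rfl⟩
    rw [MonoidHom.map_mclosure] at h1
    exact Submonoid.closure_mono (image_qExpand_divisorExpansionsC_subset r M) h1
  · exact hprod.comp e e.injective

end Step

/-! ### The full induction -/

section Induction

variable {k : Type*} [Field k]

theorem towerClaim_one : TowerClaim k 1 := by
  unfold TowerClaim
  rw [dedekindPsi_one]
  refine ⟨fun _ => 1, fun _ => one_mem _, ?_⟩
  rw [Fintype.linearIndependent_iff]
  intro g hg i
  have hi : i = 0 := Subsingleton.elim _ _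
  subst hi
  simpa [intermediateField_smul_def] using hg

/-- **(G)** by induction over the prime factorisation. -/
theorem towerClaim_of_beta
    (hmod : ∀ (r : ℕ) [NeZero r], r.Prime → (r : k) ≠ 0 →
      ∃ ζ : kˣ, IsPrimitiveRoot ζ r ∧ ModEqOver k r ζ)
    (hβ : ∀ (r M : ℕ) [NeZero r], r.Prime → (r : k) ≠ 0 → (M : k) ≠ 0 → ¬ r ∣ M →
      qExpand k r (jqModC k) ∉ IntermediateField.adjoin k (divisorExpansionsC k M))
    (N : ℕ) [hN : NeZero N] (hNk : (N : k) ≠ 0) : TowerClaim k N := by
  revert hN hNk
  induction N using induction_on_primes with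
  | zero => intro hN; exact absurd rfl (NeZero.ne 0)
  | one => intro _ _; exact towerClaim_one
  | prime_mul p a hp ih =>
    intro hN hNk
    have hpk : (p : k) ≠ 0 := fun h => hNk (by rw [Nat.cast_mul, h, zero_mul])
    have hak : (a : k) ≠ 0 := fun h => hNk (by rw [Nat.cast_mul, h, mul_zero])
    have ha0 : a ≠ 0 := fun h => hak (by rw [h, Nat.cast_zero])
    have : NeZero a := ⟨ha0⟩
    have : NeZero p := ⟨hp.ne_zero⟩
    obtain ⟨ζ, hζ, hΦ⟩ := hmod p hp hpk
    exact towerClaim_prime_mul a p hp hζ hΦ (fun hdiv => hβ p a hp hpk hak hdiv) (ih hak)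

end Induction

/-! ### Descent of the linear independence along a field extension of the constants -/

section Descent

variable {F k : Type*} [Field F] [Field k] (φ : F →+* k)

theorem coeffMap_injective_of_field : Function.Injective (coeffMap φ) := by
  intro x y hxy
  ext n
  have h := congrArg (fun f => f.coeff n) hxy
  simp only [coeffMap_coeff] at h
  exact φ.injective h

/-- the coefficient map sends the generators over `F` onto the generators over `k` -/
theorem coeffMap_image_divisorExpansionsC (N : ℕ) :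
    (coeffMap φ) '' divisorExpansionsC F N = divisorExpansionsC k N := by
  ext x
  constructor
  · rintro ⟨_, ⟨d, hd0, hd, rfl⟩, rfl⟩
    have := hd0
    exact ⟨d, hd0, hd, by rw [ModularCurve.coeffMap_qExpand, coeffMap_jqModC]⟩
  · rintro ⟨d, hd0, hd, rfl⟩
    have := hd0
    exact ⟨qExpand F d (jqModC F), ⟨d, hd0, hd, rfl⟩, by
      rw [ModularCurve.coeffMap_qExpand, coeffMap_jqModC]⟩

/-- `coeffMap φ` maps `F(y)` into `k(coeffMap φ y)` -/
theorem coeffMap_mem_adjoin_simple (y : LaurentSeries F) {a : LaurentSeries F}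
    (ha : a ∈ F⟮y⟯) : coeffMap φ a ∈ k⟮coeffMap φ y⟯ := by
  induction ha using IntermediateField.adjoin_induction with
  | mem z hz =>
    rw [Set.mem_singleton_iff] at hz
    subst hz
    exact mem_adjoin_simple_self k _
  | algebraMap c =>
    rw [algebraMap_eq_single, coeffMap_single, ← algebraMap_eq_single]
    exact IntermediateField.algebraMap_mem _ _
  | add a b _ _ iha ihb => rw [map_add]; exact add_mem iha ihb
  | inv a _ iha => rw [map_inv₀]; exact inv_mem iha
  | mul a b _ _ iha ihb => rw [map_mul]; exact mul_mem iha ihb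

theorem linearIndependent_of_coeffMap {n : ℕ} (y : LaurentSeries F) (m : Fin n → LaurentSeries F)
    (h : LinearIndependent k⟮coeffMap φ y⟯ (fun i => coeffMap φ (m i))) :
    LinearIndependent F⟮y⟯ m := by
  rw [Fintype.linearIndependent_iff] at h ⊢
  intro g hg i
  have h0 : ∑ i, (⟨coeffMap φ (g i : LaurentSeries F), coeffMap_mem_adjoin_simple φ y (g i).2⟩ :
      k⟮coeffMap φ y⟯) • coeffMap φ (m i) = 0 := by
    have := congrArg (coeffMap φ) hg
    rw [map_sum, map_zero] at this
    rw [← this]
    refine Finset.sum_congr rfl fun i _ => ?_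
    rw [intermediateField_smul_def, intermediateField_smul_def, map_mul]
  have hi := h _ h0 i
  have hi' : coeffMap φ (g i : LaurentSeries F) = 0 := congrArg Subtype.val hi
  apply Subtype.ext
  exact coeffMap_injective_of_field φ (by rw [hi']; simp)

/-- from the claim (G) over an extension field `k` of `ZMod l` to the contract over `ZMod l` -/
theorem towerContract_of_towerClaim (l N : ℕ) [Fact l.Prime] [NeZero N] {k : Type*} [Field k]
    [Algebra (ZMod l) k] (h : TowerClaim k N) : TowerContract l N := by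
  obtain ⟨s, hs, hli⟩ := h
  set φ : ZMod l →+* k := algebraMap (ZMod l) k with hφ
  have hex : ∀ i, ∃ m ∈ Submonoid.closure (divisorExpansionsC (ZMod l) N),
      coeffMap φ m = s i := by
    intro i
    have h := hs i
    rw [← coeffMap_image_divisorExpansionsC φ N] at h
    have h2 : Submonoid.closure ((coeffMap φ) '' divisorExpansionsC (ZMod l) N) =
        (Submonoid.closure (divisorExpansionsC (ZMod l) N)).map
          ((coeffMap φ : LaurentSeries (ZMod l) →+* LaurentSeries k) :
            LaurentSeries (ZMod l) →* LaurentSeries k) := (MonoidHom.map_mclosure _ _).symm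
    rw [h2] at h
    exact h
  choose m hm hms using hex
  refine ⟨m, fun i => closure_le_adjoin _ (hm i), ?_⟩
  refine linearIndependent_of_coeffMap φ (qExpand (ZMod l) N (jqModC (ZMod l))) m ?_
  rw [ModularCurve.coeffMap_qExpand, coeffMap_jqModC]
  have : (fun i => coeffMap φ (m i)) = s := funext hms
  rw [this]
  exact hli

end Descent

/-! ### Reduction of the algebraic integers modulo a prime above `l` -/

section Reduction

/-- a ring homomorphism from the algebraic integers to an algebraic closure of `F_l` -/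
theorem exists_ringHom_R0 (l : ℕ) [Fact l.Prime] :
    Nonempty (R0 →+* AlgebraicClosure (ZMod l)) := by
  classical
  have hl : (l : ℤ) ≠ 0 := by exact_mod_cast (Fact.out : l.Prime).ne_zero
  have hprime : Prime (l : ℤ) := Nat.prime_iff_prime_int.mp Fact.out
  haveI hmax : (Ideal.span {(l : ℤ)}).IsMaximal :=
    PrincipalIdealRing.isMaximal_of_irreducible hprime.irreducible
  have hinj : Function.Injective (algebraMap ℤ R0) := by
    intro a b hab
    have := congrArg (fun x : R0 => (x : ℂ)) hab
    simpa using this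
  have hker : RingHom.ker (algebraMap ℤ R0) ≤ Ideal.span {(l : ℤ)} := by
    rw [(RingHom.injective_iff_ker_eq_bot _).mp hinj]; exact bot_le
  obtain ⟨Q, hQmax, hQ⟩ := Ideal.exists_ideal_over_maximal_of_isIntegral (S := R0)
    (Ideal.span {(l : ℤ)}) hker
  haveI := hQmax
  letI : Field (R0 ⧸ Q) := Ideal.Quotient.field Q
  have hlQ : ((l : ℕ) : R0 ⧸ Q) = 0 := by
    have h1 : (l : ℤ) ∈ Q.comap (algebraMap ℤ R0) := by
      rw [hQ]; exact Ideal.subset_span rfl
    have h2 : algebraMap ℤ R0 (l : ℤ) ∈ Q := h1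
    have h3 : (Ideal.Quotient.mk Q) (algebraMap ℤ R0 (l : ℤ)) = 0 :=
      Ideal.Quotient.eq_zero_iff_mem.mpr h2
    simpa using h3
  haveI : CharP (R0 ⧸ Q) l := (CharP.charP_iff_prime_eq_zero Fact.out).mpr hlQ
  letI : Algebra (ZMod l) (R0 ⧸ Q) := ZMod.algebra _ l
  haveI : Algebra.IsIntegral (ZMod l) (R0 ⧸ Q) := by
    refine ⟨fun x => ?_⟩
    obtain ⟨x, rfl⟩ := Ideal.Quotient.mk_surjective x
    have hx : IsIntegral ℤ x := Algebra.IsIntegral.isIntegral x
    have hx' : IsIntegral ℤ (Ideal.Quotient.mk Q x) := hx.map (Ideal.Quotient.mkₐ ℤ Q)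
    exact hx'.tower_top
  exact ⟨((IsAlgClosed.lift : (R0 ⧸ Q) →ₐ[ZMod l] AlgebraicClosure (ZMod l)) :
    (R0 ⧸ Q) →+* AlgebraicClosure (ZMod l)).comp (Ideal.Quotient.mk Q)⟩

end Reduction

/-! ### The tower contract from (β) -/

section Final

/-- **(G) ⇒ TowerContract**: the degree input of the valuation package, from the step (β)
over `k = AlgebraicClosure (ZMod l)`. -/
theorem towerContract_of_beta (l N : ℕ) [Fact l.Prime] [NeZero N] (hlN : ¬ l ∣ N)
    (hβ : ∀ (r M : ℕ) [NeZero r], r.Prime → (r : AlgebraicClosure (ZMod l)) ≠ 0 →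
      (M : AlgebraicClosure (ZMod l)) ≠ 0 → ¬ r ∣ M →
      qExpand (AlgebraicClosure (ZMod l)) r (jqModC (AlgebraicClosure (ZMod l))) ∉
        IntermediateField.adjoin (AlgebraicClosure (ZMod l))
          (divisorExpansionsC (AlgebraicClosure (ZMod l)) M)) :
    TowerContract l N := by
  obtain ⟨π⟩ := exists_ringHom_R0 l
  refine towerContract_of_towerClaim l N (k := AlgebraicClosure (ZMod l)) ?_
  refine towerClaim_of_beta ?_ hβ N ?_
  · intro r _ hr hrk
    obtain ⟨ζ0, hζ0⟩ := exists_primitiveRoot_R0 r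
    exact ⟨Units.map (π : R0 →* AlgebraicClosure (ZMod l)) ζ0,
      isPrimitiveRoot_units_map π hrk hζ0, (modEqContract r hr ζ0 hζ0).map π⟩
  · rw [Ne, CharP.cast_eq_zero_iff (AlgebraicClosure (ZMod l)) l]
    exact hlN

end Final

end Fermat.Agent.S28
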