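import Mathlib
import Fermat.Agent.S24.JDict
import Fermat.Agent.S24.JOrder
import Fermat.Agent.S24.Real.LaurentInftySum
import Fermat.Agent.S28.Defs

set_option autoImplicit false

namespace Fermat.Agent.S28

open UpperHalfPlane Function ModularCurve Filter Asymptotics
open scoped Manifold
open Fermat.Agent.S24

noncomputable section

local notation "𝕢" => Function.Periodic.qParam
local notation "Δ" => ModularForm.discriminant

theorem discriminant_vadd_one (τ : ℍ) : Δ (((1 : ℕ) : ℝ) +ᵥ τ) = Δ τ := by
  have h := discriminant_smul_apply ModularGroup.T τ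
  have hd : denom ModularGroup.T τ = 1 := by
    rw [ModularGroup.denom_apply]
    simp [ModularGroup.T]
  rw [UpperHalfPlane.modular_T_smul, hd, one_zpow, one_mul] at h
  rw [Nat.cast_one, h]

theorem isBddPer_discriminant : IsBddPer 1 (Δ : ℍ → ℂ) where
  hol := mdiff_discriminant
  per := discriminant_vadd_one
  bdd := ModularForm.discriminant_isZeroAtImInfty.isBoundedAtImInfty

theorem isMeroAtInfty_discriminant : IsMeroAtInfty 1 (Δ : ℍ → ℂ) :=
  IsMeroAtInfty.of_isBddPer isBddPer_discriminant

/-- the `q`-expansion of `Δ` is the formal `Δ = t ∏ (1 - tⁿ)²⁴`. -/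
theorem laurentInfty_discriminant : laurentInfty 1 (Δ : ℍ → ℂ) = deltaModC ℂ := by
  rw [laurentInfty_of_bounded isBddPer_discriminant, Nat.cast_one, qExpansion_discriminant_eq,
    map_mul, PowerSeries.map_X, map_mul, HahnSeries.ofPowerSeries_X, deltaModC]

/-- the function `1/Δ` on the upper half plane. -/
def discInv : ℍ → ℂ := fun τ => (Δ τ)⁻¹

theorem discInv_apply (τ : ℍ) : discInv τ = (Δ τ)⁻¹ := rfl

theorem discriminant_mul_discInv : (Δ : ℍ → ℂ) * discInv = 1 := by
  funext τ
  simp only [Pi.mul_apply, discInv_apply, Pi.one_apply]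
  exact mul_inv_cancel₀ (ModularForm.discriminant_ne_zero τ)

theorem mdiff_discInv : MDiff discInv := by
  have h : discInv = fun τ => (1 : ℂ) / Δ τ := by
    funext τ; rw [discInv_apply, one_div]
  rw [h]
  exact (mdifferentiable_const (c := (1 : ℂ))).div mdiff_discriminant
    ModularForm.discriminant_ne_zero

theorem isMeroAtInfty_discInv : IsMeroAtInfty 1 discInv := by
  refine ⟨mdiff_discInv, fun τ => ?_, 1, ?_⟩
  · rw [discInv_apply, discInv_apply, discriminant_vadd_one]
  · obtain ⟨C, hC⟩ := ModularForm.exp_isBigO_discriminant.bound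
    refine IsBigO.of_bound C ?_
    filter_upwards [hC] with τ hτ
    have hne : ‖Δ τ‖ ≠ 0 := norm_ne_zero_iff.mpr (ModularForm.discriminant_ne_zero τ)
    have hpos : 0 < ‖Δ τ‖ := lt_of_le_of_ne (norm_nonneg _) (Ne.symm hne)
    rw [Real.norm_of_nonneg (Real.exp_pos _).le] at hτ
    rw [pow_one, norm_mul, discInv_apply, norm_inv, Nat.cast_one, Periodic.norm_qParam]
    simp only [Pi.one_apply, norm_one, mul_one]
    rw [← div_eq_mul_inv, div_le_iff₀ hpos]
    calc Real.exp (-2 * Real.pi * (τ : ℂ).im / 1) = Real.exp (-2 * Real.pi * τ.im) := by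
          rw [div_one]; rfl
      _ ≤ C * ‖Δ τ‖ := hτ

/-- the `q`-expansion of `1/Δ` is the formal `Δ⁻¹`. -/
theorem laurentInfty_discInv : laurentInfty 1 discInv = deltaInvModC ℂ := by
  have h1 := laurentInfty_mul isMeroAtInfty_discriminant isMeroAtInfty_discInv
  rw [discriminant_mul_discInv, laurentInfty_one, laurentInfty_discriminant] at h1
  calc laurentInfty 1 discInv
      = (deltaInvModC ℂ * deltaModC ℂ) * laurentInfty 1 discInv := by
        rw [deltaInvModC_mul, one_mul]
    _ = deltaInvModC ℂ * (deltaModC ℂ * laurentInfty 1 discInv) := by ring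
    _ = deltaInvModC ℂ := by rw [← h1, mul_one]

end

end Fermat.Agent.S28
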