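import Mathlib
import Fermat.Agent.S24.JOrder
import Fermat.Agent.S24.Real.Hermite

set_option autoImplicit false

namespace Fermat.Agent.S28

open UpperHalfPlane Matrix MatrixGroups
open scoped Manifold
open Fermat.Agent.S24

local notation "Δ" => ModularForm.discriminant

/-- **Hermite decomposition with automorphy factors for `Δ`.**  For `γ ∈ SL(2,ℤ)`, `n ≥ 1` there
are `A, D > 0`, `B` with `A D = n` and `Δ(n γτ) · D¹² · Δ(τ) = Δ((Aτ+B)/D) · Δ(γτ)`. -/
theorem discriminant_hermite (γ : SL(2, ℤ)) (n : ℕ) (hn : 0 < n) :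
    ∃ (A B D : ℤ) (hA : 0 < A) (hD : 0 < D), A * D = n ∧ (D = 1 ↔ (n : ℤ) ∣ γ 1 0) ∧
      ∀ τ : ℍ, Δ (upperGL n 0 1 (by exact_mod_cast hn) one_pos • (γ • τ)) * (D : ℂ) ^ 12 * Δ τ =
        Δ (upperGL A B D hA hD • τ) * Δ (γ • τ) := by
  have hdet : γ 0 0 * γ 1 1 - γ 0 1 * γ 1 0 = 1 := by
    have h := γ.det_coe
    rw [Matrix.det_fin_two] at h
    exact h
  have hn' : (0 : ℤ) < n := by exact_mod_cast hn
  obtain ⟨p, q, r, s, A, B, D, hpqrs, hA, hD, hAD, hD1, h00, h01, h10, h11⟩ :=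
    hermite_int (γ 0 0) (γ 0 1) (γ 1 0) (γ 1 1) hdet n hn'
  have hdet2 : (!![p, q; r, s] : Matrix (Fin 2) (Fin 2) ℤ).det = 1 := by
    rw [Matrix.det_fin_two_of]
    exact hpqrs
  let γ₂ : SL(2, ℤ) := ⟨!![p, q; r, s], hdet2⟩
  have g00 : (γ₂ 0 0 : ℤ) = p := rfl
  have g01 : (γ₂ 0 1 : ℤ) = q := rfl
  have g10 : (γ₂ 1 0 : ℤ) = r := rfl
  have g11 : (γ₂ 1 1 : ℤ) = s := rfl
  refine ⟨A, B, D, hA, hD, hAD, hD1, ?_⟩
  intro τ
  have hact : upperGL n 0 1 (by exact_mod_cast hn) one_pos • (γ • τ) =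
      γ₂ • (upperGL A B D hA hD • τ) := by
    rw [ModularGroup.sl_moeb, ModularGroup.sl_moeb, ← mul_smul, ← mul_smul]
    congr 1
    ext i j
    fin_cases i <;> fin_cases j
    · simp [upperGL, Matrix.mul_apply, Fin.sum_univ_two, g00, g01]
      exact_mod_cast h00
    · simp [upperGL, Matrix.mul_apply, Fin.sum_univ_two, g00, g01]
      exact_mod_cast h01
    · simp [upperGL, Matrix.mul_apply, Fin.sum_univ_two, g10, g11]
      exact_mod_cast h10
    · simp [upperGL, Matrix.mul_apply, Fin.sum_univ_two, g10, g11]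
      exact_mod_cast h11
  rw [hact, discriminant_smul_apply γ₂, discriminant_smul_apply γ]
  have hDC : (D : ℂ) ≠ 0 := by exact_mod_cast hD.ne'
  have hden : denom γ₂ ((upperGL A B D hA hD • τ : ℍ) : ℂ) * (D : ℂ) = denom γ τ := by
    rw [ModularGroup.denom_apply, ModularGroup.denom_apply, coe_upperGL_smul, g10, g11, h10, h11]
    push_cast
    field_simp
    ring
  rw [← hden]
  simp only [zpow_ofNat]
  ring

end Fermat.Agent.S28
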