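/-
S28 common engine: the norm polynomial `∏_{q ∈ SL(2,ℤ)/H} (Y - h ∘ q⁻¹)` of a modular function
lifts to `ℂ[J][Y]` (strong form of `S24.exists_monic_poly_J`, exposing the lift).
-/
import Fermat.Agent.S24.NormPoly

set_option autoImplicit false

namespace Fermat.Agent.S28

open UpperHalfPlane ModularForm MatrixGroups Fermat.Agent.S24
open scoped Manifold

variable {H : Subgroup SL(2, ℤ)} [Fintype (SL(2, ℤ) ⧸ H)]

/-- **Norm engine**: the characteristic polynomial of `h` over `SL(2,ℤ)/H` is the image of a monic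
polynomial over `ℂ[J]`. -/
theorem exists_lift_normPoly {h : ℍ → ℂ} (hhol : MDiff h)
    (hinv : ∀ a ∈ H, ∀ τ, h (a • τ) = h τ)
    (hpolar : ∀ g : SL(2, ℤ), PolarAtInfty (fun τ => h (g • τ))) :
    ∃ R : Polynomial (Polynomial ℂ), R.Monic ∧ R.natDegree = Fintype.card (SL(2, ℤ) ⧸ H) ∧
      R.map evalJHom = normPoly H h := by
  have hmem : ∀ q, cosetConj H h q ∈ polarSubalgebra := by
    intro q
    refine ⟨?_, hpolar _⟩
    exact hhol.comp (mdifferentiable_smul (g := Matrix.SpecialLinearGroup.mapGL ℝ (Quotient.out q)⁻¹)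
      (by simp))
  have hlift : normPoly H h ∈ Polynomial.lifts evalJHom := by
    rw [Polynomial.lifts_iff_coeff_lifts]
    intro k
    obtain ⟨hk1, m, hk2⟩ := normPoly_coeff_mem hmem k
    obtain ⟨P, -, hP⟩ := exists_poly_J m _ hk1 (normPoly_coeff_smul hinv k) hk2
    exact ⟨P, funext fun τ => (hP τ).symm⟩
  obtain ⟨R, hR, hdeg, hmonic⟩ :=
    Polynomial.lifts_and_natDegree_eq_and_monic hlift (normPoly_monic h)
  exact ⟨R, hmonic, hdeg.trans (normPoly_natDegree h), hR⟩

/-- the value at `τ` of the lifted norm polynomial is the product over the conjugates. -/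
theorem map_eval_of_lift_normPoly {h : ℍ → ℂ} {R : Polynomial (Polynomial ℂ)}
    (hR : R.map evalJHom = normPoly H h) (τ : ℍ) :
    R.map (Polynomial.evalRingHom (E₄ τ ^ 3 / ModularForm.discriminant τ)) =
      ∏ q : SL(2, ℤ) ⧸ H, (Polynomial.X - Polynomial.C (cosetConj H h q τ)) := by
  rw [← normPoly_map_eval, ← hR, Polynomial.map_map]
  rfl

end Fermat.Agent.S28
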