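/-
S28 package [A2], the integrality engine: a holomorphic function `h` on the upper half plane,
invariant under a finite-index subgroup `H ≤ SL(2,ℤ)`, all of whose `SL(2,ℤ)`-conjugates have
`q_N`-expansions with algebraic-integer coefficients, is a root of a monic polynomial over
`R0[j]` (identity between `q`-expansions).
-/
import Fermat.Agent.S28.NormEngine
import Fermat.Agent.S28.ModEq
import Fermat.Agent.S24.Real.JdPolyGrowth

set_option autoImplicit false

namespace Fermat.Agent.S28

open UpperHalfPlane ModularForm MatrixGroups ModularCurve Polynomial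
open Fermat.Agent.S24
open scoped Manifold Polynomial.Bivariate

noncomputable section

/-- `P ↦ P(j)` is evaluation at the function `jFun`. -/
theorem evalJHom_eq_aeval (P : ℂ[X]) : evalJHom P = Polynomial.aeval (jFun : ℍ → ℂ) P := by
  funext τ
  have h := Polynomial.aeval_algHom_apply (Pi.evalAlgHom ℂ (fun _ : ℍ => ℂ) τ) (jFun : ℍ → ℂ) P
  simp only [Pi.evalAlgHom_apply] at h
  rw [evalJHom_apply, ← jFun_apply, ← h, Polynomial.coe_aeval_eq_eval]

theorem coeff_qExpand_jqModC_of_lt (K : Type*) [CommRing K] (N : ℕ) [NeZero N] {n : ℤ}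
    (hn : n < -(N : ℤ)) : (qExpand K N (jqModC K)).coeff n = 0 := by
  have hNpos : 0 < N := NeZero.pos N
  by_cases hdvd : (N : ℤ) ∣ n
  · obtain ⟨k, rfl⟩ := hdvd
    rw [qExpand_coeff_mul]
    refine coeff_jqModC_of_lt K ?_
    have h0 : (0 : ℤ) < N := by exact_mod_cast hNpos
    nlinarith
  · rw [qExpand_coeff_of_not_dvd N _ hdvd]

theorem coeff_qExpand_jqModC_lead (K : Type*) [CommRing K] (N : ℕ) [NeZero N] :
    (qExpand K N (jqModC K)).coeff (-(N : ℤ)) = 1 := by
  have : -(N : ℤ) = (N : ℤ) * (-1) := by ring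
  rw [this, qExpand_coeff_mul, coeff_jqModC_neg_one]

variable {H : Subgroup SL(2, ℤ)} [Fintype (SL(2, ℤ) ⧸ H)]

/-- **Integrality engine (complex form).** -/
theorem exists_monic_R0_of_conj (N : ℕ) [NeZero N] {h : ℍ → ℂ} (hhol : MDiff h)
    (hinv : ∀ a ∈ H, ∀ τ, h (a • τ) = h τ)
    (hmero : ∀ g : SL(2, ℤ), IsMeroAtInfty N (fun τ => h (g • τ)))
    (hint : ∀ g : SL(2, ℤ),
      laurentInfty N (fun τ => h (g • τ)) ∈ laurentCoeffSubring intSubring)
    (h1 : IsMeroAtInfty 1 h) :
    ∃ Ψ : R0[X][Y], Ψ.Monic ∧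
      ((Ψ.map (Polynomial.mapRingHom (algebraMap R0 ℂ))).map
        (Polynomial.aeval (jqModC ℂ)).toRingHom).eval (laurentInfty 1 h) = 0 := by
  classical
  have hpolar : ∀ g : SL(2, ℤ), PolarAtInfty (fun τ => h (g • τ)) :=
    fun g => (hmero g).polarAtInfty
  obtain ⟨R, hRm, -, hR⟩ := exists_lift_normPoly hhol hinv hpolar
  -- step A: the norm polynomial inside the algebra of functions meromorphic at `i∞`
  set Jm : meroSubalgebra N := ⟨jFun, isMeroAtInfty_jFun.of_one N⟩ with hJm
  set c : SL(2, ℤ) ⧸ H → meroSubalgebra N := fun q => ⟨cosetConj H h q, hmero _⟩ with hc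
  have hA : R.map (Polynomial.aeval Jm).toRingHom = ∏ q, (X - C (c q)) := by
    apply Polynomial.map_injective (meroSubalgebra N).val.toRingHom Subtype.val_injective
    rw [Polynomial.map_map, Polynomial.map_prod]
    have h2 : ((meroSubalgebra N).val.toRingHom.comp (Polynomial.aeval Jm).toRingHom) =
        evalJHom := by
      refine RingHom.ext fun P => ?_
      rw [evalJHom_eq_aeval]
      exact (Polynomial.aeval_algHom_apply (meroSubalgebra N).val Jm P).symm
    rw [h2, hR]
    unfold normPoly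
    refine Finset.prod_congr rfl fun q _ => ?_
    rw [Polynomial.map_sub, Polynomial.map_X, Polynomial.map_C]
    rfl
  -- step B: pass to `q_N`-expansions
  set U : LaurentSeries ℂ := qExpand ℂ N (jqModC ℂ) with hU
  have hB : R.map (Polynomial.aeval U).toRingHom =
      ∏ q, (X - C (laurentInfty N (cosetConj H h q))) := by
    have h3 : ((laurentInftyAlgHom N).toRingHom.comp (Polynomial.aeval Jm).toRingHom) =
        (Polynomial.aeval (R := ℂ) U).toRingHom := by
      refine RingHom.ext fun P => ?_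
      have := Polynomial.aeval_algHom_apply (laurentInftyAlgHom N) Jm P
      rw [laurentInftyAlgHom_apply, hJm] at this
      simp only at this
      rw [laurentInfty_r_jFun, Jc_eq_jqModC] at this
      exact this.symm
    have h4 := congrArg (Polynomial.map (laurentInftyAlgHom N).toRingHom) hA
    rw [Polynomial.map_map, h3, Polynomial.map_prod] at h4
    rw [h4]
    refine Finset.prod_congr rfl fun q _ => ?_
    rw [Polynomial.map_sub, Polynomial.map_X, Polynomial.map_C]
    rfl
  -- step C: integrality of the coefficients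
  have hNpos : 0 < N := NeZero.pos N
  have hUmem : U ∈ laurentCoeffSubring intSubring :=
    qExpand_mem_laurentCoeffSubring _ N jqModC_mem_intSeries
  have hRHS : (∏ q, (X - C (laurentInfty N (cosetConj H h q))) : (LaurentSeries ℂ)[X]) ∈
      polyCoeffSubring (laurentCoeffSubring intSubring) :=
    Subring.prod_mem _ fun q _ => X_sub_C_mem_polyCoeffSubring (hint _)
  have hcoef : ∀ k, Polynomial.aeval U (R.coeff k) ∈ laurentCoeffSubring intSubring := by
    intro k
    have e1 : Polynomial.aeval U (R.coeff k) =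
        (R.map (Polynomial.aeval U).toRingHom).coeff k := by
      rw [Polynomial.coeff_map]
      rfl
    rw [e1, hB]
    exact hRHS k
  have hint' : ∀ k i, (R.coeff k).coeff i ∈ integralClosure ℤ ℂ := fun k i =>
    coeff_mem_of_aeval_mem intSubring U N hNpos hUmem
      (fun n hn => coeff_qExpand_jqModC_of_lt ℂ N hn) (coeff_qExpand_jqModC_lead ℂ N)
      (R.coeff k) (hcoef k) i
  obtain ⟨Ψ, hΨm, hΨ⟩ := exists_lift_R0 R hRm hint'
  -- step D: the root, at level one
  refine ⟨Ψ, hΨm, ?_⟩
  rw [hΨ]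
  set X1 : meroSubalgebra 1 := ⟨jFun, isMeroAtInfty_jFun⟩ with hX1
  set Y1 : meroSubalgebra 1 := ⟨h, h1⟩ with hY1
  have h0 : aevalAeval X1 Y1 R = 0 := by
    apply Subtype.ext
    have e1 : ((aevalAeval X1 Y1 R : meroSubalgebra 1) : ℍ → ℂ) =
        aevalAeval (jFun : ℍ → ℂ) h R :=
      algHom_aevalAeval (meroSubalgebra 1).val X1 Y1 R
    rw [e1]
    funext τ
    have e2 := algHom_aevalAeval (Pi.evalAlgHom ℂ (fun _ : ℍ => ℂ) τ) (jFun : ℍ → ℂ) h R
    simp only [Pi.evalAlgHom_apply] at e2
    rw [e2, aevalAeval_self_eq]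
    have e3 : R.map (Polynomial.evalRingHom (jFun τ)) =
        (normPoly H h).map (Pi.evalRingHom (fun _ : ℍ => ℂ) τ) := by
      rw [← hR, Polynomial.map_map]
      rfl
    rw [e3]
    exact normPoly_eval_self hinv τ
  have h3 := congrArg (laurentInftyAlgHom 1) h0
  rw [map_zero, algHom_aevalAeval, aevalAeval_eq_map_eval] at h3
  rw [laurentInftyAlgHom_apply, laurentInftyAlgHom_apply] at h3
  simp only [hX1, hY1] at h3
  rw [laurentInfty_one_jFun, Jc_eq_jqModC] at h3
  exact h3

/-- transfer of a root from `ℂ((q))` down to `R0((q))`. -/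
theorem eval₂_eq_zero_of_coeffMap (Ψ : R0[X][Y]) (y : LaurentSeries R0)
    (hy : ((Ψ.map (Polynomial.mapRingHom (algebraMap R0 ℂ))).map
        (Polynomial.aeval (jqModC ℂ)).toRingHom).eval (coeffMap (algebraMap R0 ℂ) y) = 0) :
    Ψ.eval₂ (Polynomial.aeval (jqModC R0)).toRingHom y = 0 := by
  have hιinj : Function.Injective (algebraMap R0 ℂ) := Subtype.val_injective
  apply coeffMap_injective_of_injective _ hιinj
  rw [map_zero, Polynomial.hom_eval₂, coeffMap_comp_aeval, coeffMap_jqModC', ← hy,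
    Polynomial.map_map, Polynomial.eval_map]

/-- **Integrality engine.**  If `y ∈ R0((q))` is the `q`-expansion of `h`, then `y` is a root of a
monic polynomial over `R0[j]`. -/
theorem exists_monic_R0_root (N : ℕ) [NeZero N] {h : ℍ → ℂ} (hhol : MDiff h)
    (hinv : ∀ a ∈ H, ∀ τ, h (a • τ) = h τ)
    (hmero : ∀ g : SL(2, ℤ), IsMeroAtInfty N (fun τ => h (g • τ)))
    (hint : ∀ g : SL(2, ℤ),
      laurentInfty N (fun τ => h (g • τ)) ∈ laurentCoeffSubring intSubring)
    (h1 : IsMeroAtInfty 1 h) (y : LaurentSeries R0)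
    (hy : laurentInfty 1 h = coeffMap (algebraMap R0 ℂ) y) :
    ∃ Ψ : R0[X][Y], Ψ.Monic ∧ Ψ.eval₂ (Polynomial.aeval (jqModC R0)).toRingHom y = 0 := by
  obtain ⟨Ψ, hm, hΨ⟩ := exists_monic_R0_of_conj N hhol hinv hmero hint h1
  rw [hy] at hΨ
  exact ⟨Ψ, hm, eval₂_eq_zero_of_coeffMap Ψ y hΨ⟩

end

end Fermat.Agent.S28
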