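import Mathlib
import Fermat.Agent.S24.Real.LaurentInftySum
import Fermat.Agent.S24.Real.LaurentInftyRot
import Fermat.Agent.S24.Real.Hermite
import Fermat.Agent.S28.Defs

set_option autoImplicit false

namespace Fermat.Agent.S28

open UpperHalfPlane Function ModularCurve
open scoped Manifold
open Fermat.Agent.S24

noncomputable section

local notation "𝕢" => Function.Periodic.qParam

/-- `q₁((τ+B)/N) = ζ_N^B · q_N(τ)`. -/
theorem qParam_upperGL_one (N : ℕ) (hN : 0 < N) (B : ℤ) (τ : ℍ) :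
    𝕢 (1 : ℝ) ((upperGL 1 B N one_pos (by exact_mod_cast hN) • τ : ℍ) : ℂ) =
      ((zetaInfty N ^ B : ℂˣ) : ℂ) * 𝕢 (N : ℝ) (τ : ℂ) := by
  have hNC : (N : ℂ) ≠ 0 := by exact_mod_cast hN.ne'
  rw [coe_upperGL_smul, Units.val_zpow_eq_zpow_val, coe_zetaInfty, ← Complex.exp_int_mul]
  simp only [Periodic.qParam]
  rw [← Complex.exp_add]
  congr 1
  push_cast
  field_simp
  ring

/-- **Substitution `τ ↦ (τ + B)/N`.**  If `f` is `1`-periodic and meromorphic at `i∞` with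
`q`-expansion `u`, then `τ ↦ f((τ+B)/N)` has `q_N`-expansion `u(ζ_N^B q_N)`. -/
theorem laurentInfty_comp_upperGL_one {f : ℍ → ℂ} (hf : IsMeroAtInfty 1 f) (N : ℕ) [NeZero N]
    (B : ℤ) :
    IsMeroAtInfty N (fun τ => f (upperGL 1 B N one_pos (by exact_mod_cast NeZero.pos N) • τ)) ∧
      laurentInfty N (fun τ => f (upperGL 1 B N one_pos (by exact_mod_cast NeZero.pos N) • τ)) =
        rotR (zetaInfty N ^ B) (laurentInfty 1 f) := by
  have hN : 0 < N := NeZero.pos N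
  refine eq_laurentInfty_of_hasSum ?_ _ ?_
  · exact hf.1.comp (mdifferentiable_upperGL_smul 1 B N one_pos (by exact_mod_cast hN))
  · intro τ
    have h1 := hasSum_laurentInfty hf (upperGL 1 B N one_pos (by exact_mod_cast hN) • τ)
    rw [Nat.cast_one, qParam_upperGL_one N hN B τ] at h1
    refine h1.congr_fun fun n => ?_
    rw [rotR_coeff, mul_zpow, Units.val_zpow_eq_zpow_val, Units.val_zpow_eq_zpow_val, ← zpow_mul]
    ring

/-- `q₁(Nτ + B) = q₁(τ)^N`. -/
theorem qParam_upperGL_scale (N : ℕ) (hN : 0 < N) (B : ℤ) (τ : ℍ) :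
    𝕢 (1 : ℝ) ((upperGL N B 1 (by exact_mod_cast hN) one_pos • τ : ℍ) : ℂ) =
      𝕢 (1 : ℝ) (τ : ℂ) ^ N := by
  rw [coe_upperGL_smul]
  simp only [Periodic.qParam]
  rw [← Complex.exp_nat_mul]
  have h1 : 2 * (Real.pi : ℂ) * Complex.I * ((((N : ℤ) : ℂ) * (τ : ℂ) + (B : ℂ)) / ((1 : ℤ) : ℂ)) /
      ((1 : ℝ) : ℂ)
      = (N : ℂ) * (2 * (Real.pi : ℂ) * Complex.I * (τ : ℂ) / ((1 : ℝ) : ℂ)) +
        (B : ℂ) * (2 * (Real.pi : ℂ) * Complex.I) := by
    push_cast
    ring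
  rw [h1, Complex.exp_add, Complex.exp_int_mul_two_pi_mul_I, mul_one]

/-- **Substitution `τ ↦ Nτ + B`.**  If `f` is `1`-periodic and meromorphic at `i∞` with
`q`-expansion `u`, then `τ ↦ f(Nτ+B)` has `q`-expansion `u(q^N)`. -/
theorem laurentInfty_comp_upperGL_scale {f : ℍ → ℂ} (hf : IsMeroAtInfty 1 f) (N : ℕ) [NeZero N]
    (B : ℤ) :
    IsMeroAtInfty 1 (fun τ => f (upperGL N B 1 (by exact_mod_cast NeZero.pos N) one_pos • τ)) ∧
      laurentInfty 1 (fun τ => f (upperGL N B 1 (by exact_mod_cast NeZero.pos N) one_pos • τ)) =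
        qExpand ℂ N (laurentInfty 1 f) := by
  have hN : 0 < N := NeZero.pos N
  have hNZ : (N : ℤ) ≠ 0 := by exact_mod_cast hN.ne'
  refine eq_laurentInfty_of_hasSum ?_ _ ?_
  · exact hf.1.comp (mdifferentiable_upperGL_smul N B 1 (by exact_mod_cast hN) one_pos)
  · intro τ
    have h1 := hasSum_laurentInfty hf (upperGL N B 1 (by exact_mod_cast hN) one_pos • τ)
    rw [Nat.cast_one, qParam_upperGL_scale N hN B τ] at h1
    have hinj : Function.Injective fun n : ℤ => (N : ℤ) * n := fun a b hab =>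
      mul_left_cancel₀ hNZ hab
    refine (Function.Injective.hasSum_iff hinj ?_).mp ?_
    · intro k hk
      have hnd : ¬ (N : ℤ) ∣ k := fun ⟨j, hj⟩ => hk ⟨j, hj.symm⟩
      rw [qExpand_coeff_of_not_dvd N _ hnd, zero_mul]
    · refine h1.congr_fun fun n => ?_
      simp only [Function.comp_apply]
      rw [qExpand_coeff_mul, Nat.cast_one, zpow_mul, zpow_natCast]

end

end Fermat.Agent.S28
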