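/-
S28 package [A2]: the modular units `Δ(τ)/Δ(rτ)` and `r¹² Δ(rτ)/Δ(τ)` (`r` prime) are integral
over `R0[j]`, `R0` the ring of algebraic integers (contract `UnitIntegralContract r` of
`Defs.lean`).
-/
import Fermat.Agent.S28.IntegralEngine
import Fermat.Agent.S28.DeltaHermite
import Fermat.Agent.S28.LaurentSubst
import Fermat.Agent.S28.DeltaExpansion

set_option autoImplicit false

namespace Fermat.Agent.S28

open UpperHalfPlane ModularForm MatrixGroups CongruenceSubgroup ModularCurve Polynomial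
open Fermat.Agent.S24
open scoped Manifold Polynomial.Bivariate

noncomputable section

local notation "Δ" => ModularForm.discriminant

/-! ### integrality bookkeeping -/

theorem zetaInfty_zpow_mem_intSubring (N : ℕ) [NeZero N] (k : ℤ) :
    ((zetaInfty N ^ k : ℂˣ) : ℂ) ∈ intSubring := by
  rw [mem_intSubring]
  have h0 : zetaInfty N ^ N = 1 := Units.ext (by
    rw [Units.val_pow_eq_pow_val]
    exact (zetaInfty_isPrimitiveRoot N).pow_eq_one)
  have h1 : ((zetaInfty N ^ k : ℂˣ) : ℂ) ^ N = 1 := by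
    rw [← Units.val_pow_eq_pow_val, ← zpow_natCast, ← zpow_mul, mul_comm, zpow_mul, zpow_natCast,
      h0, one_zpow, Units.val_one]
  exact IsIntegral.of_pow (NeZero.pos N) (by rw [h1]; exact isIntegral_one)

theorem rotR_zetaInfty_mem (N : ℕ) [NeZero N] (B : ℤ) {u : LaurentSeries ℂ}
    (hu : u ∈ laurentCoeffSubring intSubring) :
    rotR (zetaInfty N ^ B) u ∈ laurentCoeffSubring intSubring := by
  intro n
  rw [rotR_coeff, ← zpow_mul]
  exact intSubring.mul_mem (zetaInfty_zpow_mem_intSubring N _) (hu n)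

theorem deltaModC_mem_intSeries : deltaModC ℂ ∈ laurentCoeffSubring intSubring := by
  intro n
  rw [← coeffMap_deltaModC (Int.castRingHom ℂ), coeffMap_coeff, eq_intCast]
  exact intCast_mem intSubring _

theorem deltaInvModC_mem_intSeries : deltaInvModC ℂ ∈ laurentCoeffSubring intSubring := by
  intro n
  rw [← coeffMap_deltaInvModC (Int.castRingHom ℂ), coeffMap_coeff, eq_intCast]
  exact intCast_mem intSubring _

/-- meromorphic at `i∞` with algebraic-integer `q_N`-expansion. -/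
def IsIntMero (N : ℕ) [NeZero N] (f : ℍ → ℂ) : Prop :=
  IsMeroAtInfty N f ∧ laurentInfty N f ∈ laurentCoeffSubring intSubring

theorem IsIntMero.mul {N : ℕ} [NeZero N] {f g : ℍ → ℂ} (hf : IsIntMero N f)
    (hg : IsIntMero N g) : IsIntMero N (f * g) :=
  ⟨hf.1.mul hg.1, by rw [laurentInfty_mul hf.1 hg.1]; exact Subring.mul_mem _ hf.2 hg.2⟩

theorem IsIntMero.const (N : ℕ) [NeZero N] {c : ℂ} (hc : c ∈ intSubring) :
    IsIntMero N (fun _ => c) :=
  ⟨IsMeroAtInfty.const N c, by rw [laurentInfty_const]; exact C_mem_laurentCoeffSubring hc⟩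

theorem IsIntMero.of_one (N : ℕ) [NeZero N] {f : ℍ → ℂ} (hf : IsIntMero 1 f) : IsIntMero N f :=
  ⟨hf.1.of_one N, by
    rw [laurentInfty_period N hf.1]; exact qExpand_mem_laurentCoeffSubring _ N hf.2⟩

theorem IsIntMero.comp_upperGL_one (N : ℕ) [NeZero N] {f : ℍ → ℂ} (hf : IsIntMero 1 f) (B : ℤ)
    (h1 : (0 : ℤ) < 1) (h2 : (0 : ℤ) < N) :
    IsIntMero N (fun τ => f (upperGL 1 B N h1 h2 • τ)) := by
  obtain ⟨h1, h2⟩ := laurentInfty_comp_upperGL_one hf.1 N B
  exact ⟨h1, by rw [h2]; exact rotR_zetaInfty_mem N B hf.2⟩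

theorem IsIntMero.comp_upperGL_scale (N : ℕ) [NeZero N] {f : ℍ → ℂ} (hf : IsIntMero 1 f) (B : ℤ)
    (h1 : (0 : ℤ) < N) (h2 : (0 : ℤ) < 1) :
    IsIntMero 1 (fun τ => f (upperGL N B 1 h1 h2 • τ)) := by
  obtain ⟨h1, h2⟩ := laurentInfty_comp_upperGL_scale hf.1 N B
  exact ⟨h1, by rw [h2]; exact qExpand_mem_laurentCoeffSubring _ N hf.2⟩

theorem int_factor_prime {r : ℕ} (hr : r.Prime) {A D : ℤ} (hA : 0 < A) (hD : 0 < D)
    (hAD : A * D = r) : (A = 1 ∧ D = r) ∨ (A = r ∧ D = 1) := by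
  obtain ⟨a, rfl⟩ := Int.eq_ofNat_of_zero_le hA.le
  obtain ⟨d, rfl⟩ := Int.eq_ofNat_of_zero_le hD.le
  have had : a * d = r := by exact_mod_cast hAD
  rcases (Nat.dvd_prime hr).mp ⟨d, had.symm⟩ with h1 | h1
  · left
    subst h1
    rw [one_mul] at had
    exact ⟨by simp, by exact_mod_cast had⟩
  · right
    subst h1
    have hd : d = 1 := by
      have h2 : a * d = a * 1 := by rw [had, mul_one]
      exact Nat.eq_of_mul_eq_mul_left hr.pos h2
    exact ⟨rfl, by exact_mod_cast hd⟩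

theorem IsIntMero.comp_upperGL_of_prime {r : ℕ} [NeZero r] (hr : r.Prime) {f : ℍ → ℂ}
    (hf : IsIntMero 1 f) (A B D : ℤ) (hA : 0 < A) (hD : 0 < D) (hAD : A * D = r) :
    IsIntMero r (fun τ => f (upperGL A B D hA hD • τ)) := by
  rcases int_factor_prime hr hA hD hAD with ⟨h1, h2⟩ | ⟨h1, h2⟩
  · subst h1 h2
    exact hf.comp_upperGL_one r B hA hD
  · subst h1 h2
    exact (hf.comp_upperGL_scale r B hA hD).of_one r

/-- `f(Nτ + B) = f(Nτ)` for a `1`-periodic `f` (meromorphic at `i∞`). -/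
theorem comp_upperGL_scale_eq {f : ℍ → ℂ} (hf : IsMeroAtInfty 1 f) (N : ℕ) [NeZero N] (B : ℤ)
    (h1 : (0 : ℤ) < N) (h2 : (0 : ℤ) < 1) :
    (fun τ => f (upperGL N B 1 h1 h2 • τ)) = fun τ => f (upperGL N 0 1 h1 h2 • τ) := by
  obtain ⟨ha, hb⟩ := laurentInfty_comp_upperGL_scale hf N B
  obtain ⟨hc, hd⟩ := laurentInfty_comp_upperGL_scale hf N 0
  have := laurentInftyAlgHom_injective 1 (a₁ := ⟨_, ha⟩) (a₂ := ⟨_, hc⟩) (by
    rw [laurentInftyAlgHom_apply, laurentInftyAlgHom_apply]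
    exact hb.trans hd.symm)
  exact congrArg Subtype.val this

/-! ### the two modular units -/

theorem div_rel_aux {a b c d e : ℂ} (ha : a ≠ 0) (hc : c ≠ 0) (h : a * e * b = c * d) :
    d * a⁻¹ = e * (b * c⁻¹) := by
  field_simp
  linear_combination (-1 : ℂ) * h

theorem div_rel_aux' {a b c d e f n : ℂ} (hb : b ≠ 0) (hd : d ≠ 0) (h : a * e * b = c * d)
    (hn : n = f * e) : n * (a * d⁻¹) = f * (c * b⁻¹) := by
  subst hn
  field_simp
  linear_combination f * h

variable (r : ℕ) [NeZero r]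

theorem natCast_pos_of_neZero : (0 : ℤ) < (r : ℤ) := by exact_mod_cast NeZero.pos r

/-- `τ ↦ Δ(rτ)`. -/
def discScale : ℍ → ℂ := fun τ => Δ (upperGL r 0 1 (natCast_pos_of_neZero r) one_pos • τ)

/-- `τ ↦ 1/Δ(rτ)`. -/
def discInvScale : ℍ → ℂ :=
  fun τ => discInv (upperGL r 0 1 (natCast_pos_of_neZero r) one_pos • τ)

/-- `Δ(τ)/Δ(rτ)`. -/
def unitFn₁ : ℍ → ℂ := (Δ : ℍ → ℂ) * discInvScale r

/-- `r¹² Δ(rτ)/Δ(τ)`. -/
def unitFn₂ : ℍ → ℂ := (fun _ => (r : ℂ) ^ 12) * (discScale r * discInv)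

theorem mdiff_unitFn₁ : MDiff (unitFn₁ r) :=
  mdiff_discriminant.mul (mdiff_discInv.comp (mdifferentiable_upperGL_smul _ _ _ _ _))

theorem mdiff_unitFn₂ : MDiff (unitFn₂ r) :=
  mdifferentiable_const.mul
    ((mdiff_discriminant.comp (mdifferentiable_upperGL_smul _ _ _ _ _)).mul mdiff_discInv)

/-- the `SL(2,ℤ)`-conjugates of the two units. -/
theorem unitFn_smul (g : SL(2, ℤ)) :
    ∃ (A B D : ℤ) (hA : 0 < A) (hD : 0 < D), A * D = r ∧ (D = 1 ↔ (r : ℤ) ∣ g 1 0) ∧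
      (fun τ => unitFn₁ r (g • τ)) =
        (fun _ => (D : ℂ) ^ 12) *
          ((Δ : ℍ → ℂ) * fun τ => discInv (upperGL A B D hA hD • τ)) ∧
      (fun τ => unitFn₂ r (g • τ)) =
        (fun _ => (A : ℂ) ^ 12) * ((fun τ => Δ (upperGL A B D hA hD • τ)) * discInv) := by
  obtain ⟨A, B, D, hA, hD, hAD, hD1, hrel⟩ := discriminant_hermite g r (NeZero.pos r)
  refine ⟨A, B, D, hA, hD, hAD, hD1, ?_, ?_⟩
  · funext τ
    simp only [unitFn₁, discInvScale, Pi.mul_apply, discInv_apply]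
    exact div_rel_aux (ModularForm.discriminant_ne_zero _) (ModularForm.discriminant_ne_zero _)
      (hrel τ)
  · funext τ
    simp only [unitFn₂, discScale, Pi.mul_apply, discInv_apply]
    refine div_rel_aux' (ModularForm.discriminant_ne_zero _) (ModularForm.discriminant_ne_zero _)
      (hrel τ) ?_
    have : (r : ℂ) = (A : ℂ) * (D : ℂ) := by exact_mod_cast hAD.symm
    rw [this, mul_pow]

theorem unitFn_invariant (γ : SL(2, ℤ)) (hγ : γ ∈ Gamma0 r) (τ : ℍ) :
    unitFn₁ r (γ • τ) = unitFn₁ r τ ∧ unitFn₂ r (γ • τ) = unitFn₂ r τ := by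
  obtain ⟨A, B, D, hA, hD, hAD, hD1, h1, h2⟩ := unitFn_smul r γ
  have hdvd : (r : ℤ) ∣ γ 1 0 := by
    rw [Gamma0_mem] at hγ
    exact (ZMod.intCast_zmod_eq_zero_iff_dvd _ _).mp hγ
  have hD' : D = 1 := hD1.mpr hdvd
  subst hD'
  have hA' : A = r := by simpa using hAD
  subst hA'
  have e1 := comp_upperGL_scale_eq isMeroAtInfty_discInv r B hA hD
  have e2 := comp_upperGL_scale_eq isMeroAtInfty_discriminant r B hA hD
  constructor
  · have := congrFun h1 τ
    rw [this, e1]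
    simp [unitFn₁, discInvScale]
  · have := congrFun h2 τ
    rw [this, e2]
    simp [unitFn₂, discScale]

theorem isIntMero_discriminant : IsIntMero 1 (Δ : ℍ → ℂ) :=
  ⟨isMeroAtInfty_discriminant, by rw [laurentInfty_discriminant]; exact deltaModC_mem_intSeries⟩

theorem isIntMero_discInv : IsIntMero 1 discInv :=
  ⟨isMeroAtInfty_discInv, by rw [laurentInfty_discInv]; exact deltaInvModC_mem_intSeries⟩

theorem isIntMero_unitFn_smul (hr : r.Prime) (g : SL(2, ℤ)) :
    IsIntMero r (fun τ => unitFn₁ r (g • τ)) ∧ IsIntMero r (fun τ => unitFn₂ r (g • τ)) := by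
  obtain ⟨A, B, D, hA, hD, hAD, -, h1, h2⟩ := unitFn_smul r g
  rw [h1, h2]
  constructor
  · exact (IsIntMero.const r (Subring.pow_mem _ (intCast_mem _ D) 12)).mul
      ((isIntMero_discriminant.of_one r).mul
        (isIntMero_discInv.comp_upperGL_of_prime hr A B D hA hD hAD))
  · exact (IsIntMero.const r (Subring.pow_mem _ (intCast_mem _ A) 12)).mul
      ((isIntMero_discriminant.comp_upperGL_of_prime hr A B D hA hD hAD).mul
        (isIntMero_discInv.of_one r))

theorem laurentInfty_unitFn₁ :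
    IsMeroAtInfty 1 (unitFn₁ r) ∧ laurentInfty 1 (unitFn₁ r) =
      coeffMap (algebraMap R0 ℂ) (deltaModC R0 * qExpand R0 r (deltaInvModC R0)) := by
  obtain ⟨h1, h2⟩ := laurentInfty_comp_upperGL_scale isMeroAtInfty_discInv r 0
  refine ⟨isMeroAtInfty_discriminant.mul h1, ?_⟩
  have : unitFn₁ r = (Δ : ℍ → ℂ) * fun τ => discInv (upperGL r 0 1
      (by exact_mod_cast NeZero.pos r) one_pos • τ) := rfl
  rw [this, laurentInfty_mul isMeroAtInfty_discriminant h1, h2, laurentInfty_discriminant,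
    laurentInfty_discInv, map_mul, coeffMap_deltaModC, coeffMap_qExpand, coeffMap_deltaInvModC]

theorem laurentInfty_unitFn₂ :
    IsMeroAtInfty 1 (unitFn₂ r) ∧ laurentInfty 1 (unitFn₂ r) =
      coeffMap (algebraMap R0 ℂ)
        ((r : LaurentSeries R0) ^ 12 * (qExpand R0 r (deltaModC R0) * deltaInvModC R0)) := by
  obtain ⟨h1, h2⟩ := laurentInfty_comp_upperGL_scale isMeroAtInfty_discriminant r 0
  have hc : IsMeroAtInfty 1 (fun _ : ℍ => (r : ℂ) ^ 12) := IsMeroAtInfty.const 1 _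
  refine ⟨hc.mul (h1.mul isMeroAtInfty_discInv), ?_⟩
  have : unitFn₂ r = (fun _ => (r : ℂ) ^ 12) * ((fun τ => Δ (upperGL r 0 1
      (by exact_mod_cast NeZero.pos r) one_pos • τ)) * discInv) := rfl
  rw [this, laurentInfty_mul hc (h1.mul isMeroAtInfty_discInv),
    laurentInfty_mul h1 isMeroAtInfty_discInv, h2, laurentInfty_discriminant,
    laurentInfty_discInv, laurentInfty_const, map_mul, map_mul, coeffMap_deltaInvModC,
    coeffMap_qExpand, coeffMap_deltaModC, map_pow, map_pow, map_natCast, map_natCast]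

/-- **[A2]** the two modular units of prime level `r` are integral over `R0[j]`. -/
theorem unitIntegralContract (hr : r.Prime) : UnitIntegralContract r := by
  letI : Fintype (SL(2, ℤ) ⧸ Gamma0 r) := Fintype.ofFinite _
  obtain ⟨hm1, he1⟩ := laurentInfty_unitFn₁ r
  obtain ⟨hm2, he2⟩ := laurentInfty_unitFn₂ r
  obtain ⟨Ψ₁, hΨ₁m, hΨ₁⟩ := exists_monic_R0_root (H := Gamma0 r) r (mdiff_unitFn₁ r)
    (fun a ha τ => (unitFn_invariant r a ha τ).1)
    (fun g => (isIntMero_unitFn_smul r hr g).1.1) (fun g => (isIntMero_unitFn_smul r hr g).1.2)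
    hm1 _ he1
  obtain ⟨Ψ₂, hΨ₂m, hΨ₂⟩ := exists_monic_R0_root (H := Gamma0 r) r (mdiff_unitFn₂ r)
    (fun a ha τ => (unitFn_invariant r a ha τ).2)
    (fun g => (isIntMero_unitFn_smul r hr g).2.1) (fun g => (isIntMero_unitFn_smul r hr g).2.2)
    hm2 _ he2
  exact ⟨Ψ₁, Ψ₂, hΨ₁m, hΨ₂m, hΨ₁, hΨ₂⟩

/-- alias with the name announced on the board. -/
theorem unitIntegralContract_holds (hr : r.Prime) : UnitIntegralContract r :=
  unitIntegralContract r hr

end

end Fermat.Agent.S28
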