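/-
S28: the tower contract (owner: helper2) = Tower.towerContract_of_beta + BetaStep.betaStepU
+ the three characteristic zero contracts (I1) modEqContract, (I2) unitIntegralContract,
(I3) thetaIdentityContract, mapped to `AlgebraicClosure (ZMod l)`.
-/
import Mathlib
import Fermat.Agent.S28.Tower
import Fermat.Agent.S28.BetaStep
import Fermat.Agent.S28.UnitIntegral
import Fermat.Agent.S28.ThetaIdentity

set_option autoImplicit false

noncomputable section

namespace Fermat.Agent.S28

open HahnSeries ModularCurve

/-- (β) over an algebraically closed field receiving the algebraic integers. -/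
theorem betaStep_of_ringHom {k : Type*} [Field k] [IsAlgClosed k] (π : R0 →+* k)
    (r M : ℕ) [NeZero r] (hr : r.Prime) (hrk : (r : k) ≠ 0) (hMk : (M : k) ≠ 0)
    (hrM : ¬ r ∣ M) :
    qExpand k r (jqModC k) ∉ IntermediateField.adjoin k (divisorExpansionsC k M) := by
  have hM0 : M ≠ 0 := fun h => hMk (by rw [h, Nat.cast_zero])
  have : NeZero M := ⟨hM0⟩
  obtain ⟨hP, -, ζ, hζ, hΦ⟩ := primeStep_of_contracts π r hr hrk (modEqContract r hr)
    (unitIntegralContract r hr) thetaIdentityContract
  refine betaStepU r M hrM hζ hΦ hP ?_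
  intro p hp hpM
  have : NeZero p := ⟨hp.ne_zero⟩
  obtain ⟨ζ0, hζ0⟩ := exists_primitiveRoot_R0 p
  exact ⟨inferInstance, Units.map (π : R0 →* k) ζ0, (modEqContract p hp ζ0 hζ0).map π⟩

/-- **the tower contract holds** for every level prime to `l`. -/
theorem towerContract_holds (l N : ℕ) [Fact l.Prime] [NeZero N] (hlN : ¬ l ∣ N) :
    TowerContract l N := by
  obtain ⟨π⟩ := exists_ringHom_R0 l
  refine towerContract_of_beta l N hlN ?_
  intro r M _ hr hrk hMk hrM
  exact betaStep_of_ringHom π r M hr hrk hMk hrM

end Fermat.Agent.S28
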