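/-
S28 stream [G] (owner helper10): auxiliary lemmas for the tower (G) on top of helper2's
`PrimeStep.lean`: the conjugate roots `j(ζ^b t)`, the fixed field of an endomorphism, and the
conjugates argument (a polynomial over a rotation-fixed field with one conjugate root has
degree at least `r`).
-/
import Mathlib
import Fermat.Agent.S28.LaurentAPI
import Fermat.Agent.S28.PrimeStep

set_option autoImplicit false

noncomputable section

namespace Fermat.Agent.S28

open HahnSeries ModularCurve Polynomial IntermediateField Fermat.Agent.S24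

section Aux

variable {k : Type*} [Field k]

/-- the fixed field of a `k`-algebra endomorphism. -/
def fixedFieldOf (σ : LaurentSeries k →ₐ[k] LaurentSeries k) :
    IntermediateField k (LaurentSeries k) where
  toSubalgebra := AlgHom.equalizer σ (AlgHom.id k (LaurentSeries k))
  inv_mem' x hx := by
    show σ x⁻¹ = x⁻¹
    have hx' : σ x = x := hx
    rw [map_inv₀, hx']

theorem mem_fixedFieldOf {σ : LaurentSeries k →ₐ[k] LaurentSeries k} {x : LaurentSeries k} :
    x ∈ fixedFieldOf σ ↔ σ x = x := Iff.rfl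

/-- the conjugate roots `j(ζ^b t)`. -/
def rotRoot (ζ : kˣ) (b : ℕ) : LaurentSeries k := rot (ζ ^ b) (jqModC k)

theorem rotRoot_coeff_neg_one (ζ : kˣ) (b : ℕ) :
    (rotRoot ζ b).coeff (-1) = ((ζ ^ b)⁻¹ : kˣ) := by
  rw [rotRoot, rot_coeff, coeff_jqModC_neg_one, mul_one, zpow_neg_one]

theorem rot_rotRoot (ζ : kˣ) (b : ℕ) : rot ζ (rotRoot ζ b) = rotRoot ζ (b + 1) := by
  rw [rotRoot, rotRoot, ← rot_mul_apply, pow_succ']

theorem rotRoot_add_of_pow_eq_one {ζ : kˣ} {r : ℕ} (hζ : ζ ^ r = 1) (b : ℕ) :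
    rotRoot ζ (b + r) = rotRoot ζ b := by
  rw [rotRoot, rotRoot, _root_.pow_add, hζ, mul_one]

theorem rotRoot_injOn {ζ : kˣ} {r : ℕ} (hζ : IsPrimitiveRoot ζ r) :
    Set.InjOn (rotRoot ζ) (Finset.range r : Set ℕ) := by
  intro a ha b hb hab
  have h := congrArg (fun f => f.coeff (-1)) hab
  simp only [rotRoot_coeff_neg_one] at h
  have h' : (ζ ^ a)⁻¹ = (ζ ^ b)⁻¹ := Units.ext h
  exact hζ.pow_inj (Finset.mem_range.mp (by simpa using ha)) (Finset.mem_range.mp (by simpa using hb))
    (inv_injective h')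

theorem rotRoot_eq_of_pow_eq {ζ : kˣ} {a b : ℕ} (h : ζ ^ a = ζ ^ b) : rotRoot ζ a = rotRoot ζ b := by
  rw [rotRoot, rotRoot, h]

/-- a polynomial fixed by the rotation which has one conjugate root `j(ζ^b t)` as a root has all
of them, hence has degree at least `r`. -/
theorem le_natDegree_of_isRoot_rotRoot {ζ : kˣ} {r : ℕ} (hζ : IsPrimitiveRoot ζ r) (hr : 0 < r)
    {f : (LaurentSeries k)[X]} (hf0 : f ≠ 0)
    (hfix : f.map (rot ζ : LaurentSeries k →+* LaurentSeries k) = f)
    {b0 : ℕ} (hroot : f.IsRoot (rotRoot ζ b0)) : r ≤ f.natDegree := by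
  classical
  have hstep : ∀ x, f.IsRoot x → f.IsRoot (rot ζ x) := by
    intro x hx
    have := hx.map (f := (rot ζ : LaurentSeries k →+* LaurentSeries k))
    rwa [hfix] at this
  have hall : ∀ n, f.IsRoot (rotRoot ζ (b0 + n)) := by
    intro n
    induction n with
    | zero => simpa using hroot
    | succ n ih => rw [← add_assoc, ← rot_rotRoot]; exact hstep _ ih
  obtain ⟨r', rfl⟩ : ∃ r', r = r' + 1 := ⟨r - 1, by omega⟩
  have hall' : ∀ b, f.IsRoot (rotRoot ζ b) := by
    intro b
    have h1 : rotRoot ζ b = rotRoot ζ (b0 + (b + b0 * r')) := by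
      refine rotRoot_eq_of_pow_eq ?_
      have : b0 + (b + b0 * r') = b + (r' + 1) * b0 := by ring
      rw [this, _root_.pow_add, pow_mul, hζ.pow_eq_one, one_pow, mul_one]
    rw [h1]; exact hall _
  have hcard : ((Finset.range (r' + 1)).image (rotRoot ζ)).card = r' + 1 := by
    rw [Finset.card_image_of_injOn (rotRoot_injOn hζ), Finset.card_range]
  rw [← hcard]
  refine Polynomial.card_le_degree_of_subset_roots ?_
  intro x hx
  rw [Finset.mem_val, Finset.mem_image] at hx
  obtain ⟨b, -, rfl⟩ := hx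
  exact (Polynomial.mem_roots hf0).mpr (hall' b)

end Aux

end Fermat.Agent.S28
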