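/-
S28 stream [G] (owner helper10): auxiliary results for the step (β).
(1) the modular polynomial `Φ_r(X, Y)` is irreducible over `k(Y)` (universal form over
    `RatFunc k`, and over `k(y)` for every transcendental `y`);
(2) consequently `j(t^m)` is a root of the minimal polynomial of `j(t^(r^2 m))` over
    `k(j(t^(r m)))`;
(3) `j(t^(a d))` is integral over `k(j(t^a))`.
-/
import Mathlib
import Fermat.Agent.S28.PrimeStepAux

set_option autoImplicit false
set_option linter.style.haveILetI false

noncomputable section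

namespace Fermat.Agent.S28

open HahnSeries ModularCurve Polynomial IntermediateField Fermat.Agent.S24

section Irr

variable {k : Type*} [Field k]

theorem transcendental_qExpand_J (a : ℕ) [NeZero a] :
    Transcendental k (qExpand k a (jqModC k)) := by
  intro h
  have h' : IsAlgebraic k (qExpandAlg k a (jqModC k)) := h
  rw [isAlgebraic_algHom_iff (qExpandAlg k a) (qExpand_injective a)] at h'
  exact transcendental_jqModC' h'

/-- **(P')** the modular polynomial `Φ_r(X, Y)` is irreducible over `k(Y)`. -/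
theorem irreducible_modularPoly {ζ : kˣ} {r : ℕ} [NeZero r] (hζ : IsPrimitiveRoot ζ r)
    (hr : 2 ≤ r) (Φ : Polynomial (Polynomial k)) (hΦm : Φ.Monic)
    (hΦ : Φ.map ((aeval (qExpand k r (jqModC k)) : k[X] →ₐ[k] LaurentSeries k).toRingHom) =
      (X - Polynomial.C (qExpand k r (qExpand k r (jqModC k)))) *
        ∏ b ∈ Finset.range r, (X - Polynomial.C (rotRoot ζ b)))
    (hP : qExpand k r (jqModC k) ∉ k⟮jqModC k⟯) :
    Irreducible (Φ.map (algebraMap k[X] (RatFunc k))) := by
  classical
  set Jk := jqModC k with hJk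
  set y := qExpand k r Jk with hy
  set ρ := qExpand k r y with hρ
  set σ : LaurentSeries k →+* LaurentSeries k := (rot ζ : LaurentSeries k →+* LaurentSeries k)
    with hσ
  -- `y` is transcendental
  have hytr : Transcendental k y := transcendental_qExpand_J r
  set e := RatFunc.algEquivOfTranscendental y hytr with he
  set ι : RatFunc k →+* LaurentSeries k :=
    (k⟮y⟯.val : k⟮y⟯ →+* LaurentSeries k).comp (e : RatFunc k →+* k⟮y⟯) with hι
  have hιinj : Function.Injective ι := ι.injective
  have hιmem : ∀ x, ι x ∈ k⟮y⟯ := fun x => (e x).2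
  have hιalg : ι.comp (algebraMap k[X] (RatFunc k)) =
      ((aeval y : k[X] →ₐ[k] LaurentSeries k).toRingHom) := by
    refine RingHom.ext fun g => ?_
    show ((e (algebraMap k[X] (RatFunc k) g) : k⟮y⟯) : LaurentSeries k) = _
    rw [he, RatFunc.algEquivOfTranscendental_algebraMap, ← IntermediateField.aeval_coe,
      AdjoinSimple.coe_gen]
    rfl
  -- `k(y)` is fixed by the rotation
  have hζr : ζ ^ r = 1 := hζ.pow_eq_one
  have hfixy : k⟮y⟯ ≤ fixedFieldOf (rot ζ) := by
    rw [adjoin_simple_le_iff, mem_fixedFieldOf]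
    exact rot_qExpand_of_pow_eq_one hζr Jk
  have hσι : σ.comp ι = ι := by
    refine RingHom.ext fun x => ?_
    exact mem_fixedFieldOf.mp (hfixy (hιmem x))
  set P0 := Φ.map (algebraMap k[X] (RatFunc k)) with hP0
  set Pi0 : (LaurentSeries k)[X] := (X - Polynomial.C ρ) * ∏ b ∈ Finset.range r, (X - Polynomial.C (rotRoot ζ b)) with hPi0
  have hP0map : P0.map ι = Pi0 := by
    rw [hP0, Polynomial.map_map, hιalg, hΦ]
  have hP0m : P0.Monic := hΦm.map _
  have hPi0deg : Pi0.natDegree = r + 1 := by
    have hne : (∏ b ∈ Finset.range r, (X - Polynomial.C (rotRoot ζ b)) : (LaurentSeries k)[X]) ≠ 0 :=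
      Finset.prod_ne_zero_iff.mpr fun b _ => X_sub_C_ne_zero _
    rw [hPi0, Polynomial.natDegree_mul (X_sub_C_ne_zero _) hne, natDegree_X_sub_C,
      Polynomial.natDegree_finsetProd_X_sub_C_eq_card, Finset.card_range, add_comm]
  have hP0deg : P0.natDegree = r + 1 := by
    have h := Polynomial.natDegree_map (p := P0) ι
    rw [hP0map, hPi0deg] at h
    exact h.symm
  -- roots of `Pi0`
  have hrootPi0 : ∀ x, Pi0.IsRoot x → x = ρ ∨ ∃ b, x = rotRoot ζ b := by
    intro x hx
    rw [hPi0, Polynomial.root_mul] at hx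
    rcases hx with hx | hx
    · left; exact (Polynomial.root_X_sub_C.mp hx).symm
    · right
      rw [Polynomial.isRoot_prod] at hx
      obtain ⟨b, -, hb⟩ := hx
      exact ⟨b, (Polynomial.root_X_sub_C.mp hb).symm⟩
  have hρ_not : ρ ∉ k⟮y⟯ := by
    intro hmem
    have h1 : k⟮y⟯ = (k⟮Jk⟯).map (qExpandAlg k r) := by
      rw [IntermediateField.adjoin_map, Set.image_singleton]; rfl
    rw [h1] at hmem
    obtain ⟨x, hx, hxρ⟩ := hmem
    have : x = y := qExpand_injective r hxρ
    exact hP (this ▸ hx)
  -- the key dichotomy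
  have key : ∀ f g : (RatFunc k)[X], f.Monic → g.Monic → f * g = P0 →
      (f.map ι).IsRoot (rotRoot ζ 0) → g.natDegree = 0 := by
    intro f g hf hg hfg hroot
    have hf' : (f.map ι) ≠ 0 := (hf.map ι).ne_zero
    have hfixf : (f.map ι).map σ = f.map ι := by rw [Polynomial.map_map, hσι]
    have h1 : r ≤ (f.map ι).natDegree :=
      le_natDegree_of_isRoot_rotRoot hζ (by omega) hf' hfixf hroot
    rw [Polynomial.natDegree_map] at h1
    have h2 : f.natDegree + g.natDegree = r + 1 := by
      rw [← hf.natDegree_mul hg, hfg, hP0deg]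
    by_contra hg0
    have hg1 : g.natDegree = 1 := by omega
    have hgdeg : g.degree = 1 := by
      rw [Polynomial.degree_eq_natDegree hg.ne_zero, hg1]; rfl
    obtain ⟨c, hc⟩ := Polynomial.exists_root_of_degree_eq_one hgdeg
    have hc' : (g.map ι).IsRoot (ι c) := hc.map
    have hcPi0 : Pi0.IsRoot (ι c) := by
      rw [← hP0map, ← hfg, Polynomial.map_mul, Polynomial.root_mul]
      exact Or.inr hc'
    rcases hrootPi0 _ hcPi0 with h | ⟨b, hb⟩
    · exact hρ_not (h ▸ hιmem c)
    · have hg' : (g.map ι) ≠ 0 := (hg.map ι).ne_zero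
      have hfixg : (g.map ι).map σ = g.map ι := by rw [Polynomial.map_map, hσι]
      have h3 : r ≤ (g.map ι).natDegree :=
        le_natDegree_of_isRoot_rotRoot hζ (by omega) hg' hfixg (hb ▸ hc')
      rw [Polynomial.natDegree_map] at h3
      omega
  rw [hP0m.irreducible_iff_natDegree]
  refine ⟨fun h => ?_, fun f g hf hg hfg => ?_⟩
  · rw [h, Polynomial.natDegree_one] at hP0deg; omega
  · have h0 : Pi0.IsRoot (rotRoot ζ 0) := by
      rw [hPi0, Polynomial.root_mul]
      right
      rw [Polynomial.isRoot_prod]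
      exact ⟨0, Finset.mem_range.mpr (by omega), Polynomial.root_X_sub_C.mpr rfl⟩
    rw [← hP0map, ← hfg, Polynomial.map_mul, Polynomial.root_mul] at h0
    rcases h0 with h0 | h0
    · exact Or.inr (key f g hf hg hfg h0)
    · exact Or.inl (key g f hg hf (by rw [mul_comm, hfg]) h0)

/-- transport of a bivariate evaluation along a `k`-algebra endomorphism -/
theorem algHom_eval₂_aeval (ψ : LaurentSeries k →ₐ[k] LaurentSeries k) (z w : LaurentSeries k)
    (Φ : Polynomial (Polynomial k)) :
    ψ (Φ.eval₂ ((aeval z : k[X] →ₐ[k] LaurentSeries k).toRingHom) w) =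
      Φ.eval₂ ((aeval (ψ z) : k[X] →ₐ[k] LaurentSeries k).toRingHom) (ψ w) := by
  have h := Polynomial.hom_eval₂ Φ ((aeval z : k[X] →ₐ[k] LaurentSeries k).toRingHom)
    (ψ : LaurentSeries k →+* LaurentSeries k) w
  have hcomp : (ψ : LaurentSeries k →+* LaurentSeries k).comp
      ((aeval z : k[X] →ₐ[k] LaurentSeries k).toRingHom) =
      (aeval (ψ z) : k[X] →ₐ[k] LaurentSeries k).toRingHom := by
    refine RingHom.ext fun p => ?_
    show ψ (aeval z p) = aeval (ψ z) p
    rw [Polynomial.aeval_algHom_apply]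
  rw [hcomp] at h
  exact h

theorem map_map_aeval (ψ : LaurentSeries k →ₐ[k] LaurentSeries k) (z : LaurentSeries k)
    (Φ : Polynomial (Polynomial k)) :
    (Φ.map ((aeval z : k[X] →ₐ[k] LaurentSeries k).toRingHom)).map
      (ψ : LaurentSeries k →+* LaurentSeries k) =
      Φ.map ((aeval (ψ z) : k[X] →ₐ[k] LaurentSeries k).toRingHom) := by
  rw [Polynomial.map_map]
  congr 1
  refine RingHom.ext fun p => ?_
  show ψ (aeval z p) = aeval (ψ z) p
  rw [Polynomial.aeval_algHom_apply]

/-- the modular equation `Φ_s(j(t^s), j(t)) = 0`, and its transports -/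
theorem modEq_eval_eq_zero {s : ℕ} [NeZero s] {ζ : kˣ} {Φ : Polynomial (Polynomial k)}
    (hΦ : Φ.map ((aeval (qExpand k s (jqModC k)) : k[X] →ₐ[k] LaurentSeries k).toRingHom) =
      (X - Polynomial.C (qExpand k (s ^ 2) (jqModC k))) *
        ∏ b ∈ Finset.range s, (X - Polynomial.C (rotR (ζ ^ b) (jqModC k))))
    (n : ℕ) [NeZero n] :
    Φ.eval₂ ((aeval (qExpand k n (jqModC k)) : k[X] →ₐ[k] LaurentSeries k).toRingHom)
      (qExpand k n (qExpand k s (jqModC k))) = 0 := by
  have h0 : Φ.eval₂ ((aeval (jqModC k) : k[X] →ₐ[k] LaurentSeries k).toRingHom)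
      (qExpand k s (jqModC k)) = 0 := by
    apply qExpand_injective s
    have h1 := algHom_eval₂_aeval (qExpandAlg k s) (jqModC k) (qExpand k s (jqModC k)) Φ
    simp only [qExpandAlg_apply] at h1
    rw [h1, map_zero, Polynomial.eval₂_eq_eval_map, hΦ, Polynomial.eval_mul]
    refine mul_eq_zero_of_left ?_ _
    have : qExpand k s (qExpand k s (jqModC k)) = qExpand k (s ^ 2) (jqModC k) := by
      rw [qExpand_qExpand]; exact qExpand_congr (by ring) _
    rw [this]
    simp
  have h1 := algHom_eval₂_aeval (qExpandAlg k n) (jqModC k) (qExpand k s (jqModC k)) Φ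
  simp only [qExpandAlg_apply] at h1
  rw [← h1, h0, map_zero]

/-- one step of the integrality chain: a root `w` of a monic polynomial whose coefficients are
polynomials in `z` over `k` is integral over any field over which `z` is integral. -/
theorem isIntegral_of_eval₂_aeval (E0 : IntermediateField k (LaurentSeries k))
    {z w : LaurentSeries k} (hz : IsIntegral E0 z) {Φ : Polynomial (Polynomial k)}
    (hΦm : Φ.Monic)
    (hroot : Φ.eval₂ ((aeval z : k[X] →ₐ[k] LaurentSeries k).toRingHom) w = 0) :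
    IsIntegral E0 w := by
  set A := integralClosure E0 (LaurentSeries k) with hA
  have hzA : z ∈ A := hz
  have hwA : IsIntegral A w := by
    refine ⟨Φ.map ((aeval (⟨z, hzA⟩ : A) : k[X] →ₐ[k] A).toRingHom), hΦm.map _, ?_⟩
    rw [Polynomial.eval₂_map]
    have hcomp : (algebraMap A (LaurentSeries k)).comp
        ((aeval (⟨z, hzA⟩ : A) : k[X] →ₐ[k] A).toRingHom) =
        (aeval z : k[X] →ₐ[k] LaurentSeries k).toRingHom := by
      refine RingHom.ext fun p => ?_
      exact (Polynomial.aeval_algHom_apply (A.val.restrictScalars k) (⟨z, hzA⟩ : A) p).symm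
    rw [hcomp]
    exact hroot
  exact isIntegral_trans w hwA

/-- **integrality chain**: `j(t^(a d))` is integral over `k(j(t^a))`. -/
theorem isIntegral_qExpand_mul (a : ℕ) [NeZero a] (d : ℕ) [hd : NeZero d]
    (hmod : ∀ (s : ℕ) [NeZero s], s.Prime → s ∣ d → ∃ ζ : kˣ, ModEqOver k s ζ) :
    IsIntegral k⟮qExpand k a (jqModC k)⟯ (qExpand k (a * d) (jqModC k)) := by
  revert hd hmod
  induction d using induction_on_primes with
  | zero => intro hd; exact absurd rfl (NeZero.ne 0)
  | one =>
    intro _ _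
    have h1 : qExpand k (a * 1) (jqModC k) = qExpand k a (jqModC k) :=
      qExpand_congr (mul_one a) _
    rw [h1]
    exact isIntegral_algebraMap (x := AdjoinSimple.gen k (qExpand k a (jqModC k)))
  | prime_mul s d' hs ih =>
    intro hd hmod
    have hd'0 : d' ≠ 0 := fun h => (NeZero.ne (s * d')) (by rw [h, mul_zero])
    have : NeZero d' := ⟨hd'0⟩
    have : NeZero s := ⟨hs.ne_zero⟩
    have ihz := ih (fun s' _ hs' hdvd => hmod s' hs' (Dvd.dvd.mul_left hdvd s))
    obtain ⟨ζ, Φ, hΦm, hΦ⟩ := hmod s hs (Dvd.intro _ rfl)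
    have hroot := modEq_eval_eq_zero hΦ (a * d')
    have hw : qExpand k (a * d') (qExpand k s (jqModC k)) = qExpand k (a * (s * d')) (jqModC k) := by
      rw [qExpand_qExpand]; exact qExpand_congr (by ring) _
    rw [hw] at hroot
    exact isIntegral_of_eval₂_aeval _ ihz hΦm hroot

/-- **conjugacy of `j(t^(r^2 m))` and `j(t^m)` over `k(j(t^(r m)))`**: the second is a root of the
minimal polynomial of the first. -/
theorem aeval_minpoly_qExpand {ζ : kˣ} {r : ℕ} [NeZero r] (hζ : IsPrimitiveRoot ζ r)
    (hr : 2 ≤ r) (Φ : Polynomial (Polynomial k)) (hΦm : Φ.Monic)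
    (hΦ : Φ.map ((aeval (qExpand k r (jqModC k)) : k[X] →ₐ[k] LaurentSeries k).toRingHom) =
      (X - Polynomial.C (qExpand k (r ^ 2) (jqModC k))) *
        ∏ b ∈ Finset.range r, (X - Polynomial.C (rotR (ζ ^ b) (jqModC k))))
    (hP : qExpand k r (jqModC k) ∉ k⟮jqModC k⟯) (m : ℕ) [NeZero m] :
    IsIntegral k⟮qExpand k m (qExpand k r (jqModC k))⟯
        (qExpand k m (qExpand k (r ^ 2) (jqModC k))) ∧
      aeval (qExpand k m (jqModC k))
        (minpoly k⟮qExpand k m (qExpand k r (jqModC k))⟯
          (qExpand k m (qExpand k (r ^ 2) (jqModC k)))) = 0 := by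
  classical
  set Jk := jqModC k with hJk
  have hρ : qExpand k (r ^ 2) Jk = qExpand k r (qExpand k r Jk) := by
    rw [qExpand_qExpand]; exact qExpand_congr (by ring) _
  have hΦ' : Φ.map ((aeval (qExpand k r Jk) : k[X] →ₐ[k] LaurentSeries k).toRingHom) =
      (X - Polynomial.C (qExpand k r (qExpand k r Jk))) *
        ∏ b ∈ Finset.range r, (X - Polynomial.C (rotRoot ζ b)) := by
    rw [hΦ, hρ]
    congr 1
  have hirr := irreducible_modularPoly hζ hr Φ hΦm hΦ' hP
  set y := qExpand k m (qExpand k r Jk) with hy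
  set x := qExpand k m (qExpand k (r ^ 2) Jk) with hx
  have hytr : Transcendental k y := by
    have : y = qExpand k (m * r) Jk := by rw [hy, qExpand_qExpand]
    rw [this]
    exact transcendental_qExpand_J (m * r)
  set E := k⟮y⟯ with hE
  set e := RatFunc.algEquivOfTranscendental y hytr with he
  set P0 := Φ.map (algebraMap k[X] (RatFunc k)) with hP0
  set PE : E[X] := P0.map (e : RatFunc k →+* E) with hPE
  have hPEirr : Irreducible PE :=
    (MulEquiv.irreducible_iff (Polynomial.mapEquiv e.toRingEquiv) (x := P0)).mpr hirr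
  have hPEm : PE.Monic := (hΦm.map _).map _
  have hPEmap : PE.map (algebraMap E (LaurentSeries k)) =
      (X - Polynomial.C x) *
        ∏ b ∈ Finset.range r, (X - Polynomial.C (qExpand k m (rotRoot ζ b))) := by
    have h1 : PE.map (algebraMap E (LaurentSeries k)) =
        Φ.map ((aeval y : k[X] →ₐ[k] LaurentSeries k).toRingHom) := by
      rw [hPE, hP0, Polynomial.map_map, Polynomial.map_map]
      congr 1
      refine RingHom.ext fun g => ?_
      show ((e (algebraMap k[X] (RatFunc k) g) : E) : LaurentSeries k) = aeval y g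
      rw [he, RatFunc.algEquivOfTranscendental_algebraMap, ← IntermediateField.aeval_coe,
        AdjoinSimple.coe_gen]
    have h2 := map_map_aeval (qExpandAlg k m) (qExpand k r Jk) Φ
    simp only [qExpandAlg_apply] at h2
    rw [h1, ← h2, hΦ', Polynomial.map_mul, Polynomial.map_sub, Polynomial.map_X,
      Polynomial.map_C, Polynomial.map_prod, hx, hρ]
    congr 1
    refine Finset.prod_congr rfl fun b _ => ?_
    rw [Polynomial.map_sub, Polynomial.map_X, Polynomial.map_C]
    rfl
  have hroot1 : aeval x PE = 0 := by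
    rw [Polynomial.aeval_def, Polynomial.eval₂_eq_eval_map, hPEmap, Polynomial.eval_mul]
    refine mul_eq_zero_of_left ?_ _
    simp
  have hroot2 : aeval (qExpand k m Jk) PE = 0 := by
    rw [Polynomial.aeval_def, Polynomial.eval₂_eq_eval_map, hPEmap, Polynomial.eval_mul,
      Polynomial.eval_prod]
    refine mul_eq_zero_of_right _ (Finset.prod_eq_zero (Finset.mem_range.mpr (by omega : 0 < r)) ?_)
    rw [rotRoot, pow_zero, rot_one_apply]
    simp [hJk]
  have hmin : PE = minpoly E x := minpoly.eq_of_irreducible_of_monic hPEirr hroot1 hPEm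
  exact ⟨⟨PE, hPEm, hroot1⟩, hmin ▸ hroot2⟩

end Irr

end Fermat.Agent.S28
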