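/-
S28 stream [G], package (B4) in ABSTRACT form (helper24): descent of divisibility by `ℓ` from a
valuation ring `W` of the function field `F` to the integral closure of `ℤ_(ℓ)[j]`.

Setting: `F` a field of characteristic `0`, `j : F` transcendental over `ℚ`,
`R := GaloisRep.ratLocalizedAt ℓ = ℤ_(ℓ) ⊆ ℚ`, `W : ValuationSubring F` such that
* `ℓ⁻¹ ∉ W`, `R ⊆ W`, `j ∈ W`;
* (Gauss) `g(j)` is a unit of `W` for every `g ∈ R[X]` with a coefficient not divisible by `ℓ`;
* every element of `W` is integral over `W ∩ ℚ(j)`.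
Then for `x` integral over `R[j]` with `x / ℓ ∈ W`, also `x / ℓ` is integral over `R[j]`.
-/
import Mathlib
import Fermat.Prelude.Def_GaloisRep_Flat

set_option autoImplicit false

open Polynomial

namespace Fermat.Agent.S28

section RatLoc

variable (l : ℕ)

theorem mem_ratLocalizedAt_iff (q : ℚ) :
    q ∈ GaloisRep.ratLocalizedAt l ↔ ∃ (n : ℤ) (d : ℕ), d.Coprime l ∧ d ≠ 0 ∧ q = n / d := by
  constructor
  · intro h
    exact ⟨q.num, q.den, h, q.den_nz, (Rat.num_div_den q).symm⟩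
  · rintro ⟨n, d, hd, hd0, rfl⟩
    show (((n : ℚ) / (d : ℚ)).den).Coprime l
    have h : ((n : ℚ) / (d : ℚ)).den ∣ d := by
      have := Rat.den_dvd n d
      rw [Rat.divInt_eq_div] at this
      exact_mod_cast this
    exact Nat.Coprime.coprime_dvd_left h hd

/-- Every rational number becomes `ℓ`-integral after multiplication by a power of `ℓ`. -/
theorem exists_pow_mul_mem_ratLocalizedAt [hl : Fact l.Prime] (q : ℚ) :
    ∃ e : ℕ, (l : ℚ) ^ e * q ∈ GaloisRep.ratLocalizedAt l := by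
  obtain ⟨e, d', hd', hden⟩ := Nat.exists_eq_pow_mul_and_not_dvd q.den_nz l hl.out.ne_one
  refine ⟨e, (mem_ratLocalizedAt_iff l _).2 ⟨q.num, d', ?_, ?_, ?_⟩⟩
  · exact (Nat.Coprime.symm ((Nat.Prime.coprime_iff_not_dvd hl.out).2 hd'))
  · rintro rfl
    exact hd' (dvd_zero _)
  · have hd0 : (d' : ℚ) ≠ 0 := by
      rintro h
      have : d' = 0 := by exact_mod_cast h
      exact hd' (this ▸ dvd_zero _)
    have hl0 : (l : ℚ) ≠ 0 := by exact_mod_cast hl.out.ne_zero
    have hq : q = q.num / ((l : ℚ) ^ e * d') := by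
      conv_lhs => rw [← Rat.num_div_den q, hden]
      push_cast
      ring
    have : (l : ℚ) ^ e * q = (q.num : ℚ) / (d' : ℚ) := by
      calc (l : ℚ) ^ e * q = (l : ℚ) ^ e * ((q.num : ℚ) / ((l : ℚ) ^ e * d')) :=
            congrArg (fun z => (l : ℚ) ^ e * z) hq
        _ = (q.num : ℚ) / (d' : ℚ) := by field_simp
    rw [this]

end RatLoc

section Gauss

variable (l : ℕ) [hl : Fact l.Prime]

/-- Clearing `ℓ`-denominators of a rational polynomial. -/
theorem exists_pow_mul_lifts (f : ℚ[X]) :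
    ∃ (a : ℕ) (g : (GaloisRep.ratLocalizedAt l)[X]),
      g.map (algebraMap (GaloisRep.ratLocalizedAt l) ℚ) = C ((l : ℚ) ^ a) * f := by
  choose e he using exists_pow_mul_mem_ratLocalizedAt l
  refine ⟨∑ i ∈ f.support, e (f.coeff i), ?_⟩
  have hmem : C ((l : ℚ) ^ (∑ i ∈ f.support, e (f.coeff i))) * f ∈
      Polynomial.lifts (algebraMap (GaloisRep.ratLocalizedAt l) ℚ) := by
    rw [Polynomial.lifts_iff_coeff_lifts]
    intro n
    rw [coeff_C_mul]
    by_cases hn : n ∈ f.support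
    · obtain ⟨k, hk⟩ := Nat.exists_eq_add_of_le
        (Finset.single_le_sum (f := fun i => e (f.coeff i)) (fun _ _ => Nat.zero_le _) hn)
      have h1 : (l : ℚ) ^ (∑ i ∈ f.support, e (f.coeff i)) * f.coeff n =
          (l : ℚ) ^ k * ((l : ℚ) ^ e (f.coeff n) * f.coeff n) := by
        rw [hk, pow_add]; ring
      rw [h1]
      have h2 : (l : ℚ) ^ k ∈ GaloisRep.ratLocalizedAt l :=
        pow_mem (natCast_mem _ l) k
      exact ⟨⟨_, mul_mem h2 (he (f.coeff n))⟩, rfl⟩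
    · rw [Polynomial.notMem_support_iff.1 hn, mul_zero]
      exact ⟨0, map_zero _⟩
  obtain ⟨g, hg⟩ := hmem
  exact ⟨g, hg⟩

variable {F : Type*} [Field F] [Algebra ℚ F] [Algebra (GaloisRep.ratLocalizedAt l) F]
  [IsScalarTower (GaloisRep.ratLocalizedAt l) ℚ F]

omit hl in
theorem aeval_map_ratLocalizedAt (j : F) (g : (GaloisRep.ratLocalizedAt l)[X]) :
    aeval j (g.map (algebraMap (GaloisRep.ratLocalizedAt l) ℚ)) = aeval j g :=
  aeval_map_algebraMap ℚ j g

/-- **Gauss.** If `f(j) ∈ W` for a rational polynomial `f`, then `f(j) ∈ ℤ_(ℓ)[j]`, provided `ℓ` is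
not a unit of `W` and `g(j)` is a unit of `W` for all `g ∈ ℤ_(ℓ)[X]` outside `ℓ ℤ_(ℓ)[X]`. -/
theorem aeval_mem_adjoin_of_mem_valuationSubring (W : ValuationSubring F) (j : F)
    (hj : Transcendental ℚ j) (hlW : ((l : F))⁻¹ ∉ W)
    (hG : ∀ g : (GaloisRep.ratLocalizedAt l)[X],
      (∃ i, ¬ ((l : ℕ) : GaloisRep.ratLocalizedAt l) ∣ g.coeff i) → (aeval j g)⁻¹ ∈ W)
    (f : ℚ[X]) (hf : aeval j f ∈ W) :
    aeval j f ∈ Algebra.adjoin (GaloisRep.ratLocalizedAt l) {j} := by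
  classical
  by_cases hf0 : f = 0
  · rw [hf0, map_zero]; exact zero_mem _
  have hex := exists_pow_mul_lifts l f
  set a := Nat.find hex with ha
  obtain ⟨g, hg⟩ := Nat.find_spec hex
  rw [← ha] at hg
  have hl0 : (l : ℚ) ≠ 0 := by exact_mod_cast hl.out.ne_zero
  have hlF : (l : F) ≠ 0 := by
    have : (algebraMap ℚ F (l : ℚ)) ≠ 0 := by
      rw [Ne, map_eq_zero_iff _ (algebraMap ℚ F).injective]; exact hl0
    simpa using this
  rcases Nat.eq_zero_or_pos a with ha0 | hapos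
  · rw [ha0, pow_zero, map_one, one_mul] at hg
    rw [← hg, aeval_map_ratLocalizedAt]
    rw [Algebra.adjoin_singleton_eq_range_aeval]
    exact ⟨g, rfl⟩
  · exfalso
    -- by minimality `g ∉ ℓ R[X]`
    have hnd : ∃ i, ¬ ((l : ℕ) : GaloisRep.ratLocalizedAt l) ∣ g.coeff i := by
      by_contra hcon
      push Not at hcon
      obtain ⟨g', hg'⟩ := (Polynomial.C_dvd_iff_dvd_coeff _ g).2 hcon
      have hmin : ∃ g'' : (GaloisRep.ratLocalizedAt l)[X],
          g''.map (algebraMap (GaloisRep.ratLocalizedAt l) ℚ) = C ((l : ℚ) ^ (a - 1)) * f := by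
        refine ⟨g', ?_⟩
        have h1 : (g.map (algebraMap (GaloisRep.ratLocalizedAt l) ℚ)) =
            C (l : ℚ) * g'.map (algebraMap (GaloisRep.ratLocalizedAt l) ℚ) := by
          rw [hg', Polynomial.map_mul, Polynomial.map_C]
          simp
        have h2 : C ((l : ℚ) ^ a) * f = C (l : ℚ) * (C ((l : ℚ) ^ (a - 1)) * f) := by
          rw [← mul_assoc, ← C_mul, ← pow_succ', Nat.sub_add_cancel hapos]
        rw [h1, h2] at hg
        exact mul_left_cancel₀ (by simpa using hl0) hg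
      have := Nat.find_min' hex hmin
      omega
    have hunit := hG g hnd
    have hval : aeval j g = (l : F) ^ a * aeval j f := by
      rw [← aeval_map_ratLocalizedAt, hg, map_mul, aeval_C]
      simp
    have hne : aeval j g ≠ 0 := by
      rw [hval]
      refine mul_ne_zero (pow_ne_zero _ hlF) ?_
      intro h0
      exact hf0 ((transcendental_iff_injective.1 hj) (by rw [h0, map_zero]))
    apply hlW
    have hf' : aeval j f ≠ 0 := fun h0 =>
      hf0 ((transcendental_iff_injective.1 hj) (by rw [h0, map_zero]))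
    obtain ⟨b, hb⟩ : ∃ b, a = b + 1 := ⟨a - 1, (Nat.sub_add_cancel hapos).symm⟩
    have hkey : ((l : F))⁻¹ = (l : F) ^ (a - 1) * aeval j f * (aeval j g)⁻¹ := by
      rw [hval, hb, Nat.add_sub_cancel]
      field_simp
      ring
    rw [hkey]
    exact W.mul_mem _ _ (W.mul_mem _ _ (pow_mem (natCast_mem _ l) _) hf) hunit

end Gauss

section Descent

/-- A root of a monic polynomial whose coefficients lie in a subalgebra is integral over it. -/
theorem isIntegral_of_monic_of_coeff_mem {R' F : Type*} [CommRing R'] [Field F] [Algebra R' F]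
    (S : Subalgebra R' F) {p : F[X]} (hp : p.Monic) (hc : ∀ i, p.coeff i ∈ S) {z : F}
    (hz : p.eval z = 0) : IsIntegral S z := by
  have hlifts : p ∈ Polynomial.lifts (algebraMap S F) :=
    (Polynomial.lifts_iff_coeff_lifts p).mpr fun i => ⟨⟨p.coeff i, hc i⟩, rfl⟩
  obtain ⟨q, hq, -, hqm⟩ := Polynomial.lifts_and_natDegree_eq_and_monic hlifts hp
  refine ⟨q, hqm, ?_⟩
  rw [Polynomial.eval₂_eq_eval_map, hq, hz]

/-- An integral element over a subalgebra is a root of a monic polynomial over `F` with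
coefficients in the subalgebra. -/
theorem exists_monic_coeff_mem_of_isIntegral {R' F : Type*} [CommRing R'] [Field F] [Algebra R' F]
    (S : Subalgebra R' F) {z : F} (hz : IsIntegral S z) :
    ∃ p : F[X], p.Monic ∧ (∀ i, p.coeff i ∈ S) ∧ p.eval z = 0 := by
  obtain ⟨q, hqm, hq⟩ := hz
  refine ⟨q.map (algebraMap S F), hqm.map _, fun i => ?_, ?_⟩
  · rw [Polynomial.coeff_map]; exact (q.coeff i).2
  · rw [← Polynomial.eval₂_eq_eval_map]; exact hq

variable (l : ℕ) [hl : Fact l.Prime]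

variable {F : Type*} [Field F] [Algebra ℚ F] [Algebra (GaloisRep.ratLocalizedAt l) F]
  [IsScalarTower (GaloisRep.ratLocalizedAt l) ℚ F]

omit hl in
theorem adjoin_ratLocalizedAt_le (j : F) :
    ∀ z ∈ Algebra.adjoin (GaloisRep.ratLocalizedAt l) {j}, z ∈ Algebra.adjoin ℚ {j} := by
  intro z hz
  rw [Algebra.adjoin_singleton_eq_range_aeval] at hz ⊢
  obtain ⟨g, rfl⟩ := hz
  exact ⟨g.map (algebraMap (GaloisRep.ratLocalizedAt l) ℚ), aeval_map_ratLocalizedAt l j g⟩

open IntermediateField in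
open scoped IntermediateField.algebraAdjoinAdjoin in
/-- **Abstract descent (B4).** -/
theorem isIntegral_div_of_valuationSubring (W : ValuationSubring F) (j : F)
    (hj : Transcendental ℚ j) (hlW : ((l : F))⁻¹ ∉ W)
    (hG : ∀ g : (GaloisRep.ratLocalizedAt l)[X],
      (∃ i, ¬ ((l : ℕ) : GaloisRep.ratLocalizedAt l) ∣ g.coeff i) → (aeval j g)⁻¹ ∈ W)
    (hint : ∀ z ∈ W, ∃ p : F[X], p.Monic ∧ (∀ i, p.coeff i ∈ W) ∧ (∀ i, p.coeff i ∈ ℚ⟮j⟯) ∧
      p.eval z = 0)
    {x : F} (hx : IsIntegral (Algebra.adjoin (GaloisRep.ratLocalizedAt l) {j}) x)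
    (hxW : x / (l : F) ∈ W) :
    IsIntegral (Algebra.adjoin (GaloisRep.ratLocalizedAt l) {j}) (x / (l : F)) := by
  -- step 1: `y := x / ℓ` is integral over `ℚ[j]`
  have hx₁ : IsIntegral (Algebra.adjoin ℚ {j}) x := by
    obtain ⟨p, hpm, hpc, hpz⟩ := exists_monic_coeff_mem_of_isIntegral _ hx
    exact isIntegral_of_monic_of_coeff_mem _ hpm
      (fun i => adjoin_ratLocalizedAt_le l j _ (hpc i)) hpz
  have hy₁ : IsIntegral (Algebra.adjoin ℚ {j}) (x / (l : F)) := by
    have hc : IsIntegral (Algebra.adjoin ℚ {j}) (algebraMap ℚ F ((l : ℚ)⁻¹)) := by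
      rw [IsScalarTower.algebraMap_apply ℚ (Algebra.adjoin ℚ {j}) F]
      exact isIntegral_algebraMap
    have : x / (l : F) = x * algebraMap ℚ F ((l : ℚ)⁻¹) := by
      rw [map_inv₀, map_natCast, div_eq_mul_inv]
    rw [this]
    exact hx₁.mul hc
  -- step 2: the minimal polynomial over `ℚ(j)` has coefficients in `ℚ[j]`
  have : IsIntegrallyClosed (Algebra.adjoin ℚ {j}) :=
    IsIntegrallyClosed.of_equiv (Polynomial.algEquivOfTranscendental ℚ j hj).toRingEquiv
  have hK : minpoly ℚ⟮j⟯ (x / (l : F)) =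
      (minpoly (Algebra.adjoin ℚ {j}) (x / (l : F))).map (algebraMap (Algebra.adjoin ℚ {j}) ℚ⟮j⟯) :=
    minpoly.isIntegrallyClosed_eq_field_fractions' ℚ⟮j⟯ hy₁
  -- step 3: ... and in the valuation ring `O_v = W ∩ ℚ(j)`
  let Ov : ValuationSubring ℚ⟮j⟯ := W.comap (algebraMap ℚ⟮j⟯ F)
  let _ : Algebra Ov F := ((algebraMap ℚ⟮j⟯ F).comp (algebraMap Ov ℚ⟮j⟯)).toAlgebra
  have : IsScalarTower Ov ℚ⟮j⟯ F := IsScalarTower.of_algebraMap_eq (fun _ => rfl)
  have hyv : IsIntegral Ov (x / (l : F)) := by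
    obtain ⟨p, hpm, hpW, hpK, hpz⟩ := hint _ hxW
    have hlifts : p ∈ Polynomial.lifts (algebraMap Ov F) :=
      (Polynomial.lifts_iff_coeff_lifts p).mpr fun i =>
        ⟨⟨⟨p.coeff i, hpK i⟩, (by
          show algebraMap ℚ⟮j⟯ F ⟨p.coeff i, hpK i⟩ ∈ W
          exact hpW i)⟩, rfl⟩
    obtain ⟨q, hq, -, hqm⟩ := Polynomial.lifts_and_natDegree_eq_and_monic hlifts hpm
    refine ⟨q, hqm, ?_⟩
    rw [Polynomial.eval₂_eq_eval_map, hq, hpz]
  have hV : minpoly ℚ⟮j⟯ (x / (l : F)) =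
      (minpoly Ov (x / (l : F))).map (algebraMap Ov ℚ⟮j⟯) :=
    minpoly.isIntegrallyClosed_eq_field_fractions' ℚ⟮j⟯ hyv
  -- step 4: the coefficients lie in `ℤ_(ℓ)[j]`
  have hcoeff : ∀ i, algebraMap ℚ⟮j⟯ F ((minpoly ℚ⟮j⟯ (x / (l : F))).coeff i) ∈
      Algebra.adjoin (GaloisRep.ratLocalizedAt l) {j} := by
    intro i
    have h1 : algebraMap ℚ⟮j⟯ F ((minpoly ℚ⟮j⟯ (x / (l : F))).coeff i) ∈ Algebra.adjoin ℚ {j} := by
      rw [hK, Polynomial.coeff_map]
      exact ((minpoly (Algebra.adjoin ℚ {j}) (x / (l : F))).coeff i).2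
    have h2 : algebraMap ℚ⟮j⟯ F ((minpoly ℚ⟮j⟯ (x / (l : F))).coeff i) ∈ W := by
      rw [hV, Polynomial.coeff_map]
      exact ((minpoly Ov (x / (l : F))).coeff i).2
    rw [Algebra.adjoin_singleton_eq_range_aeval] at h1
    obtain ⟨f, hf⟩ := h1
    have hf' : aeval j f = algebraMap ℚ⟮j⟯ F ((minpoly ℚ⟮j⟯ (x / (l : F))).coeff i) := hf
    rw [← hf'] at h2 ⊢
    exact aeval_mem_adjoin_of_mem_valuationSubring l W j hj hlW hG f h2
  -- step 5: conclude
  refine isIntegral_of_monic_of_coeff_mem _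
    (p := (minpoly ℚ⟮j⟯ (x / (l : F))).map (algebraMap ℚ⟮j⟯ F))
    ((minpoly.monic (hy₁.tower_top (A := ℚ⟮j⟯))).map _) (fun i => ?_) ?_
  · rw [Polynomial.coeff_map]; exact hcoeff i
  · rw [← Polynomial.eval₂_eq_eval_map, ← Polynomial.aeval_def]
    exact minpoly.aeval _ _

open IntermediateField in
omit hl in
theorem adjoin_simple_inv_eq (j : F) : ℚ⟮j⁻¹⟯ = ℚ⟮j⟯ := by
  apply le_antisymm
  · rw [IntermediateField.adjoin_simple_le_iff]
    exact inv_mem (IntermediateField.mem_adjoin_simple_self ℚ j)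
  · rw [IntermediateField.adjoin_simple_le_iff]
    have := inv_mem (IntermediateField.mem_adjoin_simple_self ℚ j⁻¹)
    rwa [inv_inv] at this

open IntermediateField in
/-- The same descent for the chart at infinity (`j⁻¹` instead of `j`), with the integrality
hypothesis still phrased over `W ∩ ℚ(j)`. -/
theorem isIntegral_div_of_valuationSubring_inv (W : ValuationSubring F) (j : F)
    (hj : Transcendental ℚ j) (hlW : ((l : F))⁻¹ ∉ W)
    (hG : ∀ g : (GaloisRep.ratLocalizedAt l)[X],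
      (∃ i, ¬ ((l : ℕ) : GaloisRep.ratLocalizedAt l) ∣ g.coeff i) → (aeval j⁻¹ g)⁻¹ ∈ W)
    (hint : ∀ z ∈ W, ∃ p : F[X], p.Monic ∧ (∀ i, p.coeff i ∈ W) ∧ (∀ i, p.coeff i ∈ ℚ⟮j⟯) ∧
      p.eval z = 0)
    {x : F} (hx : IsIntegral (Algebra.adjoin (GaloisRep.ratLocalizedAt l) {j⁻¹}) x)
    (hxW : x / (l : F) ∈ W) :
    IsIntegral (Algebra.adjoin (GaloisRep.ratLocalizedAt l) {j⁻¹}) (x / (l : F)) := by
  have hj' : Transcendental ℚ j⁻¹ := by
    intro halg
    apply hj
    have := halg.inv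
    rwa [inv_inv] at this
  refine isIntegral_div_of_valuationSubring l W j⁻¹ hj' hlW hG (fun z hz => ?_) hx hxW
  obtain ⟨p, h1, h2, h3, h4⟩ := hint z hz
  exact ⟨p, h1, h2, fun i => by rw [adjoin_simple_inv_eq]; exact h3 i, h4⟩

end Descent

end Fermat.Agent.S28
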