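import Mathlib

/-!
# S28 package (B3), abstract form: the lattice lemma for a discrete valuation ring with a
"reduction" map

Setting: `F` a field, `O ⊆ F` a subring, `res : O →+* Λ` a ring hom into a field with kernel
`ℓ·O`, and every nonzero element of `F` is `ℓ^k · unit of O` (`ValCore`).  `K` is a field with
`[Algebra K F]` (think `K = ℚ(j) ⊆ F`), `κ ⊆ Λ` a subfield containing `res (O ∩ K)`.

* `ValCore.linearIndependent_coe` : elements `y i ∈ O` whose reductions are `κ`-linearly independent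
  are `K`-linearly independent in `F`.
* `ValCore.exists_coeffs` : if moreover `[F : K] ≤ #ι`, every `z ∈ O` is `∑ c i * y i` with
  `c i ∈ O ∩ K`.
* `ValCore.isIntegral_of_mem` : hence every `z ∈ O` is integral over any subring `Ov ⊇ O ∩ K`.
* `ValCore.exists_frac_of_mem`, `ValCore.res_mem_of_frac` (Gauss / denominators): if `A ≤ O` is a
  subring in which every nonzero element is `ℓ^k · a0` with `res a0 ≠ 0`, then every element of
  `O ∩ Frac A` is `f / g` with `f g ∈ A`, `res g ≠ 0`.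
* `ValCore.isIntegral_of_frac` : the combination.
-/

namespace Fermat.Agent.S28

open Module

variable {F Λ : Type*} [Field F] [Field Λ]

/-- Abstract valuation-ring package: `O ⊆ F` a subring with a "reduction" `res : O → Λ` whose
kernel is `ℓ·O`, such that every nonzero element of `F` is `ℓ^k · unit`. -/
structure ValCore (O : Subring F) (res : O →+* Λ) (ℓ : F) : Prop where
  ne_zero : ℓ ≠ 0
  mem : ℓ ∈ O
  ker : ∀ z : O, res z = 0 ↔ ∃ w : O, (z : F) = ℓ * w
  val : ∀ z : F, z ≠ 0 → ∃ (k : ℤ) (u : F), u ∈ O ∧ u⁻¹ ∈ O ∧ z = ℓ ^ k * u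

namespace ValCore

variable {O : Subring F} {res : O →+* Λ} {ℓ : F} (h : ValCore O res ℓ)
include h

omit h in
lemma res_ne_zero_of_inv_mem {u : F} (hu : u ∈ O) (hu' : u⁻¹ ∈ O) (hu0 : u ≠ 0) :
    res ⟨u, hu⟩ ≠ 0 := by
  intro h0
  have h1 : res ⟨u, hu⟩ * res ⟨u⁻¹, hu'⟩ = 1 := by
    rw [← map_mul, ← map_one res]
    congr 1
    exact Subtype.ext (mul_inv_cancel₀ hu0)
  rw [h0, zero_mul] at h1
  exact zero_ne_one h1

lemma pow_mul_mem (k : ℕ) {z : F} (hz : z ∈ O) : ℓ ^ k * z ∈ O :=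
  O.mul_mem (O.pow_mem h.mem k) hz

lemma res_eq_zero_of_eq_mul {z : O} {w : F} (hw : w ∈ O) (hz : (z : F) = ℓ * w) : res z = 0 :=
  (h.ker z).2 ⟨⟨w, hw⟩, hz⟩

/-- Simultaneous normalisation of a finite family, not all zero: after multiplying by a suitable
power of `ℓ` all members lie in `O` and one of them has nonzero reduction. -/
theorem exists_zpow_mul {ι : Type*} [Fintype ι] (a : ι → F) (ha : ∃ i, a i ≠ 0) :
    ∃ (m : ℤ) (b : ι → O), (∀ i, (b i : F) = ℓ ^ m * a i) ∧ ∃ i, res (b i) ≠ 0 := by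
  classical
  have hex : ∀ i, ∃ (k : ℤ) (u : F), a i ≠ 0 → (u ∈ O ∧ u⁻¹ ∈ O ∧ a i = ℓ ^ k * u) := by
    intro i
    by_cases hi : a i = 0
    · exact ⟨0, 0, fun h' => (h' hi).elim⟩
    · obtain ⟨k, u, h1, h2, h3⟩ := h.val (a i) hi
      exact ⟨k, u, fun _ => ⟨h1, h2, h3⟩⟩
  choose kk u hu using hex
  let s : Finset ι := Finset.univ.filter (fun i => a i ≠ 0)
  have hs : s.Nonempty := by
    obtain ⟨i, hi⟩ := ha
    exact ⟨i, by simp [s, hi]⟩
  obtain ⟨i0, hi0s, hmin⟩ := Finset.exists_min_image s kk hs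
  have hi0 : a i0 ≠ 0 := by simpa [s] using hi0s
  have hmem : ∀ i, ℓ ^ (-kk i0) * a i ∈ O := by
    intro i
    by_cases hi : a i = 0
    · rw [hi, mul_zero]; exact O.zero_mem
    · obtain ⟨h1, _, h3⟩ := hu i hi
      have hle : kk i0 ≤ kk i := hmin i (by simp [s, hi])
      obtain ⟨n, hn⟩ := Int.eq_ofNat_of_zero_le (sub_nonneg.2 hle)
      have : ℓ ^ (-kk i0) * a i = ℓ ^ n * u i := by
        conv_lhs => rw [h3]
        rw [← mul_assoc, ← zpow_add₀ h.ne_zero, ← zpow_natCast, ← hn]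
        congr 2
        ring
      rw [this]
      exact h.pow_mul_mem n h1
  refine ⟨-kk i0, fun i => ⟨_, hmem i⟩, fun i => rfl, i0, ?_⟩
  obtain ⟨h1, h2, h3⟩ := hu i0 hi0
  have hu0 : u i0 ≠ 0 := by
    rintro h0
    rw [h0, mul_zero] at h3
    exact hi0 h3
  have : (⟨_, hmem i0⟩ : O) = ⟨u i0, h1⟩ := by
    apply Subtype.ext
    change ℓ ^ (-kk i0) * a i0 = u i0
    conv_lhs => rw [h3]
    rw [← mul_assoc, ← zpow_add₀ h.ne_zero, neg_add_cancel, zpow_zero, one_mul]
  change res (⟨_, hmem i0⟩ : O) ≠ 0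
  rw [this]
  exact res_ne_zero_of_inv_mem h1 h2 hu0

variable (K : Type*) [Field K] [Algebra K F]

/-- **(LC1a)** Elements of `O` with `κ`-linearly independent reductions are `K`-linearly
independent. -/
theorem linearIndependent_coe (hℓK : ℓ ∈ Set.range (algebraMap K F)) (κ : Subfield Λ)
    (hκ : ∀ z : O, (z : F) ∈ Set.range (algebraMap K F) → res z ∈ κ)
    {ι : Type*} [Fintype ι] (y : ι → O) (hy : LinearIndependent κ (fun i => res (y i))) :
    LinearIndependent K (fun i => (y i : F)) := by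
  rw [Fintype.linearIndependent_iff]
  intro g hg
  by_contra hne
  push Not at hne
  obtain ⟨i1, hi1⟩ := hne
  obtain ⟨m, b, hb, i0, hi0⟩ := h.exists_zpow_mul (fun i => algebraMap K F (g i))
    ⟨i1, by simpa using hi1⟩
  have hbK : ∀ i, (b i : F) ∈ Set.range (algebraMap K F) := by
    intro i
    rw [hb]
    obtain ⟨l0, hl0⟩ := hℓK
    exact ⟨l0 ^ m * g i, by simp [hl0, map_zpow₀]⟩
  have hsum : ∑ i, b i * y i = 0 := by
    apply Subtype.ext
    push_cast
    simp only [hb]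
    have : ∑ i, ℓ ^ m * algebraMap K F (g i) * (y i : F) = ℓ ^ m * ∑ i, g i • (y i : F) := by
      rw [Finset.mul_sum]
      exact Finset.sum_congr rfl fun i _ => by rw [Algebra.smul_def, mul_assoc]
    rw [this, hg, mul_zero]
  have h1 := congrArg res hsum
  rw [map_sum, map_zero] at h1
  simp only [map_mul] at h1
  have h2 := Fintype.linearIndependent_iff.1 hy (fun i => ⟨res (b i), hκ _ (hbK i)⟩)
    (by simpa [Subfield.smul_def] using h1) i0
  exact hi0 (by simpa using congrArg Subtype.val h2)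

variable {K}

/-- **(LC1b)** If moreover `[F : K] ≤ #ι`, then `O = ⊕ (O ∩ K) y i`. -/
theorem exists_coeffs [FiniteDimensional K F] (hℓK : ℓ ∈ Set.range (algebraMap K F))
    (κ : Subfield Λ) (hκ : ∀ z : O, (z : F) ∈ Set.range (algebraMap K F) → res z ∈ κ)
    {ι : Type*} [Fintype ι] (y : ι → O) (hy : LinearIndependent κ (fun i => res (y i)))
    (hn : finrank K F ≤ Fintype.card ι) {z : F} (hz : z ∈ O) :
    ∃ c : ι → K, (∀ i, algebraMap K F (c i) ∈ O) ∧ z = ∑ i, algebraMap K F (c i) * (y i : F) := by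
  have li := h.linearIndependent_coe K hℓK κ hκ y hy
  have hcard : Fintype.card ι = finrank K F := le_antisymm li.fintype_card_le_finrank hn
  have htop := li.span_eq_top_of_card_eq_finrank' hcard
  have hzs : z ∈ Submodule.span K (Set.range fun i => (y i : F)) := htop ▸ Submodule.mem_top
  obtain ⟨c, hc⟩ := (Submodule.mem_span_range_iff_exists_fun K).1 hzs
  refine ⟨c, ?_, by rw [← hc]; exact Finset.sum_congr rfl fun i _ => Algebra.smul_def _ _⟩
  by_contra hne
  push Not at hne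
  obtain ⟨i1, hi1⟩ := hne
  have hi1' : algebraMap K F (c i1) ≠ 0 := fun h0 => hi1 (h0 ▸ O.zero_mem)
  obtain ⟨m, b, hb, i0, hi0⟩ := h.exists_zpow_mul (fun i => algebraMap K F (c i)) ⟨i1, hi1'⟩
  -- `m > 0`, otherwise all coefficients would already be in `O`
  have hm : 0 < m := by
    by_contra hm
    push Not at hm
    obtain ⟨n, hn'⟩ := Int.eq_ofNat_of_zero_le (neg_nonneg.2 hm)
    apply hi1
    have : algebraMap K F (c i1) = ℓ ^ n * (b i1 : F) := by
      rw [hb, ← mul_assoc, ← zpow_natCast, ← hn', ← zpow_add₀ h.ne_zero, neg_add_cancel, zpow_zero,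
        one_mul]
    rw [this]
    exact h.pow_mul_mem n (b i1).2
  obtain ⟨n, hn'⟩ := Int.eq_ofNat_of_zero_le (sub_nonneg.2 (Int.add_one_le_iff.2 hm))
  have hbK : ∀ i, (b i : F) ∈ Set.range (algebraMap K F) := by
    intro i
    rw [hb]
    obtain ⟨l0, hl0⟩ := hℓK
    exact ⟨l0 ^ m * c i, by simp [hl0, map_zpow₀]⟩
  have hsum : ((∑ i, b i * y i : O) : F) = ℓ * (ℓ ^ n * z) := by
    push_cast
    simp only [hb]
    have : ∑ i, ℓ ^ m * algebraMap K F (c i) * (y i : F) = ℓ ^ m * ∑ i, c i • (y i : F) := by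
      rw [Finset.mul_sum]
      exact Finset.sum_congr rfl fun i _ => by rw [Algebra.smul_def, mul_assoc]
    rw [this, hc, ← mul_assoc, ← zpow_natCast, ← hn', ← zpow_one_add₀ h.ne_zero]
    congr 2
    ring
  have h1 := h.res_eq_zero_of_eq_mul (h.pow_mul_mem n hz) hsum
  rw [map_sum] at h1
  simp only [map_mul] at h1
  have h2 := Fintype.linearIndependent_iff.1 hy (fun i => ⟨res (b i), hκ _ (hbK i)⟩)
    (by simpa [Subfield.smul_def] using h1) i0
  exact hi0 (by simpa using congrArg Subtype.val h2)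

/-- **(LC1d)** Every element of `O` is integral over any subring `Ov` of `F` containing
`O ∩ K`. -/
theorem isIntegral_of_mem [FiniteDimensional K F] (hℓK : ℓ ∈ Set.range (algebraMap K F))
    (κ : Subfield Λ) (hκ : ∀ z : O, (z : F) ∈ Set.range (algebraMap K F) → res z ∈ κ)
    {ι : Type*} [Fintype ι] (y : ι → O) (hy : LinearIndependent κ (fun i => res (y i)))
    (hn : finrank K F ≤ Fintype.card ι) (Ov : Subring F)
    (hOv : ∀ z ∈ O, z ∈ Set.range (algebraMap K F) → z ∈ Ov) {z : F} (hz : z ∈ O) :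
    IsIntegral Ov z := by
  let N : Submodule Ov F := Submodule.span Ov (Set.range fun i => (y i : F))
  have hON : ∀ w ∈ O, w ∈ N := by
    intro w hw
    obtain ⟨c, hcO, hc⟩ := h.exists_coeffs hℓK κ hκ y hy hn hw
    rw [hc]
    refine Submodule.sum_mem _ fun i _ => ?_
    have : algebraMap K F (c i) * (y i : F) =
        (⟨algebraMap K F (c i), hOv _ (hcO i) ⟨c i, rfl⟩⟩ : Ov) • (y i : F) := rfl
    rw [this]
    exact Submodule.smul_mem _ _ (Submodule.subset_span ⟨i, rfl⟩)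
  refine isIntegral_of_smul_mem_submodule N ?_ (Submodule.fg_span (Set.finite_range _)) z ?_
  · intro hN
    have h1 : (1 : F) ∈ N := hON 1 O.one_mem
    rw [hN, Submodule.mem_bot] at h1
    exact one_ne_zero h1
  · intro n hn'
    induction hn' using Submodule.span_induction with
    | mem x hx =>
      obtain ⟨i, rfl⟩ := hx
      exact hON _ (O.mul_mem hz (y i).2)
    | zero => rw [smul_zero]; exact N.zero_mem
    | add x y _ _ hx hy => rw [smul_add]; exact N.add_mem hx hy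
    | smul r x _ hx => rw [smul_comm]; exact N.smul_mem r hx

/-- **(LC2)** Gauss / denominators: if every nonzero element of the subring `A ≤ O` is
`ℓ^k · a0` with `a0 ∈ A` of nonzero reduction, then every element of `O` which is a quotient of
elements of `A` is such a quotient with denominator of nonzero reduction. -/
theorem exists_frac_of_mem (A : Subring F) (hℓA : ℓ ∈ A)
    (hA : ∀ a ∈ A, a ≠ 0 → ∃ (k : ℕ) (a0 : O), (a0 : F) ∈ A ∧ a = ℓ ^ k * a0 ∧ res a0 ≠ 0)
    (z : O) (hz : ∃ f g, f ∈ A ∧ g ∈ A ∧ g ≠ 0 ∧ (z : F) * g = f) :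
    ∃ f g : O, (f : F) ∈ A ∧ (g : F) ∈ A ∧ res g ≠ 0 ∧ (z : F) * g = f := by
  obtain ⟨f, g, hf, hg, hg0, hfg⟩ := hz
  by_cases hz0 : (z : F) = 0
  · exact ⟨0, 1, A.zero_mem, A.one_mem, by simp, by simp [hz0]⟩
  have hf0 : f ≠ 0 := by
    rw [← hfg]
    exact mul_ne_zero hz0 hg0
  obtain ⟨a, f0, hf0A, hfa, hrf⟩ := hA f hf hf0
  obtain ⟨b, g0, hg0A, hgb, hrg⟩ := hA g hg hg0
  have hg00 : (g0 : F) ≠ 0 := by
    intro h0
    apply hrg
    have : g0 = 0 := Subtype.ext h0
    rw [this, map_zero]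
  rcases le_or_gt b a with hab | hab
  · -- `z * g0 = ℓ^(a-b) * f0`
    obtain ⟨d, rfl⟩ := Nat.exists_eq_add_of_le hab
    refine ⟨⟨ℓ ^ d * f0, h.pow_mul_mem d f0.2⟩, g0, A.mul_mem (A.pow_mem hℓA d) hf0A, hg0A, hrg, ?_⟩
    have hb0 : ℓ ^ b ≠ 0 := pow_ne_zero _ h.ne_zero
    apply mul_left_cancel₀ hb0
    change ℓ ^ b * ((z : F) * g0) = ℓ ^ b * (ℓ ^ d * f0)
    calc ℓ ^ b * ((z : F) * g0) = (z : F) * (ℓ ^ b * g0) := by ring
      _ = ℓ ^ (b + d) * f0 := by rw [← hgb, hfg, hfa]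
      _ = ℓ ^ b * (ℓ ^ d * f0) := by rw [pow_add, mul_assoc]
  · -- impossible: `f0 = ℓ * (ℓ^(b-a-1) * z * g0)`
    exfalso
    obtain ⟨d, rfl⟩ := Nat.exists_eq_add_of_lt hab
    apply hrf
    refine h.res_eq_zero_of_eq_mul (w := ℓ ^ d * ((z : F) * g0))
      (h.pow_mul_mem d (O.mul_mem z.2 g0.2)) ?_
    have ha0 : ℓ ^ a ≠ 0 := pow_ne_zero _ h.ne_zero
    apply mul_left_cancel₀ ha0
    calc ℓ ^ a * (f0 : F) = f := hfa.symm
      _ = (z : F) * (ℓ ^ (a + d + 1) * g0) := by rw [← hfg, hgb]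
      _ = ℓ ^ a * (ℓ * (ℓ ^ d * ((z : F) * g0))) := by ring

omit h in
/-- The reduction of a quotient `f / g` (`f g ∈ A`, `res g ≠ 0`) lies in any subfield containing
`res A`. -/
theorem res_mem_of_frac (A : Subring F) (κ : Subfield Λ)
    (hκA : ∀ a : O, (a : F) ∈ A → res a ∈ κ) (z : O)
    (hz : ∃ f g : O, (f : F) ∈ A ∧ (g : F) ∈ A ∧ res g ≠ 0 ∧ (z : F) * g = f) : res z ∈ κ := by
  obtain ⟨f, g, hf, hg, hrg, hfg⟩ := hz
  have h1 : res z * res g = res f := by
    rw [← map_mul]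
    congr 1
    exact Subtype.ext hfg
  have h2 : res z = res f / res g := by
    rw [eq_div_iff hrg, h1]
  rw [h2]
  exact κ.div_mem (hκA f hf) (hκA g hg)

/-- **(B3), abstract form.** `A ≤ O` a subring containing `ℓ` whose nonzero elements are
`ℓ^k · a0` with `res a0 ≠ 0` (Gauss); `K` a field between `A` and `F` consisting of quotients of
elements of `A`; `y i ∈ O` with reductions linearly independent over a subfield `κ ⊇ res A`,
`[F : K] ≤ #ι`.  Then every element of `O` is integral over any subring `Ov` of `F` containing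
the quotients `f / g`, `f g ∈ A`, `res g ≠ 0`. -/
theorem isIntegral_of_frac [FiniteDimensional K F] (A : Subring F) (hℓA : ℓ ∈ A)
    (hA : ∀ a ∈ A, a ≠ 0 → ∃ (k : ℕ) (a0 : O), (a0 : F) ∈ A ∧ a = ℓ ^ k * a0 ∧ res a0 ≠ 0)
    (hAK : ∀ a ∈ A, a ∈ Set.range (algebraMap K F))
    (hK : ∀ z ∈ Set.range (algebraMap K F), ∃ f g, f ∈ A ∧ g ∈ A ∧ g ≠ 0 ∧ z * g = f)
    (κ : Subfield Λ) (hκA : ∀ a : O, (a : F) ∈ A → res a ∈ κ)
    {ι : Type*} [Fintype ι] (y : ι → O) (hy : LinearIndependent κ (fun i => res (y i)))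
    (hn : finrank K F ≤ Fintype.card ι) (Ov : Subring F)
    (hOv : ∀ f g : O, (f : F) ∈ A → (g : F) ∈ A → res g ≠ 0 → (f : F) / g ∈ Ov)
    {z : F} (hz : z ∈ O) : IsIntegral Ov z := by
  have hκ : ∀ z : O, (z : F) ∈ Set.range (algebraMap K F) → res z ∈ κ := fun z hzK =>
    res_mem_of_frac A κ hκA z (h.exists_frac_of_mem A hℓA hA z (hK _ hzK))
  refine h.isIntegral_of_mem (hAK ℓ hℓA) κ hκ y hy hn Ov ?_ hz
  intro w hw hwK
  obtain ⟨f, g, hf, hg, hrg, hfg⟩ := h.exists_frac_of_mem A hℓA hA ⟨w, hw⟩ (hK _ hwK)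
  have hg0 : (g : F) ≠ 0 := by
    intro h0
    apply hrg
    have : g = 0 := Subtype.ext h0
    rw [this, map_zero]
  have : w = (f : F) / g := by
    rw [eq_div_iff hg0]
    exact hfg
  rw [this]
  exact hOv f g hf hg hrg

end ValCore

end Fermat.Agent.S28
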