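import Fermat.Agent.S28.LatticeCore

/-!
# S28 package (B3): discharging the side hypotheses of `ValCore.isIntegral_of_frac` for `A = R[j]`

* `exists_C_pow_mul_of_ne_zero` : Gauss content in `R[X]` for a "DVR with uniformizer `ℓ0`".
* `RedCompat` : compatibility of the reduction `res : O → Λ` with a reduction `red : R → k0` of
  the coefficient ring.
* `RedCompat.hA`, `RedCompat.hκA` : the hypotheses `hA`, `hκA` of `ValCore.isIntegral_of_frac`
  for `A = R[j]`, `j ∈ O` with `res j` transcendental over `k0`.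
* `exists_frac_of_mem_adjoin_simple`, `adjoin_le_adjoin_simple` : `ℚ(j) = Frac R[j]`.
* `ValCore.isIntegral_of_adjoin` : the assembled statement.
-/

namespace Fermat.Agent.S28

open Polynomial Module

section GaussContent

variable {R k0 : Type*} [CommRing R] [IsDomain R] [Field k0]

/-- Gauss content: if every nonzero element of `R` is `ℓ0^k · u` with `red u ≠ 0` and
`ker red = (ℓ0)`, then every nonzero polynomial is `ℓ0^k · p0` with `p0` of nonzero reduction. -/
theorem exists_C_pow_mul_of_ne_zero (ℓ0 : R) (red : R →+* k0) (hred : ∀ r, red r = 0 ↔ ℓ0 ∣ r)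
    (hval : ∀ r : R, r ≠ 0 → ∃ (k : ℕ) (u : R), red u ≠ 0 ∧ r = ℓ0 ^ k * u)
    (p : R[X]) (hp : p ≠ 0) : ∃ (k : ℕ) (p0 : R[X]), p = C (ℓ0 ^ k) * p0 ∧ p0.map red ≠ 0 := by
  have key : ∀ (m : ℕ) (p : R[X]), p ≠ 0 → ∀ (i : ℕ) (u : R), red u ≠ 0 → p.coeff i = ℓ0 ^ m * u →
      ∃ (k : ℕ) (p0 : R[X]), p = C (ℓ0 ^ k) * p0 ∧ p0.map red ≠ 0 := by
    intro m
    induction m with
    | zero =>
      intro p _ i u hu hi
      refine ⟨0, p, by simp, fun h0 => hu ?_⟩
      have := congrArg (fun q => q.coeff i) h0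
      simpa [coeff_map, hi] using this
    | succ m ih =>
      intro p hp i u hu hi
      by_cases h0 : p.map red = 0
      · have hdvd : C ℓ0 ∣ p := by
          rw [C_dvd_iff_dvd_coeff]
          intro n
          rw [← hred, ← coeff_map, h0, coeff_zero]
        obtain ⟨p1, rfl⟩ := hdvd
        have hℓ0 : ℓ0 ≠ 0 := by
          rintro rfl
          simp at hp
        have hp1 : p1 ≠ 0 := by
          rintro rfl
          simp at hp
        have hi1 : p1.coeff i = ℓ0 ^ m * u := by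
          rw [coeff_C_mul, pow_succ', mul_assoc] at hi
          exact mul_left_cancel₀ hℓ0 hi
        obtain ⟨k, p0, hk, hp0⟩ := ih p1 hp1 i u hu hi1
        refine ⟨k + 1, p0, ?_, hp0⟩
        rw [hk, pow_succ', C_mul, mul_assoc]
      · exact ⟨0, p, by simp, h0⟩
  have hlc : p.leadingCoeff ≠ 0 := leadingCoeff_ne_zero.2 hp
  obtain ⟨m, u, hu, hm⟩ := hval _ hlc
  exact key m p hp p.natDegree u hu hm

end GaussContent

section Plug

variable {F Λ : Type*} [Field F] [Field Λ] {O : Subring F} {res : O →+* Λ}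
variable {R k0 : Type*} [CommRing R] [Field k0] [Algebra R F] [Algebra k0 Λ]

/-- Compatibility of the reduction `res : O → Λ` with a reduction `red : R → k0` of the
coefficient ring `R` (think `R = ℤ_(ℓ)`, `k0 = 𝔽_ℓ`). -/
structure RedCompat (O : Subring F) (res : O →+* Λ) (ℓ0 : R) (red : R →+* k0) : Prop where
  red_eq_zero : ∀ r, red r = 0 ↔ ℓ0 ∣ r
  val : ∀ r : R, r ≠ 0 → ∃ (k : ℕ) (u : R), red u ≠ 0 ∧ r = ℓ0 ^ k * u
  mem : ∀ r, algebraMap R F r ∈ O
  res_algebraMap : ∀ r, res ⟨algebraMap R F r, mem r⟩ = algebraMap k0 Λ (red r)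

namespace RedCompat

variable {ℓ0 : R} {red : R →+* k0} (hc : RedCompat O res ℓ0 red)
include hc

/-- The structure map `R → O`. -/
def toO : R →+* O := (algebraMap R F).codRestrict O hc.mem

/-- Evaluation of polynomials at `j ∈ O`, as a ring hom into `O`. -/
noncomputable def polyToO (j : O) : R[X] →+* O := eval₂RingHom hc.toO j

lemma coe_polyToO (j : O) (p : R[X]) : ((hc.polyToO j p : O) : F) = aeval (j : F) p := by
  change O.subtype (eval₂ hc.toO j p) = _
  rw [hom_eval₂, aeval_def]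
  rfl

lemma res_polyToO (j : O) (p : R[X]) : res (hc.polyToO j p) = aeval (res j) (p.map red) := by
  change res (eval₂ hc.toO j p) = _
  rw [hom_eval₂, aeval_def, eval₂_map]
  congr 1
  ext r
  exact hc.res_algebraMap r

lemma mem_adjoin_iff (j : O) (a : F) :
    a ∈ (Algebra.adjoin R {(j : F)}).toSubring ↔ ∃ p : R[X], a = (hc.polyToO j p : F) := by
  rw [Subalgebra.mem_toSubring, Algebra.adjoin_singleton_eq_range_aeval]
  constructor
  · rintro ⟨p, rfl⟩
    exact ⟨p, (hc.coe_polyToO j p).symm⟩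
  · rintro ⟨p, rfl⟩
    exact ⟨p, (hc.coe_polyToO j p).symm⟩

/-- **(hA)** Gauss content for `A = R[j]`. -/
theorem hA [IsDomain R] (j : O) (hj : Transcendental k0 (res j)) :
    ∀ a ∈ (Algebra.adjoin R {(j : F)}).toSubring, a ≠ 0 →
      ∃ (k : ℕ) (a0 : O), (a0 : F) ∈ (Algebra.adjoin R {(j : F)}).toSubring ∧
        a = algebraMap R F ℓ0 ^ k * a0 ∧ res a0 ≠ 0 := by
  intro a ha ha0
  obtain ⟨p, rfl⟩ := (hc.mem_adjoin_iff j a).1 ha
  have hp : p ≠ 0 := by
    rintro rfl
    simp at ha0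
  obtain ⟨k, p0, hk, hp0⟩ := exists_C_pow_mul_of_ne_zero ℓ0 red hc.red_eq_zero hc.val p hp
  refine ⟨k, hc.polyToO j p0, (hc.mem_adjoin_iff j _).2 ⟨p0, rfl⟩, ?_, ?_⟩
  · rw [hc.coe_polyToO, hc.coe_polyToO, hk, map_mul, aeval_C, map_pow]
  · rw [hc.res_polyToO]
    exact fun h0 => hp0 ((transcendental_iff.1 hj) _ h0)

/-- **(hκA)** the reductions of elements of `R[j]` lie in any subfield containing `k0` and
`res j`. -/
theorem hκA (j : O) (κ : Subfield Λ) (hk0 : ∀ c : k0, algebraMap k0 Λ c ∈ κ) (hjκ : res j ∈ κ) :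
    ∀ a : O, (a : F) ∈ (Algebra.adjoin R {(j : F)}).toSubring → res a ∈ κ := by
  intro a ha
  obtain ⟨p, hp⟩ := (hc.mem_adjoin_iff j a).1 ha
  have : a = hc.polyToO j p := Subtype.ext hp
  rw [this, hc.res_polyToO, aeval_eq_sum_range]
  refine κ.sum_mem fun i _ => ?_
  rw [Algebra.smul_def]
  exact κ.mul_mem (hk0 _) (κ.pow_mem hjκ i)

end RedCompat

end Plug

section Fraction

variable {F : Type*} [Field F] [Algebra ℚ F] {R : Type*} [CommRing R] [Algebra R F]

omit [Algebra ℚ F] in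
/-- `ℤ`-polynomial expressions in `j` lie in `R[j]`. -/
lemma aeval_int_mem_adjoin (j : F) (p : ℤ[X]) :
    aeval j p ∈ (Algebra.adjoin R {j}).toSubring := by
  rw [Subalgebra.mem_toSubring]
  have : aeval j p = aeval j (p.map (Int.castRingHom R)) := by
    rw [aeval_def, aeval_def, eval₂_map]
    congr 1
    exact RingHom.ext_int _ _
  rw [this, Algebra.adjoin_singleton_eq_range_aeval]
  exact ⟨_, rfl⟩

/-- **(hK)** every element of `ℚ(j)` is a quotient of elements of `R[j]` (even of `ℤ[j]`). -/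
theorem exists_frac_of_mem_adjoin_simple (j : F) :
    ∀ z ∈ Set.range (algebraMap (IntermediateField.adjoin ℚ {j}) F),
      ∃ f g, f ∈ (Algebra.adjoin R {j}).toSubring ∧ g ∈ (Algebra.adjoin R {j}).toSubring ∧
        g ≠ 0 ∧ z * g = f := by
  rintro _ ⟨⟨z, hz⟩, rfl⟩
  change ∃ f g, _ ∧ _ ∧ g ≠ 0 ∧ z * g = f
  obtain ⟨P, Q, rfl⟩ := (IntermediateField.mem_adjoin_simple_iff ℚ z).1 hz
  by_cases hQ : aeval j Q = 0
  · refine ⟨0, 1, Subring.zero_mem _, Subring.one_mem _, one_ne_zero, ?_⟩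
    rw [hQ, div_zero, zero_mul]
  obtain ⟨bP, hbPm, hbP⟩ := IsLocalization.integerNormalization_spec (nonZeroDivisors ℤ) P
  obtain ⟨bQ, hbQm, hbQ⟩ := IsLocalization.integerNormalization_spec (nonZeroDivisors ℤ) Q
  set P' := IsLocalization.integerNormalization (nonZeroDivisors ℤ) P
  set Q' := IsLocalization.integerNormalization (nonZeroDivisors ℤ) Q
  have hP' : aeval j P' = (bP : F) * aeval j P := by
    have h2 : aeval j P' = aeval j (P'.map (algebraMap ℤ ℚ)) := by
      rw [aeval_map_algebraMap]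
    rw [h2, hbP, map_zsmul, zsmul_eq_mul]
  have hQ' : aeval j Q' = (bQ : F) * aeval j Q := by
    have h2 : aeval j Q' = aeval j (Q'.map (algebraMap ℤ ℚ)) := by
      rw [aeval_map_algebraMap]
    rw [h2, hbQ, map_zsmul, zsmul_eq_mul]
  have : CharZero F := algebraRat.charZero F
  have hbP0 : (bP : F) ≠ 0 := Int.cast_ne_zero.2 (nonZeroDivisors.ne_zero hbPm)
  have hbQ0 : (bQ : F) ≠ 0 := Int.cast_ne_zero.2 (nonZeroDivisors.ne_zero hbQm)
  refine ⟨aeval j (C bQ * P'), aeval j (C bP * Q'), aeval_int_mem_adjoin j _,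
    aeval_int_mem_adjoin j _, ?_, ?_⟩
  · rw [map_mul, aeval_C, hQ']
    simp only [eq_intCast]
    exact mul_ne_zero hbP0 (mul_ne_zero hbQ0 hQ)
  · rw [map_mul, map_mul, aeval_C, aeval_C, hP', hQ']
    simp only [eq_intCast]
    field_simp

/-- **(hAK)** `R[j] ⊆ ℚ(j)` when `R` maps into `ℚ ⊆ F`. -/
theorem adjoin_le_adjoin_simple (j : F)
    (hRQ : ∀ r : R, algebraMap R F r ∈ Set.range (algebraMap ℚ F)) :
    ∀ a ∈ (Algebra.adjoin R {j}).toSubring,
      a ∈ Set.range (algebraMap (IntermediateField.adjoin ℚ {j}) F) := by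
  intro a ha
  rw [Subalgebra.mem_toSubring] at ha
  suffices h : a ∈ IntermediateField.adjoin ℚ {j} from ⟨⟨a, h⟩, rfl⟩
  induction ha using Algebra.adjoin_induction with
  | mem x hx =>
    rw [Set.mem_singleton_iff] at hx
    rw [hx]
    exact IntermediateField.mem_adjoin_simple_self ℚ j
  | algebraMap r =>
    obtain ⟨q, hq⟩ := hRQ r
    rw [← hq]
    exact (IntermediateField.adjoin ℚ {j}).algebraMap_mem q
  | add x y _ _ hx hy => exact add_mem hx hy
  | mul x y _ _ hx hy => exact mul_mem hx hy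

end Fraction

section Assembled

variable {F Λ : Type*} [Field F] [Field Λ] {O : Subring F} {res : O →+* Λ}
variable {R k0 : Type*} [CommRing R] [IsDomain R] [Field k0] [Algebra R F] [Algebra k0 Λ]
variable [Algebra ℚ F]

/-- **(B3), assembled abstract form.**  `O ⊆ F` a "valuation ring" with reduction `res` and
uniformizer `ℓ0 ∈ R` (`ValCore`), compatible with a reduction `red : R → k0` (`RedCompat`);
`j ∈ O` with `res j` transcendental over `k0`; `y i ∈ O` whose reductions are linearly independent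
over a subfield `κ ⊇ k0(res j)`, with `[F : ℚ(j)] ≤ #ι`.  Then every element of `O` is integral
over any subring `Ov` of `F` containing the quotients `f / g` with `f g ∈ R[j]`, `res g ≠ 0`. -/
theorem ValCore.isIntegral_of_adjoin {ℓ0 : R} {red : R →+* k0}
    (h : ValCore O res (algebraMap R F ℓ0)) (hc : RedCompat O res ℓ0 red)
    (hRQ : ∀ r : R, algebraMap R F r ∈ Set.range (algebraMap ℚ F))
    (j : O) (hj : Transcendental k0 (res j))
    [FiniteDimensional (IntermediateField.adjoin ℚ {(j : F)}) F]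
    (κ : Subfield Λ) (hk0 : ∀ c : k0, algebraMap k0 Λ c ∈ κ) (hjκ : res j ∈ κ)
    {ι : Type*} [Fintype ι] (y : ι → O) (hy : LinearIndependent κ (fun i => res (y i)))
    (hn : finrank (IntermediateField.adjoin ℚ {(j : F)}) F ≤ Fintype.card ι) (Ov : Subring F)
    (hOv : ∀ f g : O, (f : F) ∈ (Algebra.adjoin R {(j : F)}).toSubring →
      (g : F) ∈ (Algebra.adjoin R {(j : F)}).toSubring → res g ≠ 0 → (f : F) / g ∈ Ov)
    {z : F} (hz : z ∈ O) : IsIntegral Ov z :=
  h.isIntegral_of_frac (K := IntermediateField.adjoin ℚ {(j : F)})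
    (Algebra.adjoin R {(j : F)}).toSubring
    ((Algebra.adjoin R {(j : F)}).algebraMap_mem ℓ0) (hc.hA j hj)
    (adjoin_le_adjoin_simple (j : F) hRQ) (exists_frac_of_mem_adjoin_simple (j : F))
    κ (hc.hκA j κ hk0 hjκ) y hy hn Ov hOv hz

end Assembled

end Fermat.Agent.S28
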