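/-
S28 package (β-b): root chasing in the tower of modular equations.

`twistAlg c a : k((t)) →ₐ[k] k((t))` is the substitution `t ↦ c t^a`.  Substituting into the
modular equation of prime level `s` gives the factorisation of `Φ_s(X, j(c^s t^(a s)))`; hence any
`k`-algebra homomorphism `Ψ` into a field which sends `j(t^n)` to `j(t^(r M))` sends every
`j(t^(n d))`, `d ∣ M`, to some `j(c t^a)` with `r (M / d) ∣ a`.
-/
import Fermat.Agent.S28.PrimeStep
import Fermat.Agent.S28.LaurentAPI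

set_option autoImplicit false

namespace Fermat.Agent.S28

open ModularCurve Polynomial
open scoped Polynomial.Bivariate

noncomputable section

variable {k : Type*} [Field k]

/-! ### the substitutions `t ↦ c t^a` -/

/-- `V_n` as a `k`-algebra endomorphism, with an explicit proof of `n ≠ 0`. -/
def Vq (k : Type*) [Field k] (n : ℕ) (hn : n ≠ 0) : LaurentSeries k →ₐ[k] LaurentSeries k :=
  haveI : NeZero n := ⟨hn⟩
  qExpandAlg k n

theorem Vq_apply (n : ℕ) [NeZero n] (hn : n ≠ 0) (u : LaurentSeries k) :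
    Vq k n hn u = qExpand k n u := rfl

theorem Vq_congr {m n : ℕ} (h : m = n) (hm : m ≠ 0) (hn : n ≠ 0) (u : LaurentSeries k) :
    Vq k m hm u = Vq k n hn u := by
  subst h; rfl

theorem Vq_Vq (m n : ℕ) (hm : m ≠ 0) (hn : n ≠ 0) (u : LaurentSeries k) :
    Vq k m hm (Vq k n hn u) = Vq k (m * n) (mul_ne_zero hm hn) u := by
  have : NeZero m := ⟨hm⟩
  have : NeZero n := ⟨hn⟩
  exact qExpand_qExpand n m u

theorem Vq_injective (n : ℕ) (hn : n ≠ 0) : Function.Injective (Vq k n hn) := by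
  have : NeZero n := ⟨hn⟩
  exact qExpand_injective n

/-- `rotR c` as a `k`-algebra endomorphism. -/
def rotRAlg (c : kˣ) : LaurentSeries k →ₐ[k] LaurentSeries k where
  __ := rotR c
  commutes' x := by
    show rotR c (algebraMap k (LaurentSeries k) x) = algebraMap k (LaurentSeries k) x
    rw [algebraMap_eq_single, rotR_single]
    simp

@[simp] theorem rotRAlg_apply (c : kˣ) (u : LaurentSeries k) : rotRAlg c u = rotR c u := rfl

theorem rotR_Vq (c : kˣ) (n : ℕ) (hn : n ≠ 0) (u : LaurentSeries k) :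
    rotR c (Vq k n hn u) = Vq k n hn (rotR (c ^ n) u) := by
  have : NeZero n := ⟨hn⟩
  exact rotR_qExpand c n u

/-- the series `j(c t^a)`. -/
def jTw (c : kˣ) (a : ℕ) (ha : a ≠ 0) : LaurentSeries k := Vq k a ha (rotR c (jqModC k))

theorem jTw_one (a : ℕ) [NeZero a] (ha : a ≠ 0) : jTw (1 : kˣ) a ha = qExpand k a (jqModC k) := by
  rw [jTw, rotR_one_apply, Vq_apply]

/-- the substitution `t ↦ c t^a`. -/
def twistAlg (c : kˣ) (a : ℕ) (ha : a ≠ 0) : LaurentSeries k →ₐ[k] LaurentSeries k :=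
  (Vq k a ha).comp (rotRAlg c)

theorem twistAlg_apply (c : kˣ) (a : ℕ) (ha : a ≠ 0) (u : LaurentSeries k) :
    twistAlg c a ha u = Vq k a ha (rotR c u) := rfl

theorem twistAlg_jTw (c' : kˣ) (a' : ℕ) (ha' : a' ≠ 0) (c : kˣ) (a : ℕ) (ha : a ≠ 0) :
    twistAlg c' a' ha' (jTw c a ha) = jTw (c' ^ a * c) (a' * a) (mul_ne_zero ha' ha) := by
  rw [twistAlg_apply, jTw, jTw, rotR_Vq, Vq_Vq, ← rotR_mul_apply]

/-! ### evaluation of bivariate polynomials -/

section Biv

variable {A B : Type*} [CommRing A] [CommRing B] [Algebra k A] [Algebra k B]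

/-- `Φ(x, y)` for `Φ ∈ k[X][Y]` (`x` into the inner variable). -/
def bivEval (Φ : k[X][Y]) (x y : A) : A := (Φ.map (Polynomial.aeval x).toRingHom).eval y

theorem bivAlgHom_comp_aeval (g : A →ₐ[k] B) (x : A) :
    g.toRingHom.comp (Polynomial.aeval (R := k) x).toRingHom =
      (Polynomial.aeval (R := k) (g x)).toRingHom :=
  RingHom.ext fun p => (Polynomial.aeval_algHom_apply g x p).symm

theorem map_bivEval (g : A →ₐ[k] B) (Φ : k[X][Y]) (x y : A) :
    g (bivEval Φ x y) = bivEval Φ (g x) (g y) := by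
  unfold bivEval
  rw [Polynomial.eval_map, Polynomial.eval_map, ← bivAlgHom_comp_aeval g x]
  exact Polynomial.hom_eval₂ Φ _ g.toRingHom y

theorem bivMap_map_aeval (g : A →ₐ[k] B) (Φ : k[X][Y]) (x : A) :
    (Φ.map (Polynomial.aeval x).toRingHom).map g.toRingHom =
      Φ.map (Polynomial.aeval (g x)).toRingHom := by
  rw [Polynomial.map_map, bivAlgHom_comp_aeval]

end Biv

/-! ### substitution into the modular equation -/

section ModEq

variable {s : ℕ} [NeZero s] {ζ : kˣ} {Φ : k[X][Y]}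

/-- the modular equation after the substitution `t ↦ c' t^a'`. -/
theorem modEq_twist
    (hΦ : Φ.map (Polynomial.aeval (qExpand k s (jqModC k))).toRingHom =
      (X - C (qExpand k (s ^ 2) (jqModC k))) *
        ∏ b ∈ Finset.range s, (X - C (rotR (ζ ^ b) (jqModC k))))
    (c' : kˣ) (a' : ℕ) (ha' : a' ≠ 0) :
    Φ.map (Polynomial.aeval (jTw (c' ^ s) (a' * s) (mul_ne_zero ha' (NeZero.ne s)))).toRingHom =
      (X - C (jTw (c' ^ (s ^ 2)) (a' * s ^ 2) (mul_ne_zero ha' (pow_ne_zero 2 (NeZero.ne s))))) *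
        ∏ b ∈ Finset.range s, (X - C (jTw (c' * ζ ^ b) a' ha')) := by
  have h := congrArg (Polynomial.map (twistAlg c' a' ha').toRingHom) hΦ
  rw [bivMap_map_aeval] at h
  have e1 : twistAlg c' a' ha' (qExpand k s (jqModC k)) =
      jTw (c' ^ s) (a' * s) (mul_ne_zero ha' (NeZero.ne s)) := by
    rw [← jTw_one s (NeZero.ne s), twistAlg_jTw, mul_one]
  have e2 : twistAlg c' a' ha' (qExpand k (s ^ 2) (jqModC k)) =
      jTw (c' ^ (s ^ 2)) (a' * s ^ 2) (mul_ne_zero ha' (pow_ne_zero 2 (NeZero.ne s))) := by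
    rw [← jTw_one (s ^ 2) (pow_ne_zero 2 (NeZero.ne s)), twistAlg_jTw, mul_one]
  have e3 : ∀ b : ℕ, twistAlg c' a' ha' (rotR (ζ ^ b) (jqModC k)) = jTw (c' * ζ ^ b) a' ha' := by
    intro b
    rw [twistAlg_apply, jTw, ← rotR_mul_apply]
  rw [e1] at h
  rw [h, Polynomial.map_mul, Polynomial.map_sub, Polynomial.map_X, Polynomial.map_C,
    Polynomial.map_prod]
  congr 1
  · rw [← e2]; rfl
  · refine Finset.prod_congr rfl fun b _ => ?_
    rw [Polynomial.map_sub, Polynomial.map_X, Polynomial.map_C, ← e3 b]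
    rfl

/-- `Φ_s(j(t), j(t^s)) = 0`. -/
theorem modEq_relation
    (hΦ : Φ.map (Polynomial.aeval (qExpand k s (jqModC k))).toRingHom =
      (X - C (qExpand k (s ^ 2) (jqModC k))) *
        ∏ b ∈ Finset.range s, (X - C (rotR (ζ ^ b) (jqModC k)))) :
    bivEval Φ (jqModC k) (qExpand k s (jqModC k)) = 0 := by
  have h1 : bivEval Φ (qExpand k s (jqModC k)) (qExpand k (s ^ 2) (jqModC k)) = 0 := by
    unfold bivEval
    rw [hΦ, Polynomial.eval_mul, Polynomial.eval_sub, Polynomial.eval_X, Polynomial.eval_C,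
      sub_self, zero_mul]
  have h2 : qExpand k (s ^ 2) (jqModC k) = qExpandAlg k s (qExpand k s (jqModC k)) := by
    rw [qExpandAlg_apply, qExpand_qExpand s s]
    exact qExpand_congr (sq s) _
  have h3 : qExpand k s (jqModC k) = qExpandAlg k s (jqModC k) := rfl
  rw [h2] at h1
  nth_rewrite 1 [h3] at h1
  rw [← map_bivEval] at h1
  exact qExpand_injective s (by rw [← qExpandAlg_apply, h1, map_zero])

/-- `Φ_s(j(t^m), j(t^(m s))) = 0`. -/
theorem modEq_relation_Vq
    (hΦ : Φ.map (Polynomial.aeval (qExpand k s (jqModC k))).toRingHom =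
      (X - C (qExpand k (s ^ 2) (jqModC k))) *
        ∏ b ∈ Finset.range s, (X - C (rotR (ζ ^ b) (jqModC k))))
    (m : ℕ) (hm : m ≠ 0) :
    bivEval Φ (Vq k m hm (jqModC k))
      (Vq k (m * s) (mul_ne_zero hm (NeZero.ne s)) (jqModC k)) = 0 := by
  have h := congrArg (Vq k m hm) (modEq_relation hΦ)
  rw [map_bivEval, map_zero, ← Vq_apply s (NeZero.ne s), Vq_Vq] at h
  exact h

end ModEq

/-! ### root chasing -/

section Chase

variable {Ω : Type*} [Field Ω] [Algebra k Ω] (ι : LaurentSeries k →ₐ[k] Ω)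

/-- classification of the roots of `Φ_s(j(c'^s t^(a' s)), Y)` in any field containing `k((t))`. -/
theorem root_of_modEq_twist {s : ℕ} [NeZero s] {ζ : kˣ} {Φ : k[X][Y]}
    (hΦ : Φ.map (Polynomial.aeval (qExpand k s (jqModC k))).toRingHom =
      (X - C (qExpand k (s ^ 2) (jqModC k))) *
        ∏ b ∈ Finset.range s, (X - C (rotR (ζ ^ b) (jqModC k))))
    (c' : kˣ) (a' : ℕ) (ha' : a' ≠ 0) (w : Ω)
    (hw : bivEval Φ (ι (jTw (c' ^ s) (a' * s) (mul_ne_zero ha' (NeZero.ne s)))) w = 0) :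
    w = ι (jTw (c' ^ (s ^ 2)) (a' * s ^ 2) (mul_ne_zero ha' (pow_ne_zero 2 (NeZero.ne s)))) ∨
      ∃ b ∈ Finset.range s, w = ι (jTw (c' * ζ ^ b) a' ha') := by
  unfold bivEval at hw
  rw [← bivMap_map_aeval ι Φ, modEq_twist hΦ c' a' ha', Polynomial.map_mul, Polynomial.map_sub,
    Polynomial.map_X, Polynomial.map_C, Polynomial.map_prod, Polynomial.eval_mul,
    Polynomial.eval_sub, Polynomial.eval_X, Polynomial.eval_C, Polynomial.eval_prod] at hw
  rcases mul_eq_zero.mp hw with h | h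
  · left
    exact sub_eq_zero.mp h
  · right
    obtain ⟨b, hb, hb0⟩ := Finset.prod_eq_zero_iff.mp h
    refine ⟨b, hb, ?_⟩
    rw [Polynomial.map_sub, Polynomial.map_X, Polynomial.map_C, Polynomial.eval_sub,
      Polynomial.eval_X, Polynomial.eval_C] at hb0
    exact sub_eq_zero.mp hb0

/-- **Root chasing.**  A `k`-algebra homomorphism `Ψ` into a field which sends `j(t^n)` to
`j(t^(r M))` sends `j(t^(n d))`, `d ∣ M`, to some `j(c t^a)` with `r (M / d) ∣ a`. -/
theorem rootChase_chain [IsAlgClosed k] {E : Type*} [CommRing E] [Algebra k E]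
    (inc : E →ₐ[k] LaurentSeries k) (hinc : Function.Injective inc) (Ψ : E →ₐ[k] Ω)
    (n r M : ℕ) (hn : n ≠ 0) (hr : r ≠ 0) (hM : M ≠ 0)
    (hmod : ∀ s : ℕ, ∀ hs : s.Prime, s ∣ M → ∃ ζ : kˣ, @ModEqOver k _ s ⟨hs.ne_zero⟩ ζ)
    (hex : ∀ d (hd : d ≠ 0), d ∣ M →
      ∃ x : E, inc x = Vq k (n * d) (mul_ne_zero hn hd) (jqModC k))
    (hbase : ∀ x : E, inc x = Vq k n hn (jqModC k) →
      Ψ x = ι (Vq k (r * M) (mul_ne_zero hr hM) (jqModC k))) :
    ∀ d (hd : d ≠ 0), d ∣ M → ∀ x : E, inc x = Vq k (n * d) (mul_ne_zero hn hd) (jqModC k) →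
      ∃ (c : kˣ) (a : ℕ) (ha : a ≠ 0), r * (M / d) ∣ a ∧ Ψ x = ι (jTw c a ha) := by
  intro d
  induction d using Nat.strong_induction_on with
  | _ d ih =>
  intro hd hdM x hx
  by_cases h1 : d = 1
  · subst h1
    have hx1 : inc x = Vq k n hn (jqModC k) := by
      rw [hx]
      exact Vq_congr (mul_one n) _ _ _
    refine ⟨1, r * M, mul_ne_zero hr hM, by rw [Nat.div_one], ?_⟩
    rw [hbase x hx1, jTw, rotR_one_apply]
  · obtain ⟨s, hs, hsd⟩ := Nat.exists_prime_and_dvd h1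
    obtain ⟨d', rfl⟩ := hsd
    have : NeZero s := ⟨hs.ne_zero⟩
    have hd'0 : d' ≠ 0 := fun h => hd (by rw [h, mul_zero])
    have hd'M : d' ∣ M := dvd_trans (Dvd.intro_left s rfl) hdM
    have hlt : d' < s * d' := by
      have := hs.two_le
      have h0 : 0 < d' := Nat.pos_of_ne_zero hd'0
      nlinarith
    obtain ⟨ζ, Φ, -, hΦ⟩ := hmod s hs (dvd_trans (Dvd.intro d' rfl) hdM)
    obtain ⟨x', hx'⟩ := hex d' hd'0 hd'M
    obtain ⟨c, a, ha, hdiv, hΨx'⟩ := ih d' hlt hd'0 hd'M x' hx'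
    -- the relation, in `E` and then in `Ω`
    have hrel : bivEval Φ x' x = 0 := by
      apply hinc
      rw [map_bivEval, map_zero, hx', hx,
        Vq_congr (show n * (s * d') = n * d' * s by ring) _
          (mul_ne_zero (mul_ne_zero hn hd'0) hs.ne_zero)]
      exact modEq_relation_Vq hΦ (n * d') (mul_ne_zero hn hd'0)
    have hrelΩ : bivEval Φ (Ψ x') (Ψ x) = 0 := by
      rw [← map_bivEval, hrel, map_zero]
    -- arithmetic
    obtain ⟨q, hq⟩ := hdM
    have hq0 : q ≠ 0 := fun h => hM (by rw [hq, h, mul_zero])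
    have hMd' : M / d' = s * q := by
      rw [hq, show s * d' * q = d' * (s * q) by ring]
      exact Nat.mul_div_cancel_left _ (Nat.pos_of_ne_zero hd'0)
    have hMd : M / (s * d') = q := by
      rw [hq]
      exact Nat.mul_div_cancel_left _ (Nat.pos_of_ne_zero hd)
    rw [hMd'] at hdiv
    have hsa : s ∣ a := dvd_trans (Dvd.intro (r * q) (by ring) : s ∣ r * (s * q)) hdiv
    obtain ⟨a', rfl⟩ := hsa
    have ha' : a' ≠ 0 := fun h => ha (by rw [h, mul_zero])
    have hdiv' : r * q ∣ a' := by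
      have : s * (r * q) ∣ s * a' := by
        rw [show s * (r * q) = r * (s * q) by ring]
        exact hdiv
      exact Nat.dvd_of_mul_dvd_mul_left hs.pos this
    -- an `s`-th root of `c`
    obtain ⟨z, hz⟩ := IsAlgClosed.exists_pow_nat_eq (c : k) hs.pos
    have hz0 : z ≠ 0 := by
      rintro rfl
      rw [zero_pow hs.ne_zero] at hz
      exact c.ne_zero hz.symm
    set c' : kˣ := Units.mk0 z hz0 with hc'def
    have hc' : c' ^ s = c := Units.ext (by rw [Units.val_pow_eq_pow_val]; exact hz)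
    have e : jTw c (s * a') ha = jTw (c' ^ s) (a' * s) (mul_ne_zero ha' hs.ne_zero) := by
      rw [hc']
      unfold jTw
      exact Vq_congr (mul_comm s a') _ _ _
    rw [hΨx', e] at hrelΩ
    rw [hMd]
    rcases root_of_modEq_twist ι hΦ c' a' ha' (Ψ x) hrelΩ with h | ⟨b, -, h⟩
    · exact ⟨c' ^ (s ^ 2), a' * s ^ 2, mul_ne_zero ha' (pow_ne_zero 2 hs.ne_zero),
        Dvd.dvd.mul_right hdiv' _, h⟩
    · exact ⟨c' * ζ ^ b, a', ha', hdiv', h⟩

/-- consequence: the image lies in `ι (range V_r)`. -/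
theorem rootChase_mem_range [IsAlgClosed k] {E : Type*} [CommRing E] [Algebra k E]
    (inc : E →ₐ[k] LaurentSeries k) (hinc : Function.Injective inc) (Ψ : E →ₐ[k] Ω)
    (n r M : ℕ) (hn : n ≠ 0) (hr : r ≠ 0) (hM : M ≠ 0)
    (hmod : ∀ s : ℕ, ∀ hs : s.Prime, s ∣ M → ∃ ζ : kˣ, @ModEqOver k _ s ⟨hs.ne_zero⟩ ζ)
    (hex : ∀ d (hd : d ≠ 0), d ∣ M →
      ∃ x : E, inc x = Vq k (n * d) (mul_ne_zero hn hd) (jqModC k))
    (hbase : ∀ x : E, inc x = Vq k n hn (jqModC k) →
      Ψ x = ι (Vq k (r * M) (mul_ne_zero hr hM) (jqModC k)))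
    (d : ℕ) (hd : d ≠ 0) (hdM : d ∣ M) (x : E)
    (hx : inc x = Vq k (n * d) (mul_ne_zero hn hd) (jqModC k)) :
    ∃ u : LaurentSeries k, Ψ x = ι (Vq k r hr u) := by
  obtain ⟨c, a, ha, hdiv, h⟩ := rootChase_chain ι inc hinc Ψ n r M hn hr hM hmod hex hbase d hd hdM x hx
  obtain ⟨a', rfl⟩ := dvd_trans (Dvd.intro _ rfl) hdiv
  have ha' : a' ≠ 0 := fun h0 => ha (by rw [h0, mul_zero])
  refine ⟨Vq k a' ha' (rotR c (jqModC k)), ?_⟩
  rw [h, jTw, Vq_Vq]

end Chase

end

end Fermat.Agent.S28
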